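/-
Wave 9 (S29), glue leaf (helper19): base change of the constant field of the function field of
`X₀(N)` and its compatibility with the S24 analytic realisations.

* `Bc.bc ι F₀ : ↥(laurentBaseChange K F₀) →+* ↥(laurentBaseChange L F₀)` — coefficientwise `ι`
  (`coe_bc`: the underlying series is `coeffMap ι`), injective, `bc_algebraMap`;
* `Bc.bcN ι N : ↥(FF K N) →+* ↥(FF L N)` with `bcN_gen`, `bcN_evalL`, `bcN_jElt`;
* `Bc.PhiL_bcN : PhiL ι' N (bcN ι N x) = PhiL (ι'.comp ι) N x` — the analytic function of a
  function over `K` is the analytic function of its base change (so a statement proved through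
  `PhiL` generically in the constant field transfers between `Qb` and `ℂ`);
* `Bc.PhiMero_eq_PhiL : Phi.PhiMero ι N = DataTau.PhiL ι N` — the two S24 realisations agree.
-/
import Fermat.Agent.S24.Mod.DataTau
import Fermat.Agent.S24.Mod.Phi

set_option autoImplicit false
set_option synthInstance.maxHeartbeats 400000

noncomputable section

open ModularCurve

namespace Fermat.Agent.S29.Bc

open Fermat.Agent.S24

section Generic

variable {K L : Type*} [Field K] [Field L] [Algebra ℚ K] [Algebra ℚ L] (ι : K →+* L)

theorem coeffMap_coeffEmb_gen (x : LaurentSeries ℚ) :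
    coeffMap ι (coeffEmb K x) = coeffEmb L x := by
  rw [coeffEmb, coeffMap_coeffMap]
  exact coeffMap_congr (Subsingleton.elim _ _) x

omit [Algebra ℚ K] [Algebra ℚ L] in
theorem coeffMap_algebraMap_gen (c : K) :
    coeffMap ι (algebraMap K (LaurentSeries K) c) = algebraMap L (LaurentSeries L) (ι c) := by
  rw [algebraMap_laurentSeries_eq_single, algebraMap_laurentSeries_eq_single, coeffMap_single]

omit [Algebra ℚ K] [Algebra ℚ L] in
theorem coeffMap_injective_gen : Function.Injective (coeffMap ι) := by
  intro x y h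
  ext k
  apply ι.injective
  have h1 := congrArg (fun z : LaurentSeries L => z.coeff k) h
  simpa using h1

variable (F₀ : IntermediateField ℚ (LaurentSeries ℚ))

theorem coeffMap_mem {x : LaurentSeries K} (hx : x ∈ laurentBaseChange K F₀) :
    coeffMap ι x ∈ laurentBaseChange L F₀ := by
  rw [mem_laurentBaseChange_iff] at hx
  induction hx using Subfield.closure_induction with
  | mem y hy =>
      rcases hy with ⟨a, rfl⟩ | ⟨z, hz, rfl⟩
      · rw [coeffMap_algebraMap_gen]
        exact (laurentBaseChange L F₀).algebraMap_mem _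
      · rw [coeffMap_coeffEmb_gen]
        exact coeffEmb_mem_laurentBaseChange L hz
  | one => simp
  | add x y _ _ hx hy => simpa using add_mem hx hy
  | neg x _ hx => simpa using neg_mem hx
  | inv x _ hx => simpa using inv_mem hx
  | mul x y _ _ hx hy => simpa using mul_mem hx hy

/-- Base change of the constant field along `ι : K →+* L`, coefficientwise. -/
def bc : ↥(laurentBaseChange K F₀) →+* ↥(laurentBaseChange L F₀) where
  toFun x := ⟨coeffMap ι (x : LaurentSeries K), coeffMap_mem ι F₀ x.2⟩
  map_one' := Subtype.ext (by simp)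
  map_mul' x y := Subtype.ext (by simp)
  map_zero' := Subtype.ext (by simp)
  map_add' x y := Subtype.ext (by simp)

@[simp]
theorem coe_bc (x : ↥(laurentBaseChange K F₀)) :
    ((bc ι F₀ x : ↥(laurentBaseChange L F₀)) : LaurentSeries L) =
      coeffMap ι (x : LaurentSeries K) :=
  rfl

theorem bc_injective : Function.Injective (bc ι F₀) := (bc ι F₀).injective

theorem bc_algebraMap (c : K) :
    bc ι F₀ (algebraMap K ↥(laurentBaseChange K F₀) c) =
      algebraMap L ↥(laurentBaseChange L F₀) (ι c) :=
  Subtype.ext (coeffMap_algebraMap_gen ι c)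

/-- An element of the big field whose series is the coefficientwise image of `x` is `bc x`. -/
theorem eq_bc_of_coe {x : ↥(laurentBaseChange K F₀)} {y : ↥(laurentBaseChange L F₀)}
    (h : (y : LaurentSeries L) = coeffMap ι (x : LaurentSeries K)) : y = bc ι F₀ x :=
  Subtype.ext h

end Generic

section Modular

variable {K L : Type*} [Field K] [Field L] [Algebra ℚ K] [Algebra ℚ L] (ι : K →+* L)
  (N : ℕ) [NeZero N]

/-- Base change of the function field of `X₀(N)` along `ι : K →+* L`. -/
def bcN : ↥(FF K N) →+* ↥(FF L N) := bc ι (modularFunctionFieldFull N)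

omit [NeZero N] in
@[simp]
theorem coe_bcN (x : ↥(FF K N)) :
    ((bcN ι N x : ↥(FF L N)) : LaurentSeries L) = coeffMap ι (x : LaurentSeries K) :=
  rfl

omit [NeZero N] in
theorem bcN_injective : Function.Injective (bcN ι N) := (bcN ι N).injective

omit [NeZero N] in
theorem bcN_algebraMap (c : K) :
    bcN ι N (algebraMap K ↥(FF K N) c) = algebraMap L ↥(FF L N) (ι c) :=
  bc_algebraMap ι _ c

theorem bcN_gen (d : Dv N) : bcN ι N (gen K N d) = gen L N d :=
  Subtype.ext (coeffMap_coeffEmb_gen ι (jqd d))

theorem bcN_jElt : bcN ι N (jElt K N) = jElt L N := bcN_gen ι N _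

theorem bcN_evalL (P : MvPolynomial (Dv N) K) :
    bcN ι N (evalL K N P) = evalL L N (MvPolynomial.map ι P) := by
  induction P using MvPolynomial.induction_on with
  | C c =>
    rw [MvPolynomial.map_C, Ext.evalL_C, Ext.evalL_C, bcN_algebraMap]
  | add p q hp hq => rw [map_add, map_add, map_add, map_add, hp, hq]
  | mul_X p d hp =>
    rw [map_mul, map_mul, map_mul, map_mul, MvPolynomial.map_X, hp, Ext.evalL_X, Ext.evalL_X,
      bcN_gen]

omit [NeZero N] in
theorem eq_bcN_of_coe {x : ↥(FF K N)} {y : ↥(FF L N)}
    (h : (y : LaurentSeries L) = coeffMap ι (x : LaurentSeries K)) : y = bcN ι N x :=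
  Subtype.ext h

/-- **Compatibility of the analytic realisation with base change of constants.** -/
theorem PhiL_bcN (ι' : L →+* ℂ) (x : ↥(FF K N)) :
    DataTau.PhiL ι' N (bcN ι N x) = DataTau.PhiL (ι'.comp ι) N x := by
  have h : (DataTau.PhiL ι' N).comp (bcN ι N) = DataTau.PhiL (ι'.comp ι) N := by
    apply Phi.hom_ext'
    · intro c
      rw [RingHom.comp_apply, bcN_algebraMap, DataTau.PhiL_algebraMap, DataTau.PhiL_algebraMap,
        RingHom.comp_apply]
    · intro d
      rw [RingHom.comp_apply, bcN_gen, DataTau.PhiL_gen, DataTau.PhiL_gen]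
  exact congrFun (congrArg DFunLike.coe h) x

/-- The two S24 analytic realisations of the function field agree. -/
theorem PhiMero_eq_PhiL (ι' : L →+* ℂ) : Phi.PhiMero ι' N = DataTau.PhiL ι' N := by
  apply Phi.hom_ext'
  · intro c
    rw [Phi.PhiMero_algebraMap, DataTau.PhiL_algebraMap]
  · intro d
    rw [Phi.PhiMero_gen, DataTau.PhiL_gen]

theorem PhiMero_bcN (ι' : L →+* ℂ) (x : ↥(FF K N)) :
    Phi.PhiMero ι' N (bcN ι N x) = Phi.PhiMero (ι'.comp ι) N x := by
  rw [PhiMero_eq_PhiL, PhiMero_eq_PhiL, PhiL_bcN]

end Modular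

end Fermat.Agent.S29.Bc

end
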