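/-
S29 (wave 9): interface of the proof of
`CuspForm.IsNormalizedEigenform.exists_residualGaloisRep_isAttachedTo`.

Design (board #1071).  For a normalised eigenform `g` on `Γ₀(N)`, `N ≥ 1`, a prime `p` and
`φ : ℤ̄ → k` (char `k = p`):

* `[GM]` a nonzero finite-dimensional `k`-representation `W` of `G_ℚ`, of finite level, on which
  inertia at `ℓ ∤ N p` acts trivially and every Frobenius `σ` at `ℓ ∤ N p` satisfies
  `σ + ℓ σ⁻¹ = φ(a_ℓ)` (the span of the Galois orbit of a Hecke eigenvector in `k ⊗ J₀(N)[p]`);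
* `[CYC]` the mod-`p` cyclotomic character with values in `kˣ`;
* `[CHEB]` weak Chebotarev: every element of a finite quotient of `G_ℚ` is a power of a Frobenius
  element at a prime outside a given finite set;
* `(Q)` (file `QuadRep.lean`, proved): a finite group acting on `W ≠ 0` such that every `g`
  satisfies `g + χ(g) g⁻¹ = t(g)` has a `2`-dimensional representation with characteristic
  polynomials `X² - t(g) X + χ(g)`.

`[GM]` is in turn obtained from `[IV]` (eigenform support), `[TES]` (torsion Eichler–Shimura, from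
the S37 core) and `[FL]` (finite level).
-/
import Fermat.Statements.S29
import Fermat.Prelude.Def_ModularCurve_HeckeModule

set_option autoImplicit false

noncomputable section

open scoped TensorProduct
open ModularCurve AlgebraicCurve

namespace Fermat.Agent.S29

/-! ### The three inputs of the top assembly -/

/-- **[CYC]** the mod-`p` cyclotomic character with values in `kˣ`: finite level, trivial on
inertia at `ℓ ≠ p`, and `χ(σ) = ℓ` for every Frobenius element `σ` at `ℓ ≠ p`. -/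
def CycStmt : Prop :=
  ∀ (p : ℕ), p.Prime → ∀ (k : Type) [Field k] [CharP k p],
    ∃ χ : (AlgebraicClosure ℚ ≃ₐ[ℚ] AlgebraicClosure ℚ) →* kˣ,
      GaloisFactorsThroughFiniteLevel χ ∧
      (∀ ℓ : ℕ, ℓ.Prime → ℓ ≠ p → ∀ A : ValuationSubring (AlgebraicClosure ℚ),
        A.LiesOverPrime ℓ → ∀ σ ∈ A.inertiaSubgroupIn ℚ, χ σ = 1) ∧
      (∀ ℓ : ℕ, ℓ.Prime → ℓ ≠ p → ∀ A : ValuationSubring (AlgebraicClosure ℚ),
        A.LiesOverPrime ℓ → ∀ σ : AlgebraicClosure ℚ ≃ₐ[ℚ] AlgebraicClosure ℚ,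
          A.IsFrobeniusAt σ ℓ → ((χ σ : kˣ) : k) = (ℓ : k))

/-- **[CHEB]** weak Chebotarev: on a number field `L ⊂ ℚ̄`, every `σ ∈ G_ℚ` agrees with a power
of a Frobenius element at some prime `ℓ` outside a given finite set. -/
def ChebStmt : Prop :=
  ∀ (L : IntermediateField ℚ (AlgebraicClosure ℚ)), FiniteDimensional ℚ L →
    ∀ (S : Finset ℕ) (σ : AlgebraicClosure ℚ ≃ₐ[ℚ] AlgebraicClosure ℚ),
      ∃ (ℓ : ℕ) (A : ValuationSubring (AlgebraicClosure ℚ))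
        (τ : AlgebraicClosure ℚ ≃ₐ[ℚ] AlgebraicClosure ℚ) (m : ℕ),
        ℓ.Prime ∧ ℓ ∉ S ∧ A.LiesOverPrime ℓ ∧ A.IsFrobeniusAt τ ℓ ∧ ∀ x ∈ L, σ x = (τ ^ m) x

/-- **[GM]** the Galois module of `(g, φ)`: a nonzero finite-dimensional `k`-representation of
`G_ℚ` of finite level, unramified at `ℓ ∤ N p`, on which every Frobenius element `σ` at
`ℓ ∤ N p` satisfies `σ + ℓ σ⁻¹ = φ(a_ℓ(g))`. -/
def GalModStmt : Prop :=
  ∀ (N : ℕ) [NeZero N] (g : CuspForm (CongruenceSubgroup.Gamma0 N) 2), g.IsNormalizedEigenform →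
    ∀ (p : ℕ), p.Prime → ∀ (k : Type) [Field k] [CharP k p] (φ : integralClosure ℤ ℂ →+* k),
    ∃ (W : Type) (_ : AddCommGroup W) (_ : Module k W) (_ : Module.Finite k W) (_ : Nontrivial W)
      (r : (AlgebraicClosure ℚ ≃ₐ[ℚ] AlgebraicClosure ℚ) →* Module.End k W),
      GaloisFactorsThroughFiniteLevel r ∧
      (∀ ℓ : ℕ, ℓ.Prime → ¬ ℓ ∣ N * p → ∀ A : ValuationSubring (AlgebraicClosure ℚ),
        A.LiesOverPrime ℓ → ∀ σ ∈ A.inertiaSubgroupIn ℚ, r σ = 1) ∧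
      (∀ ℓ : ℕ, ℓ.Prime → ¬ ℓ ∣ N * p → ∀ A : ValuationSubring (AlgebraicClosure ℚ),
        A.LiesOverPrime ℓ → ∀ σ : AlgebraicClosure ℚ ≃ₐ[ℚ] AlgebraicClosure ℚ,
          A.IsFrobeniusAt σ ℓ →
          ∃ a : integralClosure ℤ ℂ, (a : ℂ) = ModularFormClass.qCoeff g ℓ ∧
            r σ + (ℓ : k) • r σ⁻¹ = φ a • (1 : Module.End k W))

/-! ### The inputs of `[GM]` -/

/-- the `p`-torsion of `J₀(N)(ℚ̄)` as a `ℤ`-submodule. -/
abbrev Jtor (N p : ℕ) [NeZero N] : Submodule ℤ (JZero N) :=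
  Submodule.torsionBy ℤ (JZero N) (p : ℤ)

/-- `T_ℓ` on the `p`-torsion. -/
def heckeTor (N p : ℕ) [NeZero N] (ℓ : Nat.Primes) : Module.End ℤ (Jtor N p) :=
  (heckeOperatorBar N ℓ).restrict (p := Jtor N p) (q := Jtor N p) (fun x hx => by
    rw [Submodule.mem_torsionBy_iff] at hx ⊢
    rw [← map_smul, hx, map_zero])

@[simp] theorem coe_heckeTor (N p : ℕ) [NeZero N] (ℓ : Nat.Primes) (x : Jtor N p) :
    ((heckeTor N p ℓ x : Jtor N p) : JZero N) = heckeOperatorBar N ℓ (x : JZero N) := rfl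

/-- the Galois action on the `p`-torsion. -/
def galTor (N p : ℕ) [NeZero N] (σ : AlgebraicClosure ℚ ≃ₐ[ℚ] AlgebraicClosure ℚ) :
    Module.End ℤ (Jtor N p) :=
  (DistribSMul.toLinearMap ℤ (JZero N) σ).restrict (p := Jtor N p) (q := Jtor N p)
    (fun x hx => by
      rw [Submodule.mem_torsionBy_iff] at hx ⊢
      show (p : ℤ) • σ • x = 0
      rw [smul_comm, hx, smul_zero])

@[simp] theorem coe_galTor (N p : ℕ) [NeZero N]
    (σ : AlgebraicClosure ℚ ≃ₐ[ℚ] AlgebraicClosure ℚ) (x : Jtor N p) :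
    ((galTor N p σ x : Jtor N p) : JZero N) = σ • (x : JZero N) := rfl

/-- **[IV]** eigenform support: the Hecke eigensystem of `g`, reduced along `φ`, occurs in
`k ⊗ J₀(N)(ℚ̄)[p]` (and the eigenvalues `a_ℓ(g)`, `ℓ ∤ N`, are algebraic integers). -/
def EigenSupportStmt : Prop :=
  ∀ (N : ℕ) [NeZero N] (g : CuspForm (CongruenceSubgroup.Gamma0 N) 2), g.IsNormalizedEigenform →
    ∀ (p : ℕ), p.Prime → ∀ (k : Type) [Field k] [CharP k p] (φ : integralClosure ℤ ℂ →+* k),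
    ∃ a : Nat.Primes → integralClosure ℤ ℂ,
      (∀ ℓ : Nat.Primes, ¬ (ℓ : ℕ) ∣ N →
        ((a ℓ : integralClosure ℤ ℂ) : ℂ) = ModularFormClass.qCoeff g ℓ) ∧
      ∃ x : k ⊗[ℤ] Jtor N p, x ≠ 0 ∧
        ∀ ℓ : Nat.Primes, ¬ (ℓ : ℕ) ∣ N * p →
          (heckeTor N p ℓ).baseChange k x = φ (a ℓ) • x

/-- **[TES]** torsion Eichler–Shimura (from the core statement of S37): on `p`-power torsion,
inertia at `ℓ ∤ N p` acts trivially and `T_ℓ ∘ σ = σ² + ℓ` for every Frobenius element `σ`. -/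
def TorsionESStmt : Prop :=
  ∀ (N p : ℕ) [NeZero N] (ℓ : ℕ) (hℓ : ℓ.Prime), ¬ ℓ ∣ N * p →
    ∀ A : ValuationSubring (AlgebraicClosure ℚ), A.LiesOverPrime ℓ →
      (∀ τ ∈ A.inertiaSubgroupIn ℚ, ∀ x : JZero N, (∃ n : ℕ, p ^ n • x = 0) → τ • x = x) ∧
      (∀ σ : AlgebraicClosure ℚ ≃ₐ[ℚ] AlgebraicClosure ℚ, A.IsFrobeniusAt σ ℓ →
        ∀ x : JZero N, (∃ n : ℕ, p ^ n • x = 0) →
          heckeOperatorBar N ⟨ℓ, hℓ⟩ (σ • x) = σ • σ • x + ℓ • x)

/-- **[FL]** finite level: every point of `J₀(N)(ℚ̄)` is fixed by an open subgroup of `G_ℚ`. -/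
def FinLevelStmt : Prop :=
  ∀ (N : ℕ) [NeZero N] (x : JZero N),
    ∃ L : IntermediateField ℚ (AlgebraicClosure ℚ), FiniteDimensional ℚ L ∧
      ∀ σ : AlgebraicClosure ℚ ≃ₐ[ℚ] AlgebraicClosure ℚ, (∀ y ∈ L, σ y = y) → σ • x = x

end Fermat.Agent.S29
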