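/-
S29 (wave 9), row [IV]: interface of the embedding `Λ/m ↪ J₀(N)(ℚ̄)[m]`.

`Λ = Hom_par(Γ₀(N), ℤ)`.  Everything analytic happens in the field `S24.Mero.Fld N` (fractions of
holomorphic functions on `ℍ` whose `SL(2, ℤ)`-translates are `N`-periodic and meromorphic at the
cusp), with its action `S24.Mero.actF N γ` (`f ↦ f ∘ γ`) and the analytic realisations
`an ι N = S24.DataTau.PhiL ι N : FF L N →+* Fld N` of the function fields over `L = ℚ̄` and `L = ℂ`.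

The central notion is `KumRel ι N m ζ x χ`: the class `x ∈ J₀(N)(ℚ̄)` is represented by a divisor
`D` with `m D = div h`, and `an h` has an `m`-th root `f` in `Fld N` with multiplier
`f ∘ γ = ζ^{χ(γ)} f` (`χ : Γ₀(N) → ℤ/m`).

* `exists_emb_of_kum`: from existence (`∀ λ ∈ Λ`, some `x` is related to `λ mod m`), injectivity
  (`x` is determined by `χ`) and `KumRel 0 χ → χ = 0` one gets a `ℤ`-linear
  `Φ : Λ → J₀(N)(ℚ̄)[m]` with `Φ λ = 0 → λ ∈ m Λ`;
* `hecke_of_kum`: Hecke equivariance of `Φ` from Hecke equivariance of `KumRel`.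

The `…Stmt` definitions are the leaves.
-/
import Fermat.Agent.S29.Iface
import Fermat.Agent.S24.Mod.DataTau
import Fermat.Prelude.Def_ModularCurve_PeriodMap

set_option autoImplicit false

noncomputable section

open scoped MatrixGroups
open ModularCurve AlgebraicCurve CongruenceSubgroup

namespace Fermat.Agent.S29.IV

open Fermat.Agent.S24 (FF)
open Fermat.Agent.S24.Mero (Fld actF)

local notation "Qb" => AlgebraicClosure ℚ

/-- the lattice `Λ = Hom_par(Γ₀(N), ℤ)`. -/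
abbrev Lam (N : ℕ) : Submodule ℤ (Additive (Gamma0 N) →+ ℤ) :=
  ModularCurve.Period.parabolicHoms ℤ (Gamma0 N) ℤ

/-- the analytic realisation of the function field of `X₀(N)` over `L ⊆ ℂ`. -/
abbrev an {L : Type} [Field L] [Algebra ℚ L] (ι : L →+* ℂ) (N : ℕ) [NeZero N] :
    ↥(FF L N) →+* Fld N :=
  Fermat.Agent.S24.DataTau.PhiL ι N

/-- constants in `Fld N`. -/
def cst (N : ℕ) : ℂ →+* Fld N :=
  (algebraMap (Fermat.Agent.S24.Mero.ring N) (Fld N)).comp (Fermat.Agent.S24.Mero.const N)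

/-- reduction mod `m` of an integral character. -/
def red (N m : ℕ) (lam : Additive (Gamma0 N) →+ ℤ) : Additive (Gamma0 N) →+ ZMod m :=
  (Int.castAddHom (ZMod m)).comp lam

@[simp] theorem red_apply (N m : ℕ) (lam : Additive (Gamma0 N) →+ ℤ) (γ : Additive (Gamma0 N)) :
    red N m lam γ = ((lam γ : ℤ) : ZMod m) := rfl

theorem red_add (N m : ℕ) (lam mu : Additive (Gamma0 N) →+ ℤ) :
    red N m (lam + mu) = red N m lam + red N m mu := by
  ext γ; simp [red]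

/-- `f ∘ γ = ζ^{χ(γ)} f` for all `γ ∈ Γ₀(N)`. -/
def HasMult (N m : ℕ) (ζ : ℂ) (f : Fld N) (χ : Additive (Gamma0 N) →+ ZMod m) : Prop :=
  ∀ γ : Gamma0 N, actF N (γ : SL(2, ℤ)) f = cst N (ζ ^ (χ (Additive.ofMul γ)).val) * f

/-- `h` is an `m`-th power up to a divisor: all its orders are divisible by `m`. -/
def IsKum (L : Type) [Field L] [Algebra ℚ L] (N m : ℕ) (h : ↥(FF L N)) : Prop :=
  h ≠ 0 ∧ ∀ P : Place L ↥(FF L N), (m : ℤ) ∣ P.ord h

/-- The Kummer relation between classes of `J₀(N)(ℚ̄)` and characters `Γ₀(N) → ℤ/m`. -/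
def KumRel (ι : Qb →+* ℂ) (N m : ℕ) [NeZero N] (ζ : ℂ) (x : JZero N)
    (χ : Additive (Gamma0 N) →+ ZMod m) : Prop :=
  ∃ (D : Divisor Qb ↥(modularFunctionFieldBar N))
    (hD : D ∈ Divisor.degZero (K := Qb) (F := ↥(modularFunctionFieldBar N)))
    (h : ↥(modularFunctionFieldBar N)) (f : Fld N),
    Pic0.mk ⟨D, hD⟩ = x ∧ h ≠ 0 ∧
      (∀ P : Place Qb ↥(modularFunctionFieldBar N), P.ord h = (m : ℤ) * D P) ∧
      f ^ m = an ι N h ∧ HasMult N m ζ f χ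

/-! ### The three properties of `KumRel` and the Hecke property -/

/-- **(K1)** existence: every `λ ∈ Λ` occurs (Θ + Desc). -/
def KumExistsStmt : Prop :=
  ∀ (ι : Qb →+* ℂ) (N m : ℕ) [NeZero N], 0 < m → ∀ ζ : ℂ, IsPrimitiveRoot ζ m →
    ∀ lam : Additive (Gamma0 N) →+ ℤ, lam ∈ Lam N → ∃ x : JZero N, KumRel ι N m ζ x (red N m lam)

/-- **(K2)** injectivity: the class is determined by the character. -/
def KumInjStmt : Prop :=
  ∀ (ι : Qb →+* ℂ) (N m : ℕ) [NeZero N], 0 < m → ∀ ζ : ℂ, IsPrimitiveRoot ζ m →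
    ∀ (x x' : JZero N) (χ : Additive (Gamma0 N) →+ ZMod m),
      KumRel ι N m ζ x χ → KumRel ι N m ζ x' χ → x = x'

/-- **(K3)** the trivial class has the trivial character. -/
def KumZeroStmt : Prop :=
  ∀ (ι : Qb →+* ℂ) (N m : ℕ) [NeZero N], 0 < m → ∀ ζ : ℂ, IsPrimitiveRoot ζ m →
    ∀ χ : Additive (Gamma0 N) →+ ZMod m, KumRel ι N m ζ 0 χ → χ = 0

/-! ### Formal properties -/

theorem cst_pow (N : ℕ) (c : ℂ) (n : ℕ) : cst N (c ^ n) = cst N c ^ n := map_pow _ _ _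

theorem zeta_pow_val_add {m : ℕ} [NeZero m] {ζ : ℂ} (hζ : ζ ^ m = 1) (a b : ZMod m) :
    ζ ^ (a + b).val = ζ ^ a.val * ζ ^ b.val := by
  rw [← pow_add, ZMod.val_add, ← Nat.mod_add_div (a.val + b.val) m, pow_add, pow_mul, hζ, one_pow,
    mul_one]
  simp

theorem KumRel.smul_eq_zero {ι : Qb →+* ℂ} {N m : ℕ} [NeZero N] {ζ : ℂ} {x : JZero N}
    {χ : Additive (Gamma0 N) →+ ZMod m} (h : KumRel ι N m ζ x χ) : (m : ℤ) • x = 0 := by
  obtain ⟨D, hD, f, g, rfl, hf, hord, -, -⟩ := h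
  have h1 : (m : ℤ) • (Pic0.mk ⟨D, hD⟩ : JZero N)
      = Pic0.mk ((m : ℤ) • (⟨D, hD⟩ : Divisor.degZero (K := Qb)
          (F := ↥(modularFunctionFieldBar N)))) := rfl
  rw [h1]
  refine (QuotientAddGroup.eq_zero_iff _).mpr ?_
  rw [AddSubgroup.mem_addSubgroupOf]
  refine ⟨f, hf, fun P => ?_⟩
  rw [hord P]
  simp

theorem KumRel.zero (ι : Qb →+* ℂ) (N m : ℕ) [NeZero N] (ζ : ℂ) :
    KumRel ι N m ζ (0 : JZero N) 0 := by
  refine ⟨0, zero_mem _, 1, 1, rfl, one_ne_zero, fun P => by simp, by simp, fun γ => ?_⟩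
  simp [cst]

theorem KumRel.add {ι : Qb →+* ℂ} {N m : ℕ} [NeZero N] [NeZero m] {ζ : ℂ} (hζ : ζ ^ m = 1)
    {x x' : JZero N} {χ χ' : Additive (Gamma0 N) →+ ZMod m}
    (h : KumRel ι N m ζ x χ) (h' : KumRel ι N m ζ x' χ') :
    KumRel ι N m ζ (x + x') (χ + χ') := by
  obtain ⟨D, hD, f, g, rfl, hf, hord, hpow, hmul⟩ := h
  obtain ⟨D', hD', f', g', rfl, hf', hord', hpow', hmul'⟩ := h'
  refine ⟨D + D', add_mem hD hD', f * f', g * g', rfl, mul_ne_zero hf hf', fun P => ?_, ?_,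
    fun γ => ?_⟩
  · rw [P.ord_mul hf hf', hord P, hord' P, Finsupp.add_apply]; ring
  · rw [mul_pow, hpow, hpow', map_mul]
  · rw [map_mul, hmul γ, hmul' γ, AddMonoidHom.add_apply, zeta_pow_val_add hζ, map_mul]; ring

/-- **The embedding from the three properties of `KumRel`.** -/
theorem exists_emb_of_kum (ι : Qb →+* ℂ) (N m : ℕ) [NeZero N] (hm : 0 < m) (ζ : ℂ)
    (hζ : IsPrimitiveRoot ζ m)
    (hex : ∀ lam : Additive (Gamma0 N) →+ ℤ, lam ∈ Lam N →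
      ∃ x : JZero N, KumRel ι N m ζ x (red N m lam))
    (hinj : ∀ (x x' : JZero N) (χ : Additive (Gamma0 N) →+ ZMod m),
      KumRel ι N m ζ x χ → KumRel ι N m ζ x' χ → x = x')
    (hzero : ∀ χ : Additive (Gamma0 N) →+ ZMod m, KumRel ι N m ζ 0 χ → χ = 0) :
    ∃ Φ : Lam N →ₗ[ℤ] Submodule.torsionBy ℤ (JZero N) (m : ℤ),
      (∀ lam : Lam N, KumRel ι N m ζ ((Φ lam : Submodule.torsionBy ℤ (JZero N) (m : ℤ)) : JZero N)
        (red N m (lam : Additive (Gamma0 N) →+ ℤ))) ∧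
      ∀ lam : Lam N, Φ lam = 0 → ∃ mu : Lam N, lam = (m : ℤ) • mu := by
  have : NeZero m := ⟨hm.ne'⟩
  have hζm : ζ ^ m = 1 := hζ.pow_eq_one
  choose φ hφ using hex
  let Φ₀ : Lam N →+ JZero N :=
    { toFun := fun lam => φ lam.1 lam.2
      map_zero' := by
        refine hinj _ _ _ (hφ _ (zero_mem (Lam N))) ?_
        have : red N m (0 : Additive (Gamma0 N) →+ ℤ) = 0 := by ext γ; simp [red]
        rw [this]
        exact KumRel.zero ι N m ζ
      map_add' := fun a b => by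
        refine hinj _ _ _ (hφ _ (a + b).2) ?_
        have : red N m ((a + b : Lam N) : Additive (Gamma0 N) →+ ℤ)
            = red N m a.1 + red N m b.1 := red_add N m _ _
        rw [this]
        exact KumRel.add hζm (hφ _ a.2) (hφ _ b.2) }
  have htor : ∀ lam : Lam N, Φ₀ lam ∈ Submodule.torsionBy ℤ (JZero N) (m : ℤ) := fun lam => by
    rw [Submodule.mem_torsionBy_iff]
    exact (hφ _ lam.2).smul_eq_zero
  refine ⟨(Φ₀.toIntLinearMap).codRestrict _ htor, fun lam => hφ _ lam.2, fun lam hlam => ?_⟩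
  have h0 : φ lam.1 lam.2 = 0 := congrArg Subtype.val hlam
  have hrel := hφ _ lam.2
  rw [h0] at hrel
  have hχ := hzero _ hrel
  have hdvd : ∀ γ : Additive (Gamma0 N), (m : ℤ) ∣ lam.1 γ := fun γ => by
    have := DFunLike.congr_fun hχ γ
    rw [red_apply] at this
    exact (ZMod.intCast_zmod_eq_zero_iff_dvd _ _).mp this
  have hm0 : (m : ℤ) ≠ 0 := by exact_mod_cast hm.ne'
  let mu₀ : Additive (Gamma0 N) →+ ℤ :=
    { toFun := fun γ => lam.1 γ / (m : ℤ)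
      map_zero' := by simp
      map_add' := fun a b => by
        rw [map_add]
        exact Int.add_ediv_of_dvd_left (hdvd a) }
  have hmu : mu₀ ∈ Lam N := by
    intro γ hγ
    have h1 : lam.1 (Additive.ofMul γ) = 0 := lam.2 γ hγ
    show lam.1 (Additive.ofMul γ) / (m : ℤ) = 0
    rw [h1, Int.zero_ediv]
  refine ⟨⟨mu₀, hmu⟩, Subtype.ext (AddMonoidHom.ext fun γ => ?_)⟩
  show lam.1 γ = (m : ℤ) • (lam.1 γ / (m : ℤ))
  rw [smul_eq_mul, Int.mul_ediv_cancel' (hdvd γ)]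

/-- **Hecke equivariance of the embedding from Hecke equivariance of `KumRel`.** -/
theorem hecke_of_kum (ι : Qb →+* ℂ) (N m : ℕ) [NeZero N] (ζ : ℂ)
    (hinj : ∀ (x x' : JZero N) (χ : Additive (Gamma0 N) →+ ZMod m),
      KumRel ι N m ζ x χ → KumRel ι N m ζ x' χ → x = x')
    (Φ : Lam N → JZero N)
    (hΦ : ∀ lam : Lam N, KumRel ι N m ζ (Φ lam) (red N m (lam : Additive (Gamma0 N) →+ ℤ)))
    (T : Lam N → Lam N) (t : (Additive (Gamma0 N) →+ ZMod m) → (Additive (Gamma0 N) →+ ZMod m))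
    (hT : ∀ lam : Lam N, red N m (T lam : Additive (Gamma0 N) →+ ℤ)
      = t (red N m (lam : Additive (Gamma0 N) →+ ℤ)))
    (H : JZero N → JZero N)
    (hH : ∀ (x : JZero N) (χ : Additive (Gamma0 N) →+ ZMod m),
      KumRel ι N m ζ x χ → KumRel ι N m ζ (H x) (t χ))
    (lam : Lam N) : H (Φ lam) = Φ (T lam) := by
  refine hinj _ _ (t (red N m (lam : Additive (Gamma0 N) →+ ℤ))) (hH _ _ (hΦ lam)) ?_
  rw [← hT]
  exact hΦ (T lam)

/-! ### The leaves -/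

/-- `h = c · u^m · s` with `c ∈ ℂˣ`, `u ≠ 0`: the two functions define the same Kummer class. -/
def KRel (N m : ℕ) (h s : ↥(FF ℂ N)) : Prop :=
  ∃ (u : ↥(FF ℂ N)) (c : ℂ), u ≠ 0 ∧ c ≠ 0 ∧ h = algebraMap ℂ ↥(FF ℂ N) c * u ^ m * s

/-- **(ROOT)** a Kummer function over `ℂ` has an `m`-th root in `Fld N` (root on `ℍ`, periodicity
of its translates from the divisibility of the orders at the cusps). -/
def RootStmt : Prop :=
  ∀ (N m : ℕ) [NeZero N], 0 < m → ∀ h : ↥(FF ℂ N), IsKum ℂ N m h →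
    ∃ f : Fld N, f ^ m = an (RingHom.id ℂ) N h

/-- **(INV)** a `Γ₀(N)`-invariant element of `Fld N` whose `m`-th power is a modular function is a
modular function. -/
def InvStmt : Prop :=
  ∀ (N m : ℕ) [NeZero N], 0 < m → ∀ (f : Fld N) (u : ↥(FF ℂ N)),
    (∀ γ : SL(2, ℤ), γ ∈ Gamma0 N → actF N γ f = f) → f ^ m = an (RingHom.id ℂ) N u →
    ∃ v : ↥(FF ℂ N), f = an (RingHom.id ℂ) N v

/-- **(THETA-FN)** for `λ ∈ Λ` there is a nonzero `F ∈ Fld N` with multiplier `ζ^λ` whose `m`-th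
power is a modular function (`F = G_χ / G_1`, Eisenstein series with character). -/
def ThetaFnStmt : Prop :=
  ∀ (N m : ℕ) [NeZero N], 0 < m → ∀ ζ : ℂ, ζ ^ m = 1 →
    ∀ lam : Additive (Gamma0 N) →+ ℤ, lam ∈ Lam N →
      ∃ (F : Fld N) (u : ↥(FF ℂ N)), F ≠ 0 ∧ F ^ m = an (RingHom.id ℂ) N u ∧
        HasMult N m ζ F (red N m lam)

/-- **(PLACE-AN)** places are analytic: if `an h = F^m` with `F` invariant under the elliptic and
parabolic elements of `Γ₀(N)`, then `m` divides the order of `h` at every place. -/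
def PlaceAnStmt : Prop :=
  ∀ (L : Type) [Field L] [Algebra ℚ L] [IsAlgClosed L] (ι : L →+* ℂ) (N m : ℕ) [NeZero N]
    (P : Place L ↥(FF L N)) (h : ↥(FF L N)) (F : Fld N), h ≠ 0 → an ι N h = F ^ m →
    (∀ δ : SL(2, ℤ), δ ∈ Gamma0 N →
      ((∃ n : ℕ, 0 < n ∧ δ ^ n = 1) ∨ (δ : Matrix (Fin 2) (Fin 2) ℤ).trace ^ 2 = 4) →
        actF N δ F = F) →
    (m : ℤ) ∣ P.ord h

/-- **(KUM-FIN)** finitely many Kummer classes over `ℂ`. -/
def KumFinStmt : Prop :=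
  ∀ (N m : ℕ) [NeZero N], 0 < m →
    ∃ S : Set ↥(FF ℂ N), S.Finite ∧ ∀ h : ↥(FF ℂ N), IsKum ℂ N m h → ∃ s ∈ S, KRel N m h s

/-- **(DESC)** descent `ℂ → ℚ̄`: if there are finitely many Kummer classes over `ℂ`, each of them
has a representative with `ℚ̄`-coefficients. -/
def DescStmt : Prop :=
  ∀ (ι : Qb →+* ℂ) (N m : ℕ) [NeZero N], 0 < m →
    (∃ S : Set ↥(FF ℂ N), S.Finite ∧ ∀ h : ↥(FF ℂ N), IsKum ℂ N m h → ∃ s ∈ S, KRel N m h s) →
    ∀ h : ↥(FF ℂ N), IsKum ℂ N m h →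
      ∃ (h₀ : ↥(FF Qb N)) (h₁ : ↥(FF ℂ N)), h₀ ≠ 0 ∧
        (h₁ : LaurentSeries ℂ) = coeffMap ι (h₀ : LaurentSeries Qb) ∧ KRel N m h h₁

/-- **(DESC-ROOT)** `m`-th roots descend: if `y ∈ F_N` becomes an `m`-th power over `ℂ`, it is a
constant times an `m`-th power over `ℚ̄`. -/
def DescRootStmt : Prop :=
  ∀ (ι : Qb →+* ℂ) (N m : ℕ) [NeZero N], 0 < m → ∀ (y : ↥(FF Qb N)) (v : ↥(FF ℂ N)), y ≠ 0 →
    coeffMap ι (y : LaurentSeries Qb) = (v : LaurentSeries ℂ) ^ m →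
    ∃ (v₀ : ↥(FF Qb N)) (c₀ : Qb), c₀ ≠ 0 ∧ y = algebraMap Qb ↥(FF Qb N) c₀ * v₀ ^ m

/-- **(AN-COMPAT)** base change `F_N → F_N^ℂ` (coefficientwise `ι`) exists and is compatible with
the analytic realisations. -/
def AnCompatStmt : Prop :=
  ∀ (ι : Qb →+* ℂ) (N : ℕ) [NeZero N] (h₀ : ↥(FF Qb N)),
    ∃ h : ↥(FF ℂ N), (h : LaurentSeries ℂ) = coeffMap ι (h₀ : LaurentSeries Qb) ∧
      an ι N h₀ = an (RingHom.id ℂ) N h

end Fermat.Agent.S29.IV
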