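/-
Wave 9 (S29), [IV] leaf (AN-COMPAT) (helper19): the base change `F_N → F_N^ℂ` exists and is
compatible with the analytic realisations — `IV.AnCompatStmt`, from `S29/BcCompat.lean`.
-/
import Fermat.Agent.S29.IVIface
import Fermat.Agent.S29.BcCompat

set_option autoImplicit false
set_option synthInstance.maxHeartbeats 400000

noncomputable section

open ModularCurve

namespace Fermat.Agent.S29.AnCompat

open Fermat.Agent.S24 (FF)

/-- The analytic realisation over `ℂ` of the base change is the analytic realisation via `ι`. -/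
theorem an_bcN (ι : AlgebraicClosure ℚ →+* ℂ) (N : ℕ) [NeZero N]
    (h₀ : ↥(FF (AlgebraicClosure ℚ) N)) :
    IV.an (RingHom.id ℂ) N (Bc.bcN ι N h₀) = IV.an ι N h₀ := by
  have h := Bc.PhiL_bcN ι N (RingHom.id ℂ) h₀
  rw [RingHom.id_comp] at h
  exact h

/-- **(AN-COMPAT)** of `S29/IVIface.lean`. -/
theorem anCompatStmt : IV.AnCompatStmt := fun ι N _ h₀ =>
  ⟨Bc.bcN ι N h₀, rfl, (an_bcN ι N h₀).symm⟩

end Fermat.Agent.S29.AnCompat

end
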