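/-
S29 (wave 9), row CHEB, the GLUE, second seat (helper1; independent of `S29/ChebGlue.lean`, with a
WEAKER hypothesis: no inertia / unramified clause): from the counting statement `StabStmt`
(in a finite Galois extension `K/ℚ`, every `g ∈ Gal(K/ℚ)` stabilises a prime `𝔓 ∣ ℓ` of `𝓞 K`
for some rational prime `ℓ` outside a given finite set) to the interface Prop `ChebStmt` of
`S29/Iface.lean` (weak Chebotarev for valuation subrings of `ℚ̄` and `IsFrobeniusAt`).

No ramification theory: the glue enlarges the finite set by the prime factors of a nonzero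
integer `N` (absolute norm of a product of differences of conjugates) outside of which two
automorphisms congruent modulo a prime are equal.
-/
import Mathlib
import Fermat.Agent.S29.Iface
import Fermat.Agent.S54.Frobenius

set_option autoImplicit false
set_option linter.style.haveILetI false
set_option linter.unusedSectionVars false

noncomputable section

open scoped NumberField Pointwise

namespace Fermat.Agent.S29.ChebGlueB

/-- **[CF]** the counting input of weak Chebotarev: in a finite Galois extension `K/ℚ`, every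
automorphism `g` maps some prime `𝔓` of `𝓞 K`, above a rational prime `ℓ` outside a given finite
set, into itself. -/
def StabStmt : Prop :=
  ∀ (K : Type) [Field K] [NumberField K] [IsGalois ℚ K] (g : K ≃ₐ[ℚ] K) (T : Finset ℕ),
    ∃ (ℓ : ℕ) (P : Ideal (𝓞 K)), ℓ.Prime ∧ ℓ ∉ T ∧ P.IsPrime ∧ (ℓ : 𝓞 K) ∈ P ∧
      ∀ x ∈ P, ∃ y ∈ P, (y : K) = g (x : K)

section NF

variable {K : Type*} [Field K] [NumberField K]

/-- An automorphism of a number field mapping a prime `𝔓 ∣ ℓ` into itself acts on `𝓞 K / 𝔓` as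
a power of the Frobenius `x ↦ x ^ ℓ`. -/
theorem exists_frob_pow (P : Ideal (𝓞 K)) (hP : P.IsPrime) {ℓ : ℕ} (hℓ : ℓ.Prime)
    (hℓP : (ℓ : 𝓞 K) ∈ P) (g : K ≃ₐ[ℚ] K) (hg : ∀ x ∈ P, ∃ y ∈ P, (y : K) = g (x : K)) :
    ∃ m : ℕ, ∀ y : 𝓞 K, ∃ z ∈ P, (z : K) = g (y : K) - (y : K) ^ (ℓ ^ m) := by
  have hP0 : P ≠ ⊥ := by
    rintro rfl
    have h0 : (ℓ : 𝓞 K) = 0 := by simpa using hℓP
    exact hℓ.ne_zero (by exact_mod_cast h0)
  have hPmax : P.IsMaximal := hP.isMaximal hP0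
  letI : Field (𝓞 K ⧸ P) := Ideal.Quotient.field P
  haveI : Finite (𝓞 K ⧸ P) := P.finiteQuotientOfFreeOfNeBot hP0
  haveI : Fact ℓ.Prime := ⟨hℓ⟩
  haveI : CharP (𝓞 K ⧸ P) ℓ := by
    refine (CharP.charP_iff_prime_eq_zero hℓ).mpr ?_
    have h1 : Ideal.Quotient.mk P (ℓ : 𝓞 K) = 0 := Ideal.Quotient.eq_zero_iff_mem.mpr hℓP
    simpa using h1
  letI : Algebra (ZMod ℓ) (𝓞 K ⧸ P) := ZMod.algebra _ ℓ
  let g' : 𝓞 K →+* 𝓞 K := NumberField.RingOfIntegers.mapRingHom (g : K →+* K)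
  have hg'coe : ∀ x : 𝓞 K, ((g' x : 𝓞 K) : K) = g (x : K) := fun x => rfl
  have hg' : P ≤ P.comap g' := by
    intro x hx
    obtain ⟨y, hy, hyx⟩ := hg x hx
    have hxy : g' x = y := NumberField.RingOfIntegers.ext (by rw [hg'coe, hyx])
    rw [Ideal.mem_comap, hxy]
    exact hy
  let gbar : (𝓞 K ⧸ P) →+* (𝓞 K ⧸ P) := Ideal.quotientMap P g' hg'
  let gA : (𝓞 K ⧸ P) →ₐ[ZMod ℓ] (𝓞 K ⧸ P) :=
    { gbar with
      commutes' := fun r => by
        obtain ⟨n, rfl⟩ := ZMod.natCast_zmod_surjective r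
        simp }
  obtain ⟨⟨n, hnlt⟩, hn⟩ := (FiniteField.bijective_frobeniusAlgHom_pow (ZMod ℓ) (𝓞 K ⧸ P)).2 gA
  refine ⟨n, fun y => ?_⟩
  have h1 : gbar (Ideal.Quotient.mk P y) = (Ideal.Quotient.mk P y) ^ (ℓ ^ n) := by
    have h2 : (FiniteField.frobeniusAlgHom (ZMod ℓ) (𝓞 K ⧸ P) ^ (n : ℕ)) (Ideal.Quotient.mk P y)
        = gA (Ideal.Quotient.mk P y) := by
      have := congrArg (fun f : (𝓞 K ⧸ P) →ₐ[ZMod ℓ] (𝓞 K ⧸ P) => f (Ideal.Quotient.mk P y)) hn
      exact this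
    have h3 : gA (Ideal.Quotient.mk P y) = gbar (Ideal.Quotient.mk P y) := rfl
    rw [← h3, ← h2, AlgHom.coe_pow, FiniteField.coe_frobeniusAlgHom, pow_iterate, ZMod.card]
  have h2 : g' y - y ^ (ℓ ^ n) ∈ P := by
    rw [← Ideal.Quotient.eq_zero_iff_mem, map_sub, map_pow, sub_eq_zero, ← h1]
    exact (Ideal.quotientMap_mk (f := g') (H := hg')).symm
  refine ⟨g' y - y ^ (ℓ ^ n), h2, ?_⟩
  simp [hg'coe]

/-- Two automorphisms of a number field agreeing on the ring of integers are equal. -/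
theorem algEquiv_ext_of_integers {h h' : K ≃ₐ[ℚ] K}
    (hh : ∀ y : 𝓞 K, h (y : K) = h' (y : K)) : h = h' := by
  have h1 : ((h : K →+* K)).comp (algebraMap (𝓞 K) K) = ((h' : K →+* K)).comp (algebraMap (𝓞 K) K) :=
    RingHom.ext fun y => hh y
  have h2 : (h : K →+* K) = (h' : K →+* K) := IsFractionRing.injective_comp_algebraMap (A := 𝓞 K) h1
  exact AlgEquiv.ext fun x => RingHom.congr_fun h2 x

/-- There is a nonzero integer `N` such that two automorphisms of `K` which are congruent modulo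
a prime `𝔓 ∣ ℓ` of `𝓞 K` with `ℓ ∤ N` are equal. -/
theorem exists_bad (K : Type*) [Field K] [NumberField K] :
    ∃ N : ℕ, N ≠ 0 ∧ ∀ (P : Ideal (𝓞 K)) (ℓ : ℕ), P.IsPrime → ℓ.Prime → (ℓ : 𝓞 K) ∈ P →
      ¬ ℓ ∣ N → ∀ h h' : K ≃ₐ[ℚ] K,
        (∀ y : 𝓞 K, ∃ z ∈ P, (z : K) = h (y : K) - h' (y : K)) → h = h' := by
  classical
  haveI : Fintype (K ≃ₐ[ℚ] K) := Fintype.ofFinite _
  have hsep : ∀ p : (K ≃ₐ[ℚ] K) × (K ≃ₐ[ℚ] K),
      ∃ y : 𝓞 K, p.1 ≠ p.2 → p.1 (y : K) ≠ p.2 (y : K) := by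
    intro p
    by_contra hcon
    push Not at hcon
    have h1 := (hcon 0).1
    exact h1 (algEquiv_ext_of_integers fun y => (hcon y).2)
  choose sep hsep using hsep
  let act : (K ≃ₐ[ℚ] K) → 𝓞 K →+* 𝓞 K := fun h =>
    NumberField.RingOfIntegers.mapRingHom (h : K →+* K)
  have hact : ∀ (h : K ≃ₐ[ℚ] K) (x : 𝓞 K), ((act h x : 𝓞 K) : K) = h (x : K) := fun h x => rfl
  let F : (K ≃ₐ[ℚ] K) × (K ≃ₐ[ℚ] K) → 𝓞 K := fun p => act p.1 (sep p) - act p.2 (sep p)
  let s : Finset ((K ≃ₐ[ℚ] K) × (K ≃ₐ[ℚ] K)) := Finset.univ.filter fun p => p.1 ≠ p.2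
  let bad : 𝓞 K := ∏ p ∈ s, F p
  have hbad : bad ≠ 0 := by
    refine Finset.prod_ne_zero_iff.mpr fun p hp => ?_
    have hp' : p.1 ≠ p.2 := (Finset.mem_filter.mp hp).2
    intro h0
    have h1 : ((F p : 𝓞 K) : K) = 0 := by rw [h0]; rfl
    have h2 : ((F p : 𝓞 K) : K) = p.1 (sep p : K) - p.2 (sep p : K) := by
      simp only [F, map_sub, hact]
    rw [h2, sub_eq_zero] at h1
    exact hsep p hp' h1
  refine ⟨Ideal.absNorm (Ideal.span {bad}), ?_, ?_⟩
  · rw [Ne, Ideal.absNorm_eq_zero_iff, Ideal.span_singleton_eq_bot]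
    exact hbad
  · intro P ℓ hP hℓ hℓP hdvd h h' hcong
    by_contra hne
    have h1 : F (h, h') ∈ P := by
      obtain ⟨z, hz, hzeq⟩ := hcong (sep (h, h'))
      have h2 : F (h, h') = z := by
        apply NumberField.RingOfIntegers.ext
        rw [hzeq]
        simp only [F, map_sub, hact]
      rw [h2]
      exact hz
    have h2 : bad ∈ P := by
      have hmem : (h, h') ∈ s := Finset.mem_filter.mpr ⟨Finset.mem_univ _, hne⟩
      obtain ⟨c, hc⟩ := Finset.dvd_prod_of_mem F hmem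
      have h3 : bad = F (h, h') * c := hc
      rw [h3]
      exact P.mul_mem_right _ h1
    have h3 : ((Ideal.absNorm (Ideal.span {bad}) : ℕ) : 𝓞 K) ∈ P :=
      ((Ideal.span_singleton_le_iff_mem P).mpr h2) (Ideal.absNorm_mem _)
    have hcop : IsCoprime (ℓ : ℤ) ((Ideal.absNorm (Ideal.span {bad}) : ℕ) : ℤ) :=
      Nat.isCoprime_iff_coprime.mpr ((Nat.Prime.coprime_iff_not_dvd hℓ).mpr hdvd)
    obtain ⟨a, b, hab⟩ := hcop
    have h4 : (1 : 𝓞 K) = (a : 𝓞 K) * (ℓ : 𝓞 K)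
        + (b : 𝓞 K) * ((Ideal.absNorm (Ideal.span {bad}) : ℕ) : 𝓞 K) := by
      have := congrArg (Int.cast : ℤ → 𝓞 K) hab
      push_cast at this
      exact this.symm
    have h5 : (1 : 𝓞 K) ∈ P := by
      rw [h4]
      exact P.add_mem (P.mul_mem_left _ hℓP) (P.mul_mem_left _ h3)
    exact hP.ne_top ((Ideal.eq_top_iff_one P).mpr h5)

/-- The inertia clause of `S29/ChebGlue.lean`, for all primes outside the prime factors of a
nonzero integer: an automorphism acting trivially modulo `𝔓 ∣ ℓ`, `ℓ ∤ N`, is trivial. -/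
theorem exists_inertia_trivial (K : Type*) [Field K] [NumberField K] :
    ∃ N : ℕ, N ≠ 0 ∧ ∀ (P : Ideal (𝓞 K)) (ℓ : ℕ), P.IsPrime → ℓ.Prime → (ℓ : 𝓞 K) ∈ P →
      ¬ ℓ ∣ N → ∀ τ : K ≃ₐ[ℚ] K, (∀ x : 𝓞 K, τ • x - x ∈ P) → τ = 1 := by
  obtain ⟨N, hN0, hN⟩ := exists_bad K
  refine ⟨N, hN0, fun P ℓ hP hℓ hℓP hdvd τ hτ => ?_⟩
  refine hN P ℓ hP hℓ hℓP hdvd τ 1 fun y => ⟨τ • y - y, hτ y, ?_⟩
  rw [AlgEquiv.one_apply]
  rfl

end NF

section Val

variable {L : Type*} [Field L] [Algebra ℚ L]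

/-- Chevalley: a proper ideal of the ring of integers of an intermediate field is contained in
the maximal ideal of some valuation subring of the big field. -/
theorem exists_valuationSubring (E : IntermediateField ℚ L) (P : Ideal (𝓞 E))
    (hP : P ≠ ⊤) : ∃ A : ValuationSubring L, ∀ y ∈ P, (((y : 𝓞 E) : E) : L) ∈ A.nonunits := by
  let ι : 𝓞 E →+* L := (algebraMap E L).comp (algebraMap (𝓞 E) E)
  have hιinj : Function.Injective ι :=
    (algebraMap E L).injective.comp NumberField.RingOfIntegers.coe_injective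
  have hsurj : Function.Surjective ι.rangeRestrict := ι.rangeRestrict_surjective
  have hI : P.map ι.rangeRestrict ≠ ⊤ := by
    intro htop
    have h1 : (1 : ι.range) ∈ P.map ι.rangeRestrict := htop ▸ Submodule.mem_top
    obtain ⟨y, hy, hy1⟩ := (Ideal.mem_map_iff_of_surjective ι.rangeRestrict hsurj).mp h1
    have h2 : ι y = ι 1 := by
      have := congrArg Subtype.val hy1
      simpa using this
    rw [hιinj h2] at hy
    exact hP ((Ideal.eq_top_iff_one P).mpr hy)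
  obtain ⟨A, -, hA⟩ := Ideal.image_subset_nonunits_valuationSubring _ hI
  refine ⟨A, fun y hy => ?_⟩
  exact hA ⟨ι.rangeRestrict y, Ideal.mem_map_of_mem _ hy, rfl⟩

/-- Sums of non-units of a valuation subring are non-units. -/
theorem add_mem_nonunits (A : ValuationSubring L) {a b : L} (ha : a ∈ A.nonunits)
    (hb : b ∈ A.nonunits) : a + b ∈ A.nonunits := by
  rw [A.mem_nonunits_iff] at ha hb ⊢
  exact Valuation.map_add_lt _ ha hb

theorem zero_mem_nonunits (A : ValuationSubring L) : (0 : L) ∈ A.nonunits := by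
  rw [A.mem_nonunits_iff, map_zero]
  exact zero_lt_one

/-- A Frobenius element at `A`: it stabilises `A` and `σ x ≡ x ^ q` modulo the maximal ideal. -/
theorem frob_congr {A : ValuationSubring L} {τ : L ≃ₐ[ℚ] L} {q : ℕ} (h : A.IsFrobeniusAt τ q) :
    τ ∈ A.decompositionSubgroup ℚ ∧ ∀ x ∈ A, τ x - x ^ q ∈ A.nonunits := by
  obtain ⟨hτ, h⟩ := h
  refine ⟨hτ, fun x hx => ?_⟩
  have h1 := h (IsLocalRing.residue A ⟨x, hx⟩)
  rw [← IsLocalRing.ResidueField.residue_smul, ← map_pow, ← sub_eq_zero, ← map_sub,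
    IsLocalRing.residue_eq_zero_iff, ← A.coe_mem_nonunits_iff] at h1
  exact h1

/-- An element of the decomposition group maps `A` into `A`. -/
theorem apply_mem_of_mem_decomposition {A : ValuationSubring L} {τ : L ≃ₐ[ℚ] L}
    (hτ : τ ∈ A.decompositionSubgroup ℚ) {x : L} (hx : x ∈ A) : τ x ∈ A := by
  have h1 : τ • A = A := hτ
  have h2 : τ • x ∈ τ • A := ValuationSubring.smul_mem_pointwise_smul τ x A hx
  rw [h1] at h2
  exact h2

/-- An element of the decomposition group maps the maximal ideal of `A` into itself. -/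
theorem apply_mem_nonunits_of_mem_decomposition {A : ValuationSubring L} {τ : L ≃ₐ[ℚ] L}
    (hτ : τ ∈ A.decompositionSubgroup ℚ) {y : L} (hy : y ∈ A.nonunits) : τ y ∈ A.nonunits := by
  have hτ' : τ⁻¹ ∈ A.decompositionSubgroup ℚ := inv_mem hτ
  rw [ValuationSubring.mem_nonunits_iff_or] at hy ⊢
  rcases hy with rfl | hy
  · exact Or.inl (map_zero τ)
  · refine Or.inr fun h => hy ?_
    have h3 := apply_mem_of_mem_decomposition hτ' h
    rw [map_inv₀, ← AlgEquiv.mul_apply, inv_mul_cancel, AlgEquiv.one_apply] at h3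
    exact h3

/-- Powers of a Frobenius element at `A` act as powers of the Frobenius on the residue field. -/
theorem frob_pow_congr {A : ValuationSubring L} {τ : L ≃ₐ[ℚ] L} {q : ℕ}
    (h : A.IsFrobeniusAt τ q) (m : ℕ) :
    ∀ x ∈ A, (τ ^ m) x ∈ A ∧ (τ ^ m) x - x ^ (q ^ m) ∈ A.nonunits := by
  obtain ⟨hτ, hcong⟩ := frob_congr h
  induction m with
  | zero =>
    intro x hx
    refine ⟨by simpa using hx, ?_⟩
    have h0 : (τ ^ 0) x - x ^ (q ^ 0) = 0 := by simp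
    rw [h0]
    exact zero_mem_nonunits A
  | succ m ih =>
    intro x hx
    obtain ⟨h1, h2⟩ := ih x hx
    have e1 : (τ ^ (m + 1)) x = τ ((τ ^ m) x) := by
      rw [pow_succ', AlgEquiv.mul_apply]
    refine ⟨by rw [e1]; exact apply_mem_of_mem_decomposition hτ h1, ?_⟩
    have e2 : (τ ^ (m + 1)) x - x ^ (q ^ (m + 1))
        = τ ((τ ^ m) x - x ^ (q ^ m)) + (τ (x ^ (q ^ m)) - (x ^ (q ^ m)) ^ q) := by
      rw [e1, map_sub, pow_succ, pow_mul]
      ring
    rw [e2]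
    exact add_mem_nonunits A (apply_mem_nonunits_of_mem_decomposition hτ h2)
      (hcong _ (pow_mem hx _))

end Val

section Glue

local notation "Qb" => AlgebraicClosure ℚ

/-- An element of `𝓞 E` lying in the maximal ideal of `A` lies in the prime `P` that `A`
dominates. -/
theorem mem_of_mem_nonunits {E : IntermediateField ℚ Qb} [NumberField E] {P : Ideal (𝓞 E)}
    (hPmax : P.IsMaximal) {A : ValuationSubring Qb}
    (hA : ∀ y ∈ P, (((y : 𝓞 E) : E) : Qb) ∈ A.nonunits) {w : 𝓞 E}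
    (hw : (((w : 𝓞 E) : E) : Qb) ∈ A.nonunits) : w ∈ P := by
  by_contra hwP
  obtain ⟨a, i, hi, hai⟩ := hPmax.exists_inv hwP
  have h1 : (((a : 𝓞 E) : E) : Qb) ∈ A :=
    Fermat.Agent.S54.mem_valuationSubring_of_isIntegral A
      ((NumberField.RingOfIntegers.isIntegral_coe a).map (IsScalarTower.toAlgHom ℤ E Qb))
  have h2 : (((a : 𝓞 E) : E) : Qb) * (((w : 𝓞 E) : E) : Qb) ∈ A.nonunits :=
    Fermat.Agent.S54.mul_mem_nonunits A h1 hw
  have h3 : (1 : Qb) = (((a : 𝓞 E) : E) : Qb) * (((w : 𝓞 E) : E) : Qb)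
      + (((i : 𝓞 E) : E) : Qb) := by
    have h4 : (((a * w + i : 𝓞 E) : E) : Qb) = (((1 : 𝓞 E) : E) : Qb) := by rw [hai]
    rw [show (1 : Qb) = (((1 : 𝓞 E) : E) : Qb) by simp, ← h4]
    push_cast
    rfl
  exact Fermat.Agent.S54.one_notMem_nonunits A (h3 ▸ add_mem_nonunits A h2 (hA i hi))

/-- **The glue**: the counting statement implies weak Chebotarev in the form of the interface. -/
theorem chebStmt_of_stab (hSt : StabStmt) : ChebStmt := by
  intro L hL S σ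
  haveI := hL
  haveI : IsAlgClosure ℚ Qb := AlgebraicClosure.instIsAlgClosure ℚ
  haveI : Normal ℚ Qb := IsAlgClosure.normal ℚ Qb
  let L' : IntermediateField ℚ Qb := IntermediateField.normalClosure ℚ L Qb
  haveI : FiniteDimensional ℚ L' := normalClosure.is_finiteDimensional ℚ L Qb
  haveI : Normal ℚ L' := normalClosure.normal ℚ L Qb
  haveI : NumberField L' := { to_charZero := inferInstance, to_finiteDimensional := inferInstance }
  haveI : IsGalois ℚ L' := {}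
  let g : L' ≃ₐ[ℚ] L' := σ.restrictNormal L'
  obtain ⟨N, hN0, hN⟩ := exists_bad L'
  obtain ⟨ℓ, P, hℓ, hℓT, hP, hℓP, hgP⟩ := hSt L' g (S ∪ N.primeFactors)
  have hℓS : ℓ ∉ S := fun h => hℓT (Finset.mem_union_left _ h)
  have hℓN : ¬ ℓ ∣ N := fun h =>
    hℓT (Finset.mem_union_right _ (Nat.mem_primeFactors.mpr ⟨hℓ, h, hN0⟩))
  have hP0 : P ≠ ⊥ := by
    rintro rfl
    have h0 : (ℓ : 𝓞 L') = 0 := by simpa using hℓP
    exact hℓ.ne_zero (by exact_mod_cast h0)
  have hPmax : P.IsMaximal := hP.isMaximal hP0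
  obtain ⟨A, hA⟩ := exists_valuationSubring L' P hP.ne_top
  have hAℓ : A.LiesOverPrime ℓ := by
    have h1 := hA _ hℓP
    have h2 : ((((ℓ : 𝓞 L') : 𝓞 L') : L') : Qb) = (ℓ : Qb) := by simp
    rw [h2] at h1
    exact h1
  obtain ⟨τ, hτ⟩ := Fermat.Agent.S54.exists_isFrobeniusAt A hℓ hAℓ
  obtain ⟨m, hm⟩ := exists_frob_pow P hP hℓ hℓP g hgP
  refine ⟨ℓ, A, τ, m, hℓ, hℓS, hAℓ, hτ, ?_⟩
  let h : L' ≃ₐ[ℚ] L' := (τ ^ m).restrictNormal L'
  have hgc : ∀ x : L', ((g x : L') : Qb) = σ (x : Qb) := fun x =>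
    AlgEquiv.restrictNormal_commutes σ L' x
  have hhc : ∀ x : L', ((h x : L') : Qb) = (τ ^ m) (x : Qb) := fun x =>
    AlgEquiv.restrictNormal_commutes (τ ^ m) L' x
  have hgh : g = h := by
    apply hN P ℓ hP hℓ hℓP hℓN
    intro y
    obtain ⟨z, hz, hzeq⟩ := hm y
    let gy : 𝓞 L' := NumberField.RingOfIntegers.mapRingHom (g : L' →+* L') y
    let hy : 𝓞 L' := NumberField.RingOfIntegers.mapRingHom (h : L' →+* L') y
    have hgy : ((gy : 𝓞 L') : L') = g (y : L') := rfl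
    have hhy : ((hy : 𝓞 L') : L') = h (y : L') := rfl
    refine ⟨gy - hy, ?_, by rw [← hgy, ← hhy]; push_cast; rfl⟩
    apply mem_of_mem_nonunits hPmax hA
    have hyA : (((y : 𝓞 L') : L') : Qb) ∈ A :=
      Fermat.Agent.S54.mem_valuationSubring_of_isIntegral A
        ((NumberField.RingOfIntegers.isIntegral_coe y).map (IsScalarTower.toAlgHom ℤ L' Qb))
    obtain ⟨-, hfrob⟩ := frob_pow_congr hτ m _ hyA
    have hzA := hA z hz
    have e1 : ((((gy - hy : 𝓞 L') : 𝓞 L') : L') : Qb)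
        = (((z : 𝓞 L') : L') : Qb)
          - ((τ ^ m) (((y : 𝓞 L') : L') : Qb) - (((y : 𝓞 L') : L') : Qb) ^ (ℓ ^ m)) := by
      have e2 : ((((gy - hy : 𝓞 L') : 𝓞 L') : L') : Qb)
          = ((g (y : L') : L') : Qb) - ((h (y : L') : L') : Qb) := by
        rw [← hgy, ← hhy]; push_cast; rfl
      rw [e2, hzeq, hhc]
      push_cast
      ring
    rw [e1, sub_eq_add_neg]
    refine add_mem_nonunits A hzA ?_
    have hneg := Fermat.Agent.S54.mul_mem_nonunits A (a := -1) (neg_mem (one_mem A)) hfrob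
    simpa using hneg
  intro x hx
  have hx' : x ∈ L' := IntermediateField.le_normalClosure L hx
  have e1 : σ x = ((g ⟨x, hx'⟩ : L') : Qb) := (hgc ⟨x, hx'⟩).symm
  have e2 : (τ ^ m) x = ((h ⟨x, hx'⟩ : L') : Qb) := (hhc ⟨x, hx'⟩).symm
  rw [e1, e2, hgh]

end Glue

end Fermat.Agent.S29.ChebGlueB
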