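/-
S29 (wave 9), weak Chebotarev [CHEB]: definitions for the counting argument.

`L/ℚ` a finite Galois number field, `G = L ≃ₐ[ℚ] L`.  For a nonzero prime `v` of `𝓞 L`:
`dec v` its decomposition group; for a subgroup `H` of `G`, `FF H` the fixed field of `H` and
`down H v` the prime of `FF H` below `v`.
-/
import Mathlib
import Fermat.Agent.S14.XLower

set_option autoImplicit false

open scoped NumberField nonZeroDivisors Pointwise

namespace Fermat.Agent.S29.CycFrob

open Fermat.Agent.S14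

variable (L : Type) [Field L] [NumberField L]

/-- the fixed field of a subgroup `H` of `Gal(L/ℚ)`. -/
abbrev FF (H : Subgroup (L ≃ₐ[ℚ] L)) : IntermediateField ℚ L :=
  FixedPoints.intermediateField H

variable {L}

/-- the decomposition group of a nonzero prime of `𝓞 L`. -/
def dec (v : PrimeIdeal L) : Subgroup (L ≃ₐ[ℚ] L) :=
  MulAction.stabilizer (L ≃ₐ[ℚ] L) (v.1 : Ideal (𝓞 L))

theorem mem_dec {v : PrimeIdeal L} {g : L ≃ₐ[ℚ] L} :
    g ∈ dec v ↔ g • (v.1 : Ideal (𝓞 L)) = (v.1 : Ideal (𝓞 L)) := Iff.rfl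

/-- the prime of the fixed field `FF H` below a nonzero prime of `𝓞 L`. -/
def down (H : Subgroup (L ≃ₐ[ℚ] L)) (v : PrimeIdeal L) : PrimeIdeal (FF L H) :=
  haveI : (v.1 : Ideal (𝓞 L)).IsPrime := v.2
  ⟨⟨(v.1 : Ideal (𝓞 L)).under (𝓞 (FF L H)), mem_nonZeroDivisors_iff_ne_zero.mpr (by
      intro h0
      exact A5.primeIdeal_ne_bot v (Ideal.eq_bot_of_comap_eq_bot h0))⟩,
    Ideal.IsPrime.under _ _⟩

theorem coe_down (H : Subgroup (L ≃ₐ[ℚ] L)) (v : PrimeIdeal L) :
    ((down H v).1 : Ideal (𝓞 (FF L H))) = (v.1 : Ideal (𝓞 L)).under (𝓞 (FF L H)) := rfl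

end Fermat.Agent.S29.CycFrob
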