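/-
S29 (wave 9), weak Chebotarev [CHEB]: the algebra lemmas of the counting argument (slice 1).

`L/ℚ` a finite Galois number field, `G = L ≃ₐ[ℚ] L`, `H ≤ G`, `FF L H` the fixed field,
`down H v` the prime of `FF L H` below the nonzero prime `v` of `𝓞 L`, `dec v` the decomposition
group.  Facts:

* `ratPrime_down`: `down H v` and `v` lie over the same rational prime;
* `down_eq_iff`: `down H v = down H w` iff `w` is an `H`-translate of `v`;
* `ram_mul_inertia_mul_card`: `e(r/ℤ) f(r/ℤ) |H ∩ D_v| = |D_v|` for `r = down H v`;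
* `ram_down_dvd`: `e(r/ℤ) ∣ e(v/ℤ)`;
* `finite_fiber`, `fiber_nonempty`, `sum_fiber`: the fibres of `down H` are finite, nonempty and
  `∑_{v ↦ r} |H ∩ D_v| = |H|` (orbit–stabiliser);
* `inertia_trivial`: an unramified prime has trivial inertia group.
-/
import Mathlib
import Fermat.Agent.S29.CFDefs

set_option autoImplicit false
set_option linter.unusedSectionVars false
set_option linter.style.haveILetI false

open scoped NumberField nonZeroDivisors Pointwise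

namespace Fermat.Agent.S29.CycFrob

open Fermat.Agent.S14

variable {L : Type} [Field L] [NumberField L] [IsGalois ℚ L]
  (H : Subgroup (L ≃ₐ[ℚ] L)) (v w : PrimeIdeal L)

namespace AlgAux

/-- the Galois-group structure of `H` on `𝓞 L` over `𝓞 (FF L H)`. -/
theorem isGaloisGroup_sub : IsGaloisGroup ↥H (𝓞 (FF L H)) (𝓞 L) :=
  IsGaloisGroup.of_isFractionRing H (𝓞 (FF L H)) (𝓞 L) (FF L H) L

theorem liesOver_down : (v.1 : Ideal (𝓞 L)).LiesOver ((down H v).1 : Ideal (𝓞 (FF L H))) :=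
  ⟨rfl⟩

/-- `|D_v| = e_v f_v`. -/
theorem card_dec : Nat.card (dec v) =
    (v.1 : Ideal (𝓞 L)).ramificationIdx ℤ * (v.1 : Ideal (𝓞 L)).inertiaDeg ℤ := by
  haveI : (v.1 : Ideal (𝓞 L)).IsPrime := v.2
  have h := Ideal.card_stabilizer_eq (G := L ≃ₐ[ℚ] L) ((v.1 : Ideal (𝓞 L)).under ℤ)
    (v.1 : Ideal (𝓞 L))
  rw [Ideal.ramificationIdxIn_eq_ramificationIdx _ (v.1 : Ideal (𝓞 L)) (L ≃ₐ[ℚ] L),
    Ideal.inertiaDegIn_eq_inertiaDeg _ (v.1 : Ideal (𝓞 L)) (L ≃ₐ[ℚ] L)] at h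
  exact h

/-- `|D_v ∩ H| = e(v/r) f(v/r)`, `r` the prime of the fixed field of `H` below `v`. -/
theorem card_inf_dec : Nat.card (H ⊓ dec v : Subgroup (L ≃ₐ[ℚ] L)) =
    (v.1 : Ideal (𝓞 L)).ramificationIdx (𝓞 (FF L H)) *
      (v.1 : Ideal (𝓞 L)).inertiaDeg (𝓞 (FF L H)) := by
  haveI := isGaloisGroup_sub H
  haveI : (v.1 : Ideal (𝓞 L)).IsPrime := v.2
  haveI := liesOver_down H v
  haveI : ((down H v).1 : Ideal (𝓞 (FF L H))).IsPrime := (down H v).2
  have h := Ideal.card_stabilizer_eq (G := ↥H) ((down H v).1 : Ideal (𝓞 (FF L H)))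
    (v.1 : Ideal (𝓞 L))
  rw [Ideal.ramificationIdxIn_eq_ramificationIdx _ (v.1 : Ideal (𝓞 L)) ↥H,
    Ideal.inertiaDegIn_eq_inertiaDeg _ (v.1 : Ideal (𝓞 L)) ↥H] at h
  rw [← h]
  symm
  exact Nat.card_congr
    { toFun := fun σ => ⟨σ.1.1, σ.1.2, σ.2⟩
      invFun := fun σ => ⟨⟨σ.1, σ.2.1⟩, σ.2.2⟩
      left_inv := fun _ => rfl
      right_inv := fun _ => rfl }

end AlgAux

open AlgAux

/-- (A1) `down H v` and `v` lie over the same rational prime. -/
theorem ratPrime_down : A5.ratPrime (FF L H) (down H v) = A5.ratPrime L v := by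
  unfold A5.ratPrime
  rw [coe_down, Ideal.under_under]

/-- (A3) two primes of `𝓞 L` lie over the same prime of the fixed field of `H` iff they are
`H`-conjugate. -/
theorem down_eq_iff : down H v = down H w ↔
    ∃ h ∈ H, h • (v.1 : Ideal (𝓞 L)) = (w.1 : Ideal (𝓞 L)) := by
  haveI := isGaloisGroup_sub H
  haveI : (v.1 : Ideal (𝓞 L)).IsPrime := v.2
  haveI : (w.1 : Ideal (𝓞 L)).IsPrime := w.2
  constructor
  · intro h
    haveI := liesOver_down H v
    haveI : (w.1 : Ideal (𝓞 L)).LiesOver ((down H v).1 : Ideal (𝓞 (FF L H))) := by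
      rw [h]; exact liesOver_down H w
    obtain ⟨σ, hσ⟩ := Ideal.exists_smul_eq_of_isGaloisGroup
      ((down H v).1 : Ideal (𝓞 (FF L H))) (v.1 : Ideal (𝓞 L)) (w.1 : Ideal (𝓞 L)) ↥H
    exact ⟨σ.1, σ.2, hσ⟩
  · rintro ⟨h, hh, hv⟩
    apply Subtype.ext
    apply Subtype.ext
    rw [coe_down, coe_down, ← hv]
    have := Ideal.under_smul (𝓞 (FF L H)) (v.1 : Ideal (𝓞 L)) (⟨h, hh⟩ : ↥H)
    exact this.symm

/-- (A4) `e(r/ℤ) f(r/ℤ) |H ∩ D_v| = |D_v|` for `r = down H v`. -/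
theorem ram_mul_inertia_mul_card :
    ((down H v).1 : Ideal (𝓞 (FF L H))).ramificationIdx ℤ *
      ((down H v).1 : Ideal (𝓞 (FF L H))).inertiaDeg ℤ *
      Nat.card (H ⊓ dec v : Subgroup (L ≃ₐ[ℚ] L)) = Nat.card (dec v) := by
  haveI := liesOver_down H v
  rw [card_dec, card_inf_dec,
    Ideal.ramificationIdx_tower ((down H v).1 : Ideal (𝓞 (FF L H))) (v.1 : Ideal (𝓞 L)) (R := ℤ),
    Ideal.inertiaDeg_tower ((down H v).1 : Ideal (𝓞 (FF L H))) (v.1 : Ideal (𝓞 L)) (R := ℤ)]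
  ring

/-- (A5) the ramification index of `down H v` divides that of `v`. -/
theorem ram_down_dvd : ((down H v).1 : Ideal (𝓞 (FF L H))).ramificationIdx ℤ ∣
    (v.1 : Ideal (𝓞 L)).ramificationIdx ℤ := by
  haveI := liesOver_down H v
  exact Ideal.ramificationIdx_below_dvd ((down H v).1 : Ideal (𝓞 (FF L H))) (v.1 : Ideal (𝓞 L))

/-- (A6) the fibres of `down H` are finite. -/
theorem finite_fiber (r : PrimeIdeal (FF L H)) : {v : PrimeIdeal L | down H v = r}.Finite := by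
  refine (A5.finite_above (K := L) (A5.ratPrime (FF L H) r)).subset ?_
  intro v hv
  have hv' : down H v = r := hv
  show A5.ratPrime L v = A5.ratPrime (FF L H) r
  rw [← hv', ratPrime_down]

/-- (A6) the fibres of `down H` are nonempty. -/
theorem fiber_nonempty (r : PrimeIdeal (FF L H)) : ∃ v : PrimeIdeal L, down H v = r := by
  haveI : (r.1 : Ideal (𝓞 (FF L H))).IsPrime := r.2
  obtain ⟨⟨P, hP1, hP2⟩⟩ :=
    (inferInstance : Nonempty (Ideal.primesOver (r.1 : Ideal (𝓞 (FF L H))) (𝓞 L)))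
  have hPne : P ≠ ⊥ := Ideal.ne_bot_of_liesOver_of_ne_bot (A5.primeIdeal_ne_bot r) P
  refine ⟨⟨⟨P, mem_nonZeroDivisors_iff_ne_zero.mpr hPne⟩, hP1⟩, ?_⟩
  apply Subtype.ext
  apply Subtype.ext
  rw [coe_down]
  exact hP2.over.symm

namespace AlgAux

/-- the translate of a nonzero prime by a Galois element. -/
noncomputable def smulP (g : L ≃ₐ[ℚ] L) (v : PrimeIdeal L) : PrimeIdeal L :=
  haveI : (v.1 : Ideal (𝓞 L)).IsPrime := v.2
  ⟨⟨g • (v.1 : Ideal (𝓞 L)), mem_nonZeroDivisors_iff_ne_zero.mpr (by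
      intro h0
      apply A5.primeIdeal_ne_bot v
      have h1 := congrArg (fun I : Ideal (𝓞 L) => g⁻¹ • I) h0
      simpa using h1)⟩, Ideal.IsPrime.smul g⟩

theorem coe_smulP (g : L ≃ₐ[ℚ] L) (v : PrimeIdeal L) :
    ((smulP g v).1 : Ideal (𝓞 L)) = g • (v.1 : Ideal (𝓞 L)) := rfl

/-- the fibre of `down H` through `v`, as a set of ideals, is the `H`-orbit of `v`. -/
theorem image_fiber_eq_orbit :
    (fun w : PrimeIdeal L => (w.1 : Ideal (𝓞 L))) '' {w : PrimeIdeal L | down H w = down H v} =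
      MulAction.orbit ↥H (v.1 : Ideal (𝓞 L)) := by
  ext P
  constructor
  · rintro ⟨w, hw, rfl⟩
    have hw' : down H w = down H v := hw
    obtain ⟨h, hh, hv⟩ := (down_eq_iff H v w).mp hw'.symm
    exact ⟨⟨h, hh⟩, hv⟩
  · rintro ⟨σ, rfl⟩
    refine ⟨smulP σ.1 v, ?_, rfl⟩
    show down H (smulP σ.1 v) = down H v
    exact ((down_eq_iff H v (smulP σ.1 v)).mpr ⟨σ.1, σ.2, rfl⟩).symm

/-- orbit–stabiliser on a fibre of `down H`. -/
theorem card_fiber_mul (r : PrimeIdeal (FF L H)) (hv : down H v = r) :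
    (finite_fiber H r).toFinset.card * Nat.card (H ⊓ dec v : Subgroup (L ≃ₐ[ℚ] L)) =
      Nat.card H := by
  have h1 : Nat.card (MulAction.orbit ↥H (v.1 : Ideal (𝓞 L))) *
      Nat.card (MulAction.stabilizer ↥H (v.1 : Ideal (𝓞 L))) = Nat.card ↥H := by
    simpa using Nat.card_congr (MulAction.orbitProdStabilizerEquivGroup ↥H (v.1 : Ideal (𝓞 L)))
  have h2 : Nat.card (MulAction.stabilizer ↥H (v.1 : Ideal (𝓞 L))) =
      Nat.card (H ⊓ dec v : Subgroup (L ≃ₐ[ℚ] L)) :=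
    Nat.card_congr
      { toFun := fun σ => ⟨σ.1.1, σ.1.2, σ.2⟩
        invFun := fun σ => ⟨⟨σ.1, σ.2.1⟩, σ.2.2⟩
        left_inv := fun _ => rfl
        right_inv := fun _ => rfl }
  have h3 : Nat.card (MulAction.orbit ↥H (v.1 : Ideal (𝓞 L))) =
      (finite_fiber H r).toFinset.card := by
    rw [← image_fiber_eq_orbit, hv, Nat.card_coe_set_eq,
      Set.ncard_image_of_injective _ A5.coe_injective',
      Set.ncard_eq_toFinset_card _ (finite_fiber H r)]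
  rw [← h1, h2, h3]

end AlgAux

open AlgAux

/-- (A7) `∑_{v ↦ r} |H ∩ D_v| = |H|`. -/
theorem sum_fiber (r : PrimeIdeal (FF L H)) :
    ∑ v ∈ (finite_fiber H r).toFinset, Nat.card (H ⊓ dec v : Subgroup (L ≃ₐ[ℚ] L)) =
      Nat.card H := by
  obtain ⟨v₀, hv₀⟩ := fiber_nonempty H r
  have hne : (finite_fiber H r).toFinset.card ≠ 0 := by
    apply Finset.card_ne_zero_of_mem (a := v₀)
    simpa using hv₀
  apply Nat.eq_of_mul_eq_mul_left (Nat.pos_of_ne_zero hne)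
  rw [Finset.mul_sum]
  rw [Finset.sum_congr rfl (fun v hv => card_fiber_mul H v r (by simpa using hv))]
  simp

/-- an unramified prime has trivial inertia group. -/
theorem inertia_trivial (hv : (v.1 : Ideal (𝓞 L)).ramificationIdx ℤ = 1) (τ : L ≃ₐ[ℚ] L)
    (hτ : ∀ x : 𝓞 L, τ • x - x ∈ (v.1 : Ideal (𝓞 L))) : τ = 1 := by
  haveI : (v.1 : Ideal (𝓞 L)).IsPrime := v.2
  have h := Ideal.card_inertia_eq_ramificationIdxIn (G := L ≃ₐ[ℚ] L)
    ((v.1 : Ideal (𝓞 L)).under ℤ) (v.1 : Ideal (𝓞 L))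
  rw [Ideal.ramificationIdxIn_eq_ramificationIdx _ (v.1 : Ideal (𝓞 L)) (L ≃ₐ[ℚ] L), hv] at h
  have hbot := (Subgroup.card_eq_one).mp h
  have hmem : τ ∈ Ideal.inertia (L ≃ₐ[ℚ] L) (v.1 : Ideal (𝓞 L)) := hτ
  rw [hbot] at hmem
  exact Subgroup.mem_bot.mp hmem

end Fermat.Agent.S29.CycFrob
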