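/-
S29 (wave 9), weak Chebotarev [CHEB], counting argument, SLICE 2 (helper1): ramification input.

For a number field `L` (no Galois hypothesis):
* `finite_ramified`: only finitely many nonzero primes of `𝓞 L` are ramified over `ℤ`;
* `ncard_above_le`: at most `[L : ℚ]` primes of `𝓞 L` lie above a rational prime.
-/
import Mathlib
import Fermat.Agent.S29.CFDefs

set_option autoImplicit false
set_option linter.style.haveILetI false

open scoped NumberField nonZeroDivisors Pointwise

namespace Fermat.Agent.S29.CycFrob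

open Fermat.Agent.S14

variable {L : Type} [Field L] [NumberField L]

/-- Only finitely many prime ideals divide a nonzero ideal of `𝓞 L`. -/
theorem finite_prime_dvd {I : Ideal (𝓞 L)} (hI : I ≠ ⊥) :
    {P : Ideal (𝓞 L) | P.IsPrime ∧ P ∣ I}.Finite := by
  have h := Ideal.finite_factors (R := 𝓞 L) hI
  refine (h.image (fun v : IsDedekindDomain.HeightOneSpectrum (𝓞 L) => v.asIdeal)).subset ?_
  rintro P ⟨hP, hPI⟩
  have hP0 : P ≠ ⊥ := by
    rintro rfl
    rw [← Ideal.zero_eq_bot, zero_dvd_iff] at hPI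
    exact hI hPI
  exact ⟨⟨P, hP, hP0⟩, hPI, rfl⟩

/-- **(R1)** only finitely many nonzero primes of `𝓞 L` are ramified over `ℤ`. -/
theorem finite_ramified :
    {v : PrimeIdeal L | (v.1 : Ideal (𝓞 L)).ramificationIdx ℤ ≠ 1}.Finite := by
  have hD : differentIdeal ℤ (𝓞 L) ≠ ⊥ := differentIdeal_ne_bot
  refine Set.Finite.of_finite_image (f := fun v : PrimeIdeal L => (v.1 : Ideal (𝓞 L)))
    ((finite_prime_dvd hD).subset ?_) A5.coe_injective'.injOn
  rintro P ⟨v, hv, rfl⟩
  haveI : (v.1 : Ideal (𝓞 L)).IsPrime := v.2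
  refine ⟨v.2, ?_⟩
  rw [dvd_differentIdeal_iff]
  intro hunr
  exact hv (Ideal.ramificationIdx_eq_one _ ℤ)

/-- **(R2)** at most `[L : ℚ]` primes of `𝓞 L` lie above a given rational prime. -/
theorem ncard_above_le (q : ℕ) :
    {v : PrimeIdeal L | A5.ratPrime L v = q}.ncard ≤ Module.finrank ℚ L := by
  by_cases hq : q.Prime
  · rw [A5.ncard_above q hq]
    haveI : (Ideal.span {(q : ℤ)}).IsPrime :=
      (Ideal.span_singleton_prime (by exact_mod_cast hq.ne_zero)).mpr
        (Nat.prime_iff_prime_int.mp hq)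
    haveI : Fact q.Prime := ⟨hq⟩
    haveI : Fintype ((Ideal.span {(q : ℤ)}).primesOver (𝓞 L)) :=
      (IsDedekindDomain.primesOver_finite (Ideal.span {(q : ℤ)}) (𝓞 L)).fintype
    have hsum := Ideal.sum_ramification_inertia_eq_finrank (Ideal.span {(q : ℤ)}) (𝓞 L)
    rw [NumberField.RingOfIntegers.rank] at hsum
    rw [← hsum, ← Nat.card_coe_set_eq, Nat.card_eq_fintype_card, Fintype.card_eq_sum_ones]
    refine Finset.sum_le_sum fun P _ => ?_
    haveI : P.1.IsPrime := P.2.1
    exact Nat.one_le_iff_ne_zero.mpr (Nat.mul_ne_zero (Ideal.ramificationIdx_pos P.1 ℤ).ne'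
      (Ideal.inertiaDeg_pos P.1 ℤ).ne')
  · rw [A5.above_eq_empty q hq, Set.ncard_empty]
    exact Nat.zero_le _

end Fermat.Agent.S29.CycFrob
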