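/-
S29 (wave 9), chain C3 (weak Chebotarev), analytic part (helper11).

For every number field `K`:  `log (1/(s-1)) - C ≤ ∑_v N v^(-s)` on `(1, 2]` (sum over the nonzero
prime ideals).  Together with `S14.ANPrimeSum.primeSum_le` (the upper bound) this is the
"prime ideal theorem in logarithmic form": `∑_v N v^(-s) = log (1/(s-1)) + O(1)`.

Proof: the finite sieve identity `∑_{I coprime to S} N I^(-s) = ζ_K(s) ∏_{v ∈ S} (1 - N v^(-s))`
(`S14.A4.sieve_identity`), the left side is `≤ 3/2` for `S` large, `-log (1 - x) ≤ x + 2 x²` on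
`[0, 1/2]`, and `c / (s - 1) ≤ ζ_K(s)` (`S14.ANBridge.exists_le_izeta`, from the residue of the
Dedekind zeta function).
-/
import Mathlib
import Fermat.Agent.S14.EulerLower
import Fermat.Agent.S14.ANBridge

set_option autoImplicit false

open scoped NumberField nonZeroDivisors
open Filter Topology

namespace Fermat.Agent.S29.PSLB

open Fermat.Agent.S14

variable (K : Type) [Field K] [NumberField K]

/-- real form of the finite sieve identity for `N(I)^(-s)` -/
theorem sieve_real {s : ℝ} (hs : 1 < s) (S : Finset (PrimeIdeal K)) :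
    ∑' I, (A4.coprimeTo K S).indicator (fun I => normPow K I s) I
      = (∑' I : (Ideal (𝓞 K))⁰, normPow K I s) * ∏ v ∈ S, (1 - normPow K v.1 s) := by
  have hA0 : Summable fun I : (Ideal (𝓞 K))⁰ => normPow K I s := A0.idealSummable K s hs
  have h := A4.sieve_identity (K := K) (fun I => ((normPow K I s : ℝ) : ℂ))
    (fun I J => by rw [A4.normPow_mul, Complex.ofReal_mul])
    (by
      refine hA0.congr fun I => ?_
      rw [Complex.norm_real, Real.norm_of_nonneg (A4.normPow_pos I s).le]) S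
  apply Complex.ofReal_injective
  rw [Complex.ofReal_tsum, Complex.ofReal_mul, Complex.ofReal_tsum, Complex.ofReal_prod]
  have e1 : ∀ I, (((A4.coprimeTo K S).indicator (fun I => normPow K I s) I : ℝ) : ℂ)
      = (A4.coprimeTo K S).indicator (fun I => ((normPow K I s : ℝ) : ℂ)) I := by
    intro I
    by_cases hI : I ∈ A4.coprimeTo K S
    · rw [Set.indicator_of_mem hI, Set.indicator_of_mem hI]
    · rw [Set.indicator_of_notMem hI, Set.indicator_of_notMem hI, Complex.ofReal_zero]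
  rw [tsum_congr e1, h]
  congr 1
  refine Finset.prod_congr rfl fun v _ => ?_
  rw [Complex.ofReal_sub, Complex.ofReal_one]

theorem log_one_sub_ge {x : ℝ} (_h0 : 0 ≤ x) (h1 : x ≤ 1 / 2) :
    -x - 2 * x ^ 2 ≤ Real.log (1 - x) := by
  have hpos : 0 < 1 - x := by linarith
  have h2 := Real.one_sub_inv_le_log_of_pos hpos
  have h3 : -x - 2 * x ^ 2 ≤ 1 - (1 - x)⁻¹ := by
    rw [← sub_nonneg]
    have : 1 - (1 - x)⁻¹ - (-x - 2 * x ^ 2) = x ^ 2 * (1 - 2 * x) / (1 - x) := by
      field_simp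
      ring
    rw [this]
    exact div_nonneg (mul_nonneg (sq_nonneg x) (by linarith)) hpos.le
  linarith

/-- the norm of a nonzero prime ideal is at least `2` -/
theorem two_le_absNorm (v : PrimeIdeal K) :
    2 ≤ Ideal.absNorm ((v.1 : (Ideal (𝓞 K))⁰) : Ideal (𝓞 K)) := by
  have _h0 : Ideal.absNorm ((v.1 : (Ideal (𝓞 K))⁰) : Ideal (𝓞 K)) ≠ 0 :=
    (A4.absNorm_pos v.1).ne'
  have h1 : Ideal.absNorm ((v.1 : (Ideal (𝓞 K))⁰) : Ideal (𝓞 K)) ≠ 1 := fun h =>
    v.2.ne_top (Ideal.absNorm_eq_one_iff.mp h)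
  omega

theorem normPow_prime_le_half (v : PrimeIdeal K) {s : ℝ} (hs : 1 ≤ s) :
    normPow K v.1 s ≤ 1 / 2 := by
  unfold normPow
  have h2 : (2 : ℝ) ≤ (Ideal.absNorm ((v.1 : (Ideal (𝓞 K))⁰) : Ideal (𝓞 K)) : ℝ) := by
    exact_mod_cast two_le_absNorm K v
  calc (Ideal.absNorm ((v.1 : (Ideal (𝓞 K))⁰) : Ideal (𝓞 K)) : ℝ) ^ (-s)
      ≤ (Ideal.absNorm ((v.1 : (Ideal (𝓞 K))⁰) : Ideal (𝓞 K)) : ℝ) ^ (-(1 : ℝ)) :=
        Real.rpow_le_rpow_of_exponent_le (by linarith) (by linarith)
    _ = ((Ideal.absNorm ((v.1 : (Ideal (𝓞 K))⁰) : Ideal (𝓞 K)) : ℝ))⁻¹ := Real.rpow_neg_one _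
    _ ≤ 2⁻¹ := inv_anti₀ (by norm_num) h2
    _ = 1 / 2 := by norm_num

theorem normPow_sq_le (I : (Ideal (𝓞 K))⁰) {s : ℝ} (hs : 1 ≤ s) :
    normPow K I s ^ 2 ≤ normPow K I 2 := by
  unfold normPow
  have hN : (1 : ℝ) ≤ (Ideal.absNorm (I : Ideal (𝓞 K)) : ℝ) := by
    exact_mod_cast A4.absNorm_pos I
  rw [← Real.rpow_natCast, ← Real.rpow_mul (by linarith)]
  exact Real.rpow_le_rpow_of_exponent_le hN (by push_cast; nlinarith)

/-- **Lower bound for the prime sum of a number field.** -/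
theorem primeSum_ge : ∃ C : ℝ, ∀ s ∈ Set.Ioc (1 : ℝ) 2,
    Real.log (1 / (s - 1)) - C ≤ ∑' v : PrimeIdeal K, normPow K v.1 s := by
  classical
  obtain ⟨c, hc, hcle⟩ := ANBridge.exists_le_izeta K
  set C₂ : ℝ := ∑' v : PrimeIdeal K, normPow K v.1 2 with hC₂
  refine ⟨Real.log (3 / 2) + 2 * C₂ - Real.log c, fun s hs => ?_⟩
  obtain ⟨hs1, hs2⟩ := hs
  have hA0 : Summable fun I : (Ideal (𝓞 K))⁰ => normPow K I s := A0.idealSummable K s hs1
  set Z : ℝ := ∑' I : (Ideal (𝓞 K))⁰, normPow K I s with hZ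
  have hZge : c / (s - 1) ≤ Z := hcle s hs1 hs2
  have hs0 : 0 < s - 1 := by linarith
  have hZpos : 0 < Z := lt_of_lt_of_le (div_pos hc hs0) hZge
  -- a finite set of ideals carrying all but `1/2` of the mass
  have htail := tendsto_tsum_compl_atTop_zero (fun I : (Ideal (𝓞 K))⁰ => normPow K I s)
  obtain ⟨T, hT⟩ := ((htail.eventually (gt_mem_nhds (by norm_num : (0 : ℝ) < 1 / 2))).exists)
  set X : ℕ := T.sup (fun I => Ideal.absNorm (I : Ideal (𝓞 K))) with hX
  set S : Finset (PrimeIdeal K) := (A4.finite_primes_le K X).toFinset with hS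
  -- every ideal coprime to `S` other than `1` lies outside `T`
  have hout : ∀ I ∈ A4.coprimeTo K S, I ≠ 1 → I ∉ T := by
    intro I hI hI1 hIT
    have hItop : (I : Ideal (𝓞 K)) ≠ ⊤ := by
      intro h
      apply hI1
      apply Subtype.ext
      simpa using h
    obtain ⟨m, hm, hIm⟩ := Ideal.exists_le_maximal _ hItop
    have hm0 : m ≠ ⊥ := by
      rintro rfl
      exact (mem_nonZeroDivisors_iff_ne_zero.mp I.2) (le_bot_iff.mp hIm)
    let v : PrimeIdeal K := ⟨⟨m, mem_nonZeroDivisors_iff_ne_zero.mpr hm0⟩, hm.isPrime⟩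
    have hvS : v ∉ S := fun hvS => hI v hvS (Ideal.dvd_iff_le.mpr hIm)
    have hvX : ¬ Ideal.absNorm m ≤ X := by
      intro hle
      apply hvS
      rw [hS, Set.Finite.mem_toFinset]
      exact hle
    have hdvd : Ideal.absNorm m ∣ Ideal.absNorm (I : Ideal (𝓞 K)) :=
      Ideal.absNorm_dvd_absNorm_of_le hIm
    have hle1 : Ideal.absNorm m ≤ Ideal.absNorm (I : Ideal (𝓞 K)) :=
      Nat.le_of_dvd (A4.absNorm_pos I) hdvd
    have hle2 : Ideal.absNorm (I : Ideal (𝓞 K)) ≤ X :=
      Finset.le_sup (f := fun I : (Ideal (𝓞 K))⁰ => Ideal.absNorm (I : Ideal (𝓞 K))) hIT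
    exact hvX (hle1.trans hle2)
  -- the sieved sum is at most `3/2`
  have hsieve : ∑' I, (A4.coprimeTo K S).indicator (fun I => normPow K I s) I ≤ 3 / 2 := by
    have hle : ∀ I, (A4.coprimeTo K S).indicator (fun I => normPow K I s) I ≤
        ({1} : Set (Ideal (𝓞 K))⁰).indicator (fun I => normPow K I s) I +
          ({x | x ∉ T} : Set (Ideal (𝓞 K))⁰).indicator (fun I => normPow K I s) I := by
      intro I
      have hn1 : 0 ≤ ({1} : Set (Ideal (𝓞 K))⁰).indicator (fun I => normPow K I s) I :=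
        Set.indicator_nonneg (fun I _ => (A4.normPow_pos I s).le) I
      have hn2 : 0 ≤ ({x | x ∉ T} : Set (Ideal (𝓞 K))⁰).indicator (fun I => normPow K I s) I :=
        Set.indicator_nonneg (fun I _ => (A4.normPow_pos I s).le) I
      by_cases hI : I ∈ A4.coprimeTo K S
      · rw [Set.indicator_of_mem hI]
        by_cases h1 : I = 1
        · rw [Set.indicator_of_mem (show I ∈ ({1} : Set (Ideal (𝓞 K))⁰) from h1)]
          linarith
        · rw [Set.indicator_of_mem (show I ∈ ({x | x ∉ T} : Set (Ideal (𝓞 K))⁰) from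
            hout I hI h1)]
          linarith
      · rw [Set.indicator_of_notMem hI]
        linarith
    have hs1' : Summable (({1} : Set (Ideal (𝓞 K))⁰).indicator (fun I => normPow K I s)) :=
      hA0.indicator _
    have hs2' : Summable (({x | x ∉ T} : Set (Ideal (𝓞 K))⁰).indicator
        (fun I => normPow K I s)) := hA0.indicator _
    have hone : ∑' I, ({1} : Set (Ideal (𝓞 K))⁰).indicator (fun I => normPow K I s) I = 1 := by
      rw [← tsum_subtype, tsum_singleton (1 : (Ideal (𝓞 K))⁰) (fun I => normPow K I s),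
        A4.normPow_one]
    have htl : ∑' I, ({x | x ∉ T} : Set (Ideal (𝓞 K))⁰).indicator
        (fun I => normPow K I s) I ≤ 1 / 2 := by
      rw [← tsum_subtype]
      exact hT.le
    calc ∑' I, (A4.coprimeTo K S).indicator (fun I => normPow K I s) I
        ≤ ∑' I, (({1} : Set (Ideal (𝓞 K))⁰).indicator (fun I => normPow K I s) I +
          ({x | x ∉ T} : Set (Ideal (𝓞 K))⁰).indicator (fun I => normPow K I s) I) :=
          (hA0.indicator _).tsum_le_tsum hle (hs1'.add hs2')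
      _ = 1 + ∑' I, ({x | x ∉ T} : Set (Ideal (𝓞 K))⁰).indicator
            (fun I => normPow K I s) I := by rw [hs1'.tsum_add hs2', hone]
      _ ≤ 3 / 2 := by linarith
  rw [sieve_real K hs1 S] at hsieve
  -- logarithms
  have hfac : ∀ v ∈ S, 0 < 1 - normPow K v.1 s := fun v _ => by
    have := normPow_prime_le_half K v hs1.le
    linarith
  have hprod : 0 < ∏ v ∈ S, (1 - normPow K v.1 s) := Finset.prod_pos hfac
  have hlog : Real.log Z + ∑ v ∈ S, Real.log (1 - normPow K v.1 s) ≤ Real.log (3 / 2) := by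
    rw [← Real.log_prod (fun v hv => (hfac v hv).ne'), ← Real.log_mul hZpos.ne' hprod.ne']
    exact Real.log_le_log (mul_pos hZpos hprod) hsieve
  have hsummP : Summable fun v : PrimeIdeal K => normPow K v.1 s := A4.summable_primes K s hs1
  have hsummP2 : Summable fun v : PrimeIdeal K => normPow K v.1 2 :=
    A4.summable_primes K 2 (by norm_num)
  have hlow : -(∑' v : PrimeIdeal K, normPow K v.1 s) - 2 * C₂
      ≤ ∑ v ∈ S, Real.log (1 - normPow K v.1 s) := by
    have h1 : ∑ v ∈ S, (-(normPow K v.1 s) - 2 * normPow K v.1 s ^ 2)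
        ≤ ∑ v ∈ S, Real.log (1 - normPow K v.1 s) :=
      Finset.sum_le_sum fun v _ =>
        log_one_sub_ge (A4.normPow_pos v.1 s).le (normPow_prime_le_half K v hs1.le)
    have h2 : ∑ v ∈ S, normPow K v.1 s ≤ ∑' v : PrimeIdeal K, normPow K v.1 s :=
      hsummP.sum_le_tsum S (fun v _ => (A4.normPow_pos v.1 s).le)
    have h3 : ∑ v ∈ S, normPow K v.1 s ^ 2 ≤ C₂ :=
      (Finset.sum_le_sum fun v _ => normPow_sq_le K v.1 hs1.le).trans
        (hsummP2.sum_le_tsum S (fun v _ => (A4.normPow_pos v.1 2).le))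
    have h4 : ∑ v ∈ S, (-(normPow K v.1 s) - 2 * normPow K v.1 s ^ 2)
        = -(∑ v ∈ S, normPow K v.1 s) - 2 * ∑ v ∈ S, normPow K v.1 s ^ 2 := by
      rw [Finset.sum_sub_distrib, Finset.sum_neg_distrib, Finset.mul_sum]
    linarith
  have hZlog : Real.log c + Real.log (1 / (s - 1)) ≤ Real.log Z := by
    rw [← Real.log_mul hc.ne' (by positivity)]
    refine Real.log_le_log (by positivity) ?_
    calc c * (1 / (s - 1)) = c / (s - 1) := by ring
      _ ≤ Z := hZge
  linarith

end Fermat.Agent.S29.PSLB
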