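/-
S29 (wave 9), weak Chebotarev [CHEB]: the counting argument.

`L/ℚ` finite Galois, `G = L ≃ₐ[ℚ] L`.  For a subgroup `D` of `G` let
`R_D(s) = ∑_{v : dec v = D} |D| ℓ(v)^(-s)` (sum over the nonzero primes of `𝓞 L`, `ℓ(v)` the
rational prime below `v`).  Then `R_D(s) = m(D) log (1/(s-1)) + O(1)` on `(1,2]`, where `m(D)` is
the number of generators of `D` (`RD_bound`).  Proof: well-founded induction on `D`, using
`∑_{D' ≤ D} R_{D'}(s) = |D| P_{L^D}(s) + O(1)` (degree-one primes of the fixed field `L^D`) and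
the two-sided bound `P_F(s) = log (1/(s-1)) + O(1)` for every number field `F`.
Consequence (`exists_dec_eq`): every cyclic subgroup `⟨g⟩` is the decomposition group of primes
above infinitely many rational primes.
-/
import Mathlib
import Fermat.Agent.S29.CFDefs
import Fermat.Agent.S29.CFAlg
import Fermat.Agent.S29.CFRam
import Fermat.Agent.S29.PrimeSumLB
import Fermat.Agent.S14.ANPrimeSum

set_option autoImplicit false
set_option linter.unusedSectionVars false

open scoped NumberField nonZeroDivisors Pointwise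

namespace Fermat.Agent.S29.CycFrob

open Fermat.Agent.S14

variable {L : Type} [Field L] [NumberField L]

/-! ### The weights `ℓ(v)^(-s)` -/

/-- `ℓ(v)^(-s)`, `ℓ(v)` the rational prime below `v`. -/
noncomputable def aw (s : ℝ) (v : PrimeIdeal L) : ℝ := (A5.ratPrime L v : ℝ) ^ (-s)

theorem aw_nonneg (s : ℝ) (v : PrimeIdeal L) : 0 ≤ aw s v := by
  unfold aw; positivity

theorem one_le_ratPrime (v : PrimeIdeal L) : (1 : ℝ) ≤ (A5.ratPrime L v : ℝ) := by
  exact_mod_cast (A5.ratPrime_prime v).one_le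

theorem aw_le_one {s : ℝ} (hs : 0 ≤ s) (v : PrimeIdeal L) : aw s v ≤ 1 :=
  Real.rpow_le_one_of_one_le_of_nonpos (one_le_ratPrime v) (by linarith)

theorem sum_aw_le {s : ℝ} (hs : 1 < s) (W : Finset (PrimeIdeal L)) :
    ∑ v ∈ W, aw s v ≤ (Module.finrank ℚ L : ℝ) * ∑' n : ℕ, (n : ℝ) ^ (-s) := by
  classical
  have hsum : Summable fun n : ℕ => (n : ℝ) ^ (-s) := Real.summable_nat_rpow.mpr (by linarith)
  calc ∑ v ∈ W, aw s v
      = ∑ q ∈ W.image (A5.ratPrime L),
          (W.filter (fun v => A5.ratPrime L v = q)).card • ((q : ℝ) ^ (-s)) :=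
        Finset.sum_comp (fun q : ℕ => (q : ℝ) ^ (-s)) (A5.ratPrime L)
    _ ≤ ∑ q ∈ W.image (A5.ratPrime L), (Module.finrank ℚ L : ℝ) * ((q : ℝ) ^ (-s)) := by
        refine Finset.sum_le_sum (fun q _ => ?_)
        rw [nsmul_eq_mul]
        refine mul_le_mul_of_nonneg_right ?_ (by positivity)
        have hsub : W.filter (fun v => A5.ratPrime L v = q) ⊆
            (A5.finite_above (K := L) q).toFinset := by
          intro v hv
          rw [Finset.mem_filter] at hv
          rw [Set.Finite.mem_toFinset]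
          exact hv.2
        have hcard := Finset.card_le_card hsub
        rw [← Set.ncard_eq_toFinset_card _ (A5.finite_above (K := L) q)] at hcard
        exact_mod_cast hcard.trans (ncard_above_le q)
    _ = (Module.finrank ℚ L : ℝ) * ∑ q ∈ W.image (A5.ratPrime L), (q : ℝ) ^ (-s) := by
        rw [Finset.mul_sum]
    _ ≤ _ := by
        refine mul_le_mul_of_nonneg_left ?_ (by positivity)
        exact hsum.sum_le_tsum _ (fun n _ => by positivity)

theorem summable_aw {s : ℝ} (hs : 1 < s) : Summable (aw (L := L) s) :=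
  summable_of_sum_le (fun v => aw_nonneg s v) (fun W => sum_aw_le hs W)

/-! ### Pointwise comparison with the primes of the fixed field -/

variable [IsGalois ℚ L]

/-- the term of `|H| P_{L^H}(s)` attached to `v`. -/
noncomputable def tw (H : Subgroup (L ≃ₐ[ℚ] L)) (s : ℝ) (v : PrimeIdeal L) : ℝ :=
  (Nat.card (H ⊓ dec v : Subgroup (L ≃ₐ[ℚ] L)) : ℝ) * normPow (FF L H) (down H v).1 s

theorem tw_nonneg (H : Subgroup (L ≃ₐ[ℚ] L)) (s : ℝ) (v : PrimeIdeal L) : 0 ≤ tw H s v :=
  mul_nonneg (Nat.cast_nonneg _) (A4.normPow_pos _ _).le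

theorem normPow_down (H : Subgroup (L ≃ₐ[ℚ] L)) (s : ℝ) (v : PrimeIdeal L) :
    normPow (FF L H) (down H v).1 s =
      ((A5.ratPrime L v : ℝ) ^ (((down H v).1 : Ideal (𝓞 (FF L H))).inertiaDeg ℤ)) ^ (-s) := by
  unfold normPow
  rw [A5.absNorm_eq_ratPrime_pow, ratPrime_down]
  push_cast
  rfl

theorem card_dec_pos (v : PrimeIdeal L) : 0 < Nat.card (dec v) := Nat.card_pos

theorem tw_of_le {H : Subgroup (L ≃ₐ[ℚ] L)} {v : PrimeIdeal L} (h : dec v ≤ H) (s : ℝ) :
    tw H s v = (Nat.card (dec v) : ℝ) * aw s v := by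
  have hinf : H ⊓ dec v = dec v := inf_eq_right.mpr h
  have h4 := ram_mul_inertia_mul_card H v
  rw [hinf] at h4
  have hef : ((down H v).1 : Ideal (𝓞 (FF L H))).ramificationIdx ℤ *
      ((down H v).1 : Ideal (𝓞 (FF L H))).inertiaDeg ℤ = 1 := by
    have := card_dec_pos v
    exact Nat.eq_of_mul_eq_mul_right this (by rw [h4, one_mul])
  have hf : ((down H v).1 : Ideal (𝓞 (FF L H))).inertiaDeg ℤ = 1 :=
    Nat.eq_one_of_mul_eq_one_left hef
  unfold tw aw
  rw [hinf, normPow_down, hf, pow_one]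

/-- the indicator of the ramified primes. -/
noncomputable def ramw (v : PrimeIdeal L) : ℝ :=
  if (v.1 : Ideal (𝓞 L)).ramificationIdx ℤ = 1 then 0 else 1

theorem ramw_nonneg (v : PrimeIdeal L) : 0 ≤ ramw v := by
  unfold ramw; split_ifs <;> norm_num

theorem tw_le_of_not_le {H : Subgroup (L ≃ₐ[ℚ] L)} {v : PrimeIdeal L} (h : ¬ dec v ≤ H)
    {s : ℝ} (hs : 1 ≤ s) :
    tw H s v ≤ (Nat.card (L ≃ₐ[ℚ] L) : ℝ) * (ramw v + aw 2 v) := by
  have h4 := ram_mul_inertia_mul_card H v
  set e := ((down H v).1 : Ideal (𝓞 (FF L H))).ramificationIdx ℤ with he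
  set f := ((down H v).1 : Ideal (𝓞 (FF L H))).inertiaDeg ℤ with hf
  have hd := card_dec_pos v
  have hef : e * f ≠ 1 := by
    intro hef
    rw [hef, one_mul] at h4
    have : H ⊓ dec v = dec v :=
      Subgroup.eq_of_le_of_card_ge inf_le_right (le_of_eq h4.symm)
    exact h (inf_eq_right.mp this)
  have hf0 : f ≠ 0 := by
    rintro h0
    rw [h0, mul_zero, zero_mul] at h4
    omega
  have hcard : (Nat.card (H ⊓ dec v : Subgroup (L ≃ₐ[ℚ] L)) : ℝ) ≤ Nat.card (L ≃ₐ[ℚ] L) := by
    exact_mod_cast Subgroup.card_le_card_group _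
  have hnp : normPow (FF L H) (down H v).1 s ≤ ramw v + aw 2 v := by
    by_cases hf1 : f = 1
    · have he1 : e ≠ 1 := by
        intro he1
        rw [he1, hf1] at hef
        exact hef rfl
      have hram : ramw v = 1 := by
        unfold ramw
        rw [if_neg]
        intro hv1
        have hdvd := ram_down_dvd H v
        rw [hv1] at hdvd
        exact he1 (Nat.dvd_one.mp hdvd)
      rw [hram]
      have := A4.normPow_le_one (K := FF L H) (down H v).1 (s := s) (by linarith)
      have := aw_nonneg (2 : ℝ) v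
      linarith
    · have hf2 : 2 ≤ f := by omega
      rw [normPow_down]
      have h1 := one_le_ratPrime v
      have : ((A5.ratPrime L v : ℝ) ^ f) ^ (-s) ≤ aw 2 v := by
        unfold aw
        rw [← Real.rpow_natCast, ← Real.rpow_mul (by linarith)]
        refine Real.rpow_le_rpow_of_exponent_le h1 ?_
        have hf2' : (2 : ℝ) ≤ (f : ℝ) := by exact_mod_cast hf2
        nlinarith
      have := ramw_nonneg v
      linarith
  calc tw H s v ≤ (Nat.card (L ≃ₐ[ℚ] L) : ℝ) * normPow (FF L H) (down H v).1 s :=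
        mul_le_mul_of_nonneg_right hcard (A4.normPow_pos _ _).le
    _ ≤ _ := mul_le_mul_of_nonneg_left hnp (Nat.cast_nonneg _)

/-! ### The sums -/

/-- `R_D(s)`: the primes with decomposition group `D`. -/
noncomputable def RD (D : Subgroup (L ≃ₐ[ℚ] L)) (s : ℝ) : ℝ :=
  ∑' v : PrimeIdeal L,
    Set.indicator {v : PrimeIdeal L | dec v = D} (fun v => (Nat.card D : ℝ) * aw s v) v

/-- `S_H(s)`: the primes with decomposition group contained in `H`. -/
noncomputable def SH (H : Subgroup (L ≃ₐ[ℚ] L)) (s : ℝ) : ℝ :=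
  ∑' v : PrimeIdeal L,
    Set.indicator {v : PrimeIdeal L | dec v ≤ H} (fun v => (Nat.card (dec v) : ℝ) * aw s v) v

/-- the prime sum of the fixed field of `H`. -/
noncomputable def PH (H : Subgroup (L ≃ₐ[ℚ] L)) (s : ℝ) : ℝ :=
  ∑' r : PrimeIdeal (FF L H), normPow (FF L H) r.1 s

theorem card_dec_le (v : PrimeIdeal L) :
    (Nat.card (dec v) : ℝ) ≤ Nat.card (L ≃ₐ[ℚ] L) := by
  exact_mod_cast Subgroup.card_le_card_group _

theorem summable_RD_term (D : Subgroup (L ≃ₐ[ℚ] L)) {s : ℝ} (hs : 1 < s) :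
    Summable fun v : PrimeIdeal L =>
      Set.indicator {v : PrimeIdeal L | dec v = D} (fun v => (Nat.card D : ℝ) * aw s v) v :=
  ((summable_aw hs).mul_left _).indicator _

theorem SH_term_nonneg (H : Subgroup (L ≃ₐ[ℚ] L)) (s : ℝ) (v : PrimeIdeal L) :
    0 ≤ Set.indicator {v : PrimeIdeal L | dec v ≤ H}
      (fun v => (Nat.card (dec v) : ℝ) * aw s v) v :=
  Set.indicator_nonneg (fun v _ => mul_nonneg (Nat.cast_nonneg _) (aw_nonneg s v)) v

theorem summable_SH_term (H : Subgroup (L ≃ₐ[ℚ] L)) {s : ℝ} (hs : 1 < s) :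
    Summable fun v : PrimeIdeal L =>
      Set.indicator {v : PrimeIdeal L | dec v ≤ H}
        (fun v => (Nat.card (dec v) : ℝ) * aw s v) v := by
  refine Summable.of_nonneg_of_le (SH_term_nonneg H s) (fun v => ?_)
    ((summable_aw hs).mul_left (Nat.card (L ≃ₐ[ℚ] L) : ℝ))
  by_cases h : v ∈ {v : PrimeIdeal L | dec v ≤ H}
  · rw [Set.indicator_of_mem h]
    exact mul_le_mul_of_nonneg_right (card_dec_le v) (aw_nonneg s v)
  · rw [Set.indicator_of_notMem h]
    exact mul_nonneg (Nat.cast_nonneg _) (aw_nonneg s v)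

theorem sum_card_fiber_real (H : Subgroup (L ≃ₐ[ℚ] L)) (r : PrimeIdeal (FF L H)) :
    ∑ v ∈ (finite_fiber H r).toFinset,
      (Nat.card (H ⊓ dec v : Subgroup (L ≃ₐ[ℚ] L)) : ℝ) = Nat.card H := by
  rw [← sum_fiber H r]
  push_cast
  rfl

/-- `(★ ≤)`. -/
theorem SH_le (H : Subgroup (L ≃ₐ[ℚ] L)) {s : ℝ} (hs : 1 < s) :
    SH H s ≤ (Nat.card H : ℝ) * PH H s := by
  classical
  unfold SH
  refine Real.tsum_le_of_sum_le (SH_term_nonneg H s) (fun W => ?_)
  have hsumP := A4.summable_primes (FF L H) s hs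
  calc ∑ v ∈ W, Set.indicator {v : PrimeIdeal L | dec v ≤ H}
          (fun v => (Nat.card (dec v) : ℝ) * aw s v) v
      ≤ ∑ v ∈ W, tw H s v := Finset.sum_le_sum (fun v _ => by
        by_cases h : v ∈ {v : PrimeIdeal L | dec v ≤ H}
        · rw [Set.indicator_of_mem h, tw_of_le h]
        · rw [Set.indicator_of_notMem h]
          exact tw_nonneg H s v)
    _ = ∑ r ∈ W.image (down H), ∑ v ∈ W.filter (fun v => down H v = r), tw H s v :=
        (Finset.sum_fiberwise_of_maps_to (fun v hv => Finset.mem_image_of_mem _ hv) _).symm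
    _ ≤ ∑ r ∈ W.image (down H), (Nat.card H : ℝ) * normPow (FF L H) r.1 s := by
        refine Finset.sum_le_sum (fun r _ => ?_)
        have h1 : ∑ v ∈ W.filter (fun v => down H v = r), tw H s v =
            (∑ v ∈ W.filter (fun v => down H v = r),
              (Nat.card (H ⊓ dec v : Subgroup (L ≃ₐ[ℚ] L)) : ℝ)) * normPow (FF L H) r.1 s := by
          rw [Finset.sum_mul]
          refine Finset.sum_congr rfl (fun v hv => ?_)
          rw [Finset.mem_filter] at hv
          unfold tw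
          rw [hv.2]
        rw [h1]
        refine mul_le_mul_of_nonneg_right ?_ (A4.normPow_pos _ _).le
        rw [← sum_card_fiber_real H r]
        refine Finset.sum_le_sum_of_subset_of_nonneg (fun v hv => ?_)
          (fun _ _ _ => Nat.cast_nonneg _)
        rw [Finset.mem_filter] at hv
        rw [Set.Finite.mem_toFinset]
        exact hv.2
    _ = (Nat.card H : ℝ) * ∑ r ∈ W.image (down H), normPow (FF L H) r.1 s := by
        rw [Finset.mul_sum]
    _ ≤ _ := mul_le_mul_of_nonneg_left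
        (hsumP.sum_le_tsum _ (fun r _ => (A4.normPow_pos r.1 s).le)) (Nat.cast_nonneg _)

/-- `(★ ≥)`. -/
theorem PH_le (H : Subgroup (L ≃ₐ[ℚ] L)) :
    ∃ C : ℝ, ∀ s ∈ Set.Ioc (1 : ℝ) 2, (Nat.card H : ℝ) * PH H s ≤ SH H s + C := by
  classical
  refine ⟨(Nat.card (L ≃ₐ[ℚ] L) : ℝ) *
    (((finite_ramified (L := L)).toFinset.card : ℝ) + ∑' v : PrimeIdeal L, aw 2 v),
    fun s hs => ?_⟩
  obtain ⟨hs1, hs2⟩ := hs
  have hHpos : (0 : ℝ) < Nat.card H := by exact_mod_cast Nat.card_pos
  set C := (Nat.card (L ≃ₐ[ℚ] L) : ℝ) *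
    (((finite_ramified (L := L)).toFinset.card : ℝ) + ∑' v : PrimeIdeal L, aw 2 v) with hC
  have key : PH H s ≤ (SH H s + C) / Nat.card H := by
    unfold PH
    refine Real.tsum_le_of_sum_le (fun r => (A4.normPow_pos r.1 s).le) (fun U => ?_)
    rw [le_div_iff₀ hHpos]
    set W : Finset (PrimeIdeal L) := U.biUnion (fun r => (finite_fiber H r).toFinset) with hW
    have hdisj : Set.PairwiseDisjoint (U : Set (PrimeIdeal (FF L H)))
        (fun r => (finite_fiber H r).toFinset) := by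
      intro r _ r' _ hrr'
      rw [Function.onFun, Finset.disjoint_left]
      intro v hv hv'
      rw [Set.Finite.mem_toFinset] at hv hv'
      exact hrr' (hv.symm.trans hv')
    have h1 : (∑ r ∈ U, normPow (FF L H) r.1 s) * Nat.card H = ∑ v ∈ W, tw H s v := by
      rw [hW, Finset.sum_biUnion hdisj, Finset.sum_mul]
      refine Finset.sum_congr rfl (fun r _ => ?_)
      rw [← sum_card_fiber_real H r, Finset.mul_sum]
      refine Finset.sum_congr rfl (fun v hv => ?_)
      rw [Set.Finite.mem_toFinset] at hv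
      have hv' : down H v = r := hv
      unfold tw
      rw [hv', mul_comm]
    rw [h1]
    have h2 : ∀ v ∈ W, tw H s v ≤
        Set.indicator {v : PrimeIdeal L | dec v ≤ H}
          (fun v => (Nat.card (dec v) : ℝ) * aw s v) v +
        (Nat.card (L ≃ₐ[ℚ] L) : ℝ) * (ramw v + aw 2 v) := by
      intro v _
      have hnn : 0 ≤ (Nat.card (L ≃ₐ[ℚ] L) : ℝ) * (ramw v + aw 2 v) :=
        mul_nonneg (Nat.cast_nonneg _) (add_nonneg (ramw_nonneg v) (aw_nonneg 2 v))
      by_cases h : v ∈ {v : PrimeIdeal L | dec v ≤ H}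
      · rw [Set.indicator_of_mem h, tw_of_le h]
        linarith
      · rw [Set.indicator_of_notMem h, zero_add]
        exact tw_le_of_not_le h hs1.le
    refine (Finset.sum_le_sum h2).trans ?_
    rw [Finset.sum_add_distrib, ← Finset.mul_sum, Finset.sum_add_distrib]
    have e1 : ∑ v ∈ W, Set.indicator {v : PrimeIdeal L | dec v ≤ H}
        (fun v => (Nat.card (dec v) : ℝ) * aw s v) v ≤ SH H s :=
      (summable_SH_term H hs1).sum_le_tsum W (fun v _ => SH_term_nonneg H s v)
    have e2 : ∑ v ∈ W, ramw v ≤ ((finite_ramified (L := L)).toFinset.card : ℝ) := by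
      unfold ramw
      have : ∑ v ∈ W, (if (v.1 : Ideal (𝓞 L)).ramificationIdx ℤ = 1 then (0 : ℝ) else 1) =
          ((W.filter (fun v : PrimeIdeal L =>
            ¬ (v.1 : Ideal (𝓞 L)).ramificationIdx ℤ = 1)).card : ℝ) := by
        rw [← Finset.sum_boole]
        refine Finset.sum_congr rfl (fun v _ => ?_)
        by_cases hv : (v.1 : Ideal (𝓞 L)).ramificationIdx ℤ = 1
        · rw [if_pos hv, if_neg (not_not.mpr hv)]
        · rw [if_neg hv, if_pos hv]
      rw [this]
      have hsub : W.filter (fun v : PrimeIdeal L =>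
          ¬ (v.1 : Ideal (𝓞 L)).ramificationIdx ℤ = 1) ⊆ (finite_ramified (L := L)).toFinset := by
        intro v hv
        rw [Finset.mem_filter] at hv
        rw [Set.Finite.mem_toFinset]
        exact hv.2
      exact_mod_cast Finset.card_le_card hsub
    have e3 : ∑ v ∈ W, aw 2 v ≤ ∑' v : PrimeIdeal L, aw 2 v :=
      (summable_aw (L := L) one_lt_two).sum_le_tsum W (fun v _ => aw_nonneg 2 v)
    have hG : (0 : ℝ) ≤ Nat.card (L ≃ₐ[ℚ] L) := Nat.cast_nonneg _
    have e4 := mul_le_mul_of_nonneg_left (add_le_add e2 e3) hG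
    linarith
  calc (Nat.card H : ℝ) * PH H s ≤ (Nat.card H : ℝ) * ((SH H s + C) / Nat.card H) :=
        mul_le_mul_of_nonneg_left key hHpos.le
    _ = SH H s + C := by field_simp

theorem PH_upper (H : Subgroup (L ≃ₐ[ℚ] L)) :
    ∃ C : ℝ, ∀ s ∈ Set.Ioc (1 : ℝ) 2, PH H s ≤ Real.log (1 / (s - 1)) + C := by
  obtain ⟨C, hC⟩ := ANPrimeSum.primeSum_le' (FF L H)
  refine ⟨C, fun s hs => ?_⟩
  unfold PH
  exact Real.tsum_le_of_sum_le (fun r => (A4.normPow_pos r.1 s).le) (fun U => hC s hs U)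

theorem PH_lower (H : Subgroup (L ≃ₐ[ℚ] L)) :
    ∃ C : ℝ, ∀ s ∈ Set.Ioc (1 : ℝ) 2, Real.log (1 / (s - 1)) - C ≤ PH H s :=
  PSLB.primeSum_ge (FF L H)

theorem SH_bound (H : Subgroup (L ≃ₐ[ℚ] L)) :
    ∃ C : ℝ, ∀ s ∈ Set.Ioc (1 : ℝ) 2,
      |SH H s - (Nat.card H : ℝ) * Real.log (1 / (s - 1))| ≤ C := by
  obtain ⟨C1, hC1⟩ := PH_upper H
  obtain ⟨C2, hC2⟩ := PH_le H
  obtain ⟨C3, hC3⟩ := PH_lower H
  refine ⟨(Nat.card H : ℝ) * (|C1| + |C3|) + |C2|, fun s hs => ?_⟩
  have hH : (0 : ℝ) ≤ Nat.card H := Nat.cast_nonneg _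
  have h1 := SH_le H hs.1
  have h2 := mul_le_mul_of_nonneg_left (hC1 s hs) hH
  have h3 := hC2 s hs
  have h4 := mul_le_mul_of_nonneg_left (hC3 s hs) hH
  have a1 := le_abs_self C1
  have a2 := le_abs_self C2
  have a3 := le_abs_self C3
  have b1 := abs_nonneg C1
  have b3 := abs_nonneg C3
  have m1 := mul_le_mul_of_nonneg_left a1 hH
  have m3 := mul_le_mul_of_nonneg_left a3 hH
  have n1 := mul_nonneg hH b1
  have n3 := mul_nonneg hH b3
  rw [abs_le]
  constructor <;> nlinarith

/-! ### The induction over subgroups -/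

/-- the number of generators of `D`. -/
noncomputable def mgen (D : Subgroup (L ≃ₐ[ℚ] L)) : ℕ :=
  Nat.card {z : L ≃ₐ[ℚ] L // Subgroup.zpowers z = D}

/-- the finite set of subgroups of `H`. -/
noncomputable def subs (H : Subgroup (L ≃ₐ[ℚ] L)) : Finset (Subgroup (L ≃ₐ[ℚ] L)) :=
  (Set.toFinite {D : Subgroup (L ≃ₐ[ℚ] L) | D ≤ H}).toFinset

theorem mem_subs {H D : Subgroup (L ≃ₐ[ℚ] L)} : D ∈ subs H ↔ D ≤ H := by
  unfold subs
  rw [Set.Finite.mem_toFinset]
  rfl

theorem SH_eq_sum (H : Subgroup (L ≃ₐ[ℚ] L)) {s : ℝ} (hs : 1 < s) :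
    SH H s = ∑ D ∈ subs H, RD D s := by
  classical
  unfold SH RD
  rw [← Summable.tsum_finsetSum (fun D _ => summable_RD_term D hs)]
  refine tsum_congr (fun v => ?_)
  by_cases h : v ∈ {v : PrimeIdeal L | dec v ≤ H}
  · rw [Set.indicator_of_mem h, Finset.sum_eq_single (dec v)]
    · rw [Set.indicator_of_mem (by rfl)]
    · intro D _ hD
      rw [Set.indicator_of_notMem]
      intro hv
      exact hD (Eq.symm hv)
    · intro hn
      exact absurd (mem_subs.mpr h) hn
  · rw [Set.indicator_of_notMem h]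
    symm
    refine Finset.sum_eq_zero (fun D hD => ?_)
    rw [Set.indicator_of_notMem]
    intro hv
    apply h
    have hv' : dec v = D := hv
    show dec v ≤ H
    rw [hv']
    exact mem_subs.mp hD

theorem card_eq_sum_mgen (H : Subgroup (L ≃ₐ[ℚ] L)) :
    Nat.card H = ∑ D ∈ subs H, mgen D := by
  classical
  have hcard : Nat.card H = (Finset.univ.filter (fun z : L ≃ₐ[ℚ] L => z ∈ H)).card := by
    rw [Nat.card_eq_fintype_card, Fintype.card_subtype]
  rw [hcard, Finset.card_eq_sum_card_fiberwise (f := fun z : L ≃ₐ[ℚ] L => Subgroup.zpowers z)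
    (t := subs H) (fun z hz => by
      rw [Finset.mem_coe, Finset.mem_filter] at hz
      exact mem_subs.mpr ((Subgroup.zpowers_le).mpr hz.2))]
  refine Finset.sum_congr rfl (fun D hD => ?_)
  unfold mgen
  rw [Nat.card_eq_fintype_card, Fintype.card_subtype]
  congr 1
  ext z
  simp only [Finset.mem_filter, Finset.mem_univ, true_and, and_iff_right_iff_imp]
  intro hz
  have : z ∈ Subgroup.zpowers z := Subgroup.mem_zpowers z
  rw [hz] at this
  exact mem_subs.mp hD this

theorem RD_bound (D : Subgroup (L ≃ₐ[ℚ] L)) :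
    ∃ C : ℝ, ∀ s ∈ Set.Ioc (1 : ℝ) 2,
      |RD D s - (mgen D : ℝ) * Real.log (1 / (s - 1))| ≤ C := by
  classical
  induction D using WellFoundedLT.induction with
  | ind D ih =>
    obtain ⟨C0, hC0⟩ := SH_bound D
    have ih' : ∀ D' : Subgroup (L ≃ₐ[ℚ] L), ∃ C : ℝ, D' < D → ∀ s ∈ Set.Ioc (1 : ℝ) 2,
        |RD D' s - (mgen D' : ℝ) * Real.log (1 / (s - 1))| ≤ C := by
      intro D'
      by_cases h : D' < D
      · obtain ⟨C, hC⟩ := ih D' h
        exact ⟨C, fun _ => hC⟩
      · exact ⟨0, fun h' => absurd h' h⟩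
    choose C hC using ih'
    refine ⟨C0 + ∑ D' ∈ (subs D).erase D, C D', fun s hs => ?_⟩
    have hmem : D ∈ subs D := mem_subs.mpr le_rfl
    have h1 := SH_eq_sum D hs.1
    have h2 := card_eq_sum_mgen D
    rw [← Finset.add_sum_erase _ _ hmem] at h1 h2
    have h3 : RD D s - (mgen D : ℝ) * Real.log (1 / (s - 1)) =
        (SH D s - (Nat.card D : ℝ) * Real.log (1 / (s - 1))) -
          ∑ D' ∈ (subs D).erase D, (RD D' s - (mgen D' : ℝ) * Real.log (1 / (s - 1))) := by
      rw [Finset.sum_sub_distrib, ← Finset.sum_mul, h1, h2]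
      push_cast
      ring
    rw [h3]
    calc |(SH D s - (Nat.card D : ℝ) * Real.log (1 / (s - 1))) -
          ∑ D' ∈ (subs D).erase D, (RD D' s - (mgen D' : ℝ) * Real.log (1 / (s - 1)))|
        ≤ |SH D s - (Nat.card D : ℝ) * Real.log (1 / (s - 1))| +
          |∑ D' ∈ (subs D).erase D, (RD D' s - (mgen D' : ℝ) * Real.log (1 / (s - 1)))| :=
          abs_sub _ _
      _ ≤ C0 + ∑ D' ∈ (subs D).erase D,
            |RD D' s - (mgen D' : ℝ) * Real.log (1 / (s - 1))| :=
          add_le_add (hC0 s hs) (Finset.abs_sum_le_sum_abs _ _)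
      _ ≤ C0 + ∑ D' ∈ (subs D).erase D, C D' := by
          refine add_le_add le_rfl (Finset.sum_le_sum (fun D' hD' => ?_))
          rw [Finset.mem_erase] at hD'
          exact hC D' (lt_of_le_of_ne (mem_subs.mp hD'.2) hD'.1) s hs

/-- **Weak Chebotarev, counting form**: every cyclic subgroup `⟨g⟩` of `Gal(L/ℚ)` is the
decomposition group of a prime of `L` above a rational prime outside any given finite set. -/
theorem exists_dec_eq (g : L ≃ₐ[ℚ] L) (T : Finset ℕ) :
    ∃ v : PrimeIdeal L, A5.ratPrime L v ∉ T ∧ dec v = Subgroup.zpowers g := by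
  classical
  by_contra hcon
  simp only [not_exists, not_and] at hcon
  obtain ⟨C, hC⟩ := RD_bound (Subgroup.zpowers g)
  -- the primes above `T`
  have hBfin : {v : PrimeIdeal L | A5.ratPrime L v ∈ T}.Finite := by
    have : {v : PrimeIdeal L | A5.ratPrime L v ∈ T} =
        ⋃ q ∈ (T : Set ℕ), {v : PrimeIdeal L | A5.ratPrime L v = q} := by
      ext v
      simp
    rw [this]
    exact Set.Finite.biUnion T.finite_toSet (fun q _ => A5.finite_above q)
  set B := hBfin.toFinset with hB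
  set M : ℝ := (B.card : ℝ) * Nat.card (L ≃ₐ[ℚ] L) with hM
  have hm : 1 ≤ mgen (Subgroup.zpowers g) := by
    unfold mgen
    have : Nonempty {z : L ≃ₐ[ℚ] L // Subgroup.zpowers z = Subgroup.zpowers g} := ⟨⟨g, rfl⟩⟩
    exact Nat.card_pos
  have hupper : ∀ s : ℝ, 1 < s → RD (Subgroup.zpowers g) s ≤ M := by
    intro s hs
    unfold RD
    rw [tsum_eq_sum (s := B) (fun v hv => by
      rw [Set.indicator_of_notMem]
      intro hv'
      apply hv
      rw [hB, Set.Finite.mem_toFinset]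
      by_contra hT
      exact hcon v hT hv')]
    calc ∑ v ∈ B, Set.indicator {v : PrimeIdeal L | dec v = Subgroup.zpowers g}
            (fun v => (Nat.card (Subgroup.zpowers g) : ℝ) * aw s v) v
        ≤ ∑ _v ∈ B, (Nat.card (L ≃ₐ[ℚ] L) : ℝ) := by
          refine Finset.sum_le_sum (fun v _ => ?_)
          by_cases h : v ∈ {v : PrimeIdeal L | dec v = Subgroup.zpowers g}
          · rw [Set.indicator_of_mem h]
            have h1 : (Nat.card (Subgroup.zpowers g) : ℝ) ≤ Nat.card (L ≃ₐ[ℚ] L) := by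
              exact_mod_cast Subgroup.card_le_card_group _
            have h2 := aw_le_one (s := s) (by linarith) v
            have h3 := aw_nonneg s v
            nlinarith
          · rw [Set.indicator_of_notMem h]
            exact Nat.cast_nonneg _
      _ = M := by rw [Finset.sum_const, nsmul_eq_mul]
  have hMnn : 0 ≤ M := by positivity
  -- choose `s` close to `1`
  set t : ℝ := Real.exp (-(|C| + M + 1)) with ht
  have ht0 : 0 < t := Real.exp_pos _
  have ht1 : t ≤ 1 := by
    rw [ht]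
    refine Real.exp_le_one_iff.mpr ?_
    have := abs_nonneg C
    linarith
  have hs : (1 + t) ∈ Set.Ioc (1 : ℝ) 2 := ⟨by linarith, by linarith⟩
  have hlog : Real.log (1 / ((1 + t) - 1)) = |C| + M + 1 := by
    rw [add_sub_cancel_left, one_div, Real.log_inv, ht, Real.log_exp]
    ring
  have h1 := hC (1 + t) hs
  rw [hlog, abs_le] at h1
  have h2 := hupper (1 + t) hs.1
  have hm' : (1 : ℝ) ≤ (mgen (Subgroup.zpowers g) : ℝ) := by exact_mod_cast hm
  have h3 := le_abs_self C
  have h4 := abs_nonneg C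
  nlinarith

end Fermat.Agent.S29.CycFrob
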