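/-
S29 (wave 9), weak Chebotarev [CHEB]: the output of the counting argument in the shapes consumed
by the glue files.

For a finite Galois number field `L/ℚ`, `g ∈ Gal(L/ℚ)` and a finite set `T` of rational primes
there are a prime `ℓ ∉ T` and a prime `P` of `𝓞 L` above `ℓ` whose decomposition group is `⟨g⟩`;
in particular `g • P = P`.
-/
import Mathlib
import Fermat.Agent.S29.CFSum

set_option autoImplicit false

open scoped NumberField nonZeroDivisors Pointwise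

namespace Fermat.Agent.S29.CycFrob

open Fermat.Agent.S14

variable (L : Type) [Field L] [NumberField L] [IsGalois ℚ L]

/-- **Weak Chebotarev (decomposition-group form).** -/
theorem exists_stabilizer_eq (g : L ≃ₐ[ℚ] L) (T : Finset ℕ) :
    ∃ (ℓ : ℕ) (P : Ideal (𝓞 L)), ℓ.Prime ∧ ℓ ∉ T ∧ P.IsPrime ∧ P ≠ ⊥ ∧ ((ℓ : ℕ) : 𝓞 L) ∈ P ∧
      MulAction.stabilizer (L ≃ₐ[ℚ] L) P = Subgroup.zpowers g := by
  obtain ⟨v, hvT, hv⟩ := exists_dec_eq g T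
  exact ⟨A5.ratPrime L v, (v.1 : Ideal (𝓞 L)), A5.ratPrime_prime v, hvT, v.2,
    A5.primeIdeal_ne_bot v, A5.ratPrime_mem v, hv⟩

/-- **Weak Chebotarev (stabilizer form).** -/
theorem exists_smul_eq (g : L ≃ₐ[ℚ] L) (T : Finset ℕ) :
    ∃ (ℓ : ℕ) (P : Ideal (𝓞 L)), ℓ.Prime ∧ ℓ ∉ T ∧ P.IsPrime ∧ ((ℓ : ℕ) : 𝓞 L) ∈ P ∧
      g • P = P := by
  obtain ⟨ℓ, P, hℓ, hT, hP, -, hmem, hst⟩ := exists_stabilizer_eq L g T
  refine ⟨ℓ, P, hℓ, hT, hP, hmem, ?_⟩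
  have hg : g ∈ MulAction.stabilizer (L ≃ₐ[ℚ] L) P := by
    rw [hst]
    exact Subgroup.mem_zpowers g
  exact hg

/-- **Weak Chebotarev (elementwise form, `∃`).** -/
theorem exists_maps_into (g : L ≃ₐ[ℚ] L) (T : Finset ℕ) :
    ∃ (ℓ : ℕ) (P : Ideal (𝓞 L)), ℓ.Prime ∧ ℓ ∉ T ∧ P.IsPrime ∧ ((ℓ : ℕ) : 𝓞 L) ∈ P ∧
      ∀ x ∈ P, ∃ y ∈ P, (y : L) = g (x : L) := by
  obtain ⟨ℓ, P, hℓ, hT, hP, hmem, hg⟩ := exists_smul_eq L g T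
  refine ⟨ℓ, P, hℓ, hT, hP, hmem, fun x hx => ⟨g • x, ?_, rfl⟩⟩
  have : g • x ∈ g • P := Ideal.smul_mem_pointwise_smul g x P hx
  rwa [hg] at this

/-- **Weak Chebotarev (elementwise form, `∀`).** -/
theorem exists_maps_into' (g : L ≃ₐ[ℚ] L) (T : Finset ℕ) :
    ∃ (ℓ : ℕ) (P : Ideal (𝓞 L)), ℓ.Prime ∧ ℓ ∉ T ∧ P.IsPrime ∧ ((ℓ : ℕ) : 𝓞 L) ∈ P ∧
      ∀ x : 𝓞 L, x ∈ P → ∀ y : 𝓞 L, (y : L) = g (x : L) → y ∈ P := by
  obtain ⟨ℓ, P, hℓ, hT, hP, hmem, hg⟩ := exists_maps_into L g T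
  refine ⟨ℓ, P, hℓ, hT, hP, hmem, fun x hx y hy => ?_⟩
  obtain ⟨y', hy', hyy'⟩ := hg x hx
  have : y = y' := NumberField.RingOfIntegers.ext (by rw [hy, hyy'])
  rw [this]
  exact hy'

end Fermat.Agent.S29.CycFrob
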