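/-
S29 (wave 9), row [CHEB]: weak Chebotarev, `chebStmt : ChebStmt` (the interface Prop of
`S29/Iface.lean`), from the counting argument (`CycFrob`) and the glue (`ChebGlueB`).
-/
import Mathlib
import Fermat.Agent.S29.Iface
import Fermat.Agent.S29.CycFrob
import Fermat.Agent.S29.ChebGlueB

set_option autoImplicit false

namespace Fermat.Agent.S29.Cheb

theorem stabStmt : ChebGlueB.StabStmt :=
  fun K _ _ _ g T => CycFrob.exists_maps_into K g T

/-- **[CHEB]** weak Chebotarev. -/
theorem chebStmt : ChebStmt :=
  ChebGlueB.chebStmt_of_stab stabStmt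

end Fermat.Agent.S29.Cheb
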