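/-
S29 (wave 9), row CYC: the mod-`p` cyclotomic character with values in `kˣ` (`char k = p`).

`χ σ` is the image in `k` of the unit `c ∈ (ℤ/p)ˣ` with `σ ζ = ζ ^ c` for a primitive `p`-th
root of unity `ζ ∈ ℚ̄`.  It factors through `ℚ(ζ)`; for a valuation subring `A` of `ℚ̄` over a
prime `ℓ ≠ p`, two `p`-th roots of unity which are congruent modulo the maximal ideal of `A`
are equal (`1 - η` divides `p` for a primitive `p`-th root of unity `η`), hence `χ` is trivial on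
the inertia group of `A` and `χ σ = ℓ` for every Frobenius element `σ` of `A`.
-/
import Fermat.Agent.S29.Iface

set_option autoImplicit false

noncomputable section

namespace Fermat.Agent.S29.Cyc

local notation "Qbar" => AlgebraicClosure ℚ

/-! ### Roots of unity modulo the maximal ideal of a valuation subring -/

section Residue

variable (A : ValuationSubring Qbar)

/-- A root of unity lies in every valuation subring. -/
theorem mem_of_pow_eq_one {ζ : Qbar} {n : ℕ} (hn : n ≠ 0) (hζ : ζ ^ n = 1) : ζ ∈ A := by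
  rcases A.mem_or_inv_mem ζ with h | h
  · exact h
  · have h1 : ζ = ζ⁻¹ ^ (n - 1) := by
      have hζ0 : ζ ≠ 0 := by
        rintro rfl
        rw [zero_pow hn] at hζ
        exact zero_ne_one hζ
      have h2 : ζ * ζ ^ (n - 1) = 1 := by
        rw [← pow_succ', Nat.sub_add_cancel (Nat.pos_of_ne_zero hn), hζ]
      rw [inv_pow]
      exact eq_inv_of_mul_eq_one_left h2
    rw [h1]
    exact pow_mem h _

/-- If `A` lies over `ℓ`, then `ℓ = 0` in the residue field. -/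
theorem residue_natCast_eq_zero {ℓ : ℕ} (hA : A.LiesOverPrime ℓ) :
    ((ℓ : ℕ) : IsLocalRing.ResidueField A) = 0 := by
  obtain ⟨h1, h2⟩ := (ValuationSubring.mem_nonunits_iff_exists_mem_maximalIdeal (A := A)).mp hA
  have h3 : (⟨(ℓ : Qbar), h1⟩ : A) = ((ℓ : ℕ) : A) := Subtype.ext (by push_cast; rfl)
  rw [h3] at h2
  have h4 := (IsLocalRing.residue_eq_zero_iff (R := A) _).mpr h2
  rw [map_natCast] at h4
  exact h4

/-- Two `p`-th roots of unity which are congruent modulo the maximal ideal of a valuation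
subring over `ℓ ≠ p` are equal. -/
theorem pow_eq_of_residue_eq {p ℓ : ℕ} (hp : p.Prime) (hℓ : ℓ.Prime) (hℓp : ℓ ≠ p)
    (hA : A.LiesOverPrime ℓ) {ζ : A} (hζ : IsPrimitiveRoot ζ p) (i j : ℕ)
    (h : IsLocalRing.residue A (ζ ^ i) = IsLocalRing.residue A (ζ ^ j)) : ζ ^ i = ζ ^ j := by
  by_contra hne
  set m := j * (p - 1) with hm
  have hjm : ζ ^ (j + m) = 1 := by
    have h1 : j + m = p * j := by
      rw [hm]
      have := hp.one_le
      zify [this]
      ring
    rw [h1, pow_mul, hζ.pow_eq_one, one_pow]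
  have hη1 : ζ ^ (i + m) ≠ 1 := by
    intro h1
    apply hne
    have h2 : ζ ^ i * ζ ^ m = ζ ^ j * ζ ^ m := by
      rw [← pow_add, ← pow_add, h1, hjm]
    have hu : IsUnit (ζ ^ m) := (hζ.isUnit hp.ne_zero).pow m
    exact hu.mul_right_cancel h2
  have hcop : (i + m).Coprime p := by
    rw [Nat.coprime_comm, hp.coprime_iff_not_dvd]
    intro hd
    exact hη1 ((hζ.pow_eq_one_iff_dvd _).mpr hd)
  have hη : IsPrimitiveRoot (ζ ^ (i + m)) p := hζ.pow_of_coprime _ hcop
  have hres : IsLocalRing.residue A (ζ ^ (i + m)) = 1 := by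
    rw [pow_add, map_mul, h, ← map_mul, ← pow_add, hjm, map_one]
  obtain ⟨n, rfl⟩ : ∃ n, p = n + 1 := ⟨p - 1, (Nat.sub_add_cancel hp.one_le).symm⟩
  have hprod := hη.prod_one_sub_pow_eq_order
  have hn : 0 < n := by
    have := hp.two_le
    omega
  have h0 : ((n + 1 : ℕ) : IsLocalRing.ResidueField A) = 0 := by
    have h2 : ∏ k ∈ Finset.range n, IsLocalRing.residue A (1 - (ζ ^ (i + m)) ^ (k + 1)) = 0 := by
      apply Finset.prod_eq_zero (Finset.mem_range.mpr hn)
      rw [zero_add, pow_one, map_sub, map_one, hres, sub_self]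
    have h1 := congrArg (IsLocalRing.residue A) hprod
    rw [map_prod, h2, map_add, map_natCast, map_one] at h1
    push_cast
    exact h1.symm
  have hℓ0 := residue_natCast_eq_zero A hA
  have hc : Nat.Coprime (n + 1) ℓ := (Nat.coprime_primes hp hℓ).mpr (Ne.symm hℓp)
  obtain ⟨a, b, hab⟩ := (Nat.isCoprime_iff_coprime.mpr hc)
  have h1 : ((a * ((n + 1 : ℕ) : ℤ) + b * ((ℓ : ℕ) : ℤ) : ℤ) : IsLocalRing.ResidueField A) = 1 := by
    rw [hab]
    push_cast
    rfl
  push_cast at h1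
  have h0' : ((n : IsLocalRing.ResidueField A) + 1) = 0 := by exact_mod_cast h0
  rw [h0', hℓ0, mul_zero, mul_zero, add_zero] at h1
  exact zero_ne_one h1

end Residue

/-! ### The decomposition group and the residue field -/

section Decomposition

variable (A : ValuationSubring Qbar)

/-- The automorphism of the residue field of `A` induced by an element of the decomposition
group. -/
theorem residue_map (σ : Qbar ≃ₐ[ℚ] Qbar) (hσ : σ ∈ A.decompositionSubgroup ℚ) (a : A) :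
    ∃ ha : σ (a : Qbar) ∈ A, IsLocalRing.residue A ⟨σ (a : Qbar), ha⟩
      = (⟨σ, hσ⟩ : A.decompositionSubgroup ℚ) • IsLocalRing.residue A a := by
  refine ⟨((⟨σ, hσ⟩ : A.decompositionSubgroup ℚ) • a).2, ?_⟩
  exact IsLocalRing.ResidueField.residue_smul (A.decompositionSubgroup ℚ)
    (⟨σ, hσ⟩ : A.decompositionSubgroup ℚ) a

/-- Inertia acts trivially on the residue field. -/
theorem residue_map_of_mem_inertia {τ : Qbar ≃ₐ[ℚ] Qbar} (hτ : τ ∈ A.inertiaSubgroupIn ℚ)
    (a : A) : ∃ ha : τ (a : Qbar) ∈ A,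
      IsLocalRing.residue A ⟨τ (a : Qbar), ha⟩ = IsLocalRing.residue A a := by
  obtain ⟨t, ht, rfl⟩ := hτ
  obtain ⟨ha, h⟩ := residue_map A t.1 t.2 a
  refine ⟨ha, h.trans ?_⟩
  have h1 : MulSemiringAction.toRingAut (A.decompositionSubgroup ℚ) (IsLocalRing.ResidueField A) t
      = 1 := ht
  exact congrArg (fun f : RingAut (IsLocalRing.ResidueField A) => f (IsLocalRing.residue A a)) h1

/-- A Frobenius element at `ℓ` acts as `x ↦ x ^ ℓ` on the residue field. -/
theorem residue_map_of_isFrobeniusAt {σ : Qbar ≃ₐ[ℚ] Qbar} {ℓ : ℕ} (hσ : A.IsFrobeniusAt σ ℓ)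
    (a : A) : ∃ ha : σ (a : Qbar) ∈ A,
      IsLocalRing.residue A ⟨σ (a : Qbar), ha⟩ = IsLocalRing.residue A (a ^ ℓ) := by
  obtain ⟨ha, h⟩ := residue_map A σ hσ.mem_decompositionSubgroup a
  refine ⟨ha, h.trans ?_⟩
  rw [hσ.smul_residue_eq, map_pow]

end Decomposition

/-! ### The cyclotomic character -/

section Character

/-- Exponents of a primitive `p`-th root of unity: `ζ ^ a = ζ ^ n` forces `a = n` in `ℤ/p`. -/
theorem natCast_eq_of_pow_eq {p : ℕ} [NeZero p] {ζ : Qbar} (hζ : IsPrimitiveRoot ζ p)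
    (a : ZMod p) (n : ℕ) (h : ζ ^ a.val = ζ ^ n) : a = (n : ZMod p) := by
  have hp : 0 < p := Nat.pos_of_ne_zero (NeZero.ne p)
  have h1 : ζ ^ n = ζ ^ (n % p) := by
    conv_lhs => rw [← Nat.div_add_mod n p, pow_add, pow_mul, hζ.pow_eq_one, one_pow, one_mul]
  have h2 : a.val = n % p := hζ.pow_inj (ZMod.val_lt a) (Nat.mod_lt n hp) (h.trans h1)
  rw [← ZMod.natCast_zmod_val a, h2, ZMod.natCast_mod]

/-- **[CYC]** the mod-`p` cyclotomic character with values in `kˣ`. -/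
theorem cycStmt : CycStmt := by
  intro p hp k _ _
  have : NeZero p := ⟨hp.ne_zero⟩
  obtain ⟨ζ, hζ⟩ := HasEnoughRootsOfUnity.exists_primitiveRoot Qbar p
  set χ₀ : (Qbar ≃ₐ[ℚ] Qbar) →* (ZMod p)ˣ := hζ.autToPow ℚ with hχ₀
  have hspec : ∀ σ : Qbar ≃ₐ[ℚ] Qbar, ζ ^ ((χ₀ σ : (ZMod p)ˣ) : ZMod p).val = σ ζ :=
    fun σ => hζ.autToPow_spec ℚ σ
  have hkey : ∀ (σ : Qbar ≃ₐ[ℚ] Qbar) (n : ℕ), σ ζ = ζ ^ n →
      ((χ₀ σ : (ZMod p)ˣ) : ZMod p) = (n : ZMod p) := fun σ n h =>
    natCast_eq_of_pow_eq hζ _ n ((hspec σ).trans h)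
  have hone : ∀ σ : Qbar ≃ₐ[ℚ] Qbar, σ ζ = ζ → χ₀ σ = 1 := by
    intro σ h
    apply Units.ext
    rw [hkey σ 1 (by rw [pow_one]; exact h), Nat.cast_one, Units.val_one]
  refine ⟨(Units.map ((ZMod.castHom (dvd_refl p) k : ZMod p →+* k) : ZMod p →* k)).comp χ₀,
    ?_, ?_, ?_⟩
  · -- finite level
    refine ⟨IntermediateField.adjoin ℚ {ζ},
      IntermediateField.adjoin.finiteDimensional
        ((hζ.isIntegral hp.pos).tower_top (R := ℤ) (A := ℚ)), ?_⟩
    intro σ hσ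
    rw [MonoidHom.comp_apply, hone σ (hσ ζ (IntermediateField.mem_adjoin_simple_self ℚ ζ)),
      map_one]
  · -- inertia
    intro ℓ hℓ hℓp A hA σ hσ
    have hζA : ζ ∈ A := mem_of_pow_eq_one A hp.ne_zero hζ.pow_eq_one
    have hζA' : IsPrimitiveRoot (⟨ζ, hζA⟩ : A) p :=
      IsPrimitiveRoot.of_map_of_injective (f := A.subtype) hζ Subtype.val_injective
    obtain ⟨ha, h⟩ := residue_map_of_mem_inertia A hσ ⟨ζ, hζA⟩
    have h1 : (⟨σ ζ, ha⟩ : A) = (⟨ζ, hζA⟩ : A) ^ ((χ₀ σ : (ZMod p)ˣ) : ZMod p).val :=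
      Subtype.ext (hspec σ).symm
    rw [h1] at h
    have h2 := pow_eq_of_residue_eq A hp hℓ hℓp hA hζA' ((χ₀ σ : (ZMod p)ˣ) : ZMod p).val 1
      (by rw [pow_one]; exact h)
    have h3 : σ ζ = ζ := by
      rw [← hspec σ]
      have := congrArg Subtype.val h2
      rw [pow_one] at this
      exact this
    rw [MonoidHom.comp_apply, hone σ h3, map_one]
  · -- Frobenius
    intro ℓ hℓ hℓp A hA σ hσ
    have hζA : ζ ∈ A := mem_of_pow_eq_one A hp.ne_zero hζ.pow_eq_one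
    have hζA' : IsPrimitiveRoot (⟨ζ, hζA⟩ : A) p :=
      IsPrimitiveRoot.of_map_of_injective (f := A.subtype) hζ Subtype.val_injective
    obtain ⟨ha, h⟩ := residue_map_of_isFrobeniusAt A hσ ⟨ζ, hζA⟩
    have h1 : (⟨σ ζ, ha⟩ : A) = (⟨ζ, hζA⟩ : A) ^ ((χ₀ σ : (ZMod p)ˣ) : ZMod p).val :=
      Subtype.ext (hspec σ).symm
    rw [h1] at h
    have h2 := pow_eq_of_residue_eq A hp hℓ hℓp hA hζA' ((χ₀ σ : (ZMod p)ˣ) : ZMod p).val ℓ h
    have h3 : σ ζ = ζ ^ ℓ := by
      rw [← hspec σ]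
      exact congrArg Subtype.val h2
    rw [MonoidHom.comp_apply, Units.coe_map, hkey σ ℓ h3]
    exact map_natCast (ZMod.castHom (dvd_refl p) k) ℓ

end Character

end Fermat.Agent.S29.Cyc
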