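/-
Wave 9 (S29), piece (Desc): basic vocabulary.

For a function field `F / K`:
* `Desc.IsKum K m h`: `h ≠ 0` and every order of `h` is divisible by `m` (a "Kummer function":
  `(1/m)·div h` is a divisor);
* `Desc.Rel K m h h'`: `h = c · u ^ m · h'` with a constant `c ≠ 0` and a function `u ≠ 0`
  (same Kummer class).
-/
import Mathlib
import Fermat.Prelude.Def_AlgebraicCurve_DivisorClassGroup
import Fermat.Agent.S24.PlacesMore

set_option autoImplicit false

namespace Fermat.Agent.S29.Desc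

open AlgebraicCurve

/-- `h` is nonzero and all its orders are divisible by `m`. -/
def IsKum (K : Type*) {F : Type*} [Field K] [Field F] [Algebra K F] (m : ℕ) (h : F) : Prop :=
  h ≠ 0 ∧ ∀ P : Place K F, (m : ℤ) ∣ P.ord h

/-- `h` and `h'` differ by a nonzero constant and an `m`-th power. -/
def Rel (K : Type*) {F : Type*} [Field K] [Field F] [Algebra K F] (m : ℕ) (h h' : F) : Prop :=
  ∃ (u : F) (c : K), u ≠ 0 ∧ c ≠ 0 ∧ h = algebraMap K F c * u ^ m * h'

variable {K F : Type*} [Field K] [Field F] [Algebra K F] {m : ℕ} {h h' h'' : F}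

theorem Rel.refl (m : ℕ) (h : F) : Rel K m h h :=
  ⟨1, 1, one_ne_zero, one_ne_zero, by simp⟩

theorem Rel.symm (H : Rel K m h h') : Rel K m h' h := by
  obtain ⟨u, c, hu, hc, rfl⟩ := H
  refine ⟨u⁻¹, c⁻¹, inv_ne_zero hu, inv_ne_zero hc, ?_⟩
  have hc' : algebraMap K F c ≠ 0 := by simpa using hc
  rw [map_inv₀, inv_pow]
  field_simp

theorem Rel.trans (H : Rel K m h h') (H' : Rel K m h' h'') : Rel K m h h'' := by
  obtain ⟨u, c, hu, hc, rfl⟩ := H
  obtain ⟨u', c', hu', hc', rfl⟩ := H'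
  exact ⟨u * u', c * c', mul_ne_zero hu hu', mul_ne_zero hc hc', by
    rw [map_mul, mul_pow]; ring⟩

theorem Rel.ne_zero (H : Rel K m h h') (h0 : h' ≠ 0) : h ≠ 0 := by
  obtain ⟨u, c, hu, hc, rfl⟩ := H
  have hc' : algebraMap K F c ≠ 0 := by simpa using hc
  exact mul_ne_zero (mul_ne_zero hc' (pow_ne_zero m hu)) h0

/-- The orders of related functions differ by multiples of `m`. -/
theorem Rel.exists_ord (H : Rel K m h h') (h0 : h' ≠ 0) :
    ∃ u : F, u ≠ 0 ∧ ∀ P : Place K F, P.ord h = m * P.ord u + P.ord h' := by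
  obtain ⟨u, c, hu, hc, rfl⟩ := H
  have hc' : algebraMap K F c ≠ 0 := by simpa using hc
  refine ⟨u, hu, fun P => ?_⟩
  rw [P.ord_mul (mul_ne_zero hc' (pow_ne_zero m hu)) h0, P.ord_mul hc' (pow_ne_zero m hu),
    Fermat.Agent.S24.Places.ord_algebraMap, zero_add, ← zpow_natCast, P.ord_zpow]

theorem IsKum.of_rel (H' : IsKum K m h') (H : Rel K m h h') : IsKum K m h := by
  obtain ⟨u, hu, hord⟩ := H.exists_ord H'.1
  refine ⟨H.ne_zero H'.1, fun P => ?_⟩
  rw [hord P]
  exact dvd_add (dvd_mul_right _ _) (H'.2 P)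

theorem IsKum.ne_zero (H : IsKum K m h) : h ≠ 0 := H.1

/-- An `m`-th power (times a constant) is a Kummer function. -/
theorem isKum_const_mul_pow {c : K} (hc : c ≠ 0) {u : F} (hu : u ≠ 0) (m : ℕ) :
    IsKum K m (algebraMap K F c * u ^ m) := by
  have h1 : IsKum K m (1 : F) := ⟨one_ne_zero, fun P => by simp⟩
  exact h1.of_rel ⟨u, c, hu, hc, by rw [mul_one]⟩

end Fermat.Agent.S29.Desc
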