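/-
Wave 9 (S29), piece (Desc): the generic normal form.

Setting: a function field `F / K` satisfying the Riemann–Roch hypotheses `S20.RR.Hyp K F`,
embedded `K`-linearly in the Laurent series `K((q))` (`ε : F →ₐ[K] LaurentSeries K`), with
semilinear automorphisms acting coefficientwise.

For a Kummer function `h` (all orders divisible by `m`) we define a canonical representative of
its class modulo constants and `m`-th powers: with `D = (1/m)·div h` and `B` a fixed invariant
divisor of large degree, `u` is the element of `L(D + B)` of maximal `q`-order and leading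
coefficient `1`, and `w = h · u ^ m / (leading coefficient)`.  The representative depends only on
the class (`IsNF.of_rel`, `IsNF.unique`) and commutes with the coefficientwise automorphisms
(`IsNF.smul`).  Hence, when there are only finitely many classes, every `q`-coefficient of `w`
has a finite orbit under `Aut(K/ℚ)`, so is algebraic over `ℚ` (`exists_algebraic_rep`).
-/
import Mathlib
import Fermat.Prelude.Def_ModularCurve_ArithmeticGalois
import Fermat.Agent.S20.RRBasic
import Fermat.Agent.S29.AutC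
import Fermat.Agent.S29.DescDefs

set_option autoImplicit false

noncomputable section

namespace Fermat.Agent.S29.DescCore

open AlgebraicCurve ModularCurve HahnSeries Fermat.Agent.S20 Fermat.Agent.S29.Desc

/-! ### Laurent series: order and leading coefficient -/

section Series

variable {K : Type*} [Field K]

theorem order_coeffMap (τ : K →+* K) (x : LaurentSeries K) :
    (coeffMap τ x).order = x.order := by
  rcases eq_or_ne x 0 with rfl | hx
  · simp
  have hx' : coeffMap τ x ≠ 0 := (map_ne_zero (coeffMap τ)).mpr hx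
  apply le_antisymm
  · apply order_le_of_coeff_ne_zero
    rw [coeffMap_coeff]
    have := leadingCoeff_ne_zero.mpr hx
    rw [leadingCoeff_eq] at this
    exact (map_ne_zero τ).mpr this
  · apply order_le_of_coeff_ne_zero
    have := leadingCoeff_ne_zero.mpr hx'
    rw [leadingCoeff_eq, coeffMap_coeff] at this
    exact (map_ne_zero τ).mp this

theorem leadingCoeff_coeffMap (τ : K →+* K) (x : LaurentSeries K) :
    (coeffMap τ x).leadingCoeff = τ x.leadingCoeff := by
  rw [leadingCoeff_eq, leadingCoeff_eq, order_coeffMap, coeffMap_coeff]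

theorem order_algebraMap (c : K) : (algebraMap K (LaurentSeries K) c).order = 0 := by
  rw [algebraMap_laurentSeries_eq_single]
  rcases eq_or_ne c 0 with rfl | hc
  · simp
  · exact order_single hc

theorem leadingCoeff_algebraMap (c : K) :
    (algebraMap K (LaurentSeries K) c).leadingCoeff = c := by
  rw [algebraMap_laurentSeries_eq_single]
  exact leadingCoeff_of_single

theorem lt_order_of_coeff_eq_zero {x : LaurentSeries K} (hx : x ≠ 0) {k : ℤ}
    (h : ∀ i ≤ k, x.coeff i = 0) : k < x.order := by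
  by_contra hk
  rw [not_lt] at hk
  have := leadingCoeff_ne_zero.mpr hx
  rw [leadingCoeff_eq] at this
  exact this (h _ hk)

end Series

/-! ### The abstract normal form -/

section Core

variable {K F : Type*} [Field K] [Field F] [Algebra K F] (ε : F →ₐ[K] LaurentSeries K)

theorem eps_ne_zero {x : F} (hx : x ≠ 0) : ε x ≠ 0 := (map_ne_zero ε).mpr hx

theorem eps_order_mul {x y : F} (hx : x ≠ 0) (hy : y ≠ 0) :
    (ε (x * y)).order = (ε x).order + (ε y).order := by
  rw [map_mul]
  exact order_mul (eps_ne_zero ε hx) (eps_ne_zero ε hy)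

theorem eps_lc_mul (x y : F) :
    (ε (x * y)).leadingCoeff = (ε x).leadingCoeff * (ε y).leadingCoeff := by
  rw [map_mul, leadingCoeff_mul]

theorem eps_order_const (c : K) : (ε (algebraMap K F c)).order = 0 := by
  rw [AlgHom.commutes]
  exact order_algebraMap c

theorem eps_lc_const (c : K) : (ε (algebraMap K F c)).leadingCoeff = c := by
  rw [AlgHom.commutes]
  exact leadingCoeff_algebraMap c

theorem eps_lc_pow (x : F) (n : ℕ) : (ε (x ^ n)).leadingCoeff = (ε x).leadingCoeff ^ n := by
  induction n with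
  | zero => rw [pow_zero, pow_zero, map_one, leadingCoeff_one]
  | succ n ih => rw [pow_succ, pow_succ, eps_lc_mul, ih]

theorem eps_lc_inv {x : F} (hx : x ≠ 0) : (ε x⁻¹).leadingCoeff = ((ε x).leadingCoeff)⁻¹ := by
  have h := eps_lc_mul ε x x⁻¹
  rw [mul_inv_cancel₀ hx, map_one, leadingCoeff_one] at h
  exact eq_inv_of_mul_eq_one_right h.symm

theorem eps_order_inv {x : F} (hx : x ≠ 0) : (ε x⁻¹).order = -(ε x).order := by
  have h := eps_order_mul ε hx (inv_ne_zero hx)
  rw [mul_inv_cancel₀ hx, map_one, order_one] at h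
  omega

theorem eps_lc_ne_zero {x : F} (hx : x ≠ 0) : (ε x).leadingCoeff ≠ 0 :=
  leadingCoeff_ne_zero.mpr (eps_ne_zero ε hx)

/-- `ε` is semilinear for the `HahnSeries` scalar action. -/
theorem eps_coeff_smul (c : K) (x : F) (i : ℤ) : (ε (c • x)).coeff i = c * (ε x).coeff i := by
  rw [Algebra.smul_def, map_mul, AlgHom.commutes, algebraMap_laurentSeries_eq_single,
    coeff_single_zero_mul]

/-- A nonzero finite-dimensional space of functions has an element of maximal `q`-order. -/
theorem exists_max_order : ∀ (d : ℕ) (V : Submodule K F) [Module.Finite K V],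
    Module.finrank K V = d → V ≠ ⊥ →
    ∃ u ∈ V, u ≠ 0 ∧ ∀ u' ∈ V, u' ≠ 0 → (ε u').order ≤ (ε u).order := by
  intro d
  induction d using Nat.strong_induction_on with
  | _ d ih =>
    intro V _ hd hV
    obtain ⟨u₀, hu₀V, hu₀⟩ := (Submodule.ne_bot_iff V).mp hV
    let W : Submodule K F :=
      { carrier := {x | ∀ i ≤ (ε u₀).order, (ε x).coeff i = 0}
        zero_mem' := fun i _ => by
          show (ε 0).coeff i = 0
          rw [map_zero]
          rfl
        add_mem' := fun {a b} ha hb i hi => by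
          show (ε (a + b)).coeff i = 0
          rw [map_add, coeff_add, ha i hi, hb i hi, add_zero]
        smul_mem' := fun c a ha i hi => by
          show (ε (c • a)).coeff i = 0
          rw [eps_coeff_smul, ha i hi, mul_zero] }
    have hW : ∀ x, x ∈ W ↔ ∀ i ≤ (ε u₀).order, (ε x).coeff i = 0 := fun x => Iff.rfl
    by_cases hVW : V ⊓ W = ⊥
    · refine ⟨u₀, hu₀V, hu₀, fun u' hu'V hu' => ?_⟩
      by_contra hlt
      rw [not_le] at hlt
      have hmem : u' ∈ V ⊓ W :=
        ⟨hu'V, (hW u').mpr fun i hi => coeff_eq_zero_of_lt_order (lt_of_le_of_lt hi hlt)⟩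
      rw [hVW] at hmem
      exact hu' ((Submodule.mem_bot K).mp hmem)
    · have hlt : V ⊓ W < V := by
        refine lt_of_le_of_ne inf_le_left fun heq => ?_
        have hmem : u₀ ∈ V ⊓ W := by
          rw [heq]
          exact hu₀V
        have h0 := (hW u₀).mp hmem.2 (ε u₀).order le_rfl
        have := eps_lc_ne_zero ε hu₀
        rw [leadingCoeff_eq] at this
        exact this h0
      have hfin : Module.Finite K ↥(V ⊓ W) := Submodule.finiteDimensional_of_le inf_le_left
      have hrank := Submodule.finrank_lt_finrank_of_lt hlt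
      obtain ⟨u, huVW, hu, hmax⟩ := ih _ (hd ▸ hrank) (V ⊓ W) rfl hVW
      refine ⟨u, huVW.1, hu, fun u' hu'V hu' => ?_⟩
      by_cases hu'W : u' ∈ W
      · exact hmax u' ⟨hu'V, hu'W⟩ hu'
      · have hex : ∃ i ≤ (ε u₀).order, (ε u').coeff i ≠ 0 := by
          by_contra hcon
          refine hu'W ((hW u').mpr fun i hi => ?_)
          by_contra hne
          exact hcon ⟨i, hi, hne⟩
        obtain ⟨i, hi, hci⟩ := hex
        have h1 := order_le_of_coeff_ne_zero hci
        have h2 := lt_order_of_coeff_eq_zero (eps_ne_zero ε hu) ((hW u).mp huVW.2)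
        omega

/-- `w` is the normal form of the Kummer function `h` (relative to the auxiliary divisor `B`). -/
def IsNF (m : ℕ) (B : Divisor K F) (h w : F) : Prop :=
  ∃ (D : Divisor K F) (u : F), (∀ P : Place K F, P.ord h = m * D P) ∧
    u ∈ riemannRochSpace (D + B) ∧ u ≠ 0 ∧
    (∀ u' ∈ riemannRochSpace (D + B), u' ≠ 0 → (ε u').order ≤ (ε u).order) ∧
    (ε u).leadingCoeff = 1 ∧ w = algebraMap K F ((ε h).leadingCoeff)⁻¹ * h * u ^ m

/-- Every nonzero Riemann–Roch space has an element of maximal `q`-order, normalised to leading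
coefficient `1`. -/
theorem exists_max_order_rr (hyp : RR.Hyp0 K F) (E : Divisor K F) (hE : riemannRochSpace E ≠ ⊥) :
    ∃ u ∈ riemannRochSpace E, u ≠ 0 ∧ (ε u).leadingCoeff = 1 ∧
      ∀ u' ∈ riemannRochSpace E, u' ≠ 0 → (ε u').order ≤ (ε u).order := by
  have hfin := RR.finite hyp E
  obtain ⟨u, huE, hu, hmax⟩ := exists_max_order ε _ (riemannRochSpace E) rfl hE
  have ha0 : (ε u).leadingCoeff ≠ 0 := eps_lc_ne_zero ε hu
  have ha1 : algebraMap K F ((ε u).leadingCoeff)⁻¹ ≠ 0 := by simpa using ha0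
  refine ⟨((ε u).leadingCoeff)⁻¹ • u, Submodule.smul_mem _ _ huE,
    smul_ne_zero (inv_ne_zero ha0) hu, ?_, ?_⟩
  · rw [Algebra.smul_def, eps_lc_mul, eps_lc_const, inv_mul_cancel₀ ha0]
  · intro u' hu' hu'0
    rw [Algebra.smul_def, eps_order_mul ε ha1 hu, eps_order_const, zero_add]
    exact hmax u' hu' hu'0

/-- The `m`-th root of the divisor of a Kummer function. -/
theorem exists_rootDiv (hyp : RR.Hyp0 K F) {m : ℕ} (hm : 0 < m) {h : F} (hh : IsKum K m h) :
    ∃ D : Divisor K F, (∀ P : Place K F, P.ord h = m * D P) ∧ Divisor.degree D = 0 := by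
  obtain ⟨D₀, hD₀, hdeg⟩ := hyp.principal h hh.1
  have key : ∀ P : Place K F, P.ord h = m * (D₀.mapRange (fun k => k / (m : ℤ)) (by simp)) P := by
    intro P
    rw [Finsupp.mapRange_apply, hD₀ P]
    exact (Int.mul_ediv_cancel' (hh.2 P)).symm
  refine ⟨D₀.mapRange (fun k => k / (m : ℤ)) (by simp), key, ?_⟩
  have hD : D₀ = (m : ℤ) • D₀.mapRange (fun k => k / (m : ℤ)) (by simp) := by
    ext P
    rw [Finsupp.smul_apply, smul_eq_mul, ← key P, hD₀ P]
  rw [hD, map_zsmul, smul_eq_mul] at hdeg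
  rcases mul_eq_zero.mp hdeg with h0 | h0
  · exact absurd (by exact_mod_cast h0) hm.ne'
  · exact h0

theorem exists_isNF (hyp : RR.Hyp0 K F) {m : ℕ} (hm : 0 < m) (B : Divisor K F)
    (hB : ∀ D : Divisor K F, Divisor.degree D = 0 → riemannRochSpace (D + B) ≠ ⊥)
    {h : F} (hh : IsKum K m h) : ∃ w, IsNF ε m B h w := by
  obtain ⟨D, hD, hdeg⟩ := exists_rootDiv hyp hm hh
  obtain ⟨u, huE, hu, hlc, hmax⟩ := exists_max_order_rr ε hyp (D + B) (hB D hdeg)
  exact ⟨_, D, u, hD, huE, hu, hmax, hlc, rfl⟩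

variable {ε}

theorem IsNF.rel {m : ℕ} {B : Divisor K F} {h w : F} (H : IsNF ε m B h w) (hh : h ≠ 0) :
    Rel K m h w ∧ w ≠ 0 := by
  obtain ⟨D, u, hD, huE, hu, hmax, hlc, rfl⟩ := H
  have ha : (ε h).leadingCoeff ≠ 0 := eps_lc_ne_zero ε hh
  have ha' : algebraMap K F ((ε h).leadingCoeff)⁻¹ ≠ 0 := by simpa using ha
  have ha'' : algebraMap K F (ε h).leadingCoeff ≠ 0 := by simpa using ha
  refine ⟨⟨u⁻¹, (ε h).leadingCoeff, inv_ne_zero hu, ha, ?_⟩,
    mul_ne_zero (mul_ne_zero ha' hh) (pow_ne_zero m hu)⟩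
  rw [map_inv₀, inv_pow]
  field_simp

theorem IsNF.unique {m : ℕ} (hm : 0 < m) {B : Divisor K F} {h w w' : F}
    (H : IsNF ε m B h w) (H' : IsNF ε m B h w') : w = w' := by
  obtain ⟨D, u, hD, huE, hu, hmax, hlc, rfl⟩ := H
  obtain ⟨D', u', hD', hu'E, hu', hmax', hlc', rfl⟩ := H'
  have hDD : D = D' := by
    ext P
    have h1 := (hD P).symm.trans (hD' P)
    have hm' : (m : ℤ) ≠ 0 := by exact_mod_cast hm.ne'
    exact mul_left_cancel₀ hm' h1
  subst hDD
  have huu : u = u' := by
    by_contra hne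
    have hsub : u - u' ∈ riemannRochSpace (D + B) := Submodule.sub_mem _ huE hu'E
    have hsub0 : u - u' ≠ 0 := sub_ne_zero.mpr hne
    have hle := hmax _ hsub hsub0
    have hoo : (ε u).order = (ε u').order := le_antisymm (hmax' u huE hu) (hmax u' hu'E hu')
    have hlt : (ε u).order < (ε (u - u')).order := by
      apply lt_order_of_coeff_eq_zero (eps_ne_zero ε hsub0)
      intro i hi
      rw [map_sub, coeff_sub]
      rcases lt_or_eq_of_le hi with hlt | rfl
      · rw [coeff_eq_zero_of_lt_order hlt, coeff_eq_zero_of_lt_order (hoo ▸ hlt), sub_zero]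
      · have h1 : (ε u).coeff (ε u).order = 1 := by rw [← leadingCoeff_eq]; exact hlc
        have h2 : (ε u').coeff (ε u).order = 1 := by rw [hoo, ← leadingCoeff_eq]; exact hlc'
        rw [h1, h2, sub_self]
    omega
  rw [huu]

theorem IsNF.of_rel (hyp : RR.Hyp0 K F) {m : ℕ} {B : Divisor K F} {h h' w : F}
    (H : IsNF ε m B h w) (hh : h ≠ 0) (R : Rel K m h' h) : IsNF ε m B h' w := by
  obtain ⟨D, u, hD, huE, hu, hmax, hlc, rfl⟩ := H
  obtain ⟨v, c, hv, hc, rfl⟩ := R
  obtain ⟨Dv, hDv, -⟩ := hyp.principal v hv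
  have hc' : algebraMap K F c ≠ 0 := by simpa using hc
  have hvm : v ^ m ≠ 0 := pow_ne_zero m hv
  have hb0 : (ε v).leadingCoeff ≠ 0 := eps_lc_ne_zero ε hv
  have hb' : algebraMap K F (ε v).leadingCoeff ≠ 0 := by simpa using hb0
  have ha : (ε h).leadingCoeff ≠ 0 := eps_lc_ne_zero ε hh
  have ha'' : algebraMap K F (ε h).leadingCoeff ≠ 0 := by simpa using ha
  have hvi : v⁻¹ ≠ 0 := inv_ne_zero hv
  refine ⟨D + Dv, algebraMap K F (ε v).leadingCoeff * v⁻¹ * u, fun P => ?_, ?_, ?_, ?_, ?_, ?_⟩
  · rw [P.ord_mul (mul_ne_zero hc' hvm) hh, P.ord_mul hc' hvm,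
      Fermat.Agent.S24.Places.ord_algebraMap, zero_add, ← zpow_natCast, P.ord_zpow, hD P,
      Finsupp.add_apply, hDv P]
    ring
  · rw [mem_riemannRochSpace_iff]
    intro P
    right
    have h1 := ((mem_riemannRochSpace_iff.mp huE) P).resolve_left hu
    rw [P.ord_mul (mul_ne_zero hb' hvi) hu, P.ord_mul hb' hvi,
      Fermat.Agent.S24.Places.ord_algebraMap, P.ord_inv, zero_add]
    simp only [Finsupp.add_apply] at h1 ⊢
    rw [hDv P]
    omega
  · exact mul_ne_zero (mul_ne_zero hb' hvi) hu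
  · intro y hy hy0
    have hvy : v * y ∈ riemannRochSpace (D + B) := by
      rw [mem_riemannRochSpace_iff]
      intro P
      right
      have h1 := ((mem_riemannRochSpace_iff.mp hy) P).resolve_left hy0
      rw [P.ord_mul hv hy0]
      simp only [Finsupp.add_apply] at h1 ⊢
      rw [hDv P] at h1
      omega
    have h2 := hmax _ hvy (mul_ne_zero hv hy0)
    rw [eps_order_mul ε hv hy0] at h2
    rw [eps_order_mul ε (mul_ne_zero hb' hvi) hu, eps_order_mul ε hb' hvi, eps_order_const,
      eps_order_inv ε hv]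
    omega
  · rw [eps_lc_mul, eps_lc_mul, eps_lc_const, eps_lc_inv ε hv, hlc, mul_one,
      mul_inv_cancel₀ hb0]
  · rw [eps_lc_mul, eps_lc_mul, eps_lc_const, eps_lc_pow]
    simp only [map_mul, map_inv₀, map_pow, mul_pow, inv_pow]
    field_simp

theorem IsNF.smul {m : ℕ} {B : Divisor K F} {h w : F} (H : IsNF ε m B h w)
    (g : SemilinearAut K F) (τ : K →+* K) (hg : ∀ x : F, ε (g • x) = coeffMap τ (ε x))
    (hB : g • B = B) : IsNF ε m B (g • h) (g • w) := by
  obtain ⟨D, u, hD, huE, hu, hmax, hlc, rfl⟩ := H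
  have hconst : ∀ a : K, g • algebraMap K F a = algebraMap K F (τ a) := by
    intro a
    apply (ε : F →+* LaurentSeries K).injective
    show ε (g • algebraMap K F a) = ε (algebraMap K F (τ a))
    rw [hg, AlgHom.commutes, AlgHom.commutes, algebraMap_laurentSeries_eq_single,
      algebraMap_laurentSeries_eq_single, coeffMap_single]
  have hord : ∀ (P : Place K F) (x : F), P.ord (g • x) = (g⁻¹ • P).ord x := by
    intro P x
    have h1 := SemilinearAut.ord_smul g (g⁻¹ • P) x
    rwa [smul_inv_smul] at h1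
  have hqo : ∀ x : F, (ε (g • x)).order = (ε x).order := fun x => by rw [hg, order_coeffMap]
  have hBP : ∀ P : Place K F, B (g⁻¹ • P) = B P := by
    intro P
    conv_rhs => rw [← hB]
    exact (SemilinearAut.divisor_smul_apply g B P).symm
  have hmem : ∀ x : F, x ∈ riemannRochSpace (D + B) → g • x ∈ riemannRochSpace (g • D + B) := by
    intro x hx
    rw [mem_riemannRochSpace_iff] at hx ⊢
    intro P
    rcases hx (g⁻¹ • P) with rfl | h1
    · left
      exact smul_zero g
    · right
      rw [hord, Finsupp.add_apply, SemilinearAut.divisor_smul_apply, ← hBP P]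
      simpa [Finsupp.add_apply] using h1
  have hmem' : ∀ y : F, y ∈ riemannRochSpace (g • D + B) →
      g⁻¹ • y ∈ riemannRochSpace (D + B) := by
    intro y hy
    rw [mem_riemannRochSpace_iff] at hy ⊢
    intro P
    rcases hy (g • P) with rfl | h1
    · left
      exact smul_zero _
    · right
      have h2 : (g • P).ord y = P.ord (g⁻¹ • y) := by
        have h3 := SemilinearAut.ord_smul g P (g⁻¹ • y)
        rwa [smul_inv_smul] at h3
      rw [← h2]
      rw [Finsupp.add_apply, SemilinearAut.divisor_smul_apply_smul] at h1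
      have h4 := hBP (g • P)
      rw [inv_smul_smul] at h4
      rw [← h4] at h1
      simpa [Finsupp.add_apply] using h1
  refine ⟨g • D, g • u, fun P => ?_, hmem u huE, ?_, ?_, ?_, ?_⟩
  · rw [hord, hD, SemilinearAut.divisor_smul_apply]
  · exact (smul_ne_zero_iff_ne g).mpr hu
  · intro y hy hy0
    have h1 := hmax _ (hmem' y hy) ((smul_ne_zero_iff_ne g⁻¹).mpr hy0)
    have h2 := hqo (g⁻¹ • y)
    rw [smul_inv_smul] at h2
    rw [hqo u, h2]
    exact h1
  · rw [hg, leadingCoeff_coeffMap, hlc, map_one]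
  · rw [smul_mul', smul_mul', smul_pow', hconst, hg, leadingCoeff_coeffMap, map_inv₀]

/-- An invariant divisor `B` such that `L(D + B) ≠ 0` for every `D` of degree `0`. -/
theorem exists_invariant_B (hyp : RR.Hyp K F) (J : F) (hJc : ∀ c : K, J ≠ algebraMap K F c) :
    ∃ B : Divisor K F, (∀ g : SemilinearAut K F, g • J = J → g • B = B) ∧
      ∀ D : Divisor K F, Divisor.degree D = 0 → riemannRochSpace (D + B) ≠ ⊥ := by
  have h0 := hyp.toHyp0
  have hJ0 : J ≠ 0 := by
    intro h
    exact hJc 0 (by rw [h, map_zero])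
  obtain ⟨DJ, hDJ, -⟩ := h0.principal J hJ0
  let B₀ : Divisor K F := DJ.mapRange (fun k => max (-k) 0) (by simp)
  have hB₀ : ∀ P, B₀ P = max (-(P.ord J)) 0 := fun P => by
    show (DJ.mapRange (fun k => max (-k) 0) (by simp)) P = _
    rw [Finsupp.mapRange_apply, hDJ P]
  have hB₀nn : 0 ≤ B₀ := by
    rw [Finsupp.le_def]
    intro P
    rw [hB₀]
    exact le_max_right _ _
  have hB₀ne : B₀ ≠ 0 := by
    intro h
    obtain ⟨c, hc⟩ := h0.const J (fun P => by
      have h1 := hB₀ P
      rw [h] at h1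
      simp only [Finsupp.coe_zero, Pi.zero_apply] at h1
      have h2 := le_max_left (-(P.ord J)) 0
      omega)
    exact hJc c hc
  have hdeg : 0 < Divisor.degree B₀ := by
    obtain ⟨P, hP⟩ : ∃ P, B₀ P ≠ 0 := by
      by_contra hcon
      refine hB₀ne (Finsupp.ext fun P => ?_)
      by_contra hne
      exact hcon ⟨P, hne⟩
    have hP' : 1 ≤ B₀ P := by
      have h1 := Finsupp.le_def.mp hB₀nn P
      simp only [Finsupp.coe_zero, Pi.zero_apply] at h1
      omega
    have hnn : 0 ≤ B₀ - Finsupp.single P 1 := by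
      rw [Finsupp.le_def]
      intro Q
      simp only [Finsupp.coe_zero, Pi.zero_apply, Finsupp.coe_sub, Pi.sub_apply]
      by_cases hQ : Q = P
      · subst hQ
        rw [Finsupp.single_eq_same]
        omega
      · rw [Finsupp.single_eq_of_ne hQ]
        have h1 := Finsupp.le_def.mp hB₀nn Q
        simp only [Finsupp.coe_zero, Pi.zero_apply] at h1
        omega
    have h2 := RR.degree_nonneg hnn
    rw [map_sub, Divisor.degree_single, h0.deg_one P] at h2
    push_cast at h2
    omega
  obtain ⟨γ, hγ, -⟩ := RR.exists_genus hyp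
  refine ⟨γ.toNat • B₀, ?_, ?_⟩
  · intro g hg
    have h1 : g • B₀ = B₀ := by
      ext P
      rw [SemilinearAut.divisor_smul_apply, hB₀, hB₀]
      have h2 := SemilinearAut.ord_smul g (g⁻¹ • P) J
      rw [smul_inv_smul, hg] at h2
      rw [h2]
    rw [smul_comm, h1]
  · intro D hD hbot
    have h1 := hγ (D + γ.toNat • B₀)
    have h2 : RR.ell (D + γ.toNat • B₀) = 0 := by
      show Module.finrank K (riemannRochSpace (D + γ.toNat • B₀)) = 0
      rw [hbot]
      exact finrank_bot K F
    rw [h2, map_add, hD, map_nsmul, nsmul_eq_mul] at h1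
    have h3 := Int.self_le_toNat γ
    have h4 : (γ.toNat : ℤ) ≤ (γ.toNat : ℤ) * Divisor.degree B₀ := by
      nlinarith [Int.natCast_nonneg γ.toNat]
    push_cast at h1
    omega

/-- **Generic descent of coefficients.**  If there are only finitely many Kummer classes, every
Kummer function is, up to a constant and an `m`-th power, a function whose `q`-expansion has
coefficients algebraic over `ℚ`. -/
theorem exists_algebraic_rep [Algebra ℚ K] [IsAlgClosed K] [CharZero K] (hyp : RR.Hyp K F)
    (ρ : (K ≃ₐ[ℚ] K) → SemilinearAut K F)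
    (hρ : ∀ (σ : K ≃ₐ[ℚ] K) (x : F), ε (ρ σ • x) = coeffMap (σ : K →+* K) (ε x))
    (J : F) (hJ : ∀ σ, ρ σ • J = J) (hJc : ∀ c : K, J ≠ algebraMap K F c)
    (m : ℕ) (hm : 0 < m)
    (hfin : ∃ S : Set F, S.Finite ∧ ∀ h, IsKum K m h → ∃ s ∈ S, Rel K m h s)
    (h : F) (hh : IsKum K m h) :
    ∃ w : F, w ≠ 0 ∧ Rel K m h w ∧ ∀ n : ℤ, IsAlgebraic ℚ ((ε w).coeff n) := by
  classical
  have h0 := hyp.toHyp0
  obtain ⟨B, hBinv, hBne⟩ := exists_invariant_B hyp J hJc
  obtain ⟨w, hw⟩ := exists_isNF ε h0 hm B hBne hh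
  obtain ⟨hrel, hw0⟩ := hw.rel hh.1
  refine ⟨w, hw0, hrel, fun n => ?_⟩
  obtain ⟨S, hS, hSrel⟩ := hfin
  let nf : F → F := fun s => if hs : ∃ w', IsNF ε m B s w' then hs.choose else 0
  have horb : ∀ σ : K ≃ₐ[ℚ] K, ρ σ • w ∈ nf '' S := by
    intro σ
    have h1 : IsNF ε m B (ρ σ • h) (ρ σ • w) :=
      hw.smul (ρ σ) (σ : K →+* K) (hρ σ) (hBinv _ (hJ σ))
    have hk : IsKum K m (ρ σ • h) := by
      refine ⟨(smul_ne_zero_iff_ne _).mpr hh.1, fun P => ?_⟩
      have h2 := SemilinearAut.ord_smul (ρ σ) ((ρ σ)⁻¹ • P) h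
      rw [smul_inv_smul] at h2
      rw [h2]
      exact hh.2 _
    obtain ⟨s, hsS, hs⟩ := hSrel _ hk
    have h2 : IsNF ε m B s (ρ σ • w) := h1.of_rel h0 hk.1 hs.symm
    refine ⟨s, hsS, ?_⟩
    have hex : ∃ w', IsNF ε m B s w' := ⟨_, h2⟩
    show (if hs : ∃ w', IsNF ε m B s w' then hs.choose else 0) = ρ σ • w
    rw [dif_pos hex]
    exact hex.choose_spec.unique hm h2
  apply AutC.isAlgebraic_of_finite_orbit (k := ℚ) (K := K)
  refine Set.Finite.subset ((hS.image nf).image fun y => (ε y).coeff n) ?_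
  rintro x ⟨σ, rfl⟩
  refine ⟨ρ σ • w, horb σ, ?_⟩
  show (ε (ρ σ • w)).coeff n = σ ((ε w).coeff n)
  rw [hρ, coeffMap_coeff]
  rfl

end Core

end Fermat.Agent.S29.DescCore
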