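import Mathlib
import Fermat.Prelude.Def_ModularCurve_LaurentCoeff

/-!
# Descent of the field of constants for Laurent-series function fields (linear algebra)

`F₀ ⊆ ℚ((q))` a field, `K → L` an extension of fields of characteristic zero.  An element of
`laurentBaseChange L F₀ = L(F₀) ⊆ L((q))` all of whose coefficients lie in (the image of) `K`
is the coefficientwise image of an element of `laurentBaseChange K F₀ = K(F₀) ⊆ K((q))`
(`K((q))` and `L` are linearly disjoint over `K`).

Main statement: `Fermat.Agent.S29.DescLin.exists_of_coeff_mem`.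
-/

set_option autoImplicit false

noncomputable section

namespace Fermat.Agent.S29.DescLin

open ModularCurve HahnSeries

variable {K L : Type} [Field K] [Field L]

/-- Coefficientwise application of a `K`-linear functional `L → K`. -/
def mapFun [Algebra K L] (ψ : L →ₗ[K] K) (z : LaurentSeries L) : LaurentSeries K :=
  z.map ψ

theorem mapFun_coeff [Algebra K L] (ψ : L →ₗ[K] K) (z : LaurentSeries L) (n : ℤ) :
    (mapFun ψ z).coeff n = ψ (z.coeff n) :=
  rfl

theorem mapFun_zero [Algebra K L] (ψ : L →ₗ[K] K) : mapFun ψ (0 : LaurentSeries L) = 0 := by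
  ext n
  rw [mapFun_coeff]
  simp

theorem mapFun_add [Algebra K L] (ψ : L →ₗ[K] K) (z w : LaurentSeries L) :
    mapFun ψ (z + w) = mapFun ψ z + mapFun ψ w := by
  ext n
  rw [HahnSeries.coeff_add, mapFun_coeff, mapFun_coeff, mapFun_coeff, HahnSeries.coeff_add,
    map_add]

theorem coeff_algebraMap_mul (a : L) (z : LaurentSeries L) (n : ℤ) :
    (algebraMap L (LaurentSeries L) a * z).coeff n = a * z.coeff n := by
  rw [algebraMap_laurentSeries_eq_single, HahnSeries.coeff_single_zero_mul]

theorem mapFun_algebraMap_mul [Algebra K L] (ψ : L →ₗ[K] K) (a : L) (z : LaurentSeries L) :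
    mapFun ψ (algebraMap L (LaurentSeries L) a * z) =
      mapFun (ψ.comp (LinearMap.mulLeft K a)) z := by
  ext n
  rw [mapFun_coeff, mapFun_coeff, coeff_algebraMap_mul]
  rfl

theorem mapFun_coeffMap [Algebra K L] (ψ : L →ₗ[K] K) (w : LaurentSeries K) :
    mapFun ψ (coeffMap (algebraMap K L) w) = algebraMap K (LaurentSeries K) (ψ 1) * w := by
  ext n
  rw [mapFun_coeff, coeffMap_coeff, coeff_algebraMap_mul, Algebra.algebraMap_eq_smul_one,
    map_smul, smul_eq_mul, mul_comm]

theorem coeffMap_coeffEmb_eq [Algebra K L] [Algebra ℚ K] [Algebra ℚ L]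
    (g : LaurentSeries ℚ) :
    coeffMap (algebraMap K L) (coeffEmb K g) = coeffEmb L g := by
  rw [coeffEmb, coeffEmb, coeffMap_coeffMap]
  exact coeffMap_congr (Subsingleton.elim _ _) g

/-- The key computation on the `L`-span of the generators. -/
theorem mapFun_span [Algebra K L] [Algebra ℚ K] [Algebra ℚ L]
    (F₀ : IntermediateField ℚ (LaurentSeries ℚ)) (Q : LaurentSeries L)
    (hQ : Q ∈ Algebra.adjoin L (⇑(coeffEmb L) '' (F₀ : Set (LaurentSeries ℚ)))) :
    ∀ ψ : L →ₗ[K] K, mapFun ψ Q ∈ laurentBaseChange K F₀ ∧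
      ∀ y : LaurentSeries K, mapFun ψ (coeffMap (algebraMap K L) y * Q) = y * mapFun ψ Q := by
  have hS : Submonoid.closure (⇑(coeffEmb L) '' (F₀ : Set (LaurentSeries ℚ))) =
      F₀.toSubfield.toSubring.toSubmonoid.map
        ((coeffEmb L : LaurentSeries ℚ →+* LaurentSeries L) :
          LaurentSeries ℚ →* LaurentSeries L) := by
    have h : ⇑(coeffEmb L) '' (F₀ : Set (LaurentSeries ℚ)) =
      ((F₀.toSubfield.toSubring.toSubmonoid.map
        ((coeffEmb L : LaurentSeries ℚ →+* LaurentSeries L) :
          LaurentSeries ℚ →* LaurentSeries L) : Submonoid (LaurentSeries L)) :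
        Set (LaurentSeries L)) := rfl
    rw [h, Submonoid.closure_eq]
  have hQ' : Q ∈ Subalgebra.toSubmodule
      (Algebra.adjoin L (⇑(coeffEmb L) '' (F₀ : Set (LaurentSeries ℚ)))) := hQ
  rw [Algebra.adjoin_eq_span, hS] at hQ'
  clear hQ
  induction hQ' using Submodule.span_induction with
  | mem z hz =>
      obtain ⟨g, hg, rfl⟩ := hz
      intro ψ
      have hg' : g ∈ F₀ := hg
      have e : (((coeffEmb L : LaurentSeries ℚ →+* LaurentSeries L) :
          LaurentSeries ℚ →* LaurentSeries L)) g = coeffMap (algebraMap K L) (coeffEmb K g) :=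
        (coeffMap_coeffEmb_eq (K := K) (L := L) g).symm
      rw [e]
      refine ⟨?_, fun y => ?_⟩
      · rw [mapFun_coeffMap]
        exact mul_mem ((laurentBaseChange K F₀).algebraMap_mem _)
          (coeffEmb_mem_laurentBaseChange K hg')
      · rw [← map_mul, mapFun_coeffMap, mapFun_coeffMap, mul_left_comm]
  | zero =>
      intro ψ
      refine ⟨?_, fun y => ?_⟩
      · rw [mapFun_zero]; exact zero_mem _
      · rw [mul_zero, mapFun_zero, mul_zero]
  | add z w _ _ hz hw =>
      intro ψ
      refine ⟨?_, fun y => ?_⟩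
      · rw [mapFun_add]; exact add_mem (hz ψ).1 (hw ψ).1
      · rw [mul_add, mapFun_add, mapFun_add, (hz ψ).2 y, (hw ψ).2 y, mul_add]
  | smul a z _ hz =>
      intro ψ
      rw [Algebra.smul_def]
      refine ⟨?_, fun y => ?_⟩
      · rw [mapFun_algebraMap_mul]; exact (hz _).1
      · rw [mul_left_comm, mapFun_algebraMap_mul, mapFun_algebraMap_mul]; exact (hz _).2 y

/-- Version with an `Algebra K L` instance. -/
theorem exists_of_coeff_mem_algebraMap [Algebra K L] [Algebra ℚ K] [Algebra ℚ L]
    (F₀ : IntermediateField ℚ (LaurentSeries ℚ)) (x : LaurentSeries L)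
    (hx : x ∈ laurentBaseChange L F₀) (hc : ∀ n, x.coeff n ∈ (algebraMap K L).range) :
    ∃ y ∈ laurentBaseChange K F₀, coeffMap (algebraMap K L) y = x := by
  -- a `K`-linear retraction of `K → L`
  obtain ⟨r, hr⟩ := LinearMap.exists_leftInverse_of_injective (Algebra.linearMap K L)
    (LinearMap.ker_eq_bot.mpr (algebraMap K L).injective)
  have hr' : ∀ a : K, r (algebraMap K L a) = a := fun a => by
    simpa using LinearMap.congr_fun hr a
  -- the candidate
  have hx₀ : coeffMap (algebraMap K L) (mapFun r x) = x := by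
    ext n
    rw [coeffMap_coeff, mapFun_coeff]
    obtain ⟨a, ha⟩ := hc n
    rw [← ha, hr']
  refine ⟨mapFun r x, ?_, hx₀⟩
  obtain ⟨P, hP, Q, hQ, hxPQ⟩ := IntermediateField.mem_adjoin_iff_div.mp hx
  rcases eq_or_ne Q 0 with hQ0 | hQ0
  · have hx0 : x = 0 := by rw [hxPQ, hQ0, div_zero]
    rw [hx0, mapFun_zero]
    exact zero_mem _
  · have hmul : x * Q = P := by rw [hxPQ, div_mul_cancel₀ _ hQ0]
    -- a coefficient of `Q` that does not vanish, and a functional seeing it
    obtain ⟨n, hn⟩ : ∃ n, Q.coeff n ≠ 0 := by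
      by_contra hcon
      exact hQ0 (HahnSeries.ext (funext fun n => not_not.mp fun h => hcon ⟨n, h⟩))
    obtain ⟨ψ, hψ⟩ := Module.Projective.exists_dual_ne_zero K hn
    have hQψ := mapFun_span (K := K) F₀ Q hQ ψ
    have hPψ := mapFun_span (K := K) F₀ P hP ψ
    have hne : mapFun ψ Q ≠ 0 := by
      intro h0
      apply hψ
      have := congrArg (fun z : LaurentSeries K => z.coeff n) h0
      simpa [mapFun_coeff] using this
    have hkey : mapFun r x * mapFun ψ Q = mapFun ψ P := by
      rw [← hQψ.2 (mapFun r x), hx₀, hmul]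
    have : mapFun r x = mapFun ψ P / mapFun ψ Q := by
      rw [eq_div_iff hne, hkey]
    rw [this]
    exact div_mem hPψ.1 hQψ.1

/-- **Descent of constants.**  An element of `L(F₀) ⊆ L((q))` whose coefficients all lie in
the image of `ι : K → L` comes from `K(F₀) ⊆ K((q))`. -/
theorem exists_of_coeff_mem [Algebra ℚ K] [Algebra ℚ L] (ι : K →+* L)
    (F₀ : IntermediateField ℚ (LaurentSeries ℚ)) (x : LaurentSeries L)
    (hx : x ∈ laurentBaseChange L F₀) (hc : ∀ n, x.coeff n ∈ ι.range) :
    ∃ y ∈ laurentBaseChange K F₀, coeffMap ι y = x := by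
  let _ : Algebra K L := ι.toAlgebra
  exact exists_of_coeff_mem_algebraMap (K := K) (L := L) F₀ x hx hc

end Fermat.Agent.S29.DescLin

end
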