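/-
Wave 9 (S29), piece (Desc): descent of Kummer functions from `ℂ` to `ℚ̄` for the function field
of `X₀(N)`.

* `Desc.bc ι N : FF ℚ̄ N →+* FF ℂ N`: coefficientwise base change along `ι : ℚ̄ →+* ℂ`;
* `Desc.exists_algebraic_rep_FF`: the generic normal form (`DescCore`) for `FF L N`;
* `Desc.exists_descent`: if there are only finitely many Kummer classes over `ℂ`, every Kummer
  function over `ℂ` is, up to a constant and an `m`-th power, the base change of a function over
  `ℚ̄`;
* `Desc.descStmt : IV.DescStmt` (the interface literal).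
-/
import Mathlib
import Fermat.Agent.S18.PHyp
import Fermat.Agent.S24.Mod.DegreeCore
import Fermat.Agent.S29.DescCore
import Fermat.Agent.S29.DescLin
import Fermat.Agent.S29.IVIface

set_option autoImplicit false
set_option synthInstance.maxHeartbeats 400000

noncomputable section

namespace Fermat.Agent.S29.Desc

open AlgebraicCurve ModularCurve HahnSeries Fermat.Agent.S20 Fermat.Agent

local notation "Qb" => AlgebraicClosure ℚ

/-! ### Base change of the function field along a ring homomorphism of constants -/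

section BaseChange

variable {K L : Type*} [Field K] [Field L] [Algebra ℚ K] [Algebra ℚ L]

theorem coeffMap_algebraMap' (ι : K →+* L) (c : K) :
    coeffMap ι (algebraMap K (LaurentSeries K) c) = algebraMap L (LaurentSeries L) (ι c) := by
  rw [algebraMap_laurentSeries_eq_single, algebraMap_laurentSeries_eq_single, coeffMap_single]

theorem coeffMap_coeffEmb' (ι : K →+* L) (x : LaurentSeries ℚ) :
    coeffMap ι (coeffEmb K x) = coeffEmb L x := by
  rw [coeffEmb, coeffEmb, coeffMap_coeffMap]
  exact coeffMap_congr (Subsingleton.elim _ _) x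

/-- Coefficientwise base change maps `K(F₀)` into `L(F₀)`. -/
theorem coeffMap_mem_laurentBaseChange' (ι : K →+* L)
    {F₀ : IntermediateField ℚ (LaurentSeries ℚ)} {x : LaurentSeries K}
    (hx : x ∈ laurentBaseChange K F₀) : coeffMap ι x ∈ laurentBaseChange L F₀ := by
  rw [mem_laurentBaseChange_iff] at hx
  induction hx using Subfield.closure_induction with
  | mem y hy =>
      rcases hy with ⟨a, rfl⟩ | ⟨z, hz, rfl⟩
      · rw [coeffMap_algebraMap']
        exact (laurentBaseChange L F₀).algebraMap_mem _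
      · rw [coeffMap_coeffEmb']
        exact coeffEmb_mem_laurentBaseChange L hz
  | one => simp
  | add x y _ _ hx hy => simpa using add_mem hx hy
  | neg x _ hx => simpa using neg_mem hx
  | inv x _ hx => simpa using inv_mem hx
  | mul x y _ _ hx hy => simpa using mul_mem hx hy

/-- The base change homomorphism `K(F₀) → L(F₀)`. -/
def bcGen (ι : K →+* L) (F₀ : IntermediateField ℚ (LaurentSeries ℚ)) :
    ↥(laurentBaseChange K F₀) →+* ↥(laurentBaseChange L F₀) where
  toFun x := ⟨coeffMap ι (x : LaurentSeries K), coeffMap_mem_laurentBaseChange' ι x.2⟩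
  map_one' := Subtype.ext (map_one (coeffMap ι))
  map_mul' x y := Subtype.ext (map_mul (coeffMap ι) _ _)
  map_zero' := Subtype.ext (map_zero (coeffMap ι))
  map_add' x y := Subtype.ext (map_add (coeffMap ι) _ _)

@[simp]
theorem coe_bcGen (ι : K →+* L) (F₀ : IntermediateField ℚ (LaurentSeries ℚ))
    (x : ↥(laurentBaseChange K F₀)) :
    ((bcGen ι F₀ x : ↥(laurentBaseChange L F₀)) : LaurentSeries L)
      = coeffMap ι (x : LaurentSeries K) := rfl

end BaseChange

/-- Base change `FF ℚ̄ N → FF ℂ N` (or between any two fields of constants). -/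
def bc {K L : Type*} [Field K] [Field L] [Algebra ℚ K] [Algebra ℚ L] (ι : K →+* L) (N : ℕ) :
    ↥(S24.FF K N) →+* ↥(S24.FF L N) :=
  bcGen ι (modularFunctionFieldFull N)

@[simp]
theorem coe_bc {K L : Type*} [Field K] [Field L] [Algebra ℚ K] [Algebra ℚ L] (ι : K →+* L)
    (N : ℕ) (x : ↥(S24.FF K N)) :
    ((bc ι N x : ↥(S24.FF L N)) : LaurentSeries L) = coeffMap ι (x : LaurentSeries K) := rfl

/-- An algebraic number of `ℂ` lies in the image of any embedding of `ℚ̄`. -/
theorem mem_range_of_isAlgebraic {K L : Type*} [Field K] [Field L] [Algebra ℚ K] [Algebra ℚ L]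
    [IsAlgClosed K] (ι : K →+* L) {x : L} (hx : IsAlgebraic ℚ x) : x ∈ ι.range := by
  letI : Algebra K L := ι.toAlgebra
  haveI : IsScalarTower ℚ K L := IsScalarTower.of_algebraMap_eq fun q => by
    rw [eq_ratCast, eq_ratCast]
    exact (map_ratCast ι q).symm
  have hint : IsIntegral K x := (hx.tower_top K).isIntegral
  have hdeg := IsAlgClosed.degree_eq_one_of_irreducible K (minpoly.irreducible hint)
  obtain ⟨y, hy⟩ := minpoly.mem_range_of_degree_eq_one K x hdeg
  exact ⟨y, hy⟩

/-! ### The normal form for `FF L N` -/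

/-- **Coefficient descent for `X₀(N)`, generic field of constants.**  If there are only finitely
many Kummer classes, each has a representative whose `q`-coefficients are algebraic over `ℚ`. -/
theorem exists_algebraic_rep_FF {L : Type*} [Field L] [Algebra ℚ L] [IsAlgClosed L]
    (ι : L →+* ℂ) (N : ℕ) [NeZero N] (m : ℕ) (hm : 0 < m)
    (hfin : ∃ S : Set ↥(S24.FF L N), S.Finite ∧ ∀ h, IsKum L m h → ∃ s ∈ S, Rel L m h s)
    (h : ↥(S24.FF L N)) (hh : IsKum L m h) :
    ∃ w : ↥(S24.FF L N), w ≠ 0 ∧ Rel L m h w ∧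
      ∀ n : ℤ, IsAlgebraic ℚ ((w : LaurentSeries L).coeff n) := by
  haveI : CharZero L := algebraRat.charZero L
  have hyp : RR.Hyp L ↥(S24.FF L N) := S18.PHyp.hyp_FF ι N
  have hJ : ∀ σ : L ≃ₐ[ℚ] L,
      arithmeticGalois (modularFunctionFieldFull N) σ • S24.jElt L N = S24.jElt L N := by
    intro σ
    apply Subtype.ext
    rw [coe_arithmeticGalois_smul]
    exact coeffMap_coeffEmb σ _
  have hJc : ∀ c : L, S24.jElt L N ≠ algebraMap L ↥(S24.FF L N) c := by
    intro c hc
    have htr : Transcendental L (S24.jElt L N) := S24.DegreeCore.transcendental_jElt N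
    exact htr (hc ▸ isAlgebraic_algebraMap c)
  exact DescCore.exists_algebraic_rep (ε := (S24.FF L N).val) hyp
    (fun σ => arithmeticGalois (modularFunctionFieldFull N) σ) (fun σ x => rfl)
    (S24.jElt L N) hJ hJc m hm hfin h hh

/-- **Descent `ℂ → ℚ̄` of Kummer functions.**  If there are only finitely many Kummer classes
over `ℂ` (functions with all orders divisible by `m`, modulo constants and `m`-th powers), then
every Kummer function over `ℂ` is, up to a constant and an `m`-th power, the base change of a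
function over `ℚ̄`. -/
theorem exists_descent (ι : Qb →+* ℂ) (N : ℕ) [NeZero N] (m : ℕ) (hm : 0 < m)
    (hfin : ∃ S : Set ↥(S24.FF ℂ N), S.Finite ∧ ∀ h, IsKum ℂ m h → ∃ s ∈ S, Rel ℂ m h s)
    (h : ↥(S24.FF ℂ N)) (hh : IsKum ℂ m h) :
    ∃ h₀ : ↥(S24.FF Qb N), h₀ ≠ 0 ∧ Rel ℂ m h (bc ι N h₀) := by
  obtain ⟨w, hw0, hrel, halg⟩ := exists_algebraic_rep_FF (RingHom.id ℂ) N m hm hfin h hh
  obtain ⟨y, hyF, hy⟩ := DescLin.exists_of_coeff_mem ι (modularFunctionFieldFull N)
    (w : LaurentSeries ℂ) w.2 (fun n => mem_range_of_isAlgebraic ι (halg n))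
  have hbc : bc ι N ⟨y, hyF⟩ = w := Subtype.ext hy
  refine ⟨⟨y, hyF⟩, ?_, ?_⟩
  · rintro h0
    apply hw0
    rw [← hbc, h0, map_zero]
  · rw [hbc]
    exact hrel

/-- The interface literal `IV.DescStmt`. -/
theorem descStmt : IV.DescStmt := by
  intro ι N m _ hm hfin h hh
  obtain ⟨h₀, hh₀, hrel⟩ := exists_descent ι N m hm hfin h hh
  exact ⟨h₀, bc ι N h₀, hh₀, rfl, hrel⟩

end Fermat.Agent.S29.Desc
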