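/-
S29 (wave 9), piece [LAT], part 1: the transfer (Hecke) operator on homomorphisms
`Γ₀(N) → A`.

For a prime `ℓ ∤ N`, the Hecke representatives `α_x = heckeRep ℓ x`, `x ∈ P¹(𝔽_ℓ)`, satisfy
`α_x γ = δ_x(γ) α_{π_γ x}` with `δ_x(γ) ∈ Γ₀(N)` and `π_γ` the permutation `redMatrix ℓ γ` of
`P¹(𝔽_ℓ)`.  The transfer of `χ : Γ₀(N) → A` is `(tr χ)(γ) = ∑ x, χ (δ_x(γ))`.

* `delta`, `delta_spec`, `delta_unique`, `delta_mul`, `delta_one`;
* `tr`, `tr_apply`, `tr_comp` (naturality in the coefficient group);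
* `tr_isParabolicHom`: the transfer preserves parabolic homomorphisms with values in a
  torsion-free group;
* `Λ N = parabolicHoms ℤ (Gamma0 N) ℤ` and `trΛ N ℓ hℓN : Module.End ℤ (Λ N)`.
-/
import Fermat.Prelude.Sol.S_ModularForm_heckeT_slash_eq_self_of_mem_Gamma0
import Fermat.Prelude.Def_ModularCurve_PeriodMap

set_option autoImplicit false

noncomputable section

open Matrix.SpecialLinearGroup CongruenceSubgroup ModularCurve.Period
open P2MW.S_ModularForm_heckeT_slash_eq_self_of_mem_Gamma0.ModularForm.HeckeSlashInvariance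
open scoped MatrixGroups

namespace Fermat.Agent.S29.Transfer

/-! ### Traces of powers of parabolic matrices -/

theorem sq_eq_of_det_one (M : Matrix (Fin 2) (Fin 2) ℤ) (hdet : M.det = 1) :
    M * M = M.trace • M - 1 := by
  rw [Matrix.det_fin_two] at hdet
  ext i j
  fin_cases i <;> fin_cases j <;>
    simp only [Matrix.mul_apply, Fin.sum_univ_two, Matrix.trace_fin_two, Matrix.sub_apply,
      Matrix.smul_apply, Matrix.one_apply, smul_eq_mul, Fin.zero_eta, Fin.mk_one, Fin.isValue,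
      if_true, if_false, one_ne_zero, zero_ne_one] <;>
    first
      | linear_combination -hdet
      | ring

theorem pow_eq_of_trace_two (M : Matrix (Fin 2) (Fin 2) ℤ) (hdet : M.det = 1)
    (htr : M.trace = 2) (m : ℕ) : M ^ (m + 1) = ((m : ℤ) + 1) • M - (m : ℤ) • 1 := by
  induction m with
  | zero => simp
  | succ m ih =>
    rw [pow_succ, ih, sub_mul, smul_mul_assoc, smul_mul_assoc, one_mul,
      sq_eq_of_det_one M hdet, htr]
    push_cast
    module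

theorem trace_pow_sq_of_trace_two (M : Matrix (Fin 2) (Fin 2) ℤ) (hdet : M.det = 1)
    (htr : M.trace = 2) (m : ℕ) : (M ^ m).trace = 2 := by
  cases m with
  | zero => simp
  | succ m =>
    rw [pow_eq_of_trace_two M hdet htr, Matrix.trace_sub, Matrix.trace_smul, Matrix.trace_smul,
      htr, Matrix.trace_one]
    simp
    ring

/-- powers of a matrix of determinant one and trace `±2` have trace `±2` -/
theorem trace_pow_sq (M : Matrix (Fin 2) (Fin 2) ℤ) (hdet : M.det = 1)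
    (htr : M.trace ^ 2 = 4) (m : ℕ) : (M ^ m).trace ^ 2 = 4 := by
  have h2 : M.trace = 2 ∨ M.trace = -2 := by
    have : (M.trace - 2) * (M.trace + 2) = 0 := by linear_combination htr
    rcases mul_eq_zero.mp this with h | h
    · left; linarith
    · right; linarith
  rcases h2 with h | h
  · rw [trace_pow_sq_of_trace_two M hdet h]; norm_num
  · have hdet' : (-M).det = 1 := by
      rw [Matrix.det_neg, hdet]; simp
    have htr' : (-M).trace = 2 := by rw [Matrix.trace_neg, h]; norm_num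
    have h3 := trace_pow_sq_of_trace_two (-M) hdet' htr' m
    rcases Nat.even_or_odd m with he | ho
    · rw [Even.neg_pow he] at h3
      rw [h3]; norm_num
    · rw [Odd.neg_pow ho, Matrix.trace_neg] at h3
      have : (M ^ m).trace = -2 := by linarith
      rw [this]; norm_num

/-! ### The cocycle `δ` -/

variable {N : ℕ} {ℓ : ℕ} [Fact ℓ.Prime]

theorem redMatrix_mul (γ γ' : SL(2, ℤ)) :
    redMatrix ℓ (γ * γ') = redMatrix ℓ γ' * redMatrix ℓ γ := by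
  apply Units.ext
  ext i j
  fin_cases i <;> fin_cases j <;>
    simp [redMatrix, Matrix.mul_apply, Fin.sum_univ_two] <;> ring

theorem redMatrix_one : redMatrix ℓ (1 : SL(2, ℤ)) = 1 := by
  apply Units.ext
  ext i j
  fin_cases i <;> fin_cases j <;> simp [redMatrix]

theorem redMatrix_pow (γ : SL(2, ℤ)) (m : ℕ) : redMatrix ℓ (γ ^ m) = redMatrix ℓ γ ^ m := by
  induction m with
  | zero => simp [redMatrix_one]
  | succ m ih => rw [pow_succ', redMatrix_mul, ih, pow_succ]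

theorem exists_delta (hℓN : ¬ ℓ ∣ N) (γ : Gamma0 N) (x : OnePoint (ZMod ℓ)) :
    ∃ g' : Gamma0 N, heckeRep ℓ x * mapGL ℝ (γ : SL(2, ℤ)) =
      mapGL ℝ (g' : SL(2, ℤ)) * heckeRep ℓ (redMatrix ℓ (γ : SL(2, ℤ)) • x) := by
  have hγN : (N : ℤ) ∣ (γ : SL(2, ℤ)) 1 0 :=
    (ZMod.intCast_zmod_eq_zero_iff_dvd _ _).mp (Gamma0_mem.mp γ.2)
  obtain ⟨g', hg', h⟩ := heckeRep_mul hℓN (γ : SL(2, ℤ)) hγN x
  exact ⟨⟨g', Gamma0_mem.mpr ((ZMod.intCast_zmod_eq_zero_iff_dvd _ _).mpr hg')⟩, h⟩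

/-- the cocycle `δ_x(γ) ∈ Γ₀(N)`: `α_x γ = δ_x(γ) α_{γ x}` -/
def delta (hℓN : ¬ ℓ ∣ N) (γ : Gamma0 N) (x : OnePoint (ZMod ℓ)) : Gamma0 N :=
  (exists_delta hℓN γ x).choose

theorem delta_spec (hℓN : ¬ ℓ ∣ N) (γ : Gamma0 N) (x : OnePoint (ZMod ℓ)) :
    heckeRep ℓ x * mapGL ℝ (γ : SL(2, ℤ)) =
      mapGL ℝ (delta hℓN γ x : SL(2, ℤ)) * heckeRep ℓ (redMatrix ℓ (γ : SL(2, ℤ)) • x) :=
  (exists_delta hℓN γ x).choose_spec

theorem delta_unique (hℓN : ¬ ℓ ∣ N) (γ : Gamma0 N) (x : OnePoint (ZMod ℓ)) (g' : SL(2, ℤ))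
    (h : heckeRep ℓ x * mapGL ℝ (γ : SL(2, ℤ)) =
      mapGL ℝ g' * heckeRep ℓ (redMatrix ℓ (γ : SL(2, ℤ)) • x)) :
    (delta hℓN γ x : SL(2, ℤ)) = g' := by
  have h1 := delta_spec hℓN γ x
  rw [h] at h1
  exact (mapGL_injective (mul_right_cancel h1)).symm

theorem delta_mul (hℓN : ¬ ℓ ∣ N) (γ γ' : Gamma0 N) (x : OnePoint (ZMod ℓ)) :
    delta hℓN (γ * γ') x =
      delta hℓN γ x * delta hℓN γ' (redMatrix ℓ (γ : SL(2, ℤ)) • x) := by
  apply Subtype.ext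
  apply delta_unique
  rw [Subgroup.coe_mul, Subgroup.coe_mul, map_mul, map_mul, ← mul_assoc, delta_spec hℓN γ x,
    mul_assoc, delta_spec hℓN γ' _, ← mul_assoc, redMatrix_mul, mul_smul]

theorem delta_one (hℓN : ¬ ℓ ∣ N) (x : OnePoint (ZMod ℓ)) :
    delta hℓN (1 : Gamma0 N) x = 1 := by
  apply Subtype.ext
  apply delta_unique
  simp [redMatrix_one]

/-- if `γ` fixes `x`, then `δ_x(γ)` is conjugate to `γ`, hence has the same trace -/
theorem trace_delta_of_fixed (hℓN : ¬ ℓ ∣ N) (γ : Gamma0 N) (x : OnePoint (ZMod ℓ))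
    (hx : redMatrix ℓ (γ : SL(2, ℤ)) • x = x) :
    ((delta hℓN γ x : SL(2, ℤ)) : Matrix (Fin 2) (Fin 2) ℤ).trace =
      ((γ : SL(2, ℤ)) : Matrix (Fin 2) (Fin 2) ℤ).trace := by
  have h := delta_spec hℓN γ x
  rw [hx] at h
  have h1 : mapGL ℝ (delta hℓN γ x : SL(2, ℤ)) =
      heckeRep ℓ x * mapGL ℝ (γ : SL(2, ℤ)) * (heckeRep ℓ x)⁻¹ := by
    rw [h, mul_inv_cancel_right]
  have h2 : ((mapGL ℝ (delta hℓN γ x : SL(2, ℤ)) : GL (Fin 2) ℝ) :
      Matrix (Fin 2) (Fin 2) ℝ).trace =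
      ((mapGL ℝ (γ : SL(2, ℤ)) : GL (Fin 2) ℝ) : Matrix (Fin 2) (Fin 2) ℝ).trace := by
    rw [h1, Units.val_mul, Units.val_mul, Matrix.trace_mul_comm, ← mul_assoc, ← Units.val_mul,
      inv_mul_cancel, Units.val_one, one_mul]
  have h3 : ∀ g : SL(2, ℤ), ((mapGL ℝ g : GL (Fin 2) ℝ) : Matrix (Fin 2) (Fin 2) ℝ).trace =
      (((g : Matrix (Fin 2) (Fin 2) ℤ).trace : ℤ) : ℝ) := by
    intro g
    rw [Matrix.trace_fin_two, Matrix.trace_fin_two]
    simp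
  rw [h3, h3] at h2
  exact_mod_cast h2

/-! ### The transfer operator -/

section tr

variable (A : Type*) [AddCommGroup A]

/-- the transfer of `χ : Γ₀(N) → A` along the Hecke correspondence `T_ℓ`:
`(tr χ)(γ) = ∑ x, χ (δ_x(γ))` -/
def trFun (hℓN : ¬ ℓ ∣ N) (χ : Additive (Gamma0 N) →+ A) : Additive (Gamma0 N) →+ A where
  toFun γ := ∑ x : OnePoint (ZMod ℓ), χ (Additive.ofMul (delta hℓN (Additive.toMul γ) x))
  map_zero' := by
    simp only [toMul_zero, delta_one, ofMul_one, map_zero, Finset.sum_const_zero]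
  map_add' γ γ' := by
    simp only [toMul_add, delta_mul, ofMul_mul, map_add, Finset.sum_add_distrib]
    congr 1
    exact Equiv.sum_comp (MulAction.toPerm (redMatrix ℓ ((Additive.toMul γ : Gamma0 N) : SL(2, ℤ))))
      (fun x => χ (Additive.ofMul (delta hℓN (Additive.toMul γ') x)))

/-- the transfer operator, as an additive endomorphism of `Hom(Γ₀(N), A)` -/
def tr (hℓN : ¬ ℓ ∣ N) : (Additive (Gamma0 N) →+ A) →+ (Additive (Gamma0 N) →+ A) where
  toFun := trFun A hℓN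
  map_zero' := by
    ext γ
    simp [trFun]
  map_add' χ χ' := by
    ext γ
    simp [trFun, Finset.sum_add_distrib]

variable {A}

theorem tr_apply (hℓN : ¬ ℓ ∣ N) (χ : Additive (Gamma0 N) →+ A) (γ : Gamma0 N) :
    tr A hℓN χ (Additive.ofMul γ) =
      ∑ x : OnePoint (ZMod ℓ), χ (Additive.ofMul (delta hℓN γ x)) := rfl

/-- naturality of the transfer in the coefficient group -/
theorem tr_comp {B : Type*} [AddCommGroup B] (hℓN : ¬ ℓ ∣ N) (f : A →+ B)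
    (χ : Additive (Gamma0 N) →+ A) : tr B hℓN (f.comp χ) = f.comp (tr A hℓN χ) := by
  ext γ
  show ∑ x : OnePoint (ZMod ℓ), f (χ _) = f (∑ x : OnePoint (ZMod ℓ), χ _)
  rw [map_sum]

/-- the transfer preserves parabolic homomorphisms with values in a torsion-free group -/
theorem tr_isParabolicHom (hA : ∀ (n : ℕ) (a : A), n ≠ 0 → n • a = 0 → a = 0) (hℓN : ¬ ℓ ∣ N)
    {χ : Additive (Gamma0 N) →+ A} (hχ : IsParabolicHom (Gamma0 N) χ) :
    IsParabolicHom (Gamma0 N) (tr A hℓN χ) := by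
  intro γ hγ
  set g : GL (Fin 2) (ZMod ℓ) := redMatrix ℓ (γ : SL(2, ℤ)) with hg
  have hm : 0 < orderOf g := orderOf_pos g
  refine hA (orderOf g) _ hm.ne' ?_
  have h1 : orderOf g • tr A hℓN χ (Additive.ofMul γ) =
      tr A hℓN χ (Additive.ofMul (γ ^ orderOf g)) := by
    rw [ofMul_pow, map_nsmul]
  rw [h1, tr_apply]
  refine Finset.sum_eq_zero fun x _ => ?_
  apply hχ
  have hfix : redMatrix ℓ (((γ ^ orderOf g : Gamma0 N)) : SL(2, ℤ)) • x = x := by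
    rw [Subgroup.coe_pow, redMatrix_pow, ← hg, pow_orderOf_eq_one, one_smul]
  rw [trace_delta_of_fixed hℓN _ x hfix, Subgroup.coe_pow,
    Matrix.SpecialLinearGroup.coe_pow]
  exact trace_pow_sq _ (γ : SL(2, ℤ)).2 hγ _

end tr

/-! ### The lattice of integral parabolic homomorphisms -/

/-- the lattice `Λ = Hom_par(Γ₀(N), ℤ)` -/
abbrev Λ (N : ℕ) : Submodule ℤ (Additive (Gamma0 N) →+ ℤ) := parabolicHoms ℤ (Gamma0 N) ℤ

theorem tr_mem_Λ (hℓN : ¬ ℓ ∣ N) {χ : Additive (Gamma0 N) →+ ℤ} (hχ : χ ∈ Λ N) :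
    tr ℤ hℓN χ ∈ Λ N :=
  tr_isParabolicHom (fun n a hn h => by
    rcases smul_eq_zero.mp h with h | h
    · exact absurd h hn
    · exact h) hℓN hχ

/-- the transfer operator `T_ℓ` on the lattice `Λ`, `ℓ ∤ N` -/
def trΛ (N : ℕ) (ℓ : Nat.Primes) (hℓN : ¬ (ℓ : ℕ) ∣ N) : Module.End ℤ (Λ N) :=
  haveI : Fact (ℓ : ℕ).Prime := ⟨ℓ.2⟩
  ((tr ℤ hℓN).toIntLinearMap).restrict (p := Λ N) (q := Λ N) (fun _ hχ => tr_mem_Λ hℓN hχ)

theorem coe_trΛ (N : ℕ) (ℓ : Nat.Primes) (hℓN : ¬ (ℓ : ℕ) ∣ N) (χ : Λ N) :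
    ((trΛ N ℓ hℓN χ : Λ N) : Additive (Gamma0 N) →+ ℤ) =
      (haveI : Fact (ℓ : ℕ).Prime := ⟨ℓ.2⟩; tr ℤ hℓN (χ : Additive (Gamma0 N) →+ ℤ)) := rfl

theorem trΛ_apply (N : ℕ) (ℓ : Nat.Primes) (hℓN : ¬ (ℓ : ℕ) ∣ N) (χ : Λ N) (γ : Gamma0 N) :
    ((trΛ N ℓ hℓN χ : Λ N) : Additive (Gamma0 N) →+ ℤ) (Additive.ofMul γ) =
      (haveI : Fact (ℓ : ℕ).Prime := ⟨ℓ.2⟩;
        ∑ x : OnePoint (ZMod (ℓ : ℕ)),
          (χ : Additive (Gamma0 N) →+ ℤ) (Additive.ofMul (delta hℓN γ x))) := rfl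

end Fermat.Agent.S29.Transfer
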