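/-
S29 (wave 9), piece [LAT], part 2: the period lattice and the eigenvector of a normalised
eigenform.

* `tr_periodMap`: the period map intertwines the Hecke operator `T_ℓ` on cusp forms with the
  transfer operator on `Hom(Γ₀(N), ℂ)`;
* `heckeTLin_eq_smul`: a normalised eigenform `g` satisfies `T_ℓ g = a_ℓ(g) g` (`ℓ ∤ N`);
* `Λ N = Hom_par(Γ₀(N), ℤ)` is a finitely generated free abelian group, and
  `μ : ℂ ⊗ Λ N → Hom(Γ₀(N), ℂ)` is injective with image containing the parabolic homomorphisms;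
* `exists_eigenvectorC`: the class of `periodMap N g` in `ℂ ⊗ Λ N` is a nonzero common
  eigenvector of the transfer operators with eigenvalues `a_ℓ(g)`.
-/
import Fermat.Agent.S21.Inj
import Fermat.Agent.S21.PeriodMap
import Fermat.Agent.S22.PeriodLattice
import Fermat.Agent.S29.Transfer
import Fermat.Prelude.Thm_ModularFormClass_qCoeff_heckeT
import Fermat.Prelude.Thm_CongruenceSubgroup_one_mem_strictPeriods_Gamma0
import Fermat.Prelude.Def_FLTPrelim_ModularRep

set_option autoImplicit false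

noncomputable section

open UpperHalfPlane CongruenceSubgroup ModularCurve ModularCurve.Period
open Fermat.Agent.S22 Fermat.Agent.S29.Transfer
open P2MW.S_ModularForm_heckeT_slash_eq_self_of_mem_Gamma0.ModularForm.HeckeSlashInvariance
open scoped MatrixGroups ModularForm Manifold TensorProduct

namespace Fermat.Agent.S29.Eig

/-! ### The Hecke representatives -/

section heckeRepFacts

variable {ℓ : ℕ}

theorem heckeRep_det_pos (x : OnePoint (ZMod ℓ)) : 0 < (heckeRep ℓ x).det.val := by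
  induction x using OnePoint.rec with
  | infty => exact ModularForm.det_heckeDiagMatrix_pos ℓ
  | coe y => exact ModularForm.det_heckeMatrix_pos ℓ y.val

theorem heckeRep_one_zero (hℓ : ℓ ≠ 0) (x : OnePoint (ZMod ℓ)) : (heckeRep ℓ x) 1 0 = 0 := by
  induction x using OnePoint.rec with
  | infty =>
    have := congrFun (congrFun (ModularForm.val_heckeDiagMatrix hℓ) 1) 0
    simpa using this
  | coe y =>
    have := congrFun (congrFun (ModularForm.val_heckeMatrix hℓ y.val) 1) 0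
    simpa using this

theorem heckeRep_zero_zero_pos (hℓ : ℓ ≠ 0) (x : OnePoint (ZMod ℓ)) : 0 < (heckeRep ℓ x) 0 0 := by
  induction x using OnePoint.rec with
  | infty =>
    have := congrFun (congrFun (ModularForm.val_heckeDiagMatrix hℓ) 0) 0
    simp only [heckeRep_infty]
    rw [this]
    simpa using Nat.pos_of_ne_zero hℓ
  | coe y =>
    have := congrFun (congrFun (ModularForm.val_heckeMatrix hℓ y.val) 0) 0
    simp only [heckeRep_coe]
    rw [this]
    simp

end heckeRepFacts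

/-! ### Periods and Hecke operators -/

variable {N : ℕ}

/-- the decaying primitive of `T_ℓ f` -/
theorem prim_heckeT {ℓ : ℕ} [NeZero ℓ] (f : CuspForm (Gamma0 N) 2) (z : ℍ) :
    prim (ModularForm.heckeT 2 ℓ ⇑f) z =
      ∑ x : OnePoint (ZMod ℓ), prim ⇑f (heckeRep ℓ x • z) := by
  have hℓ : ℓ ≠ 0 := NeZero.ne ℓ
  have hF := nice_cuspForm f
  have hFx : ∀ x : OnePoint (ZMod ℓ), Nice (⇑f ∣[(2 : ℤ)] heckeRep ℓ x) := fun x =>
    nice_slash_upper hF _ (heckeRep_det_pos x) (heckeRep_one_zero hℓ x)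
  have h1 : eich 0 (ModularForm.heckeT 2 ℓ ⇑f) z z =
      ∑ x : OnePoint (ZMod ℓ), eich 0 (⇑f ∣[(2 : ℤ)] heckeRep ℓ x) z z := by
    rw [heckeT_eq_sum_onePoint, eich_sum 0 _ _ (fun x _ => hFx x)]
  have h2 : ∀ x : OnePoint (ZMod ℓ), eich 0 (⇑f ∣[(2 : ℤ)] heckeRep ℓ x) z z =
      bar 0 (heckeRep ℓ x) (eich 0 ⇑f (heckeRep ℓ x • z)) z := fun x =>
    (eich_transform_upper 0 (heckeRep_det_pos x) (heckeRep_one_zero hℓ x)
      (heckeRep_zero_zero_pos hℓ x) hF (hFx x) rfl z z).symm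
  simp only [eich, Phi, iterPrim, bar, pow_zero, one_mul] at h1 h2
  rw [h1]
  exact Finset.sum_congr rfl fun x _ => h2 x

/-- **the period map intertwines `T_ℓ` with the transfer** -/
theorem tr_periodMap [NeZero N] {ℓ : ℕ} [Fact ℓ.Prime] (hℓ : ℓ.Prime) (hℓN : ¬ ℓ ∣ N)
    (f : CuspForm (Gamma0 N) 2) :
    tr ℂ hℓN (periodMap N f) = periodMap N (CuspForm.heckeTLin 2 hℓ hℓN f) := by
  have : NeZero ℓ := ⟨hℓ.ne_zero⟩
  refine AddMonoidHom.ext fun γ => ?_
  obtain ⟨γ, rfl⟩ := Additive.ofMul.surjective γ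
  rw [tr_apply, Fermat.Agent.S21.PeriodMap.periodMap_apply, CuspForm.coe_heckeTLin_apply,
    prim_heckeT, prim_heckeT]
  have key : ∀ x : OnePoint (ZMod ℓ), periodMap N f (Additive.ofMul (delta hℓN γ x)) =
      prim ⇑f (heckeRep ℓ x • ((γ : SL(2, ℤ)) • UpperHalfPlane.I)) -
        prim ⇑f (heckeRep ℓ (redMatrix ℓ (γ : SL(2, ℤ)) • x) • UpperHalfPlane.I) := by
    intro x
    rw [Fermat.Agent.S21.PeriodMap.periodMap_apply]
    have h := Fermat.Agent.S21.PeriodMap.prim_smul_of_mem f (delta hℓN γ x).2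
      (heckeRep ℓ (redMatrix ℓ (γ : SL(2, ℤ)) • x) • UpperHalfPlane.I)
    rw [← h]
    congr 2
    show (Matrix.SpecialLinearGroup.mapGL ℝ (delta hℓN γ x : SL(2, ℤ))) •
        (heckeRep ℓ (redMatrix ℓ (γ : SL(2, ℤ)) • x) • UpperHalfPlane.I) =
      heckeRep ℓ x • (Matrix.SpecialLinearGroup.mapGL ℝ (γ : SL(2, ℤ)) • UpperHalfPlane.I)
    rw [← mul_smul, ← mul_smul, delta_spec]
  rw [Finset.sum_congr rfl fun x _ => key x, Finset.sum_sub_distrib]
  congr 1
  exact Equiv.sum_comp (MulAction.toPerm (redMatrix ℓ (γ : SL(2, ℤ))))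
    (fun x => prim ⇑f (heckeRep ℓ x • UpperHalfPlane.I))

/-! ### Normalised eigenforms are Hecke eigenvectors -/

/-- the arithmetic of multiplicative coefficient sequences -/
theorem coeffHeckeT_eq_mul {a : ℕ → ℂ} {ℓ : ℕ} (hℓ : ℓ.Prime) (h0 : a 0 = 0)
    (hmul : ∀ m n : ℕ, m.Coprime n → a (m * n) = a m * a n)
    (hrec : ∀ r : ℕ, a (ℓ ^ (r + 2)) = a ℓ * a (ℓ ^ (r + 1)) - ℓ * a (ℓ ^ r)) (n : ℕ) :
    ModularForm.coeffHeckeT 2 ℓ a n = a ℓ * a n := by
  rw [ModularForm.coeffHeckeT_apply]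
  have h21 : ((ℓ : ℂ)) ^ ((2 : ℤ) - 1) = (ℓ : ℂ) := by norm_num
  rw [h21]
  rcases eq_or_ne n 0 with rfl | hn
  · simp [h0]
  obtain ⟨r, m, hm, rfl⟩ := Nat.exists_eq_pow_mul_and_not_dvd hn ℓ hℓ.ne_one
  have hcop : ∀ j : ℕ, (ℓ ^ j).Coprime m := fun j =>
    Nat.Coprime.pow_left j ((Nat.Prime.coprime_iff_not_dvd hℓ).mpr hm)
  cases r with
  | zero =>
    rw [pow_zero, one_mul, if_neg hm, add_zero, mul_comm m ℓ,
      hmul ℓ m ((Nat.Prime.coprime_iff_not_dvd hℓ).mpr hm)]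
  | succ s =>
    have hdvd : ℓ ∣ ℓ ^ (s + 1) * m := Dvd.dvd.mul_right (dvd_pow_self ℓ (Nat.succ_ne_zero s)) m
    have e1 : ℓ ^ (s + 1) * m * ℓ = ℓ ^ (s + 2) * m := by ring
    have e2 : ℓ ^ (s + 1) * m / ℓ = ℓ ^ s * m := by
      rw [pow_succ, mul_assoc, mul_comm ℓ m, ← mul_assoc]
      exact Nat.mul_div_cancel _ hℓ.pos
    rw [if_pos hdvd, e1, e2, hmul _ _ (hcop (s + 2)), hmul _ _ (hcop s), hmul _ _ (hcop (s + 1)),
      hrec s]
    ring

/-- **a normalised eigenform is an eigenvector of `T_ℓ`, `ℓ ∤ N`, with eigenvalue `a_ℓ`** -/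
theorem heckeTLin_eq_smul [NeZero N] {g : CuspForm (Gamma0 N) 2} (hg : g.IsNormalizedEigenform)
    {ℓ : ℕ} (hℓ : ℓ.Prime) (hℓN : ¬ ℓ ∣ N) :
    CuspForm.heckeTLin 2 hℓ hℓN g = ModularFormClass.qCoeff ⇑g ℓ • g := by
  have hΓ := CongruenceSubgroup.one_mem_strictPeriods_Gamma0 N
  have : Fact (IsCusp OnePoint.infty
      (Subgroup.map (Matrix.SpecialLinearGroup.mapGL ℝ) (CongruenceSubgroup.Gamma0 N))) :=
    ⟨Subgroup.isCusp_of_mem_strictPeriods one_pos hΓ⟩
  have h0 : ModularFormClass.qCoeff ⇑g 0 = 0 :=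
    CuspFormClass.qExpansion_coeff_zero g one_pos hΓ
  have hcoeff : ∀ n : ℕ, ModularFormClass.qCoeff ⇑(CuspForm.heckeTLin 2 hℓ hℓN g) n =
      ModularFormClass.qCoeff ⇑g ℓ * ModularFormClass.qCoeff ⇑g n := by
    intro n
    rw [CuspForm.coe_heckeTLin_apply, ModularFormClass.qCoeff_heckeT g hΓ hℓ.ne_zero n]
    exact coeffHeckeT_eq_mul hℓ h0 hg.qCoeff_mul_of_coprime
      (fun r => hg.qCoeff_prime_pow_of_not_dvd ℓ r hℓ hℓN) n
  refine DFunLike.ext _ _ fun τ => ?_
  have h1 := ModularForm.hasSum_qExpansion (f := CuspForm.heckeTLin 2 hℓ hℓN g) one_pos hΓ τ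
  have h2 := (ModularForm.hasSum_qExpansion (f := g) one_pos hΓ τ).mul_left
    (ModularFormClass.qCoeff ⇑g ℓ)
  have h3 : (fun m : ℕ => (qExpansion 1 ⇑(CuspForm.heckeTLin 2 hℓ hℓN g)).coeff m *
      Function.Periodic.qParam 1 τ ^ m) =
      fun m : ℕ => ModularFormClass.qCoeff ⇑g ℓ *
        ((qExpansion 1 ⇑g).coeff m * Function.Periodic.qParam 1 τ ^ m) := by
    funext m
    have := hcoeff m
    simp only [ModularFormClass.qCoeff] at this ⊢
    rw [this]
    ring
  rw [h3] at h1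
  exact h1.unique h2

/-! ### The lattice `Λ N` is finitely generated and free -/

section lattice

variable (N) [NeZero N]

theorem exists_gens : ∃ S : Finset (Gamma0 N), Subgroup.closure (S : Set (Gamma0 N)) = ⊤ := by
  have h : Group.FG (Gamma0 N) :=
    (Group.fg_iff_subgroup_fg _).mpr (Fermat.Agent.S22.PeriodLattice.gamma0_fg N)
  exact h.out

/-- a finite generating set of `Γ₀(N)` -/
def gens : Finset (Gamma0 N) := (exists_gens N).choose

theorem closure_gens : Subgroup.closure (gens N : Set (Gamma0 N)) = ⊤ :=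
  (exists_gens N).choose_spec

variable {N}

/-- homomorphisms on `Γ₀(N)` are determined by their values on the generators -/
theorem hom_ext_gens {A : Type*} [AddCommGroup A] {χ χ' : Additive (Gamma0 N) →+ A}
    (h : ∀ s ∈ gens N, χ (Additive.ofMul s) = χ' (Additive.ofMul s)) : χ = χ' := by
  have h1 := MonoidHom.eq_of_eqOn_dense (closure_gens N)
    (f := AddMonoidHom.toMultiplicativeRight χ) (g := AddMonoidHom.toMultiplicativeRight χ')
    (fun s hs => congrArg Multiplicative.ofAdd (h s hs))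
  exact AddMonoidHom.toMultiplicativeRight.injective h1

variable (N)

/-- evaluation of integral parabolic homomorphisms at the generators -/
def evGens : Λ N →ₗ[ℤ] (gens N → ℤ) where
  toFun χ s := (χ : Additive (Gamma0 N) →+ ℤ) (Additive.ofMul (s : Gamma0 N))
  map_add' _ _ := rfl
  map_smul' _ _ := rfl

theorem evGens_injective : Function.Injective (evGens N) := by
  intro χ χ' h
  apply Subtype.ext
  apply hom_ext_gens
  intro s hs
  exact congrFun h ⟨s, hs⟩

instance finite_Λ : Module.Finite ℤ (Λ N) :=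
  Module.Finite.of_injective (evGens N) (evGens_injective N)

instance isTorsionFree_Λ : Module.IsTorsionFree ℤ (Λ N) :=
  Function.Injective.moduleIsTorsionFree (evGens N) (evGens_injective N)
    (fun r m => map_smul (evGens N) r m)

instance free_Λ : Module.Free ℤ (Λ N) := Module.free_of_finite_type_torsion_free'

/-! ### Comparison with complex-valued homomorphisms -/

/-- integral homomorphisms as complex-valued ones -/
def castHom : Λ N →ₗ[ℤ] (Additive (Gamma0 N) →+ ℂ) where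
  toFun χ := (Int.castAddHom ℂ).comp (χ : Additive (Gamma0 N) →+ ℤ)
  map_add' χ χ' := by
    ext γ
    simp
  map_smul' n χ := by
    ext γ
    simp

omit [NeZero N] in
@[simp] theorem castHom_apply (χ : Λ N) (γ : Additive (Gamma0 N)) :
    castHom N χ γ = (((χ : Additive (Gamma0 N) →+ ℤ) γ : ℤ) : ℂ) := rfl

/-- the comparison map `ℂ ⊗ Λ → Hom(Γ₀(N), ℂ)` -/
def μ : ℂ ⊗[ℤ] Λ N →ₗ[ℂ] (Additive (Gamma0 N) →+ ℂ) :=
  (castHom N).liftBaseChange ℂ

omit [NeZero N] in
@[simp] theorem μ_tmul (c : ℂ) (χ : Λ N) : μ N (c ⊗ₜ[ℤ] χ) = c • castHom N χ := rfl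

theorem μ_apply_gens (v : ℂ ⊗[ℤ] Λ N) (s : gens N) :
    μ N v (Additive.ofMul (s : Gamma0 N)) =
      TensorProduct.piScalarRight ℤ ℂ ℂ (gens N) ((evGens N).lTensor ℂ v) s := by
  induction v using TensorProduct.induction_on with
  | zero => simp
  | tmul c χ =>
    rw [μ_tmul, LinearMap.lTensor_tmul, TensorProduct.piScalarRight_apply,
      TensorProduct.piScalarRightHom_tmul]
    show c * (((χ : Additive (Gamma0 N) →+ ℤ) (Additive.ofMul (s : Gamma0 N)) : ℤ) : ℂ) =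
      ((χ : Additive (Gamma0 N) →+ ℤ) (Additive.ofMul (s : Gamma0 N))) • c
    rw [zsmul_eq_mul, mul_comm]
  | add x y hx hy =>
    rw [map_add, map_add, map_add, AddMonoidHom.add_apply, Pi.add_apply, hx, hy]

/-- `μ` is injective (flatness of `ℂ` over `ℤ`) -/
theorem μ_injective : Function.Injective (μ N) := by
  rw [injective_iff_map_eq_zero]
  intro v hv
  have h1 : TensorProduct.piScalarRight ℤ ℂ ℂ (gens N) ((evGens N).lTensor ℂ v) = 0 := by
    funext s
    rw [← μ_apply_gens, hv]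
    rfl
  have h2 : (evGens N).lTensor ℂ v = 0 :=
    (TensorProduct.piScalarRight ℤ ℂ ℂ (gens N)).map_eq_zero_iff.mp h1
  have h3 := Module.Flat.lTensor_preserves_injective_linearMap (M := ℂ) (evGens N)
    (evGens_injective N)
  exact h3 (by rw [h2, map_zero])

variable {N}

/-- every complex parabolic homomorphism is in the image of `μ` -/
theorem exists_μ_eq {ψ : Additive (Gamma0 N) →+ ℂ} (hψ : ψ ∈ parabolicHoms ℂ (Gamma0 N) ℂ) :
    ∃ v : ℂ ⊗[ℤ] Λ N, μ N v = ψ := by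
  classical
  -- the (finitely generated, free) subgroup of `ℂ` spanned by the values on the generators
  set A : Submodule ℤ ℂ :=
    Submodule.span ℤ ((fun s : Gamma0 N => ψ (Additive.ofMul s)) '' (gens N : Set (Gamma0 N)))
    with hA
  have hmem : ∀ γ : Additive (Gamma0 N), ψ γ ∈ A := by
    intro γ
    obtain ⟨γ, rfl⟩ := Additive.ofMul.surjective γ
    have hγ : γ ∈ Subgroup.closure (gens N : Set (Gamma0 N)) := by
      rw [closure_gens]; exact Subgroup.mem_top γ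
    induction hγ using Subgroup.closure_induction with
    | mem x hx => exact Submodule.subset_span ⟨x, hx, rfl⟩
    | one => rw [ofMul_one, map_zero]; exact A.zero_mem
    | mul x y _ _ hx hy => rw [ofMul_mul, map_add]; exact A.add_mem hx hy
    | inv x _ hx => rw [ofMul_inv, map_neg]; exact A.neg_mem hx
  have : Module.Finite ℤ A :=
    Module.Finite.span_of_finite ℤ ((gens N).finite_toSet.image _)
  have : Module.Free ℤ A := Module.free_of_finite_type_torsion_free'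
  let ω := Module.finBasis ℤ A
  let ψA : Additive (Gamma0 N) →+ A := ψ.codRestrict A hmem
  -- the coordinates of `ψ` are integral parabolic homomorphisms
  let ψk : Fin (Module.finrank ℤ A) → Additive (Gamma0 N) →+ ℤ := fun k =>
    ((ω.coord k : A →ₗ[ℤ] ℤ).toAddMonoidHom).comp ψA
  have hψk : ∀ k, ψk k ∈ Λ N := by
    intro k γ hγ
    have h0 : ψA (Additive.ofMul γ) = 0 := Subtype.ext (hψ γ hγ)
    show ω.coord k (ψA (Additive.ofMul γ)) = 0
    rw [h0, map_zero]
  refine ⟨∑ k, ((ω k : A) : ℂ) ⊗ₜ[ℤ] (⟨ψk k, hψk k⟩ : Λ N), ?_⟩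
  refine AddMonoidHom.ext fun γ => ?_
  rw [map_sum, AddMonoidHom.finsetSum_apply]
  have h1 := congrArg (Subtype.val : A → ℂ) (ω.sum_repr (ψA γ))
  rw [AddSubmonoidClass.coe_finsetSum] at h1
  show _ = ((ψA γ : A) : ℂ)
  rw [← h1]
  refine Finset.sum_congr rfl fun k _ => ?_
  rw [μ_tmul, AddMonoidHom.smul_apply, castHom_apply]
  show ((ω k : A) : ℂ) * ((ω.repr (ψA γ) k : ℤ) : ℂ) = ((ω.repr (ψA γ) k • ω k : A) : ℂ)
  rw [Submodule.coe_smul, zsmul_eq_mul, mul_comm]

/-! ### The transfer on `ℂ ⊗ Λ` -/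

omit [NeZero N] in
theorem tr_smul {ℓ : ℕ} [Fact ℓ.Prime] (hℓN : ¬ ℓ ∣ N) (c : ℂ) (ψ : Additive (Gamma0 N) →+ ℂ) :
    tr ℂ hℓN (c • ψ) = c • tr ℂ hℓN ψ := by
  have h := tr_comp hℓN (AddMonoidHom.mulLeft c) ψ
  exact h

omit [NeZero N] in
theorem μ_baseChange_trΛ (ℓ : Nat.Primes) (hℓN : ¬ (ℓ : ℕ) ∣ N) (v : ℂ ⊗[ℤ] Λ N) :
    μ N ((trΛ N ℓ hℓN).baseChange ℂ v) =
      (haveI : Fact (ℓ : ℕ).Prime := ⟨ℓ.2⟩; tr ℂ hℓN (μ N v)) := by
  have : Fact (ℓ : ℕ).Prime := ⟨ℓ.2⟩
  induction v using TensorProduct.induction_on with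
  | zero => simp
  | tmul c χ =>
    rw [LinearMap.baseChange_tmul, μ_tmul, μ_tmul, tr_smul]
    congr 1
    exact (tr_comp hℓN (Int.castAddHom ℂ) (χ : Additive (Gamma0 N) →+ ℤ)).symm
  | add x y hx hy =>
    rw [map_add, map_add, map_add, map_add, hx, hy]

end lattice

/-! ### The eigenvector -/

/-- the period map is injective -/
theorem periodMap_ne_zero [NeZero N] {g : CuspForm (Gamma0 N) 2} (hg : g ≠ 0) :
    periodMap N g ≠ 0 := by
  intro h
  have hinj := Fermat.Agent.S21.Inj.periodHomPair_injective N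
    (Fermat.Agent.S21.PeriodMap.exists_hasEquivariantPrimitive N)
    (Fermat.Agent.S21.PeriodMap.existsPeriodMapLinear N)
  have h1 : periodHomPair N (g, g) = periodHomPair N 0 := by
    rw [Fermat.Agent.S21.PeriodMap.periodHomPair_apply, h, map_zero, map_zero]
    simp
  exact hg (Prod.mk.inj (hinj h1)).1

/-- **[LAT]** the eigenvector of a normalised eigenform in `ℂ ⊗ Λ`: a nonzero vector on which
the transfer operator `T_ℓ`, `ℓ ∤ N`, acts through `a_ℓ(g)`. -/
theorem exists_eigenvectorC (N : ℕ) [NeZero N] {g : CuspForm (Gamma0 N) 2}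
    (hg : g.IsNormalizedEigenform) :
    ∃ v : ℂ ⊗[ℤ] Λ N, v ≠ 0 ∧ ∀ (ℓ : Nat.Primes) (hℓN : ¬ (ℓ : ℕ) ∣ N),
      (trΛ N ℓ hℓN).baseChange ℂ v = ModularFormClass.qCoeff ⇑g ℓ • v := by
  obtain ⟨v, hv⟩ := exists_μ_eq (Fermat.Agent.S21.PeriodMap.periodMap_mem_parabolicHoms N g)
  refine ⟨v, ?_, fun ℓ hℓN => ?_⟩
  · rintro rfl
    rw [map_zero] at hv
    exact periodMap_ne_zero hg.ne_zero hv.symm
  · have : Fact (ℓ : ℕ).Prime := ⟨ℓ.2⟩
    apply μ_injective N
    rw [μ_baseChange_trΛ, hv, tr_periodMap ℓ.2 hℓN, heckeTLin_eq_smul hg ℓ.2 hℓN, map_smul, hv]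
    exact (Fermat.Agent.S21.PeriodMap.periodMapLin N).map_smul _ g

end Fermat.Agent.S29.Eig
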