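/-
S29, wave 9, leaf (e) of [IV]: the REDUCTION LEMMA (Mathlib only).

A family of endomorphisms of a finite free `ℤ`-module (no commutativity is needed) which has a
common eigenvector over a field `K` of characteristic zero, with eigenvalues `a i`, has integral
eigenvalues, and for every ring homomorphism `φ : integralClosure ℤ K →+* k` into a field it has
a common eigenvector over `k` with eigenvalues `φ (a i)`.

The proof is a rank argument: a family of linear forms in `n` variables with coefficients in a
domain `R ⊆ K` has a common nonzero zero over `K` iff all `n × n` minors of the stacked rows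
vanish, and minors are preserved by ring homomorphisms.
-/
import Mathlib

set_option autoImplicit false

open scoped TensorProduct
open Matrix

namespace Fermat.Agent.S29.EigRed

/-- (M) **Common zeros specialise.**  Let `R` be a commutative ring with an injective ring
homomorphism `ι` into a field `K` and a ring homomorphism `φ` into a field `k`.  If a family of
linear forms `r s` (`s : S`, any index type) in the variables `n` with coefficients in `R` has a
common nonzero zero over `K`, then the forms `φ ∘ r s` have a common nonzero zero over `k`. -/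
theorem exists_common_zero {R K k : Type*} [CommRing R] [Field K] [Field k]
    (ι : R →+* K) (hι : Function.Injective ι) (φ : R →+* k)
    {n : Type*} [Fintype n] [DecidableEq n] {S : Type*} (r : S → n → R)
    (v : n → K) (hv : v ≠ 0) (hrv : ∀ s, (fun j => ι (r s j)) ⬝ᵥ v = 0) :
    ∃ w : n → k, w ≠ 0 ∧ ∀ s, (fun j => φ (r s j)) ⬝ᵥ w = 0 := by
  classical
  -- Step 1: all `n × n` minors of the stacked rows vanish over `R`.
  have hdet : ∀ s : n → S, (Matrix.of fun i j => r (s i) j).det = 0 := by
    intro s
    apply hι
    rw [map_zero, RingHom.map_det]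
    apply Matrix.exists_mulVec_eq_zero_iff.mp
    refine ⟨v, hv, ?_⟩
    funext i
    exact hrv (s i)
  -- Step 2: the reduced rows do not span `n → k`.
  set rows : S → n → k := fun s j => φ (r s j) with hrows
  have hWtop : Submodule.span k (Set.range rows) ≠ ⊤ := by
    intro htop
    obtain ⟨b, hbsub, hbspan, hbli⟩ := exists_linearIndependent k (Set.range rows)
    have hbtop : ⊤ ≤ Submodule.span k (Set.range ((↑) : b → n → k)) := by
      rw [Subtype.range_coe, hbspan, htop]
    let B : Module.Basis b k (n → k) := Module.Basis.mk hbli hbtop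
    let e : n ≃ b := (Pi.basisFun k n).indexEquiv B
    choose s hs using fun i : n => hbsub (e i).2
    have hli : LinearIndependent k (fun i : n => rows (s i)) := by
      have h1 : LinearIndependent k (fun i : n => ((e i : b) : n → k)) :=
        hbli.comp e e.injective
      have h2 : (fun i : n => rows (s i)) = fun i : n => ((e i : b) : n → k) :=
        funext fun i => hs i
      rw [h2]; exact h1
    have hunit : IsUnit (Matrix.of fun i j => rows (s i) j) :=
      Matrix.linearIndependent_rows_iff_isUnit.mp hli
    have hdet' := (Matrix.isUnit_iff_isUnit_det _).mp hunit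
    apply hdet'.ne_zero
    have h3 := congrArg φ (hdet s)
    rw [RingHom.map_det, map_zero] at h3
    exact h3
  -- Step 3: a nonzero functional vanishing on the rows.
  obtain ⟨f, hf, hWf⟩ := Submodule.exists_le_ker_of_lt_top _ (lt_top_iff_ne_top.mpr hWtop)
  refine ⟨fun j => f fun j' => if j = j' then 1 else 0, ?_, ?_⟩
  · intro hzero
    apply hf
    apply LinearMap.ext
    intro x
    rw [LinearMap.pi_apply_eq_sum_univ f x]
    simp only [LinearMap.zero_apply]
    apply Finset.sum_eq_zero
    intro j _
    rw [congrFun hzero j]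
    simp
  · intro s
    have hmem : rows s ∈ LinearMap.ker f := hWf (Submodule.subset_span (Set.mem_range_self s))
    rw [LinearMap.mem_ker, LinearMap.pi_apply_eq_sum_univ f (rows s)] at hmem
    simpa [dotProduct, hrows] using hmem

/-- An eigenvalue (over a field) of an integer matrix is integral over `ℤ`. -/
theorem isIntegral_of_mulVec_eq {n : Type*} [Fintype n] [DecidableEq n] (M : Matrix n n ℤ)
    {K : Type*} [Field K] (a : K) (c : n → K) (hc : c ≠ 0)
    (hM : (M.map (Int.cast : ℤ → K)) *ᵥ c = a • c) : IsIntegral ℤ a := by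
  refine ⟨M.charpoly, Matrix.charpoly_monic M, ?_⟩
  have h1 : (M.map (Int.castRingHom K)).charpoly.eval a = 0 := by
    rw [Matrix.eval_charpoly]
    apply Matrix.exists_mulVec_eq_zero_iff.mp
    refine ⟨c, hc, ?_⟩
    rw [Matrix.sub_mulVec]
    have h2 : (M.map (Int.castRingHom K)) *ᵥ c = a • c := hM
    rw [h2]
    have h3 : (Matrix.scalar n a) *ᵥ c = a • c := by
      funext i
      simp [Matrix.scalar_apply, Matrix.mulVec, dotProduct, Matrix.diagonal_apply]
    rw [h3, sub_self]
  rw [Matrix.charpoly_map, Polynomial.eval_map] at h1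
  exact h1

theorem dot_aux {R R' : Type*} [CommRing R] [CommRing R'] (g : R →+* R')
    {n : Type*} [Fintype n] [DecidableEq n] (m : n → ℤ) (A : R) (l : n) (w : n → R') :
    (fun j => g (((m j : ℤ) : R) - if l = j then A else 0)) ⬝ᵥ w
      = (∑ j, ((m j : ℤ) : R') * w j) - g A * w l := by
  simp [dotProduct, sub_mul, Finset.sum_sub_distrib, apply_ite g, ite_mul]

/-- (M') **Reduction lemma, matrix form.**  Integer matrices `M i` (any index type, no
commutativity) with a common eigenvector `c ≠ 0` over a field `K`, eigenvalues `a i`: the `a i`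
are integral over `ℤ`, and for every ring homomorphism `φ` from the integral closure of `ℤ` in
`K` to a field `k` there is a common eigenvector over `k` with eigenvalues `φ (a i)`. -/
theorem exists_eigenvector_matrix {n : Type*} [Fintype n] [DecidableEq n] {ι : Type*}
    (M : ι → Matrix n n ℤ) {K : Type*} [Field K] (a : ι → K) (c : n → K) (hc : c ≠ 0)
    (hM : ∀ i, ((M i).map (Int.cast : ℤ → K)) *ᵥ c = a i • c)
    {k : Type*} [Field k] (φ : integralClosure ℤ K →+* k) :
    (∀ i, IsIntegral ℤ (a i)) ∧ ∃ x : n → k, x ≠ 0 ∧
      ∀ i (h : IsIntegral ℤ (a i)), ((M i).map (Int.cast : ℤ → k)) *ᵥ x = φ ⟨a i, h⟩ • x := by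
  have hint : ∀ i, IsIntegral ℤ (a i) := fun i => isIntegral_of_mulVec_eq (M i) (a i) c hc (hM i)
  refine ⟨hint, ?_⟩
  -- the eigenvalues, as elements of the integral closure
  let A : ι → integralClosure ℤ K := fun i => ⟨a i, hint i⟩
  -- the stacked rows of the matrices `M i - a i`
  let r : ι × n → n → integralClosure ℤ K := fun s j =>
    ((M s.1 s.2 j : ℤ) : integralClosure ℤ K) - if s.2 = j then A s.1 else 0
  have hr : ∀ s, (fun j => algebraMap (integralClosure ℤ K) K (r s j)) ⬝ᵥ c = 0 := by
    rintro ⟨i, l⟩
    have h1 := congrFun (hM i) l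
    simp only [Matrix.mulVec, dotProduct, Matrix.map_apply, Pi.smul_apply, smul_eq_mul] at h1
    have h2 := dot_aux (algebraMap (integralClosure ℤ K) K) (fun j => M i l j) (A i) l c
    rw [h1] at h2
    rw [h2]
    exact sub_self _
  obtain ⟨w, hw, hrw⟩ := exists_common_zero (algebraMap (integralClosure ℤ K) K)
    Subtype.val_injective φ r c hc hr
  refine ⟨w, hw, ?_⟩
  intro i h
  funext l
  have h1 := hrw (i, l)
  have h2 := dot_aux φ (fun j => M i l j) (A i) l w
  rw [h2, sub_eq_zero] at h1
  simp only [Matrix.mulVec, dotProduct, Matrix.map_apply, Pi.smul_apply, smul_eq_mul]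
  exact h1

/-- (T) **Reduction lemma, tensor form.**  Endomorphisms `T i` of a finite free `ℤ`-module `Λ`
(any index type, no commutativity) with a common eigenvector `v ≠ 0` in `K ⊗[ℤ] Λ`, eigenvalues
`a i`: the `a i` are integral over `ℤ`, and for every ring homomorphism `φ` from the integral
closure of `ℤ` in `K` to a field `k` there is a common eigenvector in `k ⊗[ℤ] Λ` with eigenvalues
`φ (a i)`. -/
theorem exists_eigenvector {Λ : Type*} [AddCommGroup Λ] [Module.Finite ℤ Λ] [Module.Free ℤ Λ]
    {ι : Type*} (T : ι → Module.End ℤ Λ) {K : Type*} [Field K]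
    (a : ι → K) (v : K ⊗[ℤ] Λ) (hv : v ≠ 0) (hTv : ∀ i, (T i).baseChange K v = a i • v)
    {k : Type*} [Field k] (φ : integralClosure ℤ K →+* k) :
    (∀ i, IsIntegral ℤ (a i)) ∧ ∃ w : k ⊗[ℤ] Λ, w ≠ 0 ∧
      ∀ i (h : IsIntegral ℤ (a i)), (T i).baseChange k w = φ ⟨a i, h⟩ • w := by
  classical
  let b := Module.Free.chooseBasis ℤ Λ
  let bK := Algebra.TensorProduct.basis K b
  let bk := Algebra.TensorProduct.basis k b
  let M : ι → Matrix (Module.Free.ChooseBasisIndex ℤ Λ) (Module.Free.ChooseBasisIndex ℤ Λ) ℤ :=
    fun i => LinearMap.toMatrix b b (T i)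
  have hMK : ∀ i, (M i).map (Int.cast : ℤ → K) =
      LinearMap.toMatrix bK bK ((T i).baseChange K) := by
    intro i
    rw [LinearMap.toMatrix_baseChange]
    rfl
  have hMk : ∀ i, (M i).map (Int.cast : ℤ → k) =
      LinearMap.toMatrix bk bk ((T i).baseChange k) := by
    intro i
    rw [LinearMap.toMatrix_baseChange]
    rfl
  have hc : (fun j => bK.repr v j) ≠ 0 := by
    intro h0
    apply hv
    apply bK.repr.injective
    rw [map_zero]
    ext j
    exact congrFun h0 j
  obtain ⟨hint, x, hx, hMx⟩ := exists_eigenvector_matrix M a (fun j => bK.repr v j) hc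
    (fun i => by
      rw [hMK i]
      have h1 := LinearMap.toMatrix_mulVec_repr bK bK ((T i).baseChange K) v
      rw [hTv i, map_smul] at h1
      rw [show (fun j => bK.repr v j) = ⇑(bK.repr v) from rfl, h1]
      funext j
      simp) φ
  refine ⟨hint, bk.equivFun.symm x, ?_, ?_⟩
  · intro h0
    apply hx
    have := congrArg bk.equivFun h0
    rwa [LinearEquiv.apply_symm_apply, map_zero] at this
  · intro i h
    apply bk.equivFun.injective
    rw [map_smul, LinearEquiv.apply_symm_apply]
    have h1 := LinearMap.toMatrix_mulVec_repr bk bk ((T i).baseChange k) (bk.equivFun.symm x)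
    have h2 : ⇑(bk.repr (bk.equivFun.symm x)) = x := by
      have := bk.equivFun.apply_symm_apply x
      rwa [Module.Basis.equivFun_apply] at this
    rw [h2, ← hMk i, hMx i h] at h1
    rw [Module.Basis.equivFun_apply, ← h1]

end Fermat.Agent.S29.EigRed
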