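/-
S29 (wave 9), [IV]: interface of the Hecke-equivariant embedding `Λ/mΛ ↪ J₀(N)(ℚ̄)[m]`
(`Λ = Hom_par(Γ₀(N), ℤ)`), cut so that no `m`-th root has to be chosen functorially.

For `λ ∈ Λ` and `x ∈ J₀(N)(ℚ̄)` the relation `Rel ι N m λ x` says: `x` is the class of a
degree-zero divisor `D` with `m • D = div y`, `y` in the function field of `X₀(N)` over `ℚ̄`, and
the analytic realisation of `y` has an `m`-th root `F = a / b` (`a`, `b` holomorphic on the upper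
half plane) with multiplier `F(γ z) = ζ_m^{λ(γ)} F(z)` for `γ ∈ Γ₀(N)`.  Everything is stated
pointwise and division-free.

Five facts about `Rel`:
* `(E)` `ExStmt`: every `λ` is related to some `x` (Eisenstein series with character, invariant
  functions are algebraic, descent from `ℂ` to `ℚ̄`);
* `(U)` `UniqStmt`: `x` is unique;
* `(A)` `rel_add` (proved here): additivity;
* `(H)` `HeckeStmt`: `Rel λ x → Rel (tr_ℓ λ) (T_ℓ x)`;
* `(K)` `KerStmt`: `Rel λ 0 → λ ∈ mΛ`.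
They give `EmbStmt` (`embStmt_of_facts`, proved here): a Hecke-equivariant `ℤ`-linear map
`Λ → J₀(N)(ℚ̄)[m]` with kernel contained in `mΛ`.
-/
import Fermat.Agent.S29.Iface
import Fermat.Agent.S29.Transfer
import Fermat.Agent.S18.PHyp0

set_option autoImplicit false

noncomputable section

open scoped MatrixGroups
open UpperHalfPlane ModularCurve AlgebraicCurve CongruenceSubgroup

namespace Fermat.Agent.S29.Emb

open Fermat.Agent.S24 (FF evalL evalFun Dv)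
open Fermat.Agent.S29.Transfer (Λ trΛ)

/-- `ℚ̄`. -/
abbrev Qb : Type := AlgebraicClosure ℚ

/-- `ζ_m^n = exp (2 π i n / m)`. -/
def zeta (m : ℕ) (n : ℤ) : ℂ := Complex.exp (2 * Real.pi * Complex.I * n / m)

theorem zeta_add (m : ℕ) (n n' : ℤ) : zeta m (n + n') = zeta m n * zeta m n' := by
  rw [zeta, zeta, zeta, ← Complex.exp_add]
  congr 1
  push_cast
  ring

@[simp] theorem zeta_zero (m : ℕ) : zeta m 0 = 1 := by
  simp [zeta]

theorem zeta_ne_zero (m : ℕ) (n : ℤ) : zeta m n ≠ 0 := Complex.exp_ne_zero _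

theorem zeta_pow {m : ℕ} (hm : m ≠ 0) (n : ℤ) : zeta m n ^ m = 1 := by
  rw [zeta, ← Complex.exp_nat_mul]
  have hm' : (m : ℂ) ≠ 0 := Nat.cast_ne_zero.mpr hm
  have : (m : ℂ) * (2 * Real.pi * Complex.I * n / m) = n * (2 * Real.pi * Complex.I) := by
    field_simp
  rw [this]
  exact Complex.exp_int_mul_two_pi_mul_I n

/-- `ζ_m^n = 1` iff `m ∣ n`. -/
theorem zeta_eq_one_iff {m : ℕ} (hm : m ≠ 0) (n : ℤ) : zeta m n = 1 ↔ (m : ℤ) ∣ n := by
  have hm' : (m : ℂ) ≠ 0 := Nat.cast_ne_zero.mpr hm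
  rw [zeta, Complex.exp_eq_one_iff]
  constructor
  · rintro ⟨k, hk⟩
    refine ⟨k, ?_⟩
    have h2 : (n : ℂ) = (m : ℂ) * k := by
      have hpi : (2 * Real.pi * Complex.I : ℂ) ≠ 0 := Complex.two_pi_I_ne_zero
      field_simp at hk
      linear_combination hk
    exact_mod_cast h2
  · rintro ⟨k, rfl⟩
    refine ⟨k, ?_⟩
    push_cast
    field_simp

/-- `a / b` (`a`, `b` holomorphic on `ℍ`, `b ≢ 0`) is an `m`-th root of the analytic realisation
of `y ∈ ℚ̄(X₀(N))` (via `ι : ℚ̄ → ℂ`), with multiplier `γ ↦ ζ_m^{λ(γ)}` on `Γ₀(N)`.  Pointwise and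
division-free: `y = P/Q` with `P`, `Q` polynomials in the `j(d z)`, `d ∣ N`. -/
def IsRootPair (ι : Qb →+* ℂ) (N m : ℕ) [NeZero N] (lam : Additive (Gamma0 N) →+ ℤ)
    (y : ↥(FF Qb N)) (a b : ℍ → ℂ) : Prop :=
  S23.JN.Holo a ∧ S23.JN.Holo b ∧ b ≠ 0 ∧
  (∀ (γ : Gamma0 N) (z : ℍ), a ((γ : SL(2, ℤ)) • z) * b z =
      zeta m (lam (Additive.ofMul γ)) * (a z * b ((γ : SL(2, ℤ)) • z))) ∧
  ∃ P Q : MvPolynomial (Dv N) Qb, evalL Qb N Q ≠ 0 ∧ y * evalL Qb N Q = evalL Qb N P ∧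
    ∀ z : ℍ, a z ^ m * evalFun N (MvPolynomial.map ι Q) z =
      b z ^ m * evalFun N (MvPolynomial.map ι P) z

/-- The relation between `λ ∈ Λ` and the `m`-torsion class with multiplier `ζ_m^λ`. -/
def Rel (ι : Qb →+* ℂ) (N m : ℕ) [NeZero N] (lam : Λ N) (x : JZero N) : Prop :=
  ∃ (y : ↥(FF Qb N)) (D : Divisor.degZero (K := Qb) (F := ↥(FF Qb N))) (a b : ℍ → ℂ),
    y ≠ 0 ∧ (∀ v : Place Qb ↥(FF Qb N), (m : ℤ) * (D : Divisor Qb ↥(FF Qb N)) v = v.ord y) ∧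
    x = Pic0.mk D ∧ IsRootPair ι N m (lam : Additive (Gamma0 N) →+ ℤ) y a b

/-- **(E)** existence. -/
def ExStmt : Prop :=
  ∀ (ι : Qb →+* ℂ) (N : ℕ) [NeZero N] (m : ℕ), 0 < m → ∀ lam : Λ N, ∃ x : JZero N, Rel ι N m lam x

/-- **(U)** uniqueness. -/
def UniqStmt : Prop :=
  ∀ (ι : Qb →+* ℂ) (N : ℕ) [NeZero N] (m : ℕ), 0 < m → ∀ (lam : Λ N) (x x' : JZero N),
    Rel ι N m lam x → Rel ι N m lam x' → x = x'

/-- **(H)** Hecke equivariance against the transfer. -/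
def HeckeStmt : Prop :=
  ∀ (ι : Qb →+* ℂ) (N : ℕ) [NeZero N] (m : ℕ), 0 < m → ∀ (ℓ : Nat.Primes) (hℓN : ¬ (ℓ : ℕ) ∣ N)
    (lam : Λ N) (x : JZero N), Rel ι N m lam x →
      Rel ι N m (trΛ N ℓ hℓN lam) (heckeOperatorBar N ℓ x)

/-- **(K)** the kernel. -/
def KerStmt : Prop :=
  ∀ (ι : Qb →+* ℂ) (N : ℕ) [NeZero N] (m : ℕ), 0 < m → ∀ lam : Λ N, Rel ι N m lam 0 →
    ∃ mu : Λ N, lam = (m : ℤ) • mu

/-- The Hecke-equivariant embedding `Λ/mΛ ↪ J₀(N)(ℚ̄)[m]`, for every modulus `m ≥ 1`. -/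
def EmbStmt : Prop :=
  ∀ (N : ℕ) [NeZero N] (m : ℕ), 0 < m → ∃ Φ : Λ N →ₗ[ℤ] Jtor N m,
    (∀ χ : Λ N, Φ χ = 0 → ∃ χ' : Λ N, χ = (m : ℤ) • χ') ∧
    ∀ (ℓ : Nat.Primes) (hℓ : ¬ (ℓ : ℕ) ∣ N * m) (χ : Λ N),
      heckeTor N m ℓ (Φ χ) = Φ (trΛ N ℓ (fun h => hℓ (Dvd.dvd.mul_right h m)) χ)

variable {ι : Qb →+* ℂ} {N m : ℕ} [NeZero N]

/-- **(A)** additivity of the relation. -/
theorem rel_add {lam mu : Λ N} {x x' : JZero N} (h : Rel ι N m lam x) (h' : Rel ι N m mu x') :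
    Rel ι N m (lam + mu) (x + x') := by
  obtain ⟨y, D, a, b, hy, hD, rfl, ha, hb, hb0, hmul, P, Q, hQ, hPQ, hev⟩ := h
  obtain ⟨y', D', a', b', hy', hD', rfl, ha', hb', hb0', hmul', P', Q', hQ', hPQ', hev'⟩ := h'
  refine ⟨y * y', D + D', a * a', b * b', mul_ne_zero hy hy', ?_, rfl, ?_, ?_, ?_, ?_,
    P * P', Q * Q', ?_, ?_, ?_⟩
  · intro v
    rw [AddSubgroup.coe_add, Finsupp.add_apply, mul_add, hD v, hD' v, v.ord_mul hy hy']
  · exact ha.mul ha'
  · exact hb.mul hb'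
  · -- product of two nonzero holomorphic functions
    obtain ⟨z, hz⟩ := S23.JN.exists_common_ne_zero (fun i : Bool => if i then b else b')
      (fun i => by cases i <;> simp [hb, hb'])
      (fun i => by
        cases i
        · simpa using Function.ne_iff.mp hb0'
        · simpa using Function.ne_iff.mp hb0)
    intro h0
    have h1 := hz true
    have h2 := hz false
    simp only [if_true, Bool.false_eq_true, if_false] at h1 h2
    have := congrFun h0 z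
    simp only [Pi.mul_apply, Pi.zero_apply, mul_eq_zero] at this
    tauto
  · intro γ z
    have e1 := hmul γ z
    have e2 := hmul' γ z
    simp only [Pi.mul_apply, Submodule.coe_add, AddMonoidHom.add_apply, zeta_add]
    linear_combination (a' ((γ : SL(2, ℤ)) • z) * b' z) * e1 +
      (zeta m ((lam : Additive (Gamma0 N) →+ ℤ) (Additive.ofMul γ)) *
        (a z * b ((γ : SL(2, ℤ)) • z))) * e2
  · rw [map_mul]
    exact mul_ne_zero hQ hQ'
  · rw [map_mul, map_mul, ← hPQ, ← hPQ']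
    ring
  · intro z
    have e1 := hev z
    have e2 := hev' z
    simp only [Pi.mul_apply, map_mul, mul_pow]
    linear_combination (a' z ^ m * evalFun N (MvPolynomial.map ι Q') z) * e1 +
      (b z ^ m * evalFun N (MvPolynomial.map ι P) z) * e2

/-- A related class is `m`-torsion. -/
theorem rel_torsion {lam : Λ N} {x : JZero N} (h : Rel ι N m lam x) : (m : ℤ) • x = 0 := by
  obtain ⟨y, D, a, b, hy, hD, rfl, -⟩ := h
  have h1 : (m : ℤ) • Pic0.mk D = Pic0.mk ((m : ℤ) • D) := rfl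
  rw [h1]
  refine (QuotientAddGroup.eq_zero_iff _).mpr ?_
  rw [AddSubgroup.mem_addSubgroupOf]
  refine ⟨y, hy, fun v => ?_⟩
  rw [AddSubgroup.coe_zsmul, Finsupp.smul_apply, smul_eq_mul, hD v]

/-- The embedding from the four facts (E), (U), (H), (K) (and (A), `rel_add`). -/
theorem embStmt_of_facts (hE : ExStmt) (hU : UniqStmt) (hH : HeckeStmt) (hK : KerStmt) :
    EmbStmt := by
  intro N _ m hm
  obtain ⟨ι, -⟩ := S18.PHyp.exists_embedding
  choose f hf using hE ι N m hm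
  have hfadd : ∀ lam mu : Λ N, f (lam + mu) = f lam + f mu := fun lam mu =>
    hU ι N m hm (lam + mu) _ _ (hf (lam + mu)) (rel_add (hf lam) (hf mu))
  have hmem : ∀ lam : Λ N, f lam ∈ Jtor N m := fun lam => by
    rw [Submodule.mem_torsionBy_iff]
    exact rel_torsion (hf lam)
  let Φ₀ : Λ N →+ Jtor N m := AddMonoidHom.mk' (fun lam => ⟨f lam, hmem lam⟩)
    (fun lam mu => Subtype.ext (hfadd lam mu))
  refine ⟨Φ₀.toIntLinearMap, ?_, ?_⟩
  · intro χ hχ
    have h0 : f χ = 0 := congrArg Subtype.val hχ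
    have hr := hf χ
    rw [h0] at hr
    exact hK ι N m hm χ hr
  · intro ℓ hℓ χ
    apply Subtype.ext
    rw [coe_heckeTor]
    exact (hU ι N m hm _ _ _ (hf _) (hH ι N m hm ℓ _ χ _ (hf χ))).symm

end Fermat.Agent.S29.Emb

end
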