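/-
S29 (wave 9), row [IV], step (d): the eigenform support statement from the Hecke-equivariant
embedding `Λ/pΛ ↪ J₀(N)(ℚ̄)[p]`.

* `baseChange_ne_zero`: if `Φ : Λ → M` is a homomorphism from a finite free abelian group to a
  `p`-torsion group with `ker Φ ⊆ pΛ`, then `k ⊗ Λ → k ⊗ M` is injective for every field `k` of
  characteristic `p`;
* `exists_eigen`: the reduction of the eigenvector of `Eig.exists_eigenvectorC` along
  `φ : ℤ̄ → k` (`EigRed.exists_eigenvector`);
* `eigenSupportStmt_of_emb : Emb.EmbStmt → EigenSupportStmt`.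
-/
import Fermat.Agent.S29.Eig
import Fermat.Agent.S29.EigRed
import Fermat.Agent.S29.EmbIface

set_option autoImplicit false

noncomputable section

open ModularCurve CongruenceSubgroup
open Fermat.Agent.S29.Transfer
open scoped TensorProduct

namespace Fermat.Agent.S29.EigSupport

/-- **tensor injectivity**: a homomorphism `Φ` from a finite free abelian group `L` to a
`p`-torsion group with `ker Φ ⊆ p L` stays injective after `k ⊗ -`, `k` a field of
characteristic `p`. -/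
theorem baseChange_ne_zero_aux {L M : Type*} [AddCommGroup L] [AddCommGroup M]
    [Module.Finite ℤ L] [Module.Free ℤ L] {p : ℕ} (hp : p.Prime) (hM : ∀ x : M, p • x = 0)
    (Φ : L →ₗ[ℤ] M) (hker : ∀ χ : L, Φ χ = 0 → ∃ χ' : L, χ = (p : ℤ) • χ')
    {k : Type*} [Field k] [CharP k p] (w : k ⊗[ℤ] L) (hw : w ≠ 0) :
    Φ.baseChange k w ≠ 0 := by
  classical
  have : Fact p.Prime := ⟨hp⟩
  let _ : Module (ZMod p) M := AddCommGroup.zmodModule hM
  let b := Module.Free.chooseBasis ℤ L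
  let v : Module.Free.ChooseBasisIndex ℤ L → M := fun i => Φ (b i)
  have hli : LinearIndependent (ZMod p) v := by
    rw [Fintype.linearIndependent_iff]
    intro g hg i
    have h1 : Φ (∑ j, ((g j).cast : ℤ) • b j) = 0 := by
      rw [map_sum, ← hg]
      refine Finset.sum_congr rfl fun j _ => ?_
      rw [map_smul, ← Int.cast_smul_eq_zsmul (ZMod p), ZMod.intCast_zmod_cast]
    obtain ⟨χ', hχ'⟩ := hker _ h1
    have h2 := congrArg (fun x => b.repr x i) hχ'
    simp only [map_sum, map_smul, Finsupp.coe_finsetSum, Finsupp.coe_smul, Finset.sum_apply,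
      Pi.smul_apply, Module.Basis.repr_self, smul_eq_mul, Finsupp.single_apply, mul_ite, mul_one,
      mul_zero, Finset.sum_ite_eq', Finset.mem_univ, if_true] at h2
    have h3 : ((((g i).cast : ℤ)) : ZMod p) = 0 := by
      rw [h2]
      simp
    rwa [ZMod.intCast_zmod_cast] at h3
  obtain ⟨G, hG⟩ := (Finsupp.linearCombination (ZMod p) v).exists_leftInverse_of_injective
    (LinearMap.ker_eq_bot.mpr hli)
  have hGv : ∀ i : Module.Free.ChooseBasisIndex ℤ L, G.toFun (v i) = Finsupp.single i 1 := by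
    intro i
    have h := LinearMap.congr_fun hG (Finsupp.single i 1)
    rw [LinearMap.comp_apply, Finsupp.linearCombination_single, one_smul, LinearMap.id_apply] at h
    exact h
  let bk := Algebra.TensorProduct.basis k b
  -- the functionals `k ⊗ M → k` dual to the `1 ⊗ v i`
  let ψ : Module.Free.ChooseBasisIndex ℤ L → M →+ k := fun j =>
    ((ZMod.castHom (dvd_refl p) k).toAddMonoidHom).comp
      ((Finsupp.applyAddHom j).comp G.toAddMonoidHom)
  let Lj : Module.Free.ChooseBasisIndex ℤ L → k ⊗[ℤ] M →ₗ[k] k := fun j =>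
    ((ψ j).toIntLinearMap).liftBaseChange k
  have key : ∀ j, (Lj j) ∘ₗ (Φ.baseChange k) = bk.coord j := by
    intro j
    refine bk.ext fun i => ?_
    rw [LinearMap.comp_apply, Algebra.TensorProduct.basis_apply, LinearMap.baseChange_tmul,
      LinearMap.liftBaseChange_tmul, one_smul, Module.Basis.coord_apply,
      ← Algebra.TensorProduct.basis_apply, Module.Basis.repr_self]
    show (ZMod.castHom (dvd_refl p) k) ((G.toFun (v i)) j) = _
    rw [hGv i, Finsupp.single_apply, Finsupp.single_apply]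
    split_ifs <;> simp
  intro h0
  apply hw
  apply bk.ext_elem
  intro j
  rw [map_zero, Finsupp.zero_apply, ← Module.Basis.coord_apply, ← key j, LinearMap.comp_apply, h0,
    map_zero]

/-- `baseChange_ne_zero_aux` for arbitrary `ℤ`-module instances. -/
theorem baseChange_ne_zero {L M : Type*} [AddCommGroup L] [hL : Module ℤ L] [AddCommGroup M]
    [hM' : Module ℤ M] [Module.Finite ℤ L] [Module.Free ℤ L] {p : ℕ} (hp : p.Prime)
    (hM : ∀ x : M, p • x = 0) (Φ : L →ₗ[ℤ] M)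
    (hker : ∀ χ : L, Φ χ = 0 → ∃ χ' : L, χ = (p : ℤ) • χ')
    {k : Type*} [Field k] [CharP k p] (w : k ⊗[ℤ] L) (hw : w ≠ 0) :
    Φ.baseChange k w ≠ 0 := by
  obtain rfl : hL = AddCommGroup.toIntModule L := Subsingleton.elim _ _
  obtain rfl : hM' = AddCommGroup.toIntModule M := Subsingleton.elim _ _
  exact baseChange_ne_zero_aux hp hM Φ hker w hw

/-- **(i)** the reduction of the eigenvector: a nonzero `x ∈ k ⊗ Λ` on which every transfer
operator `T_ℓ`, `ℓ ∤ N`, acts through `φ (a_ℓ(g))`. -/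
theorem exists_eigen (N : ℕ) [NeZero N] {g : CuspForm (Gamma0 N) 2}
    (hg : g.IsNormalizedEigenform) {k : Type*} [Field k] (φ : integralClosure ℤ ℂ →+* k) :
    ∃ a : Nat.Primes → integralClosure ℤ ℂ,
      (∀ ℓ : Nat.Primes, ¬ (ℓ : ℕ) ∣ N →
        ((a ℓ : integralClosure ℤ ℂ) : ℂ) = ModularFormClass.qCoeff ⇑g ℓ) ∧
      ∃ x : k ⊗[ℤ] Λ N, x ≠ 0 ∧ ∀ (ℓ : Nat.Primes) (hℓN : ¬ (ℓ : ℕ) ∣ N),
        (trΛ N ℓ hℓN).baseChange k x = φ (a ℓ) • x := by
  classical
  obtain ⟨v, hv, hTv⟩ := Eig.exists_eigenvectorC N hg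
  obtain ⟨hint, w, hw, hTw⟩ := EigRed.exists_eigenvector
    (Λ := Λ N) (ι := {ℓ : Nat.Primes // ¬ (ℓ : ℕ) ∣ N}) (fun i => trΛ N i.1 i.2)
    (fun i => ModularFormClass.qCoeff ⇑g i.1) v hv (fun i => hTv i.1 i.2) φ
  refine ⟨fun ℓ => if h : ¬ (ℓ : ℕ) ∣ N then ⟨ModularFormClass.qCoeff ⇑g ℓ, hint ⟨ℓ, h⟩⟩ else 0,
    fun ℓ hℓ => ?_, w, hw, fun ℓ hℓN => ?_⟩
  · simp only [dif_pos hℓ]
  · simp only [dif_pos hℓN]
    exact hTw ⟨ℓ, hℓN⟩ (hint ⟨ℓ, hℓN⟩)

/-- **(ii) = step (d) of [IV]**: the eigenform support statement from the Hecke-equivariant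
embedding `Λ/pΛ ↪ J₀(N)(ℚ̄)[p]`. -/
theorem eigenSupportStmt_of_emb (hEmb : Emb.EmbStmt) : EigenSupportStmt := by
  intro N _ g hg p hp k _ _ φ
  obtain ⟨a, ha, w, hw, hTw⟩ := exists_eigen N hg φ
  obtain ⟨Φ, hker, hheck⟩ := hEmb N p hp.pos
  have hM : ∀ x : Jtor N p, p • x = 0 := by
    intro x
    apply Subtype.ext
    have h := (Submodule.mem_torsionBy_iff (p : ℤ) (x : JZero N)).mp x.2
    rw [natCast_zsmul] at h
    rw [AddSubmonoidClass.coe_nsmul]
    exact h
  refine ⟨a, ha, Φ.baseChange k w, ?_, fun ℓ hℓ => ?_⟩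
  · exact baseChange_ne_zero (L := Λ N) (M := Jtor N p) hp hM Φ hker w hw
  · have hℓN : ¬ (ℓ : ℕ) ∣ N := fun h => hℓ (Dvd.dvd.mul_right h p)
    have h1 : (heckeTor N p ℓ) ∘ₗ Φ = Φ ∘ₗ (trΛ N ℓ hℓN) := LinearMap.ext fun χ => hheck ℓ hℓ χ
    have h2 := congrArg (fun f : Λ N →ₗ[ℤ] Jtor N p => f.baseChange k w) h1
    simp only [LinearMap.baseChange_comp, LinearMap.comp_apply] at h2
    exact h2.trans ((congrArg (Φ.baseChange k) (hTw ℓ hℓN)).trans
      (map_smul (Φ.baseChange k) (φ (a ℓ)) w))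

end Fermat.Agent.S29.EigSupport
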