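/-
S29 (wave 9), [IV]: bridge between the two forms of the Kummer relation.

`IV.KumRel ι N m ζ x χ` (file `IVIface.lean`) asks for an `m`-th root `f` of the analytic
realisation of `h` inside the field `S24.Mero.Fld N`; `Emb.Rel ι N m λ x` (file `EmbIface.lean`)
asks for a pair of holomorphic functions `a`, `b` on `ℍ` with `(a/b)^m = an h` pointwise.
Writing `f = a / b` with `a`, `b ∈ S24.Mero.ring N` turns the first into the second:

* `rel_of_kumRel`: `KumRel ι N m (zeta m 1) x (red N m λ) → Rel ι N m λ x`;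
* `exStmt_of_kumExists : IV.KumExistsStmt → Emb.ExStmt`.
-/
import Fermat.Agent.S29.EmbIface
import Fermat.Agent.S29.IVIface

set_option autoImplicit false

noncomputable section

open scoped MatrixGroups
open UpperHalfPlane ModularCurve AlgebraicCurve CongruenceSubgroup

namespace Fermat.Agent.S29.Emb

open Fermat.Agent.S24 (FF evalL evalFun Dv)
open Fermat.Agent.S24.Mero (Fld actF)
open Fermat.Agent.S29.Transfer (Λ trΛ)

theorem zeta_one_pow (m : ℕ) (k : ℕ) : zeta m 1 ^ k = zeta m k := by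
  induction k with
  | zero => simp
  | succ k ih =>
    rw [pow_succ, ih, ← zeta_add]
    push_cast
    rfl

theorem zeta_congr {m : ℕ} (hm : m ≠ 0) {n n' : ℤ} (h : (m : ℤ) ∣ n - n') :
    zeta m n = zeta m n' := by
  have h1 : zeta m n = zeta m n' * zeta m (n - n') := by
    rw [← zeta_add]
    congr 1
    ring
  rw [h1, (zeta_eq_one_iff hm _).mpr h, mul_one]

theorem isPrimitiveRoot_zeta {m : ℕ} (hm : m ≠ 0) : IsPrimitiveRoot (zeta m 1) m := by
  have h := Complex.isPrimitiveRoot_exp m hm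
  have e : zeta m 1 = Complex.exp (2 * Real.pi * Complex.I / m) := by
    rw [zeta]
    congr 1
    push_cast
    ring
  rw [e]
  exact h

/-- `ζ_m ^ (n mod m) = ζ_m ^ n`. -/
theorem zeta_one_pow_val {m : ℕ} [NeZero m] (n : ℤ) :
    zeta m 1 ^ ((n : ZMod m)).val = zeta m n := by
  have hm : m ≠ 0 := NeZero.ne m
  rw [zeta_one_pow]
  apply zeta_congr hm
  have h1 : (((n : ZMod m).val : ℤ) : ZMod m) = (n : ZMod m) := by
    rw [Int.cast_natCast, ZMod.natCast_zmod_val]
  have h2 : ((((n : ZMod m).val : ℤ) - n : ℤ) : ZMod m) = 0 := by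
    rw [Int.cast_sub, h1, sub_self]
  exact (ZMod.intCast_zmod_eq_zero_iff_dvd _ _).mp h2

variable {ι : Qb →+* ℂ} {N m : ℕ} [NeZero N]

/-- From a root in `Mero.Fld N` to a pair of holomorphic functions. -/
theorem rel_of_kumRel (hm : 0 < m) (lam : Λ N) (x : JZero N)
    (h : IV.KumRel ι N m (zeta m 1) x (IV.red N m (lam : Additive (Gamma0 N) →+ ℤ))) :
    Rel ι N m lam x := by
  have : NeZero m := ⟨hm.ne'⟩
  obtain ⟨D, hD, y, f, rfl, hy, hord, hpow, hmul⟩ := h
  obtain ⟨a, b, hb, rfl⟩ := Fermat.Agent.S24.Mero.exists_div (N := N) f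
  obtain ⟨P, Q, hQ, hyPQ⟩ := Fermat.Agent.S24.Ext.exists_eq_div Qb N y
  have hbF : algebraMap (S24.Mero.ring N) (Fld N) b ≠ 0 := fun h0 =>
    hb (IsFractionRing.injective (S24.Mero.ring N) (Fld N) (by rw [h0, map_zero]))
  have hQR : S24.DataTau.evalRing ι N Q ≠ 0 := fun h0 =>
    hQ ((S24.DataTau.evalRing_eq_zero_iff ι N Q).mp h0)
  have hQF : algebraMap (S24.Mero.ring N) (Fld N) (S24.DataTau.evalRing ι N Q) ≠ 0 := fun h0 =>
    hQR (IsFractionRing.injective (S24.Mero.ring N) (Fld N) (by rw [h0, map_zero]))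
  refine ⟨y, ⟨D, hD⟩, a, b, hy, fun v => (hord v).symm, rfl, a.2.1, b.2.1, ?_, ?_,
    P, Q, hQ, ?_, ?_⟩
  · intro h0
    exact hb (Subtype.ext h0)
  · intro γ z
    have h1 := hmul γ
    rw [map_div₀, S24.Mero.actF_algebraMap, S24.Mero.actF_algebraMap, IV.cst, RingHom.comp_apply,
      div_eq_iff (by
        intro h0
        have := IsFractionRing.injective (S24.Mero.ring N) (Fld N)
          (show algebraMap _ (Fld N) (S24.Mero.act N (γ : SL(2, ℤ)) b) = algebraMap _ _ 0 by
            rw [h0, map_zero])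
        apply hb
        have h2 := congrArg (S24.Mero.act N (γ : SL(2, ℤ))).symm this
        simpa using h2)] at h1
    have h2 : algebraMap (S24.Mero.ring N) (Fld N) (S24.Mero.act N (γ : SL(2, ℤ)) a * b)
        = algebraMap (S24.Mero.ring N) (Fld N)
          (S24.Mero.const N (zeta m 1 ^ (IV.red N m (lam : Additive (Gamma0 N) →+ ℤ)
            (Additive.ofMul γ)).val) * a * S24.Mero.act N (γ : SL(2, ℤ)) b) := by
      rw [map_mul, map_mul, map_mul, h1]
      field_simp
    have h3 := IsFractionRing.injective (S24.Mero.ring N) (Fld N) h2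
    have h4 := congrFun (congrArg Subtype.val h3) z
    rw [IV.red_apply, zeta_one_pow_val] at h4
    simp only [Subring.coe_mul, Pi.mul_apply, S24.Mero.act_apply] at h4
    rw [h4]
    have h5 : ((S24.Mero.const N (zeta m ((lam : Additive (Gamma0 N) →+ ℤ) (Additive.ofMul γ))) :
        S24.Mero.ring N) : ℍ → ℂ) z = zeta m ((lam : Additive (Gamma0 N) →+ ℤ)
          (Additive.ofMul γ)) := rfl
    rw [h5]
    ring
  · rw [hyPQ, div_mul_cancel₀ _ hQ]
  · intro z
    have h1 : IV.an ι N y = algebraMap (S24.Mero.ring N) (Fld N) (S24.DataTau.evalRing ι N P) /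
        algebraMap (S24.Mero.ring N) (Fld N) (S24.DataTau.evalRing ι N Q) := by
      rw [hyPQ, IV.an, map_div₀, S24.DataTau.PhiL_evalL, S24.DataTau.PhiL_evalL]
    rw [h1, div_pow, div_eq_div_iff (pow_ne_zero m hbF) hQF] at hpow
    have h2 : algebraMap (S24.Mero.ring N) (Fld N) (a ^ m * S24.DataTau.evalRing ι N Q)
        = algebraMap (S24.Mero.ring N) (Fld N) (S24.DataTau.evalRing ι N P * b ^ m) := by
      rw [map_mul, map_mul, map_pow, map_pow, hpow]
    have h3 := IsFractionRing.injective (S24.Mero.ring N) (Fld N) h2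
    have h4 := congrFun (congrArg Subtype.val h3) z
    simp only [Subring.coe_mul, Pi.mul_apply, Subring.coe_pow, Pi.pow_apply] at h4
    rw [S24.DataTau.coe_evalRing, S24.DataTau.coe_evalRing] at h4
    rw [h4]
    ring

/-- **(E)** in the honest form from **(K1)** in the `Fld N` form. -/
theorem exStmt_of_kumExists (h : IV.KumExistsStmt) : ExStmt := by
  intro ι N _ m hm lam
  obtain ⟨x, hx⟩ := h ι N m hm (zeta m 1) (isPrimitiveRoot_zeta hm.ne')
    (lam : Additive (Gamma0 N) →+ ℤ) lam.2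
  exact ⟨x, rel_of_kumRel hm lam x hx⟩

end Fermat.Agent.S29.Emb

end
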