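/-
S29, leaf (b) of the eigenvector input: `m`-th roots on the upper half plane.

A holomorphic function on the upper half plane, not identically zero, all of whose zeros have
order divisible by `m`, is the `m`-th power of a holomorphic function (`exists_root`); two
holomorphic `m`-th roots of the same function on a connected open set differ by a constant
`m`-th root of unity (`eq_const_mul_of_pow_eq`).  For a function invariant under a subgroup of
`SL(2, ℤ)` this gives the multiplier character of the root (`exists_root_character`).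
Mathlib only.
-/
import Mathlib

set_option autoImplicit false

noncomputable section

open Filter Topology Set Metric

namespace Fermat.Agent.S29.HoloRoot

/-! ### Rigidity of roots -/

theorem finite_rootsOfOne (m : ℕ) (hm : m ≠ 0) : {w : ℂ | w ^ m = 1}.Finite := by
  have : {w : ℂ | w ^ m = 1} = ↑(Polynomial.nthRoots m (1 : ℂ)).toFinset := by
    ext w
    simp [Polynomial.mem_nthRoots (Nat.pos_of_ne_zero hm)]
  rw [this]
  exact Finset.finite_toSet _

/-- Normalised uniqueness of `m`-th roots: two holomorphic functions on a connected open set with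
the same `m`-th power and the same nonzero value at one point are equal. -/
theorem eqOn_of_pow_eq_of_eq {U : Set ℂ} (hU : IsOpen U) (hUc : IsPreconnected U)
    {f₁ f₂ : ℂ → ℂ} {m : ℕ} (hm : m ≠ 0) (h₁ : DifferentiableOn ℂ f₁ U)
    (h₂ : DifferentiableOn ℂ f₂ U) (heq : ∀ z ∈ U, f₁ z ^ m = f₂ z ^ m) {z₀ : ℂ} (hz₀ : z₀ ∈ U)
    (h0 : f₁ z₀ = f₂ z₀) (hne : f₂ z₀ ≠ 0) : EqOn f₁ f₂ U := by
  have ha₁ : AnalyticOnNhd ℂ f₁ U := h₁.analyticOnNhd hU
  have ha₂ : AnalyticOnNhd ℂ f₂ U := h₂.analyticOnNhd hU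
  refine ha₁.eqOn_of_preconnected_of_eventuallyEq ha₂ hUc hz₀ ?_
  have hc₁ : ContinuousAt f₁ z₀ := (ha₁ z₀ hz₀).continuousAt
  have hc₂ : ContinuousAt f₂ z₀ := (ha₂ z₀ hz₀).continuousAt
  have hq : ContinuousAt (fun z => f₁ z / f₂ z) z₀ := hc₁.div hc₂ hne
  have hfin : ({w : ℂ | w ^ m = 1} \ {1}).Finite := (finite_rootsOfOne m hm).subset sdiff_subset
  have hopen : ({w : ℂ | w ^ m = 1} \ {1})ᶜ ∈ 𝓝 (f₁ z₀ / f₂ z₀) := by
    refine hfin.isClosed.isOpen_compl.mem_nhds ?_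
    rw [h0, div_self hne]
    simp
  have hev := hq.eventually hopen
  have hev2 : ∀ᶠ z in 𝓝 z₀, f₂ z ≠ 0 := hc₂.eventually_ne hne
  filter_upwards [hev, hev2, hU.mem_nhds hz₀] with z hz hz2 hzU
  have h3 : (f₁ z / f₂ z) ^ m = 1 := by
    rw [div_pow, heq z hzU, div_self (pow_ne_zero m hz2)]
  have h4 : f₁ z / f₂ z = 1 := by
    by_contra hcon
    exact hz ⟨h3, hcon⟩
  exact (div_eq_one_iff_eq hz2).mp h4

/-- Rigidity: two holomorphic functions on a connected open set with the same `m`-th power differ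
by a constant `m`-th root of unity. -/
theorem eq_const_mul_of_pow_eq {U : Set ℂ} (hU : IsOpen U) (hUc : IsPreconnected U)
    {f₁ f₂ : ℂ → ℂ} {m : ℕ} (hm : m ≠ 0) (h₁ : DifferentiableOn ℂ f₁ U)
    (h₂ : DifferentiableOn ℂ f₂ U) (hne : ∃ z ∈ U, f₂ z ≠ 0)
    (heq : ∀ z ∈ U, f₁ z ^ m = f₂ z ^ m) :
    ∃ ζ : ℂ, ζ ^ m = 1 ∧ ∀ z ∈ U, f₁ z = ζ * f₂ z := by
  obtain ⟨z₀, hz₀, hne⟩ := hne
  refine ⟨f₁ z₀ / f₂ z₀, ?_, ?_⟩
  · rw [div_pow, heq z₀ hz₀, div_self (pow_ne_zero m hne)]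
  · have key := eqOn_of_pow_eq_of_eq hU hUc hm h₁ (f₂ := fun z => f₁ z₀ / f₂ z₀ * f₂ z)
      ((differentiableOn_const _).mul h₂) (fun z hz => by
        rw [mul_pow, div_pow, heq z₀ hz₀, div_self (pow_ne_zero m hne), one_mul, heq z hz]) hz₀
      (by field_simp) (by
        rw [div_mul_cancel₀ _ hne]
        intro h
        have := heq z₀ hz₀
        rw [h, zero_pow hm] at this
        exact pow_ne_zero m hne this.symm)
    exact fun z hz => key hz

/-! ### Roots of nonvanishing functions on a disc -/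

/-- A nonvanishing holomorphic function on a disc has a holomorphic `m`-th root. -/
theorem exists_root_ball_of_ne_zero {g : ℂ → ℂ} {c : ℂ} {R : ℝ} (m : ℕ) (hm : m ≠ 0)
    (hR : 0 < R) (hg : DifferentiableOn ℂ g (ball c R)) (hg0 : ∀ z ∈ ball c R, g z ≠ 0) :
    ∃ r : ℂ → ℂ, DifferentiableOn ℂ r (ball c R) ∧ ∀ z ∈ ball c R, r z ^ m = g z := by
  have hd : DifferentiableOn ℂ (fun z => deriv g z / g z) (ball c R) :=
    (hg.deriv isOpen_ball).div hg hg0
  obtain ⟨L, hL⟩ := hd.isExactOn_ball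
  have hgd : ∀ z ∈ ball c R, HasDerivAt g (deriv g z) z := fun z hz =>
    (hg.differentiableAt (isOpen_ball.mem_nhds hz)).hasDerivAt
  have hw : ∀ z ∈ ball c R, HasDerivAt (fun z => g z * Complex.exp (-L z)) 0 z := by
    intro z hz
    have hL' : HasDerivAt (fun z => Complex.exp (-L z))
        (Complex.exp (-L z) * -(deriv g z / g z)) z := (hL z hz).neg.cexp
    have h1 := (hgd z hz).mul hL'
    have h2 : deriv g z * Complex.exp (-L z)
        + g z * (Complex.exp (-L z) * -(deriv g z / g z)) = 0 := by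
      have hgz := hg0 z hz
      field_simp
      ring
    rw [h2] at h1
    exact h1
  have hconst : ∀ z ∈ ball c R, g z * Complex.exp (-L z) = g c * Complex.exp (-L c) := by
    intro z hz
    refine isOpen_ball.is_const_of_deriv_eq_zero (convex_ball c R).isPreconnected
      (fun z hz => (hw z hz).differentiableAt.differentiableWithinAt)
      (fun z hz => (hw z hz).deriv) hz (mem_ball_self hR)
  set w : ℂ := g c * Complex.exp (-L c) with hwdef
  have hw0 : w ≠ 0 := mul_ne_zero (hg0 c (mem_ball_self hR)) (Complex.exp_ne_zero _)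
  have hmC : (m : ℂ) ≠ 0 := by exact_mod_cast hm
  refine ⟨fun z => Complex.exp (Complex.log w / m) * Complex.exp (L z / m), ?_, ?_⟩
  · refine (differentiableOn_const _).mul ?_
    intro z hz
    exact ((hL z hz).differentiableAt.div_const _).cexp.differentiableWithinAt
  · intro z hz
    rw [mul_pow, ← Complex.exp_nat_mul, ← Complex.exp_nat_mul, mul_div_cancel₀ _ hmC,
      mul_div_cancel₀ _ hmC, Complex.exp_log hw0, ← hconst z hz, mul_assoc, ← Complex.exp_add,
      neg_add_cancel, Complex.exp_zero, mul_one]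

/-! ### Roots on a disc -/

/-- A function holomorphic near a closed disc, nowhere locally zero on it, all of whose zeros in
the closed disc have order divisible by `m`, has a holomorphic `m`-th root on the open disc. -/
theorem exists_root_ball {h : ℂ → ℂ} {c : ℂ} {R : ℝ} (m : ℕ) (hm : m ≠ 0) (hR : 0 < R)
    (hh : AnalyticOnNhd ℂ h (closedBall c R))
    (hfin : ∀ u ∈ closedBall c R, analyticOrderAt h u ≠ ⊤)
    (hdiv : ∀ u ∈ closedBall c R, m ∣ analyticOrderNatAt h u) :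
    ∃ f : ℂ → ℂ, DifferentiableOn ℂ f (ball c R) ∧ ∀ z ∈ ball c R, f z ^ m = h z := by
  have hmer : MeromorphicOn h (closedBall c R) := hh.meromorphicOn
  have hDeq : ∀ u ∈ closedBall c R,
      MeromorphicOn.divisor h (closedBall c R) u = (analyticOrderNatAt h u : ℤ) := by
    intro u hu
    rw [MeromorphicOn.divisor_apply hmer hu, (hh u hu).meromorphicOrderAt_eq,
      ← Nat.cast_analyticOrderNatAt (hfin u hu)]
    simp
  have hord : ∀ u : closedBall c R, meromorphicOrderAt h u ≠ ⊤ := by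
    rintro ⟨u, hu⟩
    rw [(hh u hu).meromorphicOrderAt_eq, ← Nat.cast_analyticOrderNatAt (hfin u hu)]
    simp
  have hsupp : (MeromorphicOn.divisor h (closedBall c R)).support.Finite :=
    (MeromorphicOn.divisor h (closedBall c R)).finiteSupport (isCompact_closedBall c R)
  obtain ⟨g, hg, hg0, hfg⟩ := hmer.extract_zeros_poles hord hsupp
  set D : ℂ → ℤ := ⇑(MeromorphicOn.divisor h (closedBall c R)) with hD
  have hmZ : (m : ℤ) ≠ 0 := by exact_mod_cast hm
  have hDE : ∀ u, D u = D u / (m : ℤ) * m := by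
    intro u
    by_cases hu : u ∈ closedBall c R
    · obtain ⟨e, he⟩ := hdiv u hu
      rw [hDeq u hu, he]
      push_cast
      rw [Int.mul_ediv_cancel_left _ hmZ, mul_comm]
    · have h0 : D u = 0 := Function.locallyFinsuppWithin.apply_eq_zero_of_notMem _ hu
      rw [h0]
      simp
  have hE0 : ∀ u, 0 ≤ D u / (m : ℤ) := by
    intro u
    refine Int.ediv_nonneg ?_ (by positivity)
    by_cases hu : u ∈ closedBall c R
    · rw [hDeq u hu]
      positivity
    · have h0 : D u = 0 := Function.locallyFinsuppWithin.apply_eq_zero_of_notMem _ hu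
      rw [h0]
  have hEsupp : (Function.mulSupport fun u : ℂ => (fun z : ℂ => z - u) ^ (D u / (m : ℤ))).Finite := by
    rw [Function.FactorizedRational.mulSupport]
    refine hsupp.subset ?_
    intro u hu
    simp only [Function.mem_support, ne_eq] at hu ⊢
    intro h0
    apply hu
    show D u / (m : ℤ) = 0
    have : D u = 0 := h0
    rw [this]
    simp
  have hgd : DifferentiableOn ℂ g (ball c R) := fun z hz =>
    (hg z (ball_subset_closedBall hz)).differentiableAt.differentiableWithinAt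
  obtain ⟨r, hr, hrm⟩ := exists_root_ball_of_ne_zero m hm hR hgd
    (fun z hz => hg0 ⟨z, ball_subset_closedBall hz⟩)
  set φ : ℂ → ℂ := ∏ᶠ u, (fun z : ℂ => z - u) ^ (D u / (m : ℤ)) with hφ
  have hφa : ∀ x, AnalyticAt ℂ φ x := fun x => Function.FactorizedRational.analyticAt (hE0 x)
  have hφm : φ ^ m = ∏ᶠ u, (fun z : ℂ => z - u) ^ D u := by
    rw [hφ, finprod_pow hEsupp]
    congr 1
    funext u
    rw [← zpow_natCast, ← zpow_mul, ← hDE u]
  refine ⟨fun z => φ z * r z, ?_, ?_⟩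
  · exact DifferentiableOn.mul (fun z _ => (hφa z).differentiableAt.differentiableWithinAt) hr
  · intro z hz
    have hzK : z ∈ closedBall c R := ball_subset_closedBall hz
    have hev : ∀ᶠ y in 𝓝[≠] z, (φ y * r y) ^ m = h y := by
      have h1 := hfg
      rw [EventuallyEq, Filter.Eventually, mem_codiscreteWithin] at h1
      have h2 := h1 z hzK
      rw [disjoint_principal_right] at h2
      have h3 : ball c R ∈ 𝓝[≠] z := mem_nhdsWithin_of_mem_nhds (isOpen_ball.mem_nhds hz)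
      filter_upwards [h2, h3] with y hy hyB
      have hyK : y ∈ closedBall c R := ball_subset_closedBall hyB
      have hy' : h y = ((∏ᶠ u, (fun z : ℂ => z - u) ^ D u) • g) y := by
        by_contra hcon
        exact hy ⟨hyK, hcon⟩
      rw [hy', ← hφm, mul_pow, hrm y hyB]
      simp
    have hc1 : ContinuousAt (fun y => (φ y * r y) ^ m) z :=
      (((hφa z).continuousAt).mul
        ((hr.differentiableAt (isOpen_ball.mem_nhds hz)).continuousAt)).pow m
    have hc2 : ContinuousAt h z := (hh z hzK).continuousAt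
    exact tendsto_nhds_unique_of_eventuallyEq (hc1.tendsto.mono_left nhdsWithin_le_nhds)
      (hc2.tendsto.mono_left nhdsWithin_le_nhds) hev

/-! ### The exhaustion of the upper half plane by discs -/

/-- The centre of the `n`-th disc. -/
def centre (n : ℕ) : ℂ := (((n : ℝ) + 2 : ℝ) : ℂ) * Complex.I

/-- The radius of the `n`-th disc. -/
def radius (n : ℕ) : ℝ := Real.sqrt (((n : ℝ) + 2) ^ 2 - 1)

/-- The discs `‖z - (n + 2) i‖ < √((n + 2)² - 1)`, i.e. `‖z‖² + 1 < 2 (n + 2) Im z`: an increasing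
exhaustion of the upper half plane by discs with compact closure in it. -/
def disc (n : ℕ) : Set ℂ := ball (centre n) (radius n)

theorem radius_pos (n : ℕ) : 0 < radius n := by
  have hn : (0 : ℝ) ≤ (n : ℝ) := Nat.cast_nonneg n
  exact Real.sqrt_pos.mpr (by nlinarith)

theorem normSq_sub_mul_I (z : ℂ) (t : ℝ) :
    Complex.normSq (z - (t : ℂ) * Complex.I) = Complex.normSq z + t ^ 2 - 2 * t * z.im := by
  simp only [Complex.normSq_apply, Complex.sub_re, Complex.mul_re, Complex.ofReal_re,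
    Complex.I_re, mul_zero, Complex.ofReal_im, Complex.I_im, mul_one, sub_self, sub_zero,
    Complex.sub_im, Complex.mul_im, add_zero]
  ring

theorem mem_disc_iff (n : ℕ) (z : ℂ) :
    z ∈ disc n ↔ Complex.normSq z + 1 < 2 * ((n : ℝ) + 2) * z.im := by
  rw [disc, mem_ball, Complex.dist_eq, radius, Real.lt_sqrt (norm_nonneg _), Complex.sq_norm,
    centre, normSq_sub_mul_I]
  constructor <;> intro h <;> linarith

theorem mem_closedDisc_iff (n : ℕ) (z : ℂ) :
    z ∈ closedBall (centre n) (radius n) ↔ Complex.normSq z + 1 ≤ 2 * ((n : ℝ) + 2) * z.im := by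
  have hn : (0 : ℝ) ≤ (n : ℝ) := Nat.cast_nonneg n
  rw [mem_closedBall, Complex.dist_eq, radius, Real.le_sqrt (norm_nonneg _) (by nlinarith),
    Complex.sq_norm, centre, normSq_sub_mul_I]
  constructor <;> intro h <;> linarith

theorem closedDisc_subset (n : ℕ) : closedBall (centre n) (radius n) ⊆ {z : ℂ | 0 < z.im} := by
  intro z hz
  rw [mem_closedDisc_iff] at hz
  have h1 : 0 ≤ Complex.normSq z := Complex.normSq_nonneg z
  have hn : (0 : ℝ) ≤ (n : ℝ) := Nat.cast_nonneg n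
  show 0 < z.im
  by_contra hcon
  rw [not_lt] at hcon
  nlinarith

theorem disc_subset (n : ℕ) : disc n ⊆ {z : ℂ | 0 < z.im} :=
  ball_subset_closedBall.trans (closedDisc_subset n)

theorem disc_mono {n k : ℕ} (hnk : n ≤ k) : disc n ⊆ disc k := by
  intro z hz
  have him : 0 < z.im := disc_subset n hz
  rw [mem_disc_iff] at hz ⊢
  have h1 : (n : ℝ) ≤ (k : ℝ) := by exact_mod_cast hnk
  nlinarith

theorem exists_mem_disc {z : ℂ} (hz : 0 < z.im) : ∃ n : ℕ, z ∈ disc n := by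
  obtain ⟨n, hn⟩ := exists_nat_gt ((Complex.normSq z + 1) / (2 * z.im))
  refine ⟨n, ?_⟩
  rw [mem_disc_iff]
  rw [div_lt_iff₀ (by positivity)] at hn
  nlinarith

theorem isOpen_disc (n : ℕ) : IsOpen (disc n) := isOpen_ball

theorem isPreconnected_disc (n : ℕ) : IsPreconnected (disc n) :=
  (convex_ball _ _).isPreconnected

/-! ### Roots on the upper half plane -/

/-- **`m`-th roots on the upper half plane.**  A holomorphic function on the upper half plane,
not identically zero, all of whose zeros have order divisible by `m`, is the `m`-th power of a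
holomorphic function. -/
theorem exists_root (h : ℂ → ℂ) (m : ℕ) (hm : m ≠ 0)
    (hh : DifferentiableOn ℂ h {z : ℂ | 0 < z.im})
    (hne : ∃ z : ℂ, 0 < z.im ∧ h z ≠ 0)
    (hdiv : ∀ z : ℂ, 0 < z.im → m ∣ analyticOrderNatAt h z) :
    ∃ f : ℂ → ℂ, DifferentiableOn ℂ f {z : ℂ | 0 < z.im} ∧
      ∀ z : ℂ, 0 < z.im → f z ^ m = h z := by
  have hUo : IsOpen {z : ℂ | 0 < z.im} := isOpen_lt continuous_const Complex.continuous_im
  have hUc : IsPreconnected {z : ℂ | 0 < z.im} := (convex_halfSpace_im_gt 0).isPreconnected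
  have ha : AnalyticOnNhd ℂ h {z : ℂ | 0 < z.im} := hh.analyticOnNhd hUo
  obtain ⟨z₀, hz₀, hhz₀⟩ := hne
  have hfin : ∀ u : ℂ, 0 < u.im → analyticOrderAt h u ≠ ⊤ := by
    intro u hu htop
    rw [analyticOrderAt_eq_top] at htop
    exact hhz₀ (ha.eqOn_zero_of_preconnected_of_eventuallyEq_zero hUc hu htop hz₀)
  have hroot : ∀ n : ℕ, ∃ f : ℂ → ℂ, DifferentiableOn ℂ f (disc n) ∧
      ∀ z ∈ disc n, f z ^ m = h z := fun n =>
    exists_root_ball m hm (radius_pos n) (ha.mono (closedDisc_subset n))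
      (fun u hu => hfin u (closedDisc_subset n hu)) (fun u hu => hdiv u (closedDisc_subset n hu))
  choose F hFd hFm using hroot
  obtain ⟨n₀, hn₀⟩ := exists_mem_disc hz₀
  have hz₀n : ∀ n, z₀ ∈ disc (n₀ + n) := fun n => disc_mono (Nat.le_add_right _ _) hn₀
  have hFz₀ : ∀ n, F (n₀ + n) z₀ ≠ 0 := by
    intro n h0
    have := hFm _ z₀ (hz₀n n)
    rw [h0, zero_pow hm] at this
    exact hhz₀ this.symm
  set G : ℕ → ℂ → ℂ := fun n z => F n₀ z₀ / F (n₀ + n) z₀ * F (n₀ + n) z with hG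
  have hGd : ∀ n, DifferentiableOn ℂ (G n) (disc (n₀ + n)) := fun n =>
    (differentiableOn_const _).mul (hFd _)
  have hGm : ∀ n, ∀ z ∈ disc (n₀ + n), G n z ^ m = h z := by
    intro n z hz
    simp only [hG]
    rw [mul_pow, div_pow, hFm _ z₀ hn₀, hFm _ z₀ (hz₀n n), div_self hhz₀, one_mul, hFm _ z hz]
  have hGz₀ : ∀ n, G n z₀ = F n₀ z₀ := fun n => div_mul_cancel₀ _ (hFz₀ n)
  have hF0 : F n₀ z₀ ≠ 0 := hFz₀ 0
  have hcompat : ∀ n k, n ≤ k → EqOn (G k) (G n) (disc (n₀ + n)) := by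
    intro n k hnk
    have hsub : disc (n₀ + n) ⊆ disc (n₀ + k) := disc_mono (by omega)
    exact eqOn_of_pow_eq_of_eq (isOpen_disc _) (isPreconnected_disc _) hm ((hGd k).mono hsub)
      (hGd n) (fun z hz => by rw [hGm k z (hsub hz), hGm n z hz]) (hz₀n n)
      (by rw [hGz₀, hGz₀]) (by rw [hGz₀]; exact hF0)
  have hex : ∀ z : ℂ, 0 < z.im → ∃ n, z ∈ disc (n₀ + n) := by
    intro z hz
    obtain ⟨k, hk⟩ := exists_mem_disc hz
    exact ⟨k, disc_mono (Nat.le_add_left _ _) hk⟩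
  classical
  set f : ℂ → ℂ := fun z => if hz : ∃ n, z ∈ disc (n₀ + n) then G (Nat.find hz) z else 0 with hf
  have hfG : ∀ n, EqOn f (G n) (disc (n₀ + n)) := by
    intro n z hz
    have hex' : ∃ n, z ∈ disc (n₀ + n) := ⟨n, hz⟩
    simp only [hf, dif_pos hex']
    exact (hcompat (Nat.find hex') n (Nat.find_min' hex' hz) (Nat.find_spec hex')).symm
  refine ⟨f, ?_, ?_⟩
  · intro z hz
    obtain ⟨n, hn⟩ := hex z hz
    have hnhds : disc (n₀ + n) ∈ 𝓝 z := (isOpen_disc _).mem_nhds hn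
    have : DifferentiableAt ℂ f z := ((hGd n).differentiableAt hnhds).congr_of_eventuallyEq
      ((hfG n).eventuallyEq_of_mem hnhds)
    exact this.differentiableWithinAt
  · intro z hz
    obtain ⟨n, hn⟩ := hex z hz
    rw [hfG n hn, hGm n z hn]

/-! ### The same statements for functions on `ℍ`

Holomorphy of `f : ℍ → ℂ` is expressed as in the rest of the library:
`DifferentiableOn ℂ (f ∘ UpperHalfPlane.ofComplex) {z : ℂ | 0 < z.im}`. -/

section UHP

open UpperHalfPlane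

open scoped MatrixGroups Manifold

theorem isOpen_upper : IsOpen {z : ℂ | 0 < z.im} :=
  isOpen_lt continuous_const Complex.continuous_im

theorem isPreconnected_upper : IsPreconnected {z : ℂ | 0 < z.im} :=
  (convex_halfSpace_im_gt 0).isPreconnected

/-- **`m`-th roots on `ℍ`.** -/
theorem exists_root_uhp (h : ℍ → ℂ) (m : ℕ) (hm : m ≠ 0)
    (hh : DifferentiableOn ℂ (h ∘ ofComplex) {z : ℂ | 0 < z.im})
    (hne : ∃ z : ℍ, h z ≠ 0)
    (hdiv : ∀ z : ℍ, m ∣ analyticOrderNatAt (h ∘ ofComplex) (z : ℂ)) :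
    ∃ f : ℍ → ℂ, DifferentiableOn ℂ (f ∘ ofComplex) {z : ℂ | 0 < z.im} ∧
      ∀ z : ℍ, f z ^ m = h z := by
  obtain ⟨z₀, hz₀⟩ := hne
  obtain ⟨f₀, hf₀, hf₀m⟩ := exists_root (h ∘ ofComplex) m hm hh
    ⟨(z₀ : ℂ), z₀.im_pos, by simpa using hz₀⟩ (fun z hz => hdiv ⟨z, hz⟩)
  refine ⟨fun z => f₀ (z : ℂ), ?_, ?_⟩
  · refine hf₀.congr ?_
    intro z hz
    have hz' : 0 < z.im := hz
    simp [Function.comp_apply, ofComplex_apply_of_im_pos hz']
  · intro z
    have := hf₀m (z : ℂ) z.im_pos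
    simpa using this

/-- Rigidity of roots on `ℍ`. -/
theorem eq_const_mul_of_pow_eq_uhp {f₁ f₂ : ℍ → ℂ} {m : ℕ} (hm : m ≠ 0)
    (h₁ : DifferentiableOn ℂ (f₁ ∘ ofComplex) {z : ℂ | 0 < z.im})
    (h₂ : DifferentiableOn ℂ (f₂ ∘ ofComplex) {z : ℂ | 0 < z.im})
    (hne : ∃ z : ℍ, f₂ z ≠ 0) (heq : ∀ z : ℍ, f₁ z ^ m = f₂ z ^ m) :
    ∃ ζ : ℂ, ζ ^ m = 1 ∧ ∀ z : ℍ, f₁ z = ζ * f₂ z := by
  obtain ⟨z₀, hz₀⟩ := hne
  obtain ⟨ζ, hζ, hζf⟩ := eq_const_mul_of_pow_eq isOpen_upper isPreconnected_upper hm h₁ h₂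
    ⟨(z₀ : ℂ), z₀.im_pos, by simpa using hz₀⟩ (fun z _ => heq (ofComplex z))
  refine ⟨ζ, hζ, fun z => ?_⟩
  have := hζf (z : ℂ) z.im_pos
  simpa using this

/-- Precomposition with an element of `SL(2, ℤ)` preserves holomorphy. -/
theorem holo_comp_smul {f : ℍ → ℂ} (hf : DifferentiableOn ℂ (f ∘ ofComplex) {z : ℂ | 0 < z.im})
    (γ : SL(2, ℤ)) :
    DifferentiableOn ℂ ((fun z : ℍ => f (γ • z)) ∘ ofComplex) {z : ℂ | 0 < z.im} := by
  rw [← UpperHalfPlane.mdifferentiable_iff] at hf ⊢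
  have hg : 0 < (Matrix.SpecialLinearGroup.mapGL ℝ γ).det.val := by
    rw [Matrix.SpecialLinearGroup.det_mapGL]; simp
  exact hf.comp (mdifferentiable_smul hg)

/-- **The multiplier character.**  If the `m`-th power of a holomorphic function `f ≠ 0` on `ℍ` is
invariant under a subgroup `Γ` of `SL(2, ℤ)`, then `f (γ z) = χ γ * f z` for a character `χ` of `Γ`
with values in the `m`-th roots of unity. -/
theorem exists_character (Γ : Subgroup SL(2, ℤ)) {f : ℍ → ℂ} {m : ℕ} (hm : m ≠ 0)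
    (hf : DifferentiableOn ℂ (f ∘ ofComplex) {z : ℂ | 0 < z.im}) (hne : ∃ z : ℍ, f z ≠ 0)
    (hinv : ∀ γ ∈ Γ, ∀ z : ℍ, f (γ • z) ^ m = f z ^ m) :
    ∃ χ : Γ →* ℂˣ, (∀ γ, χ γ ^ m = 1) ∧
      ∀ (γ : Γ) (z : ℍ), f ((γ : SL(2, ℤ)) • z) = (χ γ : ℂ) * f z := by
  have key : ∀ γ : Γ, ∃ ζ : ℂ, ζ ^ m = 1 ∧ ∀ z : ℍ, f ((γ : SL(2, ℤ)) • z) = ζ * f z := fun γ =>
    eq_const_mul_of_pow_eq_uhp hm (holo_comp_smul hf γ) hf hne (hinv γ γ.2)
  choose c hc hcf using key
  obtain ⟨z₀, hz₀⟩ := hne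
  have hc0 : ∀ γ, c γ ≠ 0 := fun γ h0 => by
    have := hc γ
    rw [h0, zero_pow hm] at this
    exact zero_ne_one this
  have hmul : ∀ γ γ' : Γ, c (γ * γ') = c γ * c γ' := by
    intro γ γ'
    have h1 := hcf (γ * γ') z₀
    rw [Subgroup.coe_mul, mul_smul, hcf γ, hcf γ'] at h1
    have h2 : c (γ * γ') * f z₀ = c γ * c γ' * f z₀ := by rw [← h1]; ring
    exact mul_right_cancel₀ hz₀ h2
  refine ⟨MonoidHom.mk' (fun γ => Units.mk0 (c γ) (hc0 γ)) (fun γ γ' => ?_), fun γ => ?_,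
    fun γ z => ?_⟩
  · ext
    simp [hmul γ γ']
  · ext
    simp [hc γ]
  · simpa using hcf γ z

/-- The multiplier character is determined by the function. -/
theorem character_unique (Γ : Subgroup SL(2, ℤ)) {f : ℍ → ℂ} (hne : ∃ z : ℍ, f z ≠ 0)
    {χ χ' : Γ →* ℂˣ} (h : ∀ (γ : Γ) (z : ℍ), f ((γ : SL(2, ℤ)) • z) = (χ γ : ℂ) * f z)
    (h' : ∀ (γ : Γ) (z : ℍ), f ((γ : SL(2, ℤ)) • z) = (χ' γ : ℂ) * f z) : χ = χ' := by
  obtain ⟨z₀, hz₀⟩ := hne
  ext γ
  have := (h γ z₀).symm.trans (h' γ z₀)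
  exact mul_right_cancel₀ hz₀ this

/-- Two holomorphic `m`-th roots of the same function have the same multiplier character. -/
theorem character_eq_of_pow_eq (Γ : Subgroup SL(2, ℤ)) {f f' : ℍ → ℂ} {m : ℕ} (hm : m ≠ 0)
    (hf : DifferentiableOn ℂ (f ∘ ofComplex) {z : ℂ | 0 < z.im})
    (hf' : DifferentiableOn ℂ (f' ∘ ofComplex) {z : ℂ | 0 < z.im})
    (hne : ∃ z : ℍ, f z ≠ 0) (heq : ∀ z : ℍ, f' z ^ m = f z ^ m)
    {χ χ' : Γ →* ℂˣ} (h : ∀ (γ : Γ) (z : ℍ), f ((γ : SL(2, ℤ)) • z) = (χ γ : ℂ) * f z)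
    (h' : ∀ (γ : Γ) (z : ℍ), f' ((γ : SL(2, ℤ)) • z) = (χ' γ : ℂ) * f' z) : χ = χ' := by
  obtain ⟨ζ, hζ, hζf⟩ := eq_const_mul_of_pow_eq_uhp hm hf' hf hne heq
  have hζ0 : ζ ≠ 0 := fun h0 => by
    rw [h0, zero_pow hm] at hζ
    exact zero_ne_one hζ
  refine (character_unique Γ hne h (fun γ z => ?_)).symm ▸ rfl
  have h1 := h' γ z
  rw [hζf, hζf] at h1
  have h2 : ζ * f ((γ : SL(2, ℤ)) • z) = ζ * ((χ' γ : ℂ) * f z) := by rw [h1]; ring
  exact mul_left_cancel₀ hζ0 h2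

/-- **Root and multiplier character.**  A holomorphic function `h ≠ 0` on `ℍ`, invariant under a
subgroup `Γ` of `SL(2, ℤ)`, all of whose zeros have order divisible by `m`, has a holomorphic
`m`-th root `f` with `f (γ z) = χ γ * f z` for a character `χ : Γ →* ℂˣ` with `χ ^ m = 1`. -/
theorem exists_root_character (Γ : Subgroup SL(2, ℤ)) (h : ℍ → ℂ) (m : ℕ) (hm : m ≠ 0)
    (hh : DifferentiableOn ℂ (h ∘ ofComplex) {z : ℂ | 0 < z.im})
    (hne : ∃ z : ℍ, h z ≠ 0)
    (hdiv : ∀ z : ℍ, m ∣ analyticOrderNatAt (h ∘ ofComplex) (z : ℂ))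
    (hinv : ∀ γ ∈ Γ, ∀ z : ℍ, h (γ • z) = h z) :
    ∃ (f : ℍ → ℂ) (χ : Γ →* ℂˣ), DifferentiableOn ℂ (f ∘ ofComplex) {z : ℂ | 0 < z.im} ∧
      (∀ z : ℍ, f z ^ m = h z) ∧ (∀ γ, χ γ ^ m = 1) ∧
      ∀ (γ : Γ) (z : ℍ), f ((γ : SL(2, ℤ)) • z) = (χ γ : ℂ) * f z := by
  obtain ⟨f, hf, hfm⟩ := exists_root_uhp h m hm hh hne hdiv
  obtain ⟨z₀, hz₀⟩ := hne
  have hfne : ∃ z : ℍ, f z ≠ 0 := ⟨z₀, fun h0 => by
    have := hfm z₀
    rw [h0, zero_pow hm] at this
    exact hz₀ this.symm⟩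
  obtain ⟨χ, hχ, hχf⟩ := exists_character Γ hm hf hfne
    (fun γ hγ z => by rw [hfm, hfm, hinv γ hγ z])
  exact ⟨f, χ, hf, hfm, hχ, hχf⟩

end UHP

/-! ### Roots at a puncture -/

/-- A function holomorphic on a punctured neighbourhood of `0` whose `m`-th power is meromorphic
at `0` is meromorphic at `0`. -/
theorem meromorphicAt_of_pow {g H : ℂ → ℂ} {m : ℕ} (hm : m ≠ 0)
    (hg : ∀ᶠ q in 𝓝[≠] (0 : ℂ), DifferentiableAt ℂ g q) (hH : MeromorphicAt H 0)
    (h : ∀ᶠ q in 𝓝[≠] (0 : ℂ), g q ^ m = H q) : MeromorphicAt g 0 := by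
  obtain ⟨k, hk⟩ := hH
  simp only [sub_zero, smul_eq_mul] at hk
  -- `P q = q ^ k * H q` is bounded near `0`
  have hPb : ∀ᶠ q in 𝓝 (0 : ℂ), ‖q ^ k * H q‖ < ‖(0 : ℂ) ^ k * H 0‖ + 1 :=
    hk.continuousAt.norm.eventually (gt_mem_nhds (lt_add_one _))
  set C : ℝ := ‖(0 : ℂ) ^ k * H 0‖ + 1 with hC
  have hC1 : 1 ≤ C := by rw [hC]; linarith [norm_nonneg ((0 : ℂ) ^ k * H 0)]
  -- `G q = q ^ k * g q` is bounded and differentiable on a punctured ball
  have hev : ∀ᶠ q in 𝓝[≠] (0 : ℂ),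
      DifferentiableAt ℂ (fun q => q ^ k * g q) q ∧ ‖q ^ k * g q‖ ≤ C := by
    have h1 : ∀ᶠ q in 𝓝[≠] (0 : ℂ), ‖q‖ < 1 :=
      eventually_nhdsWithin_of_eventually_nhds
        ((continuous_norm.tendsto (0 : ℂ)).eventually (gt_mem_nhds (by simp)))
    filter_upwards [hg, h, eventually_nhdsWithin_of_eventually_nhds hPb, h1] with q hq1 hq2 hq3 hq4
    refine ⟨(differentiableAt_id.pow k).mul hq1, ?_⟩
    by_contra hcon
    rw [not_le] at hcon
    have h2 : ‖q ^ k * g q‖ ^ m ≤ ‖q ^ k * H q‖ := by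
      rw [← norm_pow, mul_pow, hq2]
      obtain ⟨j, rfl⟩ := Nat.exists_eq_succ_of_ne_zero hm
      rw [pow_succ (q ^ k), mul_assoc, norm_mul]
      refine mul_le_of_le_one_left (norm_nonneg _) ?_
      rw [norm_pow, norm_pow]
      exact pow_le_one₀ (by positivity) (pow_le_one₀ (norm_nonneg _) hq4.le)
    have h3 : C ≤ ‖q ^ k * g q‖ ^ m :=
      hcon.le.trans (le_self_pow₀ (hC1.trans hcon.le) hm)
    linarith
  obtain ⟨ε, hε, hball⟩ := Metric.mem_nhdsWithin_iff.mp hev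
  have hd : DifferentiableOn ℂ (fun q => q ^ k * g q) (ball (0 : ℂ) ε \ {0}) := fun q hq =>
    (hball ⟨hq.1, hq.2⟩).1.differentiableWithinAt
  have hb : BddAbove (norm ∘ (fun q => q ^ k * g q) '' (ball (0 : ℂ) ε \ {0})) := by
    refine ⟨C, ?_⟩
    rintro _ ⟨q, hq, rfl⟩
    exact (hball ⟨hq.1, hq.2⟩).2
  have hext := Complex.differentiableOn_update_limUnder_of_bddAbove (ball_mem_nhds (0 : ℂ) hε)
    hd hb
  have han : AnalyticAt ℂ (Function.update (fun q => q ^ k * g q) 0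
      (limUnder (𝓝[≠] (0 : ℂ)) fun q => q ^ k * g q)) 0 :=
    hext.analyticAt (ball_mem_nhds (0 : ℂ) hε)
  have hG : MeromorphicAt (fun q => q ^ k * g q) 0 := by
    refine han.meromorphicAt.congr ?_
    filter_upwards [self_mem_nhdsWithin] with q hq
    exact Function.update_of_ne hq _ _
  have hinv : MeromorphicAt (fun q : ℂ => (q ^ k)⁻¹) 0 := ((MeromorphicAt.id (0 : ℂ)).pow k).inv
  refine (hinv.mul hG).congr ?_
  filter_upwards [self_mem_nhdsWithin] with q hq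
  have hq0 : q ^ k ≠ 0 := pow_ne_zero k hq
  simp only [Pi.mul_apply]
  field_simp

end Fermat.Agent.S29.HoloRoot
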