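/-
S29 (wave 9), [IV]: fact (K) of the `EmbIface` cut — the kernel of the embedding
`Λ/mΛ ↪ J₀(N)(ℚ̄)[m]`.

If `λ ∈ Λ = Hom_par(Γ₀(N), ℤ)` is related to the trivial class (`Emb.Rel ι N m λ 0`), then
`λ ∈ m Λ`.  Indeed the divisor `D` with `m • D = div y` is principal, `D = div u`, so `y = c u^m`
with a constant `c`; the `m`-th root `a / b` of the analytic realisation of `y` is then a constant
multiple of the analytic realisation of `u`, which is `Γ₀(N)`-invariant; hence the multiplier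
`ζ_m^{λ(γ)}` of `a / b` is trivial, i.e. `m ∣ λ(γ)` for all `γ`.
-/
import Fermat.Agent.S29.EmbIface
import Fermat.Agent.S29.HoloRoot
import Fermat.Agent.S24.Mod.DataTau

set_option autoImplicit false

noncomputable section

open scoped MatrixGroups
open UpperHalfPlane ModularCurve AlgebraicCurve CongruenceSubgroup

namespace Fermat.Agent.S29.EmbKer

open Fermat.Agent.S24 (FF evalL evalFun Dv)
open Fermat.Agent.S29.Transfer (Λ trΛ)
open Fermat.Agent.S29.Emb

set_option linter.unusedSectionVars false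

variable (ι : Qb →+* ℂ) (N : ℕ) [NeZero N]

/-- The analytic realisation `z ↦ P(j(d z))` of a polynomial with coefficients in `ℚ̄`. -/
def fn (P : MvPolynomial (Dv N) Qb) : ℍ → ℂ := evalFun N (MvPolynomial.map ι P)

theorem coe_evalRing (P : MvPolynomial (Dv N) Qb) :
    ((S24.DataTau.evalRing ι N P : S24.Mero.ring N) : ℍ → ℂ) = fn ι N P :=
  S24.DataTau.coe_evalRing ι N P

theorem holo_fn (P : MvPolynomial (Dv N) Qb) : S23.JN.Holo (fn ι N P) := by
  rw [← coe_evalRing]
  exact S24.Mero.holo_of_mem _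

theorem fn_mul (P Q : MvPolynomial (Dv N) Qb) (z : ℍ) :
    fn ι N (P * Q) z = fn ι N P z * fn ι N Q z := by
  simp [fn]

theorem fn_pow (P : MvPolynomial (Dv N) Qb) (n : ℕ) (z : ℍ) :
    fn ι N (P ^ n) z = fn ι N P z ^ n := by
  simp [fn]

theorem fn_C (c : Qb) (z : ℍ) : fn ι N (MvPolynomial.C c) z = ι c := by
  simp [fn, evalFun]

/-- An identity in the function field gives a pointwise identity of the analytic realisations. -/
theorem fn_eq_of_evalL_eq (P Q : MvPolynomial (Dv N) Qb) (h : evalL Qb N P = evalL Qb N Q)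
    (z : ℍ) : fn ι N P z = fn ι N Q z := by
  have h0 : evalL Qb N (P - Q) = 0 := by rw [map_sub, h, sub_self]
  have h1 : S24.DataTau.evalRing ι N (P - Q) = 0 := (S24.DataTau.evalRing_eq_zero_iff ι N _).mpr h0
  have h2 : S24.DataTau.evalRing ι N P = S24.DataTau.evalRing ι N Q := by
    rw [map_sub] at h1
    exact sub_eq_zero.mp h1
  rw [← coe_evalRing, ← coe_evalRing, h2]

theorem exists_fn_ne_zero (Q : MvPolynomial (Dv N) Qb) (hQ : evalL Qb N Q ≠ 0) :
    ∃ z, fn ι N Q z ≠ 0 := by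
  by_contra hcon
  push Not at hcon
  apply hQ
  rw [← S24.DataTau.evalRing_eq_zero_iff ι N Q]
  apply Subtype.ext
  rw [coe_evalRing]
  exact funext hcon

/-- The analytic realisations are `Γ₀(N)`-invariant. -/
theorem fn_smul (P : MvPolynomial (Dv N) Qb) {γ : SL(2, ℤ)} (hγ : γ ∈ Gamma0 N) (z : ℍ) :
    fn ι N P (γ • z) = fn ι N P z := by
  have h2 : ((S24.Mero.act N γ : S24.Mero.ring N →+* S24.Mero.ring N)).comp
      (S24.DataTau.evalRing ι N) = S24.DataTau.evalRing ι N := by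
    apply MvPolynomial.ringHom_ext
    · intro c
      simp only [RingHom.comp_apply, S24.DataTau.evalRing, MvPolynomial.eval₂Hom_C]
      exact S24.Mero.act_const N γ (ι c)
    · intro d
      simp only [RingHom.comp_apply, S24.DataTau.evalRing, MvPolynomial.eval₂Hom_X']
      exact S24.Mero.act_jd_of_mem N d.1 d.2 hγ
  have h3 : S24.Mero.act N γ (S24.DataTau.evalRing ι N P) = S24.DataTau.evalRing ι N P :=
    congrFun (congrArg DFunLike.coe h2) P
  have h4 := congrFun (congrArg Subtype.val h3) z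
  rw [← coe_evalRing]
  exact h4

variable {ι N}

/-- **(K)**, pointwise core: a root pair of `y = c u^m` has trivial multiplier. -/
theorem zeta_eq_one_of_isRootPair {m : ℕ} (hm : 0 < m) {lam : Additive (Gamma0 N) →+ ℤ}
    {y u : ↥(FF Qb N)} {c : Qb} (hy : y ≠ 0) (hu : u ≠ 0)
    (hyc : y = algebraMap Qb ↥(FF Qb N) c * u ^ m) {a b : ℍ → ℂ}
    (h : IsRootPair ι N m lam y a b) (γ : Gamma0 N) :
    zeta m (lam (Additive.ofMul γ)) = 1 := by
  obtain ⟨ha, hb, hb0, hmul, P, Q, hQ, hPQ, hev⟩ := h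
  obtain ⟨Pu, Qu, hQu, huPQ⟩ := S24.Ext.exists_eq_div Qb N u
  have hPu : evalL Qb N Pu ≠ 0 := by
    intro h0
    apply hu
    rw [huPQ, h0, zero_div]
  have hP : evalL Qb N P ≠ 0 := by
    rw [← hPQ]
    exact mul_ne_zero hy hQ
  -- the identity `P · Q_u^m = c · P_u^m · Q` in the function field
  have hid : evalL Qb N (P * Qu ^ m) = evalL Qb N (MvPolynomial.C c * Pu ^ m * Q) := by
    have e1 : evalL Qb N (MvPolynomial.C c) = algebraMap Qb ↥(FF Qb N) c := by
      simp [evalL]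
    rw [map_mul, map_mul, map_mul, map_pow, map_pow, e1, ← hPQ, hyc, huPQ, div_pow]
    field_simp
  have hpt : ∀ z : ℍ, fn ι N P z * fn ι N Qu z ^ m = ι c * fn ι N Pu z ^ m * fn ι N Q z := by
    intro z
    have := fn_eq_of_evalL_eq ι N _ _ hid z
    rwa [fn_mul, fn_pow, fn_mul, fn_mul, fn_pow, fn_C] at this
  -- an `m`-th root of `ι c`
  obtain ⟨c₀, hc₀⟩ : ∃ c₀ : ℂ, c₀ ^ m = ι c := IsAlgClosed.exists_pow_nat_eq (ι c) hm
  -- the two holomorphic functions `A = a · Q̃_u`, `B = c₀ · b · P̃_u`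
  set A : ℍ → ℂ := fun z => a z * fn ι N Qu z with hA
  set B : ℍ → ℂ := fun z => c₀ * (b z * fn ι N Pu z) with hB
  have hAh : S23.JN.Holo A := ha.mul (holo_fn ι N Qu)
  have hBh : S23.JN.Holo B := (hb.mul (holo_fn ι N Pu)).const_mul c₀
  obtain ⟨zQ, hzQ⟩ := exists_fn_ne_zero ι N Q hQ
  obtain ⟨zb, hzb⟩ := Function.ne_iff.mp hb0
  obtain ⟨zPu, hzPu⟩ := exists_fn_ne_zero ι N Pu hPu
  obtain ⟨zQu, hzQu⟩ := exists_fn_ne_zero ι N Qu hQu
  obtain ⟨zP, hzP⟩ := exists_fn_ne_zero ι N P hP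
  have hc0 : c ≠ 0 := by
    rintro rfl
    apply hy
    rw [hyc, map_zero, zero_mul]
  have hιc : ι c ≠ 0 := (map_ne_zero ι).mpr hc0
  have hc₀0 : c₀ ≠ 0 := by
    rintro rfl
    rw [zero_pow hm.ne'] at hc₀
    exact hιc hc₀.symm
  -- `(A^m - B^m) · Q̃ = 0`, hence `A^m = B^m`
  have hABQ : ∀ z : ℍ, (A z ^ m - B z ^ m) * fn ι N Q z = 0 := by
    intro z
    have e1 := hev z
    have e2 := hpt z
    simp only [hA, hB, mul_pow, hc₀]
    change a z ^ m * fn ι N Q z = b z ^ m * fn ι N P z at e1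
    linear_combination (fn ι N Qu z ^ m) * e1 + (b z ^ m) * e2
  have hAB : ∀ z : ℍ, A z ^ m = B z ^ m := by
    have hD : S23.JN.Holo (fun z => A z ^ m - B z ^ m) := (hAh.pow m).sub (hBh.pow m)
    by_contra hcon
    push Not at hcon
    obtain ⟨z₁, hz₁⟩ := hcon
    obtain ⟨z, hz⟩ := S23.JN.exists_common_ne_zero
      (fun i : Bool => if i then (fun z => A z ^ m - B z ^ m) else fn ι N Q)
      (fun i => by
        cases i
        · simpa using holo_fn ι N Q
        · simpa using hD)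
      (fun i => by
        cases i
        · simpa using ⟨zQ, hzQ⟩
        · exact ⟨z₁, by simpa using sub_ne_zero.mpr hz₁⟩)
    have h1 := hz true
    have h2 := hz false
    simp only [if_true, Bool.false_eq_true, if_false] at h1 h2
    exact mul_ne_zero h1 h2 (hABQ z)
  -- `B ≢ 0`
  have hBne : ∃ z : ℍ, B z ≠ 0 := by
    obtain ⟨z, hz⟩ := S23.JN.exists_common_ne_zero
      (fun i : Bool => if i then b else fn ι N Pu)
      (fun i => by
        cases i
        · simpa using holo_fn ι N Pu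
        · simpa using hb)
      (fun i => by
        cases i
        · simpa using ⟨zPu, hzPu⟩
        · simpa using ⟨zb, hzb⟩)
    have h1 := hz true
    have h2 := hz false
    simp only [if_true, Bool.false_eq_true, if_false] at h1 h2
    exact ⟨z, mul_ne_zero hc₀0 (mul_ne_zero h1 h2)⟩
  -- rigidity of roots: `A = ω · B`
  obtain ⟨ω, hω, hωAB⟩ := HoloRoot.eq_const_mul_of_pow_eq_uhp hm.ne' hAh hBh hBne hAB
  -- `a ≢ 0`
  have hane : ∃ z : ℍ, a z ≠ 0 := by
    obtain ⟨z, hz⟩ := S23.JN.exists_common_ne_zero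
      (fun i : Bool => if i then b else fn ι N P)
      (fun i => by
        cases i
        · simpa using holo_fn ι N P
        · simpa using hb)
      (fun i => by
        cases i
        · simpa using ⟨zP, hzP⟩
        · simpa using ⟨zb, hzb⟩)
    have h1 := hz true
    have h2 := hz false
    simp only [if_true, Bool.false_eq_true, if_false] at h1 h2
    refine ⟨z, fun h0 => ?_⟩
    have e1 := hev z
    change a z ^ m * fn ι N Q z = b z ^ m * fn ι N P z at e1
    rw [h0, zero_pow hm.ne', zero_mul] at e1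
    exact mul_ne_zero (pow_ne_zero m h1) h2 e1.symm
  -- the multiplier
  have hγ : (γ : SL(2, ℤ)) ∈ Gamma0 N := γ.2
  have hbγ : S23.JN.Holo (fun z => b ((γ : SL(2, ℤ)) • z)) := HoloRoot.holo_comp_smul hb _
  have hbγne : ∃ z : ℍ, b ((γ : SL(2, ℤ)) • z) ≠ 0 :=
    ⟨(γ : SL(2, ℤ))⁻¹ • zb, by simpa using hzb⟩
  obtain ⟨z, hz⟩ := S23.JN.exists_common_ne_zero
    (fun i : Fin 3 => if i = 0 then a else if i = 1 then (fun z => b ((γ : SL(2, ℤ)) • z))
      else fn ι N Qu)
    (fun i => by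
      fin_cases i
      · simpa using ha
      · simpa using hbγ
      · simpa using holo_fn ι N Qu)
    (fun i => by
      fin_cases i
      · simpa using hane
      · simpa using hbγne
      · simpa using ⟨zQu, hzQu⟩)
  have h0 := hz 0
  have h1 := hz 1
  have h2 := hz 2
  simp only [if_true, Fin.isValue, one_ne_zero, if_false] at h0 h1
  have h2' : fn ι N Qu z ≠ 0 := by simpa using h2
  have e1 := hmul γ z
  have e2 := hωAB z
  have e3 := hωAB ((γ : SL(2, ℤ)) • z)
  simp only [hA, hB] at e2 e3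
  rw [fn_smul ι N Qu hγ, fn_smul ι N Pu hγ] at e3
  have key : (zeta m (lam (Additive.ofMul γ)) - 1) *
      (a z * b ((γ : SL(2, ℤ)) • z) * fn ι N Qu z) = 0 := by
    linear_combination (-(fn ι N Qu z)) * e1 + (b z) * e3 - (b ((γ : SL(2, ℤ)) • z)) * e2
  rcases mul_eq_zero.mp key with h | h
  · exact sub_eq_zero.mp h
  · exact absurd h (mul_ne_zero (mul_ne_zero h0 h1) h2')

/-- **(K)** the kernel: a character related to the trivial class is divisible by `m`. -/
theorem kerStmt : KerStmt := by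
  intro ι N _ m hm lam h
  obtain ⟨y, D, a, b, hy, hD, h0, hroot⟩ := h
  -- `D` is principal
  have hprin : (D : Divisor Qb ↥(FF Qb N)).IsPrincipal := by
    have h1 : Pic0.mk D = 0 := h0.symm
    rw [Pic0.mk, QuotientAddGroup.eq_zero_iff] at h1
    exact h1
  obtain ⟨u, hu, hDu⟩ := hprin
  -- `y = c · u^m`
  have hum : u ^ m ≠ 0 := pow_ne_zero m hu
  have hord : ∀ v : Place Qb ↥(FF Qb N), v.ord (y * (u ^ m)⁻¹) = 0 := by
    intro v
    rw [v.ord_mul hy (inv_ne_zero hum), v.ord_inv, ← zpow_natCast u m, v.ord_zpow, ← hD v, hDu v]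
    ring
  obtain ⟨c, hc⟩ := (S18.PHyp.hyp0_FF ι N).const (y * (u ^ m)⁻¹) (fun v => (hord v).ge)
  have hyc : y = algebraMap Qb ↥(FF Qb N) c * u ^ m := by
    rw [← hc, inv_mul_cancel_right₀ hum]
  -- all multipliers are trivial
  have hdvd : ∀ γ : Additive (Gamma0 N), (m : ℤ) ∣ (lam : Additive (Gamma0 N) →+ ℤ) γ := by
    intro γ
    have := zeta_eq_one_of_isRootPair hm hy hu hyc hroot (Additive.toMul γ)
    exact (zeta_eq_one_iff hm.ne' _).mp this
  have hm0 : (m : ℤ) ≠ 0 := by exact_mod_cast hm.ne'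
  let mu₀ : Additive (Gamma0 N) →+ ℤ :=
    { toFun := fun γ => (lam : Additive (Gamma0 N) →+ ℤ) γ / (m : ℤ)
      map_zero' := by simp
      map_add' := fun x x' => by
        rw [map_add]
        exact Int.add_ediv_of_dvd_left (hdvd x) }
  have hmu : mu₀ ∈ Λ N := by
    intro γ hγ
    have h1 : (lam : Additive (Gamma0 N) →+ ℤ) (Additive.ofMul γ) = 0 := lam.2 γ hγ
    show (lam : Additive (Gamma0 N) →+ ℤ) (Additive.ofMul γ) / (m : ℤ) = 0
    rw [h1, Int.zero_ediv]
  refine ⟨⟨mu₀, hmu⟩, Subtype.ext (AddMonoidHom.ext fun γ => ?_)⟩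
  show (lam : Additive (Gamma0 N) →+ ℤ) γ = (m : ℤ) • ((lam : Additive (Gamma0 N) →+ ℤ) γ / (m : ℤ))
  rw [smul_eq_mul, Int.mul_ediv_cancel' (hdvd γ)]

end Fermat.Agent.S29.EmbKer

end
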