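/-
S29 (wave 9), piece C1 (helper15): consequences of the Eichler–Shimura core statement
`S37.RedCoreStmt N p` on the `p`-power torsion of `J₀(N)(ℚ̄)`.

For a prime `ℓ ∤ N p`, a valuation ring `A` of `ℚ̄` above `ℓ` and `x ∈ J₀(N)[p^∞]`:
* inertia at `A` fixes `x` (`inertia_smul`);
* for every Frobenius element `σ` at `A`: `T_ℓ x = σ x + ℓ σ⁻¹ x` (`hecke_eq`);
* `T_ℓ` commutes with the whole Galois group on `x` (`hecke_smul_comm`).
Also: conjugates of Frobenius elements are Frobenius elements (`isFrobeniusAt_conj`).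
-/
import Fermat.Agent.S18
import Fermat.Agent.S37.Assembly
import Fermat.Agent.S37.PbInj
import Fermat.Agent.S37.GDLift
import Fermat.Agent.S37.Deuring
import Fermat.Agent.S37.GalEq
import Fermat.Agent.S37.ESB
import Fermat.Agent.S54.Frobenius
import Fermat.Agent.S29.Iface

set_option autoImplicit false
set_option linter.unusedSectionVars false
set_option linter.style.haveILetI false

noncomputable section

open ModularCurve AlgebraicCurve

namespace Fermat.Agent.S29.C1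

open scoped Pointwise

/-! ### Conjugates of Frobenius elements -/

section Frob

variable {K L : Type*} [Field K] [Field L] [Algebra K L]

/-- A Frobenius element at `A` in terms of congruences: `σ` stabilises `A` and
`σ x ≡ x ^ q` modulo the maximal ideal, for all `x ∈ A`. -/
theorem isFrobeniusAt_iff (A : ValuationSubring L) (σ : L ≃ₐ[K] L) (q : ℕ) :
    A.IsFrobeniusAt σ q ↔
      σ ∈ A.decompositionSubgroup K ∧ ∀ x ∈ A, σ x - x ^ q ∈ A.nonunits := by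
  constructor
  · rintro ⟨hσ, h⟩
    refine ⟨hσ, fun x hx => ?_⟩
    have h1 := h (IsLocalRing.residue A ⟨x, hx⟩)
    rw [← IsLocalRing.ResidueField.residue_smul, ← map_pow, ← sub_eq_zero, ← map_sub,
      IsLocalRing.residue_eq_zero_iff, ← A.coe_mem_nonunits_iff] at h1
    exact h1
  · rintro ⟨hσ, h⟩
    refine ⟨hσ, fun x => ?_⟩
    obtain ⟨a, rfl⟩ := IsLocalRing.residue_surjective x
    rw [← IsLocalRing.ResidueField.residue_smul, ← map_pow, ← sub_eq_zero, ← map_sub,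
      IsLocalRing.residue_eq_zero_iff, ← A.coe_mem_nonunits_iff]
    exact h a a.2

/-- The image of the maximal ideal of `A` under `g` is the maximal ideal of `g • A`. -/
theorem smul_mem_nonunits (g : L ≃ₐ[K] L) (A : ValuationSubring L) {y : L}
    (hy : y ∈ A.nonunits) : g y ∈ (g • A).nonunits := by
  rw [ValuationSubring.mem_nonunits_iff_or] at hy ⊢
  rcases hy with rfl | hy
  · exact Or.inl (map_zero g)
  · refine Or.inr fun h => hy ?_
    rw [ValuationSubring.mem_pointwise_smul_iff_inv_smul_mem, AlgEquiv.smul_def, map_inv₀,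
      ← AlgEquiv.mul_apply, inv_mul_cancel, AlgEquiv.one_apply] at h
    exact h

/-- `g • A` lies over the same prime as `A`. -/
theorem liesOverPrime_smul (g : L ≃ₐ[K] L) {A : ValuationSubring L} {q : ℕ}
    (hA : A.LiesOverPrime q) : (g • A).LiesOverPrime q := by
  have h := smul_mem_nonunits g A hA
  rwa [map_natCast] at h

/-- **Conjugates of Frobenius elements are Frobenius elements.** -/
theorem isFrobeniusAt_conj {A : ValuationSubring L} {σ : L ≃ₐ[K] L} {q : ℕ}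
    (h : A.IsFrobeniusAt σ q) (g : L ≃ₐ[K] L) : (g • A).IsFrobeniusAt (g * σ * g⁻¹) q := by
  rw [isFrobeniusAt_iff] at h ⊢
  obtain ⟨hσ, hcong⟩ := h
  refine ⟨?_, fun x hx => ?_⟩
  · rw [ValuationSubring.decompositionSubgroup, MulAction.mem_stabilizer_iff] at hσ ⊢
    rw [mul_smul, mul_smul, inv_smul_smul, hσ]
  · rw [ValuationSubring.mem_pointwise_smul_iff_inv_smul_mem] at hx
    have h1 := smul_mem_nonunits g A (hcong _ hx)
    have h2 : g (σ (g⁻¹ • x) - (g⁻¹ • x) ^ q) = (g * σ * g⁻¹) x - x ^ q := by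
      rw [map_sub, map_pow, AlgEquiv.smul_def, AlgEquiv.mul_apply, AlgEquiv.mul_apply,
        ← AlgEquiv.mul_apply g g⁻¹, mul_inv_cancel, AlgEquiv.one_apply]
    rwa [h2] at h1

end Frob

/-! ### The core statement of S37, unconditionally -/

/-- The Eichler–Shimura core statement of S37 (no hypothesis on the Hecke operators). -/
theorem redCore (N p : ℕ) [NeZero N] : Fermat.Agent.S37.RedCoreStmt N p :=
  Fermat.Agent.S37.redCore_of_iface Fermat.Agent.S18.levelStmt Fermat.Agent.S18.genusSqueezeStmt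
    (Fermat.Agent.S37.GDLift.genusDescentStmt_of Fermat.Agent.S37.Deuring.deuringStmt
      Fermat.Agent.S18.TopLift.liftOfSqueezeStmtV Fermat.Agent.S18.TopTR.traceDescentStmtV)
    Fermat.Agent.S37.Deuring.deuringStmt
    (fun M _ _ _ hℓM A hA h m hm z hmz hz => Fermat.Agent.S18.result M hℓM A hA h m hm z hmz hz)
    Fermat.Agent.S37.PbInj.pbInjStmt Fermat.Agent.S37.GalEq.inertiaStmt
    (Fermat.Agent.S37.eichlerShimura_of_frobHecke Fermat.Agent.S37.ESB.frobHeckeStmt) N p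

/-! ### `p`-power torsion -/

section Torsion

variable {N : ℕ} [NeZero N] {p : ℕ}

local notation "Qb" => AlgebraicClosure ℚ

theorem tors_smul (g : Qb ≃ₐ[ℚ] Qb) {x : JZero N} (hx : ∃ n : ℕ, p ^ n • x = 0) :
    ∃ n : ℕ, p ^ n • (g • x) = 0 := by
  obtain ⟨n, hn⟩ := hx
  exact ⟨n, by rw [smul_comm, hn]; exact smul_zero (A := JZero N) g⟩

theorem tors_hecke (ℓ : Nat.Primes) {x : JZero N} (hx : ∃ n : ℕ, p ^ n • x = 0) :
    ∃ n : ℕ, p ^ n • heckeOperatorBar N ℓ x = 0 := by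
  obtain ⟨n, hn⟩ := hx
  exact ⟨n, by rw [← map_nsmul, hn, map_zero]⟩

theorem tors_nsmul (m : ℕ) {x : JZero N} (hx : ∃ n : ℕ, p ^ n • x = 0) :
    ∃ n : ℕ, p ^ n • (m • x) = 0 := by
  obtain ⟨n, hn⟩ := hx
  exact ⟨n, by rw [smul_comm, hn, smul_zero]⟩

theorem tors_add {x y : JZero N} (hx : ∃ n : ℕ, p ^ n • x = 0) (hy : ∃ n : ℕ, p ^ n • y = 0) :
    ∃ n : ℕ, p ^ n • (x + y) = 0 := by
  obtain ⟨n, hn⟩ := hx
  obtain ⟨m, hm⟩ := hy
  refine ⟨n + m, ?_⟩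
  rw [nsmul_add, pow_add, mul_nsmul, hn, mul_nsmul', hm, nsmul_zero, nsmul_zero, add_zero]

theorem tors_sub {x y : JZero N} (hx : ∃ n : ℕ, p ^ n • x = 0) (hy : ∃ n : ℕ, p ^ n • y = 0) :
    ∃ n : ℕ, p ^ n • (x - y) = 0 := by
  obtain ⟨n, hn⟩ := hx
  obtain ⟨m, hm⟩ := hy
  refine ⟨n + m, ?_⟩
  rw [nsmul_sub, pow_add, mul_nsmul, hn, mul_nsmul', hm, nsmul_zero, nsmul_zero, sub_zero]

/-- **Inertia at `ℓ ∤ N p` acts trivially on `J₀(N)[p^∞]`.** -/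
theorem inertia_smul {ℓ : ℕ} (hℓ : ℓ.Prime) (hℓNp : ¬ ℓ ∣ N * p) (A : ValuationSubring Qb)
    (hA : A.LiesOverPrime ℓ) {τ : Qb ≃ₐ[ℚ] Qb} (hτ : τ ∈ A.inertiaSubgroupIn ℚ) {x : JZero N}
    (hx : ∃ n : ℕ, p ^ n • x = 0) : τ • x = x := by
  haveI : IsAlgClosure ℚ Qb := AlgebraicClosure.instIsAlgClosure ℚ
  obtain ⟨σ₀, hσ₀⟩ := Fermat.Agent.S54.exists_isFrobeniusAt A hℓ hA
  obtain ⟨G, _, red, hin, -, hinj⟩ := redCore N p ℓ hℓ hℓNp A hA σ₀ hσ₀
  have h0 : τ • x - x = 0 :=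
    hinj _ (tors_sub (tors_smul τ hx) hx) (by rw [map_sub, hin τ hτ x, sub_self])
  exact sub_eq_zero.mp h0

/-- **Eichler–Shimura on `J₀(N)[p^∞]`**: `σ² - T_ℓ σ + ℓ = 0` for every Frobenius element `σ`
at a prime `ℓ ∤ N p`. -/
theorem frob_sq {ℓ : ℕ} (hℓ : ℓ.Prime) (hℓNp : ¬ ℓ ∣ N * p) (A : ValuationSubring Qb)
    (hA : A.LiesOverPrime ℓ) {σ : Qb ≃ₐ[ℚ] Qb} (hσ : A.IsFrobeniusAt σ ℓ) {x : JZero N}
    (hx : ∃ n : ℕ, p ^ n • x = 0) :
    σ • σ • x - heckeOperatorBar N ⟨ℓ, hℓ⟩ (σ • x) + ℓ • x = 0 := by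
  obtain ⟨G, _, red, -, hes, hinj⟩ := redCore N p ℓ hℓ hℓNp A hA σ hσ
  exact hinj _ (tors_add (tors_sub (tors_smul σ (tors_smul σ hx))
    (tors_hecke _ (tors_smul σ hx))) (tors_nsmul ℓ hx)) (hes x)

/-- **`T_ℓ = σ + ℓ σ⁻¹` on `J₀(N)[p^∞]`** for every Frobenius element `σ` at `ℓ ∤ N p`. -/
theorem hecke_eq {ℓ : ℕ} (hℓ : ℓ.Prime) (hℓNp : ¬ ℓ ∣ N * p) (A : ValuationSubring Qb)
    (hA : A.LiesOverPrime ℓ) {σ : Qb ≃ₐ[ℚ] Qb} (hσ : A.IsFrobeniusAt σ ℓ) {x : JZero N}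
    (hx : ∃ n : ℕ, p ^ n • x = 0) :
    heckeOperatorBar N ⟨ℓ, hℓ⟩ x = σ • x + ℓ • (σ⁻¹ • x) := by
  have h := frob_sq hℓ hℓNp A hA hσ (tors_smul σ⁻¹ hx)
  rw [smul_inv_smul] at h
  have h2 : σ • x + ℓ • (σ⁻¹ • x) - heckeOperatorBar N ⟨ℓ, hℓ⟩ x = 0 := by
    rw [← h]
    abel
  exact (sub_eq_zero.mp h2).symm

/-- **`T_ℓ` commutes with the Galois group on `J₀(N)[p^∞]`** (`ℓ ∤ N p`). -/
theorem hecke_smul_comm {ℓ : ℕ} (hℓ : ℓ.Prime) (hℓNp : ¬ ℓ ∣ N * p) (g : Qb ≃ₐ[ℚ] Qb)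
    {x : JZero N} (hx : ∃ n : ℕ, p ^ n • x = 0) :
    heckeOperatorBar N ⟨ℓ, hℓ⟩ (g • x) = g • heckeOperatorBar N ⟨ℓ, hℓ⟩ x := by
  haveI : IsAlgClosure ℚ Qb := AlgebraicClosure.instIsAlgClosure ℚ
  obtain ⟨A, hA⟩ := Fermat.Agent.S54.exists_liesOverPrime Qb hℓ
  obtain ⟨σ, hσ⟩ := Fermat.Agent.S54.exists_isFrobeniusAt A hℓ hA
  rw [hecke_eq hℓ hℓNp (g • A) (liesOverPrime_smul g hA) (isFrobeniusAt_conj hσ g)
    (tors_smul g hx), hecke_eq hℓ hℓNp A hA hσ hx]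
  have e1 : (g * σ * g⁻¹) • g • x = g • σ • x := by
    rw [← mul_smul, inv_mul_cancel_right, mul_smul]
  have e2 : (g * σ * g⁻¹)⁻¹ • g • x = g • σ⁻¹ • x := by
    rw [mul_inv_rev, mul_inv_rev, inv_inv, ← mul_smul, mul_assoc, mul_assoc, inv_mul_cancel,
      mul_one, mul_smul]
  rw [e1, e2, smul_add, smul_comm g ℓ]

/-- **[TES]** the interface statement `TorsionESStmt` of `S29/Iface.lean`. -/
theorem torsionESStmt : Fermat.Agent.S29.TorsionESStmt := by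
  intro N p _ ℓ hℓ hℓNp A hA
  refine ⟨fun τ hτ x hx => inertia_smul hℓ hℓNp A hA hτ hx, fun σ hσ x hx => ?_⟩
  have h := frob_sq hℓ hℓNp A hA hσ hx
  have h2 : σ • σ • x + ℓ • x - heckeOperatorBar N ⟨ℓ, hℓ⟩ (σ • x) = 0 := by
    rw [← h]
    abel
  exact (sub_eq_zero.mp h2).symm

end Torsion

end Fermat.Agent.S29.C1
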