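/-
S29 (wave 9 candidate), piece (C4) "finite level": every function, place, divisor and divisor
class of `X₀(N)` over `ℚ̄` is fixed by an open subgroup of `Gal(ℚ̄/ℚ)`.

* `exists_level_series`, `exists_level_elt`: an element of `F_N = ℚ̄(X₀(N))` is fixed by the
  coefficientwise action of every `σ` fixing a suitable number field `L` (subfield argument:
  constants and the rational generators).
* `exists_unique_pole`: every place is the unique pole of some function (Riemann's inequality).
* `exists_level_place`, `exists_level_divisor`, `exists_level`: places, divisors and points of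
  `J₀(N)(ℚ̄)` have open stabilisers.
* `exists_level_finset`, `exists_level_closure`: the same for finite families and for the
  subgroup generated by a finite family.
* `finite_orbit`, `exists_level_orbit`: Galois orbits are finite and fixed pointwise by an open
  subgroup.
* `finLevelStmt : FinLevelStmt` — the interface statement `[FL]` of `Iface.lean`.
-/
import Fermat.Agent.S18.PHyp
import Fermat.Agent.S18.Defs
import Fermat.Prelude.Def_ModularCurve_ArithmeticGalois
import Fermat.Agent.S29.Iface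

set_option autoImplicit false
set_option synthInstance.maxHeartbeats 400000

noncomputable section

open HahnSeries IntermediateField AlgebraicCurve ModularCurve

namespace Fermat.Agent.S29.FinLevel

open Fermat.Agent.S18 Fermat.Agent.S20

/-- `σ` is trivial on the number field `L`. -/
def Fixes (L : IntermediateField ℚ Qb) (σ : Qb ≃ₐ[ℚ] Qb) : Prop := ∀ y ∈ L, σ y = y

theorem Fixes.mono {L L' : IntermediateField ℚ Qb} (h : L ≤ L') {σ : Qb ≃ₐ[ℚ] Qb}
    (hσ : Fixes L' σ) : Fixes L σ := fun y hy => hσ y (h hy)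

theorem Fixes.left {L L' : IntermediateField ℚ Qb} {σ : Qb ≃ₐ[ℚ] Qb}
    (hσ : Fixes (L ⊔ L') σ) : Fixes L σ := hσ.mono le_sup_left

theorem Fixes.right {L L' : IntermediateField ℚ Qb} {σ : Qb ≃ₐ[ℚ] Qb}
    (hσ : Fixes (L ⊔ L') σ) : Fixes L' σ := hσ.mono le_sup_right

/-- "`p` holds for all `σ` in an open subgroup". -/
def Eventually (p : (Qb ≃ₐ[ℚ] Qb) → Prop) : Prop :=
  ∃ L : IntermediateField ℚ Qb, FiniteDimensional ℚ L ∧ ∀ σ : Qb ≃ₐ[ℚ] Qb, Fixes L σ → p σ

theorem Eventually.of_forall {p : (Qb ≃ₐ[ℚ] Qb) → Prop} (h : ∀ σ, p σ) : Eventually p :=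
  ⟨⊥, inferInstance, fun σ _ => h σ⟩

theorem Eventually.and {p q : (Qb ≃ₐ[ℚ] Qb) → Prop} (hp : Eventually p) (hq : Eventually q) :
    Eventually fun σ => p σ ∧ q σ := by
  obtain ⟨L, hL, h1⟩ := hp
  obtain ⟨L', hL', h2⟩ := hq
  exact ⟨L ⊔ L', IntermediateField.finiteDimensional_sup L L',
    fun σ hσ => ⟨h1 σ hσ.left, h2 σ hσ.right⟩⟩

theorem Eventually.mono {p q : (Qb ≃ₐ[ℚ] Qb) → Prop} (hp : Eventually p)
    (h : ∀ σ, p σ → q σ) : Eventually q := by
  obtain ⟨L, hL, h1⟩ := hp
  exact ⟨L, hL, fun σ hσ => h σ (h1 σ hσ)⟩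

theorem Eventually.finset {ι : Type*} (s : Finset ι) {p : ι → (Qb ≃ₐ[ℚ] Qb) → Prop}
    (h : ∀ i ∈ s, Eventually (p i)) : Eventually fun σ => ∀ i ∈ s, p i σ := by
  classical
  induction s using Finset.induction_on with
  | empty => exact Eventually.of_forall fun σ i hi => absurd hi (Finset.notMem_empty i)
  | insert a s ha ih =>
    have h1 := h a (Finset.mem_insert_self a s)
    have h2 := ih fun i hi => h i (Finset.mem_insert_of_mem hi)
    refine (h1.and h2).mono fun σ hσ i hi => ?_
    rcases Finset.mem_insert.mp hi with rfl | hi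
    · exact hσ.1
    · exact hσ.2 i hi

/-- A constant is fixed by an open subgroup. -/
theorem eventually_const (c : Qb) : Eventually fun σ => σ c = c := by
  have halg : Algebra.IsAlgebraic ℚ Qb := AlgebraicClosure.isAlgebraic ℚ
  have : FiniteDimensional ℚ ↥(ℚ⟮c⟯) :=
    IntermediateField.adjoin.finiteDimensional (Algebra.IsAlgebraic.isAlgebraic c).isIntegral
  exact ⟨ℚ⟮c⟯, inferInstance, fun σ hσ => hσ c (IntermediateField.mem_adjoin_simple_self ℚ c)⟩

/-! ### (a) functions -/

/-- Every element of a base-changed field of Laurent series is fixed by the coefficientwise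
action of an open subgroup. -/
theorem exists_level_series (F₀ : IntermediateField ℚ (LaurentSeries ℚ)) {x : LaurentSeries Qb}
    (hx : x ∈ laurentBaseChange Qb F₀) :
    Eventually fun σ => coeffMap (σ : Qb →+* Qb) x = x := by
  rw [mem_laurentBaseChange_iff] at hx
  induction hx using Subfield.closure_induction with
  | mem y hy =>
      rcases hy with ⟨a, rfl⟩ | ⟨z, hz, rfl⟩
      · refine (eventually_const a).mono fun σ hσ => ?_
        rw [coeffMap_algebraMap]
        exact congrArg _ hσ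
      · exact Eventually.of_forall fun σ => coeffMap_coeffEmb σ z
  | one => exact Eventually.of_forall fun σ => map_one _
  | add x y _ _ hx hy =>
      exact (hx.and hy).mono fun σ h => by rw [map_add, h.1, h.2]
  | neg x _ hx => exact hx.mono fun σ h => by rw [map_neg, h]
  | inv x _ hx => exact hx.mono fun σ h => by rw [map_inv₀, h]
  | mul x y _ _ hx hy =>
      exact (hx.and hy).mono fun σ h => by rw [map_mul, h.1, h.2]

/-- Every function on `X₀(N)` over `ℚ̄` is fixed by an open subgroup of `Gal(ℚ̄/ℚ)`. -/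
theorem exists_level_elt (N : ℕ) (u : ↥(FN N)) :
    Eventually fun σ => arithmeticGalois (modularFunctionFieldFull N) σ • u = u :=
  (exists_level_series (modularFunctionFieldFull N) u.2).mono fun _ h => Subtype.ext h

/-! ### (b) places -/

/-- Every place of `F_N / ℚ̄` is the unique pole of some function. -/
theorem exists_unique_pole (N : ℕ) [NeZero N] (P : Place Qb ↥(FN N)) :
    ∃ u : ↥(FN N), P.ord u < 0 ∧ ∀ Q : Place Qb ↥(FN N), Q ≠ P → 0 ≤ Q.ord u := by
  classical
  have h := PHyp.hyp_bar N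
  have hg := PHyp.genusR_nonneg h
  set g := PHyp.genusR Qb ↥(FN N) with hgdef
  set D : Divisor Qb ↥(FN N) := Finsupp.single P (g + 1) with hD
  have hdeg : Divisor.degree D = g + 1 := by
    rw [hD, Divisor.degree_single, h.deg_one P]
    simp
  have hell : (2 : ℤ) ≤ (RR.ell D : ℤ) := by
    have := PHyp.le_ell h D
    rw [hdeg] at this
    linarith
  -- a section which is not a constant
  have hex : ∃ u : ↥(FN N), u ∈ riemannRochSpace D ∧ ∀ c : Qb, u ≠ algebraMap Qb ↥(FN N) c := by
    by_contra hcon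
    push Not at hcon
    have hle : riemannRochSpace D ≤ Submodule.span Qb {(1 : ↥(FN N))} := by
      intro u hu
      obtain ⟨c, hc⟩ := hcon u hu
      rw [Submodule.mem_span_singleton]
      exact ⟨c, by rw [hc, Algebra.smul_def, mul_one]⟩
    have h1 : Module.finrank Qb ↥(riemannRochSpace D)
        ≤ Module.finrank Qb ↥(Submodule.span Qb {(1 : ↥(FN N))}) :=
      Submodule.finrank_mono hle
    have h2 : Module.finrank Qb ↥(Submodule.span Qb {(1 : ↥(FN N))}) ≤ 1 :=
      (finrank_span_singleton (K := Qb) (one_ne_zero (α := ↥(FN N)))).le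
    have h3 : (RR.ell D : ℤ) ≤ 1 := by
      have : RR.ell D ≤ 1 := h1.trans h2
      exact_mod_cast this
    linarith
  obtain ⟨u, hu, hnc⟩ := hex
  have hu0 : u ≠ 0 := fun h0 => hnc 0 (by rw [h0, map_zero])
  rw [mem_riemannRochSpace_iff] at hu
  have hreg : ∀ Q : Place Qb ↥(FN N), Q ≠ P → 0 ≤ Q.ord u := by
    intro Q hQ
    rcases hu Q with h0 | h0
    · exact absurd h0 hu0
    · rwa [hD, Finsupp.single_apply, if_neg (Ne.symm hQ), neg_zero] at h0
  refine ⟨u, ?_, hreg⟩
  by_contra hP
  push Not at hP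
  obtain ⟨c, hc⟩ := h.const u fun v => by
    by_cases hv : v = P
    · rw [hv]; exact hP
    · exact hreg v hv
  exact hnc c hc

/-- Every place of `F_N / ℚ̄` is fixed by an open subgroup of `Gal(ℚ̄/ℚ)`. -/
theorem exists_level_place (N : ℕ) [NeZero N] (P : Place Qb ↥(FN N)) :
    Eventually fun σ => arithmeticGalois (modularFunctionFieldFull N) σ • P = P := by
  obtain ⟨u, hP, hreg⟩ := exists_unique_pole N P
  refine (exists_level_elt N u).mono fun σ hσ => ?_
  by_contra hne
  have h1 := hreg _ hne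
  have h2 := SemilinearAut.ord_smul (arithmeticGalois (modularFunctionFieldFull N) σ) P u
  rw [hσ] at h2
  rw [h2] at h1
  exact absurd hP (not_lt.mpr h1)

/-! ### (c) divisors and divisor classes -/

/-- Every divisor of `F_N / ℚ̄` is fixed by an open subgroup of `Gal(ℚ̄/ℚ)`. -/
theorem exists_level_divisor (N : ℕ) [NeZero N] (D : Divisor Qb ↥(FN N)) :
    Eventually fun σ => arithmeticGalois (modularFunctionFieldFull N) σ • D = D := by
  induction D using Finsupp.induction with
  | zero => exact Eventually.of_forall fun σ => smul_zero _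
  | single_add P n D _ _ ih =>
    refine ((exists_level_place N P).and ih).mono fun σ h => ?_
    rw [smul_add, SemilinearAut.smul_single, h.1, h.2]

/-- **Finite level**: every point of `J₀(N)(ℚ̄)` is fixed by an open subgroup of
`Gal(ℚ̄/ℚ)`. -/
theorem exists_level (N : ℕ) [NeZero N] (x : JZero N) :
    ∃ L : IntermediateField ℚ Qb, FiniteDimensional ℚ L ∧
      ∀ σ : Qb ≃ₐ[ℚ] Qb, (∀ y ∈ L, σ y = y) → σ • x = x := by
  obtain ⟨D, rfl⟩ := Pic0.mk_surjective x
  refine (exists_level_divisor N (D : Divisor Qb ↥(FN N))).mono fun σ h => ?_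
  rw [galois_smul_pic0_def, SemilinearAut.pic0_smul_mk]
  exact congrArg Pic0.mk (Subtype.ext h)

/-- Finite level for a finite family of points. -/
theorem exists_level_finset (N : ℕ) [NeZero N] (s : Finset (JZero N)) :
    ∃ L : IntermediateField ℚ Qb, FiniteDimensional ℚ L ∧
      ∀ σ : Qb ≃ₐ[ℚ] Qb, (∀ y ∈ L, σ y = y) → ∀ x ∈ s, σ • x = x :=
  Eventually.finset s fun x _ => exists_level N x

/-- Finite level for the subgroup generated by a finite family of points. -/
theorem exists_level_closure (N : ℕ) [NeZero N] (s : Finset (JZero N)) :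
    ∃ L : IntermediateField ℚ Qb, FiniteDimensional ℚ L ∧
      ∀ σ : Qb ≃ₐ[ℚ] Qb, (∀ y ∈ L, σ y = y) →
        ∀ x ∈ AddSubgroup.closure (s : Set (JZero N)), σ • x = x := by
  obtain ⟨L, hL, h⟩ := exists_level_finset N s
  refine ⟨L, hL, fun σ hσ x hx => ?_⟩
  induction hx using AddSubgroup.closure_induction with
  | mem y hy => exact h σ hσ y hy
  | zero => exact smul_zero (A := JZero N) σ
  | add y z _ _ hy hz => rw [smul_add, hy, hz]
  | neg y _ hy => rw [smul_neg, hy]

/-! ### Orbits -/

/-- The Galois orbit of a point of `J₀(N)(ℚ̄)` is finite. -/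
theorem finite_orbit (N : ℕ) [NeZero N] (x : JZero N) :
    (Set.range fun g : Qb ≃ₐ[ℚ] Qb => g • x).Finite := by
  classical
  obtain ⟨L, hL, h⟩ := exists_level N x
  -- `g • x` only depends on the restriction of `g` to `L`
  let r : (Qb ≃ₐ[ℚ] Qb) → (↥L →ₐ[ℚ] Qb) := fun g => (g : Qb →ₐ[ℚ] Qb).comp L.val
  have hr : ∀ g g' : Qb ≃ₐ[ℚ] Qb, r g = r g' → g • x = g' • x := by
    intro g g' hgg
    have hfix : ∀ y ∈ L, (g⁻¹ * g') y = y := by
      intro y hy
      have h1 : g y = g' y := AlgHom.congr_fun hgg ⟨y, hy⟩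
      show g⁻¹ (g' y) = y
      rw [← h1]
      exact g.symm_apply_apply y
    have h2 := h (g⁻¹ * g') hfix
    rw [mul_smul, inv_smul_eq_iff] at h2
    exact h2.symm
  let f : (↥L →ₐ[ℚ] Qb) → JZero N := fun τ =>
    if hτ : ∃ g : Qb ≃ₐ[ℚ] Qb, r g = τ then hτ.choose • x else 0
  refine (Set.finite_range f).subset ?_
  rintro _ ⟨g, rfl⟩
  refine ⟨r g, ?_⟩
  have hτ : ∃ g' : Qb ≃ₐ[ℚ] Qb, r g' = r g := ⟨g, rfl⟩
  show (if hτ : ∃ g' : Qb ≃ₐ[ℚ] Qb, r g' = r g then hτ.choose • x else 0) = g • x
  rw [dif_pos hτ]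
  exact hr _ _ hτ.choose_spec

/-- Finite level for a whole Galois orbit: an open subgroup fixes every conjugate of `x`. -/
theorem exists_level_orbit (N : ℕ) [NeZero N] (x : JZero N) :
    ∃ L : IntermediateField ℚ Qb, FiniteDimensional ℚ L ∧
      ∀ σ : Qb ≃ₐ[ℚ] Qb, (∀ y ∈ L, σ y = y) → ∀ g : Qb ≃ₐ[ℚ] Qb, σ • g • x = g • x := by
  obtain ⟨L, hL, h⟩ := exists_level_finset N (finite_orbit N x).toFinset
  exact ⟨L, hL, fun σ hσ g => h σ hσ (g • x) ((finite_orbit N x).mem_toFinset.mpr ⟨g, rfl⟩)⟩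

/-- Finite level for the Galois orbits of a finite family. -/
theorem exists_level_orbit_finset (N : ℕ) [NeZero N] (s : Finset (JZero N)) :
    ∃ L : IntermediateField ℚ Qb, FiniteDimensional ℚ L ∧
      ∀ σ : Qb ≃ₐ[ℚ] Qb, (∀ y ∈ L, σ y = y) →
        ∀ x ∈ s, ∀ g : Qb ≃ₐ[ℚ] Qb, σ • g • x = g • x :=
  Eventually.finset s fun x _ => exists_level_orbit N x

/-- The union of the Galois orbits of a finite family is finite. -/
theorem finite_orbit_finset (N : ℕ) [NeZero N] (s : Finset (JZero N)) :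
    {y : JZero N | ∃ x ∈ s, ∃ g : Qb ≃ₐ[ℚ] Qb, y = g • x}.Finite := by
  have h : {y : JZero N | ∃ x ∈ s, ∃ g : Qb ≃ₐ[ℚ] Qb, y = g • x}
      = ⋃ x ∈ (s : Set (JZero N)), Set.range fun g : Qb ≃ₐ[ℚ] Qb => g • x := by
    ext y
    simp only [Set.mem_ofPred_eq, Set.mem_iUnion, Set.mem_range, Finset.mem_coe, exists_prop]
    constructor
    · rintro ⟨x, hx, g, rfl⟩
      exact ⟨x, hx, g, rfl⟩
    · rintro ⟨x, hx, g, rfl⟩
      exact ⟨x, hx, g, rfl⟩
  rw [h]
  exact s.finite_toSet.biUnion fun x _ => finite_orbit N x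

/-- **[FL]** the interface statement of `Iface.lean`. -/
theorem finLevelStmt : FinLevelStmt := fun N _ x => exists_level N x

end Fermat.Agent.S29.FinLevel

end
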