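/-
S29 (wave 9), piece GM (helper15): the Galois module of `(g, φ)`.

`galMod_of_iface : EigenSupportStmt → TorsionESStmt → FinLevelStmt → GalModStmt`:
`W` := the `k`-span of the Galois orbit of a Hecke eigenvector `x₀ ∈ k ⊗ J₀(N)[p]`.
* finite-dimensional and of finite level: by `[FL]` every element of `k ⊗ J₀(N)[p]` is fixed by
  an open subgroup, so the orbit of `x₀` is finite;
* unramified at `ℓ ∤ N p`: inertia acts trivially on `J₀(N)[p]` (`C1.inertia_smul`);
* `σ + ℓ σ⁻¹ = φ(a_ℓ)` on `W` for a Frobenius element `σ`: `T_ℓ = σ + ℓ σ⁻¹` on `J₀(N)[p]`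
  (`C1.hecke_eq`), `T_ℓ` commutes with the Galois action (`C1.hecke_smul_comm`) and `x₀` is an
  eigenvector.
-/
import Fermat.Agent.S29.Iface
import Fermat.Agent.S29.C1
import Fermat.Agent.S29.FinLevel

set_option autoImplicit false
set_option linter.style.haveILetI false

noncomputable section

open scoped TensorProduct
open ModularCurve AlgebraicCurve

namespace Fermat.Agent.S29.GalMod

local notation "Qb" => AlgebraicClosure ℚ
local notation "GQ" => (AlgebraicClosure ℚ ≃ₐ[ℚ] AlgebraicClosure ℚ)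

/-! ### Abstract part -/

section Abstract

/-- A map which is constant on the fibres of a map to a finite type has finite range. -/
theorem finite_range_of_factors {G T M : Type*} [Finite T] (π : G → T) (F : G → M) (g₀ : G)
    (h : ∀ σ τ, π σ = π τ → F σ = F τ) : (Set.range F).Finite := by
  classical
  have hF : Function.FactorsThrough F π := fun a b hab => h a b hab
  refine (Set.finite_range (Function.extend π F fun _ => F g₀)).subset ?_
  rintro _ ⟨σ, rfl⟩
  exact ⟨π σ, hF.extend_apply _ σ⟩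

/-- "Fixed by an open subgroup": `w` is fixed by all `σ` fixing a number field pointwise. -/
def HasLevel {M : Type*} (R : GQ → M → M) (w : M) : Prop :=
  ∃ L : IntermediateField ℚ Qb, FiniteDimensional ℚ L ∧
    ∀ σ : GQ, (∀ y ∈ L, σ y = y) → R σ w = w

theorem hasLevel_finset {M : Type*} (R : GQ → M → M) (s : Finset M)
    (h : ∀ w ∈ s, HasLevel R w) :
    ∃ L : IntermediateField ℚ Qb, FiniteDimensional ℚ L ∧
      ∀ σ : GQ, (∀ y ∈ L, σ y = y) → ∀ w ∈ s, R σ w = w := by
  classical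
  induction s using Finset.induction_on with
  | empty =>
    exact ⟨⊥, inferInstance, fun σ _ w hw => absurd hw (Finset.notMem_empty w)⟩
  | insert a s ha ih =>
    obtain ⟨L₁, hL₁, h₁⟩ := h a (Finset.mem_insert_self a s)
    obtain ⟨L₂, hL₂, h₂⟩ := ih fun w hw => h w (Finset.mem_insert_of_mem hw)
    refine ⟨L₁ ⊔ L₂, IntermediateField.finiteDimensional_sup L₁ L₂, fun σ hσ w hw => ?_⟩
    rcases Finset.mem_insert.mp hw with rfl | hw
    · exact h₁ σ fun y hy => hσ y ((le_sup_left : L₁ ≤ L₁ ⊔ L₂) hy)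
    · exact h₂ σ (fun y hy => hσ y ((le_sup_right : L₂ ≤ L₁ ⊔ L₂) hy)) w hw

/-- Open stabilisers pass to the base change. -/
theorem hasLevel_baseChange {k : Type*} [CommRing k] {J : Type*} [AddCommGroup J]
    (gal : GQ → Module.End ℤ J) (hFL : ∀ y : J, HasLevel (fun σ => gal σ) y)
    (w : k ⊗[ℤ] J) : HasLevel (fun σ => (gal σ).baseChange k) w := by
  induction w using TensorProduct.induction_on with
  | zero => exact ⟨⊥, inferInstance, fun σ _ => map_zero _⟩
  | tmul c y =>
    obtain ⟨L, hL, h⟩ := hFL y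
    refine ⟨L, hL, fun σ hσ => ?_⟩
    show (gal σ).baseChange k (c ⊗ₜ[ℤ] y) = c ⊗ₜ[ℤ] y
    rw [LinearMap.baseChange_tmul]
    exact congrArg _ (h σ hσ)
  | add w₁ w₂ ih₁ ih₂ =>
    obtain ⟨L₁, hL₁, h₁⟩ := ih₁
    obtain ⟨L₂, hL₂, h₂⟩ := ih₂
    refine ⟨L₁ ⊔ L₂, IntermediateField.finiteDimensional_sup L₁ L₂, fun σ hσ => ?_⟩
    show (gal σ).baseChange k (w₁ + w₂) = w₁ + w₂
    rw [map_add]
    exact congrArg₂ _ (h₁ σ fun y hy => hσ y ((le_sup_left : L₁ ≤ L₁ ⊔ L₂) hy))
      (h₂ σ fun y hy => hσ y ((le_sup_right : L₂ ≤ L₁ ⊔ L₂) hy))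

/-- The orbit of an element with open stabiliser is finite. -/
theorem finite_orbit {k : Type*} [Field k] {M : Type*} [AddCommGroup M] [Module k M]
    (R : GQ →* Module.End k M) (x₀ : M) (h : HasLevel (fun σ => R σ) x₀) :
    (Set.range fun σ : GQ => R σ x₀).Finite := by
  obtain ⟨L, hL, hfix⟩ := h
  refine finite_range_of_factors (T := (L →ₐ[ℚ] Qb))
    (fun σ : GQ => (σ : Qb →ₐ[ℚ] Qb).comp L.val) (fun σ : GQ => R σ x₀) 1 fun σ τ hστ => ?_
  have h1 : ∀ y ∈ L, (τ⁻¹ * σ) y = y := by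
    intro y hy
    have h2 : σ y = τ y := congrArg (fun f : L →ₐ[ℚ] Qb => f ⟨y, hy⟩) hστ
    rw [AlgEquiv.mul_apply, h2, ← AlgEquiv.mul_apply, inv_mul_cancel, AlgEquiv.one_apply]
  have h3 := hfix (τ⁻¹ * σ) h1
  have h4 : R σ x₀ = R τ (R (τ⁻¹ * σ) x₀) := by
    rw [← Module.End.mul_apply, ← map_mul, mul_inv_cancel_left]
  rw [h4]
  exact congrArg _ h3

/-- **The span of the orbit of an element with open stabiliser**, as a representation. -/
theorem exists_rep {k : Type} [Field k] {M : Type} [AddCommGroup M] [Module k M]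
    (R : GQ →* Module.End k M) (x₀ : M) (hx₀ : x₀ ≠ 0)
    (hlev : ∀ w : M, HasLevel (fun σ => R σ) w) :
    ∃ (W : Type) (_ : AddCommGroup W) (_ : Module k W) (_ : Module.Finite k W) (_ : Nontrivial W)
      (r : GQ →* Module.End k W),
      GaloisFactorsThroughFiniteLevel r ∧
      (∀ σ : GQ, R σ = 1 → r σ = 1) ∧
      (∀ (σ : GQ) (c t : k),
        (∀ τ : GQ, R σ (R τ x₀) + c • R σ⁻¹ (R τ x₀) = t • R τ x₀) →
          r σ + c • r σ⁻¹ = t • (1 : Module.End k W)) := by
  classical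
  set O : Set M := Set.range fun σ : GQ => R σ x₀ with hO
  have hOfin : O.Finite := finite_orbit R x₀ (hlev x₀)
  set W : Submodule k M := Submodule.span k O with hW
  have hst : ∀ σ : GQ, ∀ w ∈ W, R σ w ∈ W := by
    intro σ w hw
    induction hw using Submodule.span_induction with
    | mem w hw =>
      obtain ⟨τ, rfl⟩ := hw
      refine Submodule.subset_span ⟨σ * τ, ?_⟩
      show R (σ * τ) x₀ = R σ (R τ x₀)
      rw [map_mul, Module.End.mul_apply]
    | zero => rw [map_zero]; exact W.zero_mem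
    | add a b _ _ iha ihb => rw [map_add]; exact W.add_mem iha ihb
    | smul c a _ iha => rw [map_smul]; exact W.smul_mem c iha
  have hx₀W : x₀ ∈ W := Submodule.subset_span ⟨1, by
    show R 1 x₀ = x₀
    rw [map_one, Module.End.one_apply]⟩
  let r : GQ →* Module.End k W :=
    { toFun := fun σ => (R σ).restrict (hst σ)
      map_one' := by
        ext w
        show R 1 (w : M) = w
        rw [map_one, Module.End.one_apply]
      map_mul' := fun σ τ => by
        ext w
        show R (σ * τ) (w : M) = R σ (R τ (w : M))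
        rw [map_mul, Module.End.mul_apply] }
  have hr : ∀ (σ : GQ) (w : W), ((r σ w : W) : M) = R σ (w : M) := fun σ w => rfl
  haveI : Module.Finite k W := Module.Finite.span_of_finite k hOfin
  haveI : Nontrivial W := ⟨⟨⟨x₀, hx₀W⟩, 0, fun h => hx₀ (congrArg Subtype.val h)⟩⟩
  refine ⟨W, inferInstance, inferInstance, inferInstance, inferInstance, r, ?_, ?_, ?_⟩
  · obtain ⟨L, hL, hfix⟩ := hasLevel_finset (fun σ => R σ) hOfin.toFinset
      (fun w _ => hlev w)
    refine ⟨L, hL, fun σ hσ => ?_⟩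
    have key : ∀ v ∈ W, R σ v = v := by
      intro v hv
      induction hv using Submodule.span_induction with
      | mem v hv => exact hfix σ hσ v (hOfin.mem_toFinset.mpr hv)
      | zero => rw [map_zero]
      | add a b _ _ iha ihb => rw [map_add, iha, ihb]
      | smul c a _ iha => rw [map_smul, iha]
    ext w
    exact key w w.2
  · intro σ hσ
    ext w
    show R σ (w : M) = w
    rw [hσ, Module.End.one_apply]
  · intro σ c t h
    have key : ∀ v ∈ W, R σ v + c • R σ⁻¹ v = t • v := by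
      intro v hv
      induction hv using Submodule.span_induction with
      | mem v hv =>
        obtain ⟨τ, rfl⟩ := hv
        exact h τ
      | zero => simp
      | add a b _ _ iha ihb =>
        rw [map_add, map_add, smul_add, smul_add, ← iha, ← ihb]
        abel
      | smul d a _ iha =>
        rw [map_smul, map_smul, smul_comm c d, ← smul_add, iha, smul_comm]
    ext w
    exact key w w.2

section BaseChange

variable {G : Type*} [Monoid G] {J : Type*} [AddCommGroup J] (k : Type*) [CommRing k]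

/-- The base change of a representation on a `ℤ`-module. -/
def baseChangeHom (gal : G →* Module.End ℤ J) : G →* Module.End k (k ⊗[ℤ] J) where
  toFun σ := (gal σ).baseChange k
  map_one' := by rw [map_one, LinearMap.baseChange_one]
  map_mul' σ τ := by rw [map_mul, LinearMap.baseChange_mul]

theorem baseChangeHom_apply (gal : G →* Module.End ℤ J) (σ : G) :
    baseChangeHom k gal σ = (gal σ).baseChange k := rfl

theorem baseChange_eq_add_smul {T S₁ S₂ : Module.End ℤ J} {n : ℕ}
    (h : ∀ x, T x = S₁ x + (n : ℤ) • S₂ x) (w : k ⊗[ℤ] J) :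
    T.baseChange k w = S₁.baseChange k w + (n : k) • S₂.baseChange k w := by
  have e : (((n : ℤ) : k)) = (n : k) := Int.cast_natCast n
  induction w using TensorProduct.induction_on with
  | zero => simp
  | tmul c y =>
    rw [LinearMap.baseChange_tmul, LinearMap.baseChange_tmul, LinearMap.baseChange_tmul, h y,
      TensorProduct.tmul_add, TensorProduct.tmul_smul, ← Int.cast_smul_eq_zsmul k, e]
  | add w₁ w₂ ih₁ ih₂ =>
    rw [map_add, map_add, map_add, ih₁, ih₂, smul_add]
    abel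

theorem baseChange_comm {T S : Module.End ℤ J} (h : ∀ x, T (S x) = S (T x)) (w : k ⊗[ℤ] J) :
    T.baseChange k (S.baseChange k w) = S.baseChange k (T.baseChange k w) := by
  induction w using TensorProduct.induction_on with
  | zero => simp
  | tmul c y =>
    rw [LinearMap.baseChange_tmul, LinearMap.baseChange_tmul, LinearMap.baseChange_tmul,
      LinearMap.baseChange_tmul, h y]
  | add w₁ w₂ ih₁ ih₂ => rw [map_add, map_add, map_add, map_add, ih₁, ih₂]

end BaseChange

/-- **The Galois module generated by an eigenvector**, abstract form: `J` a `ℤ`-module with an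
action of `G_ℚ` with open stabilisers, `x₀ ≠ 0` in `k ⊗ J`; `W` := the span of the orbit
of `x₀`. -/
theorem exists_galMod {k : Type} [Field k] {J : Type} [AddCommGroup J]
    (gal : GQ →* Module.End ℤ J) (hFL : ∀ y : J, HasLevel (fun σ => gal σ) y)
    (x₀ : k ⊗[ℤ] J) (hx₀ : x₀ ≠ 0) :
    ∃ (W : Type) (_ : AddCommGroup W) (_ : Module k W) (_ : Module.Finite k W) (_ : Nontrivial W)
      (r : GQ →* Module.End k W),
      GaloisFactorsThroughFiniteLevel r ∧
      (∀ σ : GQ, gal σ = 1 → r σ = 1) ∧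
      (∀ (σ : GQ) (n : ℕ) (t : k) (T : Module.End ℤ J),
        (∀ x, T x = gal σ x + (n : ℤ) • gal σ⁻¹ x) →
        (∀ τ x, T (gal τ x) = gal τ (T x)) →
        T.baseChange k x₀ = t • x₀ →
          r σ + (n : k) • r σ⁻¹ = t • (1 : Module.End k W)) := by
  have hlev : ∀ w : k ⊗[ℤ] J, HasLevel (fun σ => baseChangeHom k gal σ) w := fun w =>
    hasLevel_baseChange (fun σ => gal σ) hFL w
  obtain ⟨W, i1, i2, i3, i4, r, hfin, hone, hfrob⟩ :=
    exists_rep (baseChangeHom k gal) x₀ hx₀ hlev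
  refine ⟨W, i1, i2, i3, i4, r, hfin, fun σ hσ => hone σ ?_, fun σ n t T hT hcomm heig =>
    hfrob σ (n : k) t fun τ => ?_⟩
  · rw [baseChangeHom_apply, hσ, LinearMap.baseChange_one]
  · have h1 := baseChange_eq_add_smul k hT (baseChangeHom k gal τ x₀)
    have h2 := baseChange_comm k (hcomm τ) x₀
    simp only [baseChangeHom_apply] at h1 ⊢
    rw [← h1, h2, heig, map_smul]

end Abstract

/-! ### The `p`-torsion of `J₀(N)` -/

section Concrete

variable (N p : ℕ) [NeZero N]

/-- Elements of `J₀(N)[p]` are `p`-power torsion. -/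
theorem tors (x : Jtor N p) : ∃ n : ℕ, p ^ n • (x : JZero N) = 0 := by
  refine ⟨1, ?_⟩
  have h := (Submodule.mem_torsionBy_iff _ _).mp x.2
  rw [pow_one, ← natCast_zsmul]
  exact h

/-- The Galois action on `J₀(N)[p]` as a monoid homomorphism. -/
def galTorHom : GQ →* Module.End ℤ (Jtor N p) where
  toFun := galTor N p
  map_one' := LinearMap.ext fun x => Subtype.ext (one_smul GQ (x : JZero N))
  map_mul' σ τ := LinearMap.ext fun x => Subtype.ext (mul_smul σ τ (x : JZero N))

theorem galTorHom_apply (σ : GQ) : galTorHom N p σ = galTor N p σ := rfl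

variable {N p}

/-- Inertia at `ℓ ∤ N p` acts trivially on `J₀(N)[p]`. -/
theorem galTor_inertia {ℓ : ℕ} (hℓ : ℓ.Prime) (hℓNp : ¬ ℓ ∣ N * p) (A : ValuationSubring Qb)
    (hA : A.LiesOverPrime ℓ) {τ : GQ} (hτ : τ ∈ A.inertiaSubgroupIn ℚ) :
    galTorHom N p τ = 1 :=
  LinearMap.ext fun x => Subtype.ext (C1.inertia_smul hℓ hℓNp A hA hτ (tors N p x))

/-- `T_ℓ = σ + ℓ σ⁻¹` on `J₀(N)[p]`. -/
theorem heckeTor_eq {ℓ : ℕ} (hℓ : ℓ.Prime) (hℓNp : ¬ ℓ ∣ N * p) (A : ValuationSubring Qb)
    (hA : A.LiesOverPrime ℓ) {σ : GQ} (hσ : A.IsFrobeniusAt σ ℓ) (x : Jtor N p) :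
    heckeTor N p ⟨ℓ, hℓ⟩ x = galTorHom N p σ x + (ℓ : ℤ) • galTorHom N p σ⁻¹ x := by
  refine Subtype.ext ?_
  show heckeOperatorBar N ⟨ℓ, hℓ⟩ (x : JZero N)
    = σ • (x : JZero N) + (ℓ : ℤ) • (σ⁻¹ • (x : JZero N))
  rw [natCast_zsmul]
  exact C1.hecke_eq hℓ hℓNp A hA hσ (tors N p x)

/-- `T_ℓ` commutes with the Galois action on `J₀(N)[p]`. -/
theorem heckeTor_galTor {ℓ : ℕ} (hℓ : ℓ.Prime) (hℓNp : ¬ ℓ ∣ N * p) (τ : GQ) (x : Jtor N p) :
    heckeTor N p ⟨ℓ, hℓ⟩ (galTorHom N p τ x) = galTorHom N p τ (heckeTor N p ⟨ℓ, hℓ⟩ x) :=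
  Subtype.ext (C1.hecke_smul_comm hℓ hℓNp τ (tors N p x))

end Concrete

/-! ### The Galois module -/

/-- **[GM]** from eigenform support and finite level (the torsion Eichler–Shimura input is
`C1`). -/
theorem galMod_of (hIV : EigenSupportStmt) (hFL : FinLevelStmt) : GalModStmt := by
  intro N _ g hg p hp k _ _ φ
  obtain ⟨a, ha, x₀, hx₀, heig⟩ := hIV N g hg p hp k φ
  obtain ⟨W, i1, i2, i3, i4, r, hfin, hone, hfrob⟩ :=
    exists_galMod (galTorHom N p) (fun y => by
      obtain ⟨L, hL, h⟩ := hFL N (y : JZero N)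
      exact ⟨L, hL, fun σ hσ => Subtype.ext (h σ hσ)⟩) x₀ hx₀
  exact ⟨W, i1, i2, i3, i4, r, hfin,
    fun ℓ hℓ hℓNp A hA σ hσ => hone σ (galTor_inertia hℓ hℓNp A hA hσ),
    fun ℓ hℓ hℓNp A hA σ hσ => ⟨a ⟨ℓ, hℓ⟩, ha ⟨ℓ, hℓ⟩ (fun h => hℓNp (h.mul_right p)),
      hfrob σ ℓ (φ (a ⟨ℓ, hℓ⟩)) (heckeTor N p ⟨ℓ, hℓ⟩) (heckeTor_eq hℓ hℓNp A hA hσ)
        (heckeTor_galTor hℓ hℓNp) (heig ⟨ℓ, hℓ⟩ hℓNp)⟩⟩

/-- **[GM]** in the interface shape of `S29/Iface.lean`. -/
theorem galMod_of_iface (hIV : EigenSupportStmt) (_hTES : TorsionESStmt) (hFL : FinLevelStmt) :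
    GalModStmt :=
  galMod_of hIV hFL

/-- **[GM]** from eigenform support alone (`[TES]` = `C1`, `[FL]` = `FinLevel`). -/
theorem galMod_of_eigenSupport (hIV : EigenSupportStmt) : GalModStmt :=
  galMod_of hIV FinLevel.finLevelStmt

end Fermat.Agent.S29.GalMod
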