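/-
S29 (wave 9), auxiliary for the Hecke clause of [IV] (helper15): the frozen Hecke operator on the
class of an `m`-th "root divisor".

If `m • D = div h` (`h ∈ F_N`, `h ≠ 0`, `deg D = 0`), then
`T_ℓ [D] = [D']` with `m • D' = div (N_α (h(q^ℓ)))`
(`N_α` = the norm of `F_{Nℓ} / F_N`, `h(q^ℓ) = heckeBetaBar h`).
-/
import Fermat.Agent.S37.HeckeInputs
import Fermat.Prelude.Def_ModularCurve_HeckeModule

set_option autoImplicit false
set_option linter.style.haveILetI false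

noncomputable section

open AlgebraicCurve ModularCurve

namespace Fermat.Agent.S29.HeckeDiv

open Fermat.Agent.S37

local notation "Qb" => AlgebraicClosure ℚ
local notation "FNb" N => laurentBaseChange (AlgebraicClosure ℚ) (modularFunctionFieldFull N)

section Generic

variable {K F F' : Type*} [Field K] [Field F] [Field F'] [Algebra K F] [Algebra K F']
  [HasPrincipalDivisors K F']

/-- The correspondence on an `m`-th root divisor, generic form. -/
theorem correspondence_root_gen (φ ψ : F →ₐ[K] F') (hφ : φ.toRingHom.IsIntegral)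
    (hψ : ψ.toRingHom.IsIntegral) (hfin : FiniteAlong K ψ) (hN : NormFormulaAlong K ψ hfin)
    {m : ℕ} {D : Divisor K F} {h : F} (hh : h ≠ 0)
    (hD : ∀ v : Place K F, (m : ℤ) * D v = v.ord h) (v : Place K F) :
    (m : ℤ) * Divisor.correspondence φ ψ hφ hψ D v
      = v.ord (@Algebra.norm F F' _ _ (algebraAlong ψ) (φ h)) := by
  have h1 : ∀ v : Place K F, (m • D) v = v.ord h := fun v => by
    rw [Finsupp.smul_apply, nsmul_eq_mul]
    exact hD v
  have h2 := HeckeIn.correspondence_apply_of_principal φ ψ hφ hψ hfin hN hh h1 v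
  rw [map_nsmul, Finsupp.smul_apply, nsmul_eq_mul] at h2
  exact h2

omit [HasPrincipalDivisors K F'] in
/-- The norm along a finite homomorphism of fields does not vanish on nonzero elements. -/
theorem norm_along_ne_zero (ψ : F →ₐ[K] F') (hfin : FiniteAlong K ψ) {y : F'} (hy : y ≠ 0) :
    @Algebra.norm F F' _ _ (algebraAlong ψ) y ≠ 0 := by
  letI := algebraAlong ψ
  haveI : Module.Finite F F' := hfin
  exact Algebra.norm_ne_zero_iff.mpr hy

end Generic

section Root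

variable {K F : Type*} [Field K] [Field F] [Algebra K F]

/-- A degree-zero divisor has trivial class iff it is principal. -/
theorem mk_eq_zero_iff (D : Divisor.degZero (K := K) (F := F)) :
    Pic0.mk D = 0 ↔ (D : Divisor K F).IsPrincipal := by
  rw [Pic0.mk, QuotientAddGroup.eq_zero_iff]
  rfl

theorem natCast_zsmul_mk (m : ℕ) (D : Divisor.degZero (K := K) (F := F)) :
    (m : ℤ) • Pic0.mk D = Pic0.mk (m • D) := by
  rw [natCast_zsmul]
  rfl

/-- The class of `D` is killed by `m` iff `m • D` is the divisor of a function. -/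
theorem zsmul_mk_eq_zero_iff (m : ℕ) (D : Divisor.degZero (K := K) (F := F)) :
    (m : ℤ) • Pic0.mk D = 0 ↔
      ∃ h : F, h ≠ 0 ∧ ∀ v : Place K F, (m : ℤ) * (D : Divisor K F) v = v.ord h := by
  rw [natCast_zsmul_mk, mk_eq_zero_iff]
  constructor
  · rintro ⟨h, hh, hD⟩
    refine ⟨h, hh, fun v => ?_⟩
    rw [← hD v, AddSubgroup.coe_nsmul, Finsupp.smul_apply, nsmul_eq_mul]
  · rintro ⟨h, hh, hD⟩
    refine ⟨h, hh, fun v => ?_⟩
    rw [← hD v, AddSubgroup.coe_nsmul, Finsupp.smul_apply, nsmul_eq_mul]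

end Root

section Levels

variable (N ℓ : ℕ) [NeZero N] [NeZero ℓ]

/-- `m • (α_* β^* D) = div (N_α (h(q^ℓ)))` if `m • D = div h`. -/
theorem correspondence_root {m : ℕ} {D : Divisor Qb (FNb N)} {h : FNb N} (hh : h ≠ 0)
    (hD : ∀ v : Place Qb (FNb N), (m : ℤ) * D v = v.ord h) (v : Place Qb (FNb N)) :
    haveI := HeckeIn.hasPrincipalDivisors (N * ℓ)
    (m : ℤ) * Divisor.correspondence (heckeBetaBar Qb N ℓ) (heckeAlphaBar Qb N ℓ)
        (HeckeIn.heckeBetaBarIntegral N ℓ) (HeckeIn.heckeAlphaBarIntegral N ℓ) D v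
      = v.ord (@Algebra.norm _ _ _ _ (algebraAlong (heckeAlphaBar Qb N ℓ))
          (heckeBetaBar Qb N ℓ h)) := by
  haveI := HeckeIn.hasPrincipalDivisors (N * ℓ)
  exact correspondence_root_gen (heckeBetaBar Qb N ℓ) (heckeAlphaBar Qb N ℓ)
    (HeckeIn.heckeBetaBarIntegral N ℓ) (HeckeIn.heckeAlphaBarIntegral N ℓ)
    (HeckeIn.finiteAlong_alpha N ℓ)
    (HeckeIn.normFormulaAlong _ (HeckeIn.finiteAlong_alpha N ℓ) (HeckeIn.deg_one N)
      (HeckeIn.deg_one (N * ℓ))) hh hD v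

/-- `N_α (h(q^ℓ)) ≠ 0` for `h ≠ 0`. -/
theorem norm_beta_ne_zero {h : FNb N} (hh : h ≠ 0) :
    @Algebra.norm _ _ _ _ (algebraAlong (heckeAlphaBar Qb N ℓ)) (heckeBetaBar Qb N ℓ h) ≠ 0 :=
  norm_along_ne_zero (heckeAlphaBar Qb N ℓ) (HeckeIn.finiteAlong_alpha N ℓ)
    ((map_ne_zero (heckeBetaBar Qb N ℓ)).mpr hh)

end Levels

/-- **The frozen Hecke operator on the class of an `m`-th root divisor**: if `m • D = div h`
then `T_ℓ [D] = [D']` with `m • D' = div (N_α (h(q^ℓ)))`. -/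
theorem heckeOperatorBar_mk_root (N : ℕ) [NeZero N] (ℓ : Nat.Primes) {m : ℕ}
    (D : Divisor.degZero (K := Qb) (F := FNb N)) {h : FNb N} (hh : h ≠ 0)
    (hD : ∀ v : Place Qb (FNb N), (m : ℤ) * (D : Divisor Qb (FNb N)) v = v.ord h) :
    haveI : NeZero (ℓ : ℕ) := ⟨ℓ.2.ne_zero⟩
    ∃ D' : Divisor.degZero (K := Qb) (F := FNb N),
      heckeOperatorBar N ℓ (Pic0.mk D) = Pic0.mk D' ∧
      ∀ v : Place Qb (FNb N), (m : ℤ) * (D' : Divisor Qb (FNb N)) v
        = v.ord (@Algebra.norm _ _ _ _ (algebraAlong (heckeAlphaBar Qb N ℓ))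
            (heckeBetaBar Qb N ℓ h)) := by
  haveI : NeZero (ℓ : ℕ) := ⟨ℓ.2.ne_zero⟩
  haveI := HeckeIn.hasPrincipalDivisors (N * ℓ)
  refine ⟨Pic0.degZeroCorrespondence (heckeBetaBar Qb N ℓ) (heckeAlphaBar Qb N ℓ)
    (HeckeIn.heckeBetaBarIntegral N ℓ) (HeckeIn.heckeAlphaBarIntegral N ℓ)
    (HeckeIn.fundamentalIdentityAlong _ (HeckeIn.finiteAlong_beta N ℓ)
      (HeckeIn.heckeBetaBarIntegral N ℓ) (HeckeIn.deg_one N) (HeckeIn.deg_one (N * ℓ))) D,
    HeckeIn.heckeOperatorAlong_mk N ℓ D, fun v => ?_⟩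
  exact correspondence_root N ℓ hh hD v

end Fermat.Agent.S29.HeckeDiv
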