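/-
S29, wave 9, [IV]: the FORMAL half of Xi-Hecke (multiplier of the Hecke norm).

If `F : ℍ → M` transforms under `Γ₀(N)` by a multiplier `ψ` (`F (γ z) = ψ γ * F z`), then the
"Hecke norm" `z ↦ ∏ x, F (α_x z)` (`α_x = heckeRep ℓ x` the coset representatives of `T_ℓ`,
`ℓ ∤ N`) transforms by the multiplier `γ ↦ ∏ x, ψ (δ_x γ)`, where `δ = Transfer.delta` is the
cocycle `α_x γ = δ_x(γ) α_{γ x}`.  For `ψ = ζ ^ λ`, `λ` an integral character of `Γ₀(N)`, this is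
`ζ ^ (tr λ)`: the transfer operator of `Transfer.lean`.

Everything is pointwise on `ℍ`, for functions with values in an arbitrary commutative monoid, and
also in a fraction-free form (`F = a / b` with `a (γ z) * b z = ψ γ * a z * b (γ z)`).
-/
import Fermat.Agent.S29.Transfer

set_option autoImplicit false

open Matrix.SpecialLinearGroup CongruenceSubgroup ModularCurve.Period UpperHalfPlane
open P2MW.S_ModularForm_heckeT_slash_eq_self_of_mem_Gamma0.ModularForm.HeckeSlashInvariance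
open scoped MatrixGroups

namespace Fermat.Agent.S29.HeckeMul

open Fermat.Agent.S29.Transfer

variable {N : ℕ} {ℓ : ℕ} [Fact ℓ.Prime]

/-- the point `α_x (γ z)` is `δ_x(γ) (α_{γ x} z)` -/
theorem heckeRep_smul_smul (hℓN : ¬ ℓ ∣ N) (γ : Gamma0 N) (x : OnePoint (ZMod ℓ)) (z : ℍ) :
    heckeRep ℓ x • ((γ : SL(2, ℤ)) • z) =
      ((delta hℓN γ x : Gamma0 N) : SL(2, ℤ)) •
        (heckeRep ℓ (redMatrix ℓ (γ : SL(2, ℤ)) • x) • z) := by
  have h := delta_spec hℓN γ x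
  calc heckeRep ℓ x • ((γ : SL(2, ℤ)) • z)
      = (heckeRep ℓ x * mapGL ℝ (γ : SL(2, ℤ))) • z := by rw [mul_smul]; rfl
    _ = (mapGL ℝ (delta hℓN γ x : SL(2, ℤ)) *
          heckeRep ℓ (redMatrix ℓ (γ : SL(2, ℤ)) • x)) • z := by rw [h]
    _ = _ := by rw [mul_smul]; rfl

/-- **Multiplier of the Hecke norm (general form).**  `M` any commutative monoid, `ψ` any
function: if `F (γ z) = ψ γ * F z` for `γ ∈ Γ₀(N)`, then
`∏ x, F (α_x (γ z)) = (∏ x, ψ (δ_x γ)) * ∏ x, F (α_x z)`. -/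
theorem prod_heckeRep_smul {M : Type*} [CommMonoid M] (hℓN : ¬ ℓ ∣ N) (F : ℍ → M)
    (ψ : Gamma0 N → M) (hF : ∀ (γ : Gamma0 N) (z : ℍ), F ((γ : SL(2, ℤ)) • z) = ψ γ * F z)
    (γ : Gamma0 N) (z : ℍ) :
    ∏ x : OnePoint (ZMod ℓ), F (heckeRep ℓ x • ((γ : SL(2, ℤ)) • z)) =
      (∏ x : OnePoint (ZMod ℓ), ψ (delta hℓN γ x)) *
        ∏ x : OnePoint (ZMod ℓ), F (heckeRep ℓ x • z) := by
  have h1 : ∀ x : OnePoint (ZMod ℓ), F (heckeRep ℓ x • ((γ : SL(2, ℤ)) • z)) =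
      ψ (delta hℓN γ x) * F (heckeRep ℓ (redMatrix ℓ (γ : SL(2, ℤ)) • x) • z) := by
    intro x
    rw [heckeRep_smul_smul hℓN γ x z, hF]
  simp only [h1, Finset.prod_mul_distrib]
  congr 1
  exact Equiv.prod_comp (MulAction.toPerm (redMatrix ℓ (γ : SL(2, ℤ))))
    (fun x => F (heckeRep ℓ x • z))

/-- **Multiplier of the Hecke norm, fraction-free form.**  If the "quotient" `a / b` has
multiplier `ψ` in the division-free sense `a (γ z) * b z = ψ γ * a z * b (γ z)`, then the Hecke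
norms `A' z = ∏ x, a (α_x z)`, `B' z = ∏ x, b (α_x z)` satisfy
`A' (γ z) * B' z = (∏ x, ψ (δ_x γ)) * A' z * B' (γ z)`. -/
theorem prod_heckeRep_smul_frac {M : Type*} [CommMonoid M] (hℓN : ¬ ℓ ∣ N) (a b : ℍ → M)
    (ψ : Gamma0 N → M)
    (hab : ∀ (γ : Gamma0 N) (z : ℍ),
      a ((γ : SL(2, ℤ)) • z) * b z = ψ γ * a z * b ((γ : SL(2, ℤ)) • z))
    (γ : Gamma0 N) (z : ℍ) :
    (∏ x : OnePoint (ZMod ℓ), a (heckeRep ℓ x • ((γ : SL(2, ℤ)) • z))) *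
        ∏ x : OnePoint (ZMod ℓ), b (heckeRep ℓ x • z) =
      (∏ x : OnePoint (ZMod ℓ), ψ (delta hℓN γ x)) *
        (∏ x : OnePoint (ZMod ℓ), a (heckeRep ℓ x • z)) *
          ∏ x : OnePoint (ZMod ℓ), b (heckeRep ℓ x • ((γ : SL(2, ℤ)) • z)) := by
  set π : Equiv.Perm (OnePoint (ZMod ℓ)) := MulAction.toPerm (redMatrix ℓ (γ : SL(2, ℤ)))
    with hπ
  have h1 : ∀ x : OnePoint (ZMod ℓ),
      a (heckeRep ℓ x • ((γ : SL(2, ℤ)) • z)) * b (heckeRep ℓ (π x) • z) =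
        ψ (delta hℓN γ x) * a (heckeRep ℓ (π x) • z) *
          b (heckeRep ℓ x • ((γ : SL(2, ℤ)) • z)) := by
    intro x
    have h2 := heckeRep_smul_smul hℓN γ x z
    rw [h2]
    exact hab (delta hℓN γ x) (heckeRep ℓ (π x) • z)
  have hb : ∏ x : OnePoint (ZMod ℓ), b (heckeRep ℓ (π x) • z) =
      ∏ x : OnePoint (ZMod ℓ), b (heckeRep ℓ x • z) :=
    Equiv.prod_comp π (fun x => b (heckeRep ℓ x • z))
  have ha : ∏ x : OnePoint (ZMod ℓ), a (heckeRep ℓ (π x) • z) =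
      ∏ x : OnePoint (ZMod ℓ), a (heckeRep ℓ x • z) :=
    Equiv.prod_comp π (fun x => a (heckeRep ℓ x • z))
  rw [← hb, ← ha, ← Finset.prod_mul_distrib, ← Finset.prod_mul_distrib,
    ← Finset.prod_mul_distrib]
  exact Finset.prod_congr rfl fun x _ => h1 x

/-- a product of integral powers of a unit is the power by the sum of the exponents -/
theorem prod_zpow_eq {M : Type*} [CommMonoid M] {ι : Type*} (s : Finset ι) (ζ : Mˣ)
    (n : ι → ℤ) : ∏ x ∈ s, ζ ^ n x = ζ ^ ∑ x ∈ s, n x := by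
  classical
  induction s using Finset.induction_on with
  | empty => simp
  | insert a s ha ih => rw [Finset.prod_insert ha, Finset.sum_insert ha, zpow_add, ih]

/-- the product of the values of `ζ ^ λ` along the cocycle `δ` is `ζ ^ (tr λ)` -/
theorem prod_zpow_delta {M : Type*} [CommMonoid M] (hℓN : ¬ ℓ ∣ N) (ζ : Mˣ)
    (lam : Additive (Gamma0 N) →+ ℤ) (γ : Gamma0 N) :
    ∏ x : OnePoint (ZMod ℓ), ζ ^ lam (Additive.ofMul (delta hℓN γ x)) =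
      ζ ^ (tr ℤ hℓN lam) (Additive.ofMul γ) := by
  rw [prod_zpow_eq, tr_apply]

/-- **Multiplier of the Hecke norm, for the character `ζ ^ λ`.**  If `F (γ z) = ζ ^ λ(γ) * F z`
for an additive character `λ : Γ₀(N) → ℤ` and a unit `ζ` of a commutative monoid, then the Hecke
norm of `F` has multiplier `ζ ^ (tr λ)(γ)`, `tr` the transfer operator of `Transfer.lean`. -/
theorem prod_heckeRep_smul_zpow {M : Type*} [CommMonoid M] (hℓN : ¬ ℓ ∣ N) (F : ℍ → M) (ζ : Mˣ)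
    (lam : Additive (Gamma0 N) →+ ℤ)
    (hF : ∀ (γ : Gamma0 N) (z : ℍ),
      F ((γ : SL(2, ℤ)) • z) = ((ζ ^ lam (Additive.ofMul γ) : Mˣ) : M) * F z)
    (γ : Gamma0 N) (z : ℍ) :
    ∏ x : OnePoint (ZMod ℓ), F (heckeRep ℓ x • ((γ : SL(2, ℤ)) • z)) =
      ((ζ ^ (tr ℤ hℓN lam) (Additive.ofMul γ) : Mˣ) : M) *
        ∏ x : OnePoint (ZMod ℓ), F (heckeRep ℓ x • z) := by
  rw [prod_heckeRep_smul hℓN F (fun γ => ((ζ ^ lam (Additive.ofMul γ) : Mˣ) : M)) hF γ z,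
    ← Units.coe_prod, prod_zpow_delta]

/-- fraction-free form of `prod_heckeRep_smul_zpow` -/
theorem prod_heckeRep_smul_frac_zpow {M : Type*} [CommMonoid M] (hℓN : ¬ ℓ ∣ N) (a b : ℍ → M)
    (ζ : Mˣ) (lam : Additive (Gamma0 N) →+ ℤ)
    (hab : ∀ (γ : Gamma0 N) (z : ℍ), a ((γ : SL(2, ℤ)) • z) * b z =
      ((ζ ^ lam (Additive.ofMul γ) : Mˣ) : M) * a z * b ((γ : SL(2, ℤ)) • z))
    (γ : Gamma0 N) (z : ℍ) :
    (∏ x : OnePoint (ZMod ℓ), a (heckeRep ℓ x • ((γ : SL(2, ℤ)) • z))) *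
        ∏ x : OnePoint (ZMod ℓ), b (heckeRep ℓ x • z) =
      ((ζ ^ (tr ℤ hℓN lam) (Additive.ofMul γ) : Mˣ) : M) *
        (∏ x : OnePoint (ZMod ℓ), a (heckeRep ℓ x • z)) *
          ∏ x : OnePoint (ZMod ℓ), b (heckeRep ℓ x • ((γ : SL(2, ℤ)) • z)) := by
  rw [prod_heckeRep_smul_frac hℓN a b (fun γ => ((ζ ^ lam (Additive.ofMul γ) : Mˣ) : M)) hab γ z,
    ← Units.coe_prod, prod_zpow_delta]

/-- the same for `λ` in the lattice `Λ N` and the operator `trΛ` (`ℓ : Nat.Primes`) -/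
theorem prod_heckeRep_smul_trΛ {M : Type*} [CommMonoid M] (N : ℕ) (q : Nat.Primes)
    (hqN : ¬ (q : ℕ) ∣ N) (F : ℍ → M) (ζ : Mˣ) (lam : Λ N)
    (hF : ∀ (γ : Gamma0 N) (z : ℍ), F ((γ : SL(2, ℤ)) • z) =
      ((ζ ^ (lam : Additive (Gamma0 N) →+ ℤ) (Additive.ofMul γ) : Mˣ) : M) * F z)
    (γ : Gamma0 N) (z : ℍ) :
    haveI : Fact (q : ℕ).Prime := ⟨q.2⟩
    ∏ x : OnePoint (ZMod (q : ℕ)), F (heckeRep (q : ℕ) x • ((γ : SL(2, ℤ)) • z)) =
      ((ζ ^ ((trΛ N q hqN lam : Λ N) : Additive (Gamma0 N) →+ ℤ) (Additive.ofMul γ) : Mˣ) : M) *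
        ∏ x : OnePoint (ZMod (q : ℕ)), F (heckeRep (q : ℕ) x • z) := by
  have : Fact (q : ℕ).Prime := ⟨q.2⟩
  exact prod_heckeRep_smul_zpow hqN F ζ (lam : Additive (Gamma0 N) →+ ℤ) hF γ z

/-- fraction-free form for `λ` in the lattice `Λ N` and the operator `trΛ` -/
theorem prod_heckeRep_smul_frac_trΛ {M : Type*} [CommMonoid M] (N : ℕ) (q : Nat.Primes)
    (hqN : ¬ (q : ℕ) ∣ N) (a b : ℍ → M) (ζ : Mˣ) (lam : Λ N)
    (hab : ∀ (γ : Gamma0 N) (z : ℍ), a ((γ : SL(2, ℤ)) • z) * b z =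
      ((ζ ^ (lam : Additive (Gamma0 N) →+ ℤ) (Additive.ofMul γ) : Mˣ) : M) * a z *
        b ((γ : SL(2, ℤ)) • z))
    (γ : Gamma0 N) (z : ℍ) :
    haveI : Fact (q : ℕ).Prime := ⟨q.2⟩
    (∏ x : OnePoint (ZMod (q : ℕ)), a (heckeRep (q : ℕ) x • ((γ : SL(2, ℤ)) • z))) *
        ∏ x : OnePoint (ZMod (q : ℕ)), b (heckeRep (q : ℕ) x • z) =
      ((ζ ^ ((trΛ N q hqN lam : Λ N) : Additive (Gamma0 N) →+ ℤ) (Additive.ofMul γ) : Mˣ) : M) *
        (∏ x : OnePoint (ZMod (q : ℕ)), a (heckeRep (q : ℕ) x • z)) *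
          ∏ x : OnePoint (ZMod (q : ℕ)), b (heckeRep (q : ℕ) x • ((γ : SL(2, ℤ)) • z)) := by
  have : Fact (q : ℕ).Prime := ⟨q.2⟩
  exact prod_heckeRep_smul_frac_zpow hqN a b ζ (lam : Additive (Gamma0 N) →+ ℤ) hab γ z

end Fermat.Agent.S29.HeckeMul
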