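/-
S29 (wave 9), leaf of [IV]: the ANALYTIC NORM FORMULA for the Hecke correspondence `T_ℓ`.

For `ℓ ∤ N` prime, `α, β : F_N → F_{Nℓ}` the degeneracy maps (`α y = y(q)`, `β y = y(q^ℓ)`) and
`y ∈ F_N = FF ℚ̄ N`, the norm `N_α(β y) ∈ F_N` is, as a meromorphic function on the upper half
plane (via the S24 analytic realisation `PhiL ι N : F_N → Frac (Mero.ring N)`),

  `z ↦ y(ℓ z) · ∏_{b < ℓ} y((z + b) / ℓ)`.

The formal identity in `ℂ((q^{1/(Nℓ)}))` is `S37.KFull.rho_norm`; it is moved to the upper half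
plane with the S24 calculus `Cusp.HasU` of convergent Laurent `q`-expansions (`hasU_phi`,
`HasU.comp_dil`, `HasU.comp_vadd`, `HasU.unique_fun`).  The statement is pointwise on `ℍ` and holds
for ALL representatives of the two functions as quotients of elements of `Mero.ring N`.
-/
import Fermat.Agent.S37.KFull
import Fermat.Agent.S24.Mod.DataTau
import Fermat.Prelude.Sol.S_ModularForm_heckeT_slash_eq_self_of_mem_Gamma0

set_option autoImplicit false
set_option synthInstance.maxHeartbeats 400000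
set_option linter.style.haveILetI false
set_option linter.unusedSectionVars false

noncomputable section

open scoped MatrixGroups Real
open ModularCurve AlgebraicCurve UpperHalfPlane

namespace Fermat.Agent.S29.NormAn

open Fermat.Agent.S24 Fermat.Agent.S23 Fermat.Agent.S18 Fermat.Agent.S37.KEmbB
  Fermat.Agent.S37.KFull

/-! ### The Hecke maps on the upper half plane -/

/-- The `ℓ + 1` Hecke maps: `none ↦ (z ↦ ℓ z)`, `some b ↦ (z ↦ (z + b) / ℓ)`. -/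
def up (ℓ : ℕ) : Option (Fin ℓ) → ℍ → ℍ
  | none => JN.dil ℓ
  | some b => JN.aff (1 / (ℓ : ℝ)) (((b : ℕ) : ℝ) / (ℓ : ℝ))

theorem up_none (ℓ : ℕ) (z : ℍ) : up ℓ none z = JN.dil ℓ z := rfl

theorem up_some (ℓ : ℕ) (b : Fin ℓ) (z : ℍ) :
    up ℓ (some b) z = JN.aff (1 / (ℓ : ℝ)) (((b : ℕ) : ℝ) / (ℓ : ℝ)) z := rfl

theorem natCast_pos' (ℓ : ℕ) [NeZero ℓ] : (0 : ℝ) < (ℓ : ℝ) := by
  exact_mod_cast Nat.pos_of_ne_zero (NeZero.ne ℓ)

theorem coe_up_none (ℓ : ℕ) [NeZero ℓ] (z : ℍ) : (up ℓ none z : ℂ) = (ℓ : ℂ) * z :=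
  JN.coe_dil ℓ z

theorem coe_up_some (ℓ : ℕ) [NeZero ℓ] (b : Fin ℓ) (z : ℍ) :
    (up ℓ (some b) z : ℂ) = ((z : ℂ) + ((b : ℕ) : ℂ)) / (ℓ : ℂ) := by
  have hl : (ℓ : ℂ) ≠ 0 := by exact_mod_cast NeZero.ne ℓ
  rw [up_some, JN.coe_aff (one_div_pos.mpr (natCast_pos' ℓ))]
  push_cast
  field_simp

theorem up_surjective (ℓ : ℕ) [NeZero ℓ] (i : Option (Fin ℓ)) : Function.Surjective (up ℓ i) := by
  intro w
  have hl : (ℓ : ℂ) ≠ 0 := by exact_mod_cast NeZero.ne ℓ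
  cases i with
  | none => exact Cusp.exists_dil_eq ℓ w
  | some b =>
    refine ⟨JN.aff (ℓ : ℝ) (-((b : ℕ) : ℝ)) w, ?_⟩
    apply UpperHalfPlane.ext
    rw [coe_up_some, JN.coe_aff (natCast_pos' ℓ)]
    push_cast
    field_simp
    ring

theorem holo_comp_up (ℓ : ℕ) [NeZero ℓ] (i : Option (Fin ℓ)) {f : ℍ → ℂ} (hf : JN.Holo f) :
    JN.Holo (fun z => f (up ℓ i z)) := by
  cases i with
  | none => exact JN.holo_comp_aff hf (natCast_pos' ℓ) 0
  | some b => exact JN.holo_comp_aff hf (one_div_pos.mpr (natCast_pos' ℓ)) _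

/-! ### Convergent expansions of polynomials in the `j (d z)` -/

section Poly

variable (ι : Qb →+* ℂ) (N : ℕ) [NeZero N]

/-- The holomorphic function of a polynomial in the `j (d z)`, `d ∣ N`. -/
def fn (P : MvPolynomial (Dv N) Qb) : ℍ → ℂ := evalFun N (MvPolynomial.map ι P)

theorem coe_evalRing' (P : MvPolynomial (Dv N) Qb) :
    ((DataTau.evalRing ι N P : Mero.ring N) : ℍ → ℂ) = fn ι N P :=
  DataTau.coe_evalRing ι N P

theorem holo_fn (P : MvPolynomial (Dv N) Qb) : JN.Holo (fn ι N P) := by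
  rw [← coe_evalRing']
  exact Mero.holo_of_mem _

/-- The expansion of `z ↦ P(N z)` in `q = exp (2 π i z)`. -/
theorem hasU_fn (P : MvPolynomial (Dv N) Qb) :
    Cusp.HasU (fun z => fn ι N P (JN.dil N z))
      (qExpand ℂ N (coeffMap ι ((evalL Qb N P : ↥(FF Qb N)) : LaurentSeries Qb))) := by
  have h := Cusp.hasU_phi ι N 1 P
  rw [← Cusp.tauG_evalL, tauG_of_mem_Gamma0 ι N (one_mem _)] at h
  exact h.congr fun z => by rw [one_smul]; rfl

end Poly

theorem hasU_prod {σ : Type*} (s : Finset σ) (F : σ → ℍ → ℂ) (E : σ → LaurentSeries ℂ)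
    (h : ∀ i ∈ s, Cusp.HasU (F i) (E i)) :
    Cusp.HasU (fun z => ∏ i ∈ s, F i z) (∏ i ∈ s, E i) := by
  classical
  induction s using Finset.induction_on with
  | empty =>
    simp only [Finset.prod_empty]
    have := Cusp.hasU_const 1
    rwa [map_one] at this
  | insert a s ha ih =>
    simp only [Finset.prod_insert ha]
    exact (h a (Finset.mem_insert_self a s)).mul
      (ih fun i hi => h i (Finset.mem_insert_of_mem hi))


/-! ### The three families of expansions at level `N ℓ` -/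

section Three

variable (ι : Qb →+* ℂ) (N ℓ : ℕ) [NeZero N] [NeZero ℓ]

/-- The base embedding `y ↦ y(v^{Nℓ})`, `v = q^{1/(Nℓ)}`. -/
def rho : ↥(FN N) →+* LaurentSeries ℂ :=
  ((qExpand ℂ (N * ℓ)).comp (coeffMap ι)).comp (algebraMap ↥(FN N) (LaurentSeries Qb))

theorem rho_apply (y : ↥(FN N)) :
    rho ι N ℓ y = qExpand ℂ (N * ℓ) (coeffMap ι (y : LaurentSeries Qb)) := rfl

theorem dil_dil (a b : ℕ) [NeZero a] [NeZero b] (z : ℍ) :
    JN.dil a (JN.dil b z) = JN.dil (a * b) z := by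
  apply UpperHalfPlane.ext
  rw [JN.coe_dil, JN.coe_dil, JN.coe_dil]
  push_cast
  ring

/-- (H1) `w ↦ P(Nℓ w)` has the expansion `ρ(P)`. -/
theorem hasU_base (P : MvPolynomial (Dv N) Qb) :
    Cusp.HasU (fun w => fn ι N P (JN.dil (N * ℓ) w)) (rho ι N ℓ (evalL Qb N P)) := by
  have h := (hasU_fn ι N P).comp_dil ℓ
  rw [qExpand_qExpand, qExpand_congr (mul_comm ℓ N)] at h
  exact h.congr fun w => by rw [dil_dil]

/-- (H2) `w ↦ P(ℓ · Nℓ w)` has the expansion `ψ_∞(β P)`. -/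
theorem hasU_none (q s : ℤ) (h : (ℓ : ℤ) * s - q * N = 1) (P : MvPolynomial (Dv N) Qb) :
    Cusp.HasU (fun w => fn ι N P (up ℓ none (JN.dil (N * ℓ) w)))
      (psi N ℓ ι q s h none (heckeBetaBar Qb N ℓ (evalL Qb N P))) := by
  have h1 := (hasU_fn ι N P).comp_dil (ℓ * ℓ)
  rw [psi_none, coe_heckeBetaBar, QL.coeffMap_qExpand, qExpand_qExpand]
  rw [qExpand_qExpand, qExpand_congr (show ℓ * ℓ * N = N * ℓ * ℓ by ring)] at h1
  refine h1.congr fun w => ?_
  rw [up_none, dil_dil, dil_dil]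
  congr 2
  ring

/-- (H3) `w ↦ P((Nℓ w + b) / ℓ)` has the expansion `ψ_b(β P)`. -/
theorem hasU_some (q s : ℤ) (h : (ℓ : ℤ) * s - q * N = 1) (b : Fin ℓ)
    (P : MvPolynomial (Dv N) Qb) :
    Cusp.HasU (fun w => fn ι N P (up ℓ (some b) (JN.dil (N * ℓ) w)))
      (psi N ℓ ι q s h (some b) (heckeBetaBar Qb N ℓ (evalL Qb N P))) := by
  have h1 := (hasU_fn ι N P).comp_vadd ((((b : ℕ) : ℤ) : ℝ) / ((N * ℓ : ℕ) : ℝ))
  rw [psi_some_beta]
  refine h1.congr fun w => ?_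
  congr 1
  apply UpperHalfPlane.ext
  have hN : (N : ℂ) ≠ 0 := by exact_mod_cast NeZero.ne N
  have hl : (ℓ : ℂ) ≠ 0 := by exact_mod_cast NeZero.ne ℓ
  rw [coe_up_some, JN.coe_dil, JN.coe_dil, coe_vadd]
  push_cast
  field_simp
  ring

theorem hasU_psi (q s : ℤ) (h : (ℓ : ℤ) * s - q * N = 1) (i : Option (Fin ℓ))
    (P : MvPolynomial (Dv N) Qb) :
    Cusp.HasU (fun w => fn ι N P (up ℓ i (JN.dil (N * ℓ) w)))
      (psi N ℓ ι q s h i (heckeBetaBar Qb N ℓ (evalL Qb N P))) := by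
  cases i with
  | none => exact hasU_none ι N ℓ q s h P
  | some b => exact hasU_some ι N ℓ q s h b P

/-- **The analytic norm formula, polynomial form.**  If `y = P / Q` and `N_α(β y) = P' / Q'`
(polynomials in the `j (d z)`, `d ∣ N`), then
`P'(z) · ∏_x Q(α_x z) = Q'(z) · ∏_x P(α_x z)` for all `z` in the upper half plane, the `α_x`
running over `z ↦ ℓ z` and `z ↦ (z + b) / ℓ`, `b < ℓ`. -/
theorem poly_identity (hℓ : ℓ.Prime) (hℓN : ¬ ℓ ∣ N) (y : ↥(FN N))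
    (P Q P' Q' : MvPolynomial (Dv N) Qb) (hy : y * evalL Qb N Q = evalL Qb N P)
    (hy' : letI := algebraAlong (heckeAlphaBar Qb N ℓ)
      (Algebra.norm ↥(FN N) (heckeBetaBar Qb N ℓ y) : ↥(FN N)) * evalL Qb N Q' = evalL Qb N P')
    (z : ℍ) :
    fn ι N P' z * ∏ i : Option (Fin ℓ), fn ι N Q (up ℓ i z)
      = fn ι N Q' z * ∏ i : Option (Fin ℓ), fn ι N P (up ℓ i z) := by
  letI := algebraAlong (heckeAlphaBar Qb N ℓ)
  obtain ⟨q, s, h⟩ : ∃ q s : ℤ, (ℓ : ℤ) * s - q * N = 1 := by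
    have hcop : IsCoprime (ℓ : ℤ) (N : ℤ) :=
      Nat.isCoprime_iff_coprime.mpr ((Nat.Prime.coprime_iff_not_dvd hℓ).mpr hℓN)
    obtain ⟨a, b, hab⟩ := hcop
    exact ⟨-b, a, by linarith⟩
  -- the identity of series
  have hnorm : rho ι N ℓ (Algebra.norm ↥(FN N) (heckeBetaBar Qb N ℓ y))
      = ∏ i, psi N ℓ ι q s h i (heckeBetaBar Qb N ℓ y) :=
    rho_norm N ℓ ι q s h hℓ hℓN (heckeBetaBar Qb N ℓ y)
  have hi : ∀ i, psi N ℓ ι q s h i (heckeBetaBar Qb N ℓ y)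
      * psi N ℓ ι q s h i (heckeBetaBar Qb N ℓ (evalL Qb N Q))
      = psi N ℓ ι q s h i (heckeBetaBar Qb N ℓ (evalL Qb N P)) := fun i => by
    rw [← map_mul, ← map_mul, hy]
  have hn : rho ι N ℓ (Algebra.norm ↥(FN N) (heckeBetaBar Qb N ℓ y))
      * rho ι N ℓ (evalL Qb N Q') = rho ι N ℓ (evalL Qb N P') := by
    rw [← map_mul, hy']
  have hS : rho ι N ℓ (evalL Qb N P')
        * ∏ i, psi N ℓ ι q s h i (heckeBetaBar Qb N ℓ (evalL Qb N Q))
      = rho ι N ℓ (evalL Qb N Q')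
        * ∏ i, psi N ℓ ι q s h i (heckeBetaBar Qb N ℓ (evalL Qb N P)) := by
    rw [← hn, hnorm, ← Finset.prod_congr rfl (fun i _ => hi i), Finset.prod_mul_distrib]
    ring
  -- the two functions
  have h1 : Cusp.HasU (fun w => fn ι N P' (JN.dil (N * ℓ) w)
        * ∏ i : Option (Fin ℓ), fn ι N Q (up ℓ i (JN.dil (N * ℓ) w)))
      (rho ι N ℓ (evalL Qb N P')
        * ∏ i, psi N ℓ ι q s h i (heckeBetaBar Qb N ℓ (evalL Qb N Q))) :=
    (hasU_base ι N ℓ P').mul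
      (hasU_prod Finset.univ _ _ fun i _ => hasU_psi ι N ℓ q s h i Q)
  have h2 : Cusp.HasU (fun w => fn ι N Q' (JN.dil (N * ℓ) w)
        * ∏ i : Option (Fin ℓ), fn ι N P (up ℓ i (JN.dil (N * ℓ) w)))
      (rho ι N ℓ (evalL Qb N Q')
        * ∏ i, psi N ℓ ι q s h i (heckeBetaBar Qb N ℓ (evalL Qb N P))) :=
    (hasU_base ι N ℓ Q').mul
      (hasU_prod Finset.univ _ _ fun i _ => hasU_psi ι N ℓ q s h i P)
  rw [hS] at h1
  obtain ⟨w, rfl⟩ := Cusp.exists_dil_eq (N * ℓ) z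
  exact h1.unique_fun h2 w

end Three


/-! ### Arbitrary representatives -/

section Rep

variable (ι : Qb →+* ℂ) (N ℓ : ℕ) [NeZero N] [NeZero ℓ]

/-- Two representations of the same element as quotients: cross-multiplication, pointwise. -/
theorem cross (y : ↥(FN N)) (a b : Mero.ring N) (P Q : MvPolynomial (Dv N) Qb)
    (hab : DataTau.PhiL ι N y * algebraMap (Mero.ring N) (Mero.Fld N) b
      = algebraMap (Mero.ring N) (Mero.Fld N) a)
    (hPQ : y * evalL Qb N Q = evalL Qb N P) (z : ℍ) :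
    (a : ℍ → ℂ) z * fn ι N Q z = (b : ℍ → ℂ) z * fn ι N P z := by
  have h1 : DataTau.PhiL ι N y
        * algebraMap (Mero.ring N) (Mero.Fld N) (DataTau.evalRing ι N Q)
      = algebraMap (Mero.ring N) (Mero.Fld N) (DataTau.evalRing ι N P) := by
    rw [← DataTau.PhiL_evalL, ← DataTau.PhiL_evalL, ← map_mul, hPQ]
  have h2 : algebraMap (Mero.ring N) (Mero.Fld N) (a * DataTau.evalRing ι N Q)
      = algebraMap (Mero.ring N) (Mero.Fld N) (b * DataTau.evalRing ι N P) := by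
    rw [map_mul, map_mul, ← hab, ← h1]
    ring
  have h3 : a * DataTau.evalRing ι N Q = b * DataTau.evalRing ι N P :=
    IsFractionRing.injective (Mero.ring N) (Mero.Fld N) h2
  have h4 := congrFun (congrArg Subtype.val h3) z
  rw [← coe_evalRing', ← coe_evalRing']
  exact h4

theorem exists_fn_ne_zero (Q : MvPolynomial (Dv N) Qb) (hQ : evalL Qb N Q ≠ 0) :
    ∃ z, fn ι N Q z ≠ 0 := by
  by_contra hcon
  push Not at hcon
  apply hQ
  rw [← DataTau.evalRing_eq_zero_iff ι N Q]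
  apply Subtype.ext
  rw [coe_evalRing']
  exact funext hcon

/-- **The analytic norm formula.**  Let `y ∈ F_N` and let `a / b`, `a' / b'` (`a, b, a', b'` in
`Mero.ring N`) represent the analytic realisations of `y` and of `N_α(β y)`.  Then for all `z` in
the upper half plane
`a'(z) · ∏_x b(α_x z) = b'(z) · ∏_x a(α_x z)`,
the `α_x` running over `z ↦ ℓ z` and `z ↦ (z + j) / ℓ`, `j < ℓ`; that is,
`an(N_α(β y))(z) = an(y)(ℓ z) · ∏_{j < ℓ} an(y)((z + j) / ℓ)` as meromorphic functions. -/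
theorem norm_pointwise_up (hℓ : ℓ.Prime) (hℓN : ¬ ℓ ∣ N) (y : ↥(FN N))
    (a b a' b' : Mero.ring N)
    (hy : DataTau.PhiL ι N y * algebraMap (Mero.ring N) (Mero.Fld N) b
      = algebraMap (Mero.ring N) (Mero.Fld N) a)
    (hy' : letI := algebraAlong (heckeAlphaBar Qb N ℓ)
      DataTau.PhiL ι N (Algebra.norm ↥(FN N) (heckeBetaBar Qb N ℓ y))
        * algebraMap (Mero.ring N) (Mero.Fld N) b' = algebraMap (Mero.ring N) (Mero.Fld N) a')
    (z : ℍ) :
    (a' : ℍ → ℂ) z * ∏ i : Option (Fin ℓ), (b : ℍ → ℂ) (up ℓ i z)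
      = (b' : ℍ → ℂ) z * ∏ i : Option (Fin ℓ), (a : ℍ → ℂ) (up ℓ i z) := by
  letI := algebraAlong (heckeAlphaBar Qb N ℓ)
  obtain ⟨P, Q, hQ, hyPQ⟩ := Ext.exists_eq_div Qb N y
  obtain ⟨P', Q', hQ', hyPQ'⟩ := Ext.exists_eq_div Qb N
    (Algebra.norm ↥(FN N) (heckeBetaBar Qb N ℓ y))
  have e1 : y * evalL Qb N Q = evalL Qb N P := by
    rw [hyPQ, div_mul_cancel₀ _ hQ]
  have e2 : (Algebra.norm ↥(FN N) (heckeBetaBar Qb N ℓ y) : ↥(FN N)) * evalL Qb N Q'
      = evalL Qb N P' := by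
    rw [hyPQ', div_mul_cancel₀ _ hQ']
  have c1 := cross ι N y a b P Q hy e1
  have c2 := cross ι N _ a' b' P' Q' hy' e2
  have hpoly := poly_identity ι N ℓ hℓ hℓN y P Q P' Q' e1 e2
  -- the functions
  set G₁ : ℍ → ℂ := fun z => (a' : ℍ → ℂ) z * ∏ i : Option (Fin ℓ), (b : ℍ → ℂ) (up ℓ i z)
    with hG₁
  set G₂ : ℍ → ℂ := fun z => (b' : ℍ → ℂ) z * ∏ i : Option (Fin ℓ), (a : ℍ → ℂ) (up ℓ i z)
    with hG₂
  have hmul : ∀ z, G₁ z * (fn ι N Q' z * ∏ i : Option (Fin ℓ), fn ι N Q (up ℓ i z))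
      = G₂ z * (fn ι N Q' z * ∏ i : Option (Fin ℓ), fn ι N Q (up ℓ i z)) := by
    intro z
    have hz := hpoly z
    have k1 : (∏ i : Option (Fin ℓ), (b : ℍ → ℂ) (up ℓ i z))
          * ∏ i : Option (Fin ℓ), fn ι N P (up ℓ i z)
        = (∏ i : Option (Fin ℓ), (a : ℍ → ℂ) (up ℓ i z))
          * ∏ i : Option (Fin ℓ), fn ι N Q (up ℓ i z) := by
      rw [← Finset.prod_mul_distrib, ← Finset.prod_mul_distrib]
      exact Finset.prod_congr rfl fun i _ => (c1 (up ℓ i z)).symm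
    have k2 := c2 z
    simp only [hG₁, hG₂]
    calc (a' : ℍ → ℂ) z * (∏ i : Option (Fin ℓ), (b : ℍ → ℂ) (up ℓ i z))
          * (fn ι N Q' z * ∏ i : Option (Fin ℓ), fn ι N Q (up ℓ i z))
        = ((a' : ℍ → ℂ) z * fn ι N Q' z) * (∏ i : Option (Fin ℓ), (b : ℍ → ℂ) (up ℓ i z))
          * ∏ i : Option (Fin ℓ), fn ι N Q (up ℓ i z) := by ring
      _ = (b' : ℍ → ℂ) z * (∏ i : Option (Fin ℓ), (b : ℍ → ℂ) (up ℓ i z))
          * (fn ι N P' z * ∏ i : Option (Fin ℓ), fn ι N Q (up ℓ i z)) := by rw [k2]; ring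
      _ = (b' : ℍ → ℂ) z * fn ι N Q' z * ((∏ i : Option (Fin ℓ), (b : ℍ → ℂ) (up ℓ i z))
          * ∏ i : Option (Fin ℓ), fn ι N P (up ℓ i z)) := by rw [hz]; ring
      _ = (b' : ℍ → ℂ) z * (∏ i : Option (Fin ℓ), (a : ℍ → ℂ) (up ℓ i z))
          * (fn ι N Q' z * ∏ i : Option (Fin ℓ), fn ι N Q (up ℓ i z)) := by rw [k1]; ring
  -- holomorphy
  have hprod : ∀ c : Mero.ring N,
      JN.Holo (fun z => ∏ i : Option (Fin ℓ), (c : ℍ → ℂ) (up ℓ i z)) := by
    intro c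
    have : ∀ i ∈ (Finset.univ : Finset (Option (Fin ℓ))),
        DifferentiableOn ℂ ((fun z => (c : ℍ → ℂ) (up ℓ i z)) ∘ ofComplex) {z : ℂ | 0 < z.im} :=
      fun i _ => holo_comp_up ℓ i (Mero.holo_of_mem c)
    exact (DifferentiableOn.finsetProd this).congr fun w _ => by
      simp only [Function.comp_apply, Finset.prod_apply]
  have hG₁h : JN.Holo G₁ := (Mero.holo_of_mem a').mul (hprod b)
  have hG₂h : JN.Holo G₂ := (Mero.holo_of_mem b').mul (hprod a)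
  by_contra hne
  -- a common non-zero
  obtain ⟨z₀, hz₀⟩ := exists_fn_ne_zero ι N Q hQ
  obtain ⟨z₁, hz₁⟩ := exists_fn_ne_zero ι N Q' hQ'
  let fam : Option (Option (Option (Fin ℓ))) → ℍ → ℂ
    | none => fun z => G₁ z - G₂ z
    | some none => fn ι N Q'
    | some (some i) => fun z => fn ι N Q (up ℓ i z)
  have hfam : ∀ o, JN.Holo (fam o) := by
    intro o
    match o with
    | none => exact hG₁h.sub hG₂h
    | some none => exact holo_fn ι N Q'
    | some (some i) => exact holo_comp_up ℓ i (holo_fn ι N Q)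
  have hfam0 : ∀ o, ∃ z, fam o z ≠ 0 := by
    intro o
    match o with
    | none => exact ⟨z, sub_ne_zero.mpr hne⟩
    | some none => exact ⟨z₁, hz₁⟩
    | some (some i) =>
      obtain ⟨w, hw⟩ := up_surjective ℓ i z₀
      exact ⟨w, by show fn ι N Q (up ℓ i w) ≠ 0; rw [hw]; exact hz₀⟩
  obtain ⟨w, hw⟩ := JN.exists_common_ne_zero fam hfam hfam0
  have w1 : G₁ w - G₂ w ≠ 0 := hw none
  have w2 : fn ι N Q' w ≠ 0 := hw (some none)
  have w3 : ∏ i : Option (Fin ℓ), fn ι N Q (up ℓ i w) ≠ 0 :=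
    Finset.prod_ne_zero_iff.mpr fun i _ => hw (some (some i))
  exact w1 (sub_eq_zero.mpr (mul_right_cancel₀ (mul_ne_zero w2 w3) (hmul w)))

end Rep

/-! ### The form with the Prelude coset system `heckeRep` -/

section Rep2

open P2MW.S_ModularForm_heckeT_slash_eq_self_of_mem_Gamma0.ModularForm.HeckeSlashInvariance
open scoped OnePoint

variable (ℓ : ℕ) [NeZero ℓ]

theorem heckeRep_smul_infty (z : ℍ) :
    heckeRep ℓ (∞ : OnePoint (ZMod ℓ)) • z = up ℓ none z := by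
  have hl : ℓ ≠ 0 := NeZero.ne ℓ
  apply UpperHalfPlane.ext
  rw [heckeRep_infty, coe_smul_of_det_pos (ModularForm.det_heckeDiagMatrix_pos ℓ), coe_up_none]
  simp [UpperHalfPlane.num, UpperHalfPlane.denom, ModularForm.val_heckeDiagMatrix hl]

theorem heckeRep_smul_coe (j : ZMod ℓ) (z : ℍ) :
    heckeRep ℓ (j : OnePoint (ZMod ℓ)) • z = up ℓ (some ⟨j.val, ZMod.val_lt j⟩) z := by
  have hl : ℓ ≠ 0 := NeZero.ne ℓ
  apply UpperHalfPlane.ext
  rw [heckeRep_coe, coe_smul_of_det_pos (ModularForm.det_heckeMatrix_pos ℓ _), coe_up_some]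
  simp [UpperHalfPlane.num, UpperHalfPlane.denom, ModularForm.val_heckeMatrix hl,
    -ZMod.natCast_val]

/-- The bijection between the two index sets of the Hecke maps. -/
def idx : OnePoint (ZMod ℓ) ≃ Option (Fin ℓ) :=
  Equiv.optionCongr
    { toFun := fun j => ⟨j.val, ZMod.val_lt j⟩
      invFun := fun b => ((b : ℕ) : ZMod ℓ)
      left_inv := fun j => ZMod.natCast_zmod_val j
      right_inv := fun b => Fin.ext (ZMod.val_cast_of_lt b.2) }

theorem heckeRep_smul (x : OnePoint (ZMod ℓ)) (z : ℍ) :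
    heckeRep ℓ x • z = up ℓ (idx ℓ x) z := by
  induction x using OnePoint.rec with
  | infty => exact heckeRep_smul_infty ℓ z
  | coe j => exact heckeRep_smul_coe ℓ j z

theorem prod_heckeRep (f : ℍ → ℂ) (z : ℍ) :
    ∏ x : OnePoint (ZMod ℓ), f (heckeRep ℓ x • z) = ∏ i : Option (Fin ℓ), f (up ℓ i z) := by
  rw [← Equiv.prod_comp (idx ℓ) fun i => f (up ℓ i z)]
  exact Finset.prod_congr rfl fun x _ => by rw [heckeRep_smul]

variable (ι : Qb →+* ℂ) (N : ℕ) [NeZero N]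

/-- **The analytic norm formula** with the Prelude coset system `heckeRep ℓ x`,
`x ∈ ℙ¹(𝔽_ℓ)` (`∞ ↦ z ↦ ℓ z`, `j ↦ z ↦ (z + j) / ℓ`): if `a / b` and `a' / b'` represent the
analytic realisations of `y ∈ F_N` and of `N_α(β y)`, then for all `z` in the upper half plane
`a'(z) · ∏_x b(α_x z) = b'(z) · ∏_x a(α_x z)`. -/
theorem norm_pointwise (hℓ : ℓ.Prime) (hℓN : ¬ ℓ ∣ N) (y : ↥(FN N))
    (a b a' b' : Mero.ring N)
    (hy : DataTau.PhiL ι N y * algebraMap (Mero.ring N) (Mero.Fld N) b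
      = algebraMap (Mero.ring N) (Mero.Fld N) a)
    (hy' : letI := algebraAlong (heckeAlphaBar Qb N ℓ)
      DataTau.PhiL ι N (Algebra.norm ↥(FN N) (heckeBetaBar Qb N ℓ y))
        * algebraMap (Mero.ring N) (Mero.Fld N) b' = algebraMap (Mero.ring N) (Mero.Fld N) a')
    (z : ℍ) :
    (a' : ℍ → ℂ) z * ∏ x : OnePoint (ZMod ℓ), (b : ℍ → ℂ) (heckeRep ℓ x • z)
      = (b' : ℍ → ℂ) z * ∏ x : OnePoint (ZMod ℓ), (a : ℍ → ℂ) (heckeRep ℓ x • z) := by
  rw [prod_heckeRep, prod_heckeRep]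
  exact norm_pointwise_up ι N ℓ hℓ hℓN y a b a' b' hy hy' z

end Rep2

end Fermat.Agent.S29.NormAn

end
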