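/-
S29 (wave 9), [IV], fact (H): Hecke equivariance of the relation `Emb.Rel`.

If `x = [D]`, `m • D = div y` and `a / b` is an `m`-th root of the analytic realisation of `y`
with multiplier `ζ_m^λ` on `Γ₀(N)`, then `T_ℓ x = [D']`, `m • D' = div (N_α(β y))`
(`HeckeDiv.heckeOperatorBar_mk_root`), and the pair `a' = ∏_x a ∘ α_x`, `b' = ∏_x b ∘ α_x`
(`α_x` the Hecke maps `z ↦ ℓ z`, `z ↦ (z + j) / ℓ`) is an `m`-th root of the analytic realisation
of `N_α(β y)` (`NormAn.poly_identity`) with multiplier `ζ_m^{tr_ℓ λ}`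
(`HeckeMul.prod_heckeRep_smul_frac`).
-/
import Fermat.Agent.S29.EmbIface
import Fermat.Agent.S29.NormAn
import Fermat.Agent.S29.HeckeMul
import Fermat.Agent.S29.HeckeDiv

set_option autoImplicit false
set_option synthInstance.maxHeartbeats 400000
set_option linter.style.haveILetI false
set_option linter.unusedSectionVars false

noncomputable section

open scoped MatrixGroups Real
open ModularCurve AlgebraicCurve UpperHalfPlane CongruenceSubgroup

namespace Fermat.Agent.S29.HeckeR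

open Fermat.Agent.S24 Fermat.Agent.S23 Fermat.Agent.S29.Transfer Fermat.Agent.S29.Emb
  Fermat.Agent.S29.NormAn
open P2MW.S_ModularForm_heckeT_slash_eq_self_of_mem_Gamma0.ModularForm.HeckeSlashInvariance

/-! ### Holomorphic functions on the upper half plane: cancellation and Hecke products -/

/-- Cancellation of a nonzero holomorphic factor. -/
theorem eq_of_mul_eq {G₁ G₂ K : ℍ → ℂ} (h1 : JN.Holo G₁) (h2 : JN.Holo G₂) (hK : JN.Holo K)
    (hK0 : ∃ z, K z ≠ 0) (h : ∀ z, G₁ z * K z = G₂ z * K z) (z : ℍ) : G₁ z = G₂ z := by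
  by_contra hne
  let fam : Bool → ℍ → ℂ := fun i => if i then (fun z => G₁ z - G₂ z) else K
  have hfam : ∀ i, JN.Holo (fam i) := by
    intro i
    cases i
    · exact hK
    · exact h1.sub h2
  have hfam0 : ∀ i, ∃ z, fam i z ≠ 0 := by
    intro i
    cases i
    · exact hK0
    · exact ⟨z, sub_ne_zero.mpr hne⟩
  obtain ⟨w, hw⟩ := JN.exists_common_ne_zero fam hfam hfam0
  have w1 : G₁ w - G₂ w ≠ 0 := hw true
  have w2 : K w ≠ 0 := hw false
  exact w1 (sub_eq_zero.mpr (mul_right_cancel₀ w2 (h w)))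

variable (ℓ : ℕ) [NeZero ℓ]

theorem holo_prod_up {f : ℍ → ℂ} (hf : JN.Holo f) :
    JN.Holo (fun z => ∏ i : Option (Fin ℓ), f (up ℓ i z)) := by
  have : ∀ i ∈ (Finset.univ : Finset (Option (Fin ℓ))),
      DifferentiableOn ℂ ((fun z => f (up ℓ i z)) ∘ ofComplex) {z : ℂ | 0 < z.im} :=
    fun i _ => holo_comp_up ℓ i hf
  exact (DifferentiableOn.finsetProd this).congr fun w _ => by
    simp only [Function.comp_apply, Finset.prod_apply]

theorem exists_prod_up_ne_zero {f : ℍ → ℂ} (hf : JN.Holo f) (hf0 : ∃ z, f z ≠ 0) :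
    ∃ z, ∏ i : Option (Fin ℓ), f (up ℓ i z) ≠ 0 := by
  obtain ⟨z₀, hz₀⟩ := hf0
  obtain ⟨w, hw⟩ := JN.exists_common_ne_zero (fun i : Option (Fin ℓ) => fun z => f (up ℓ i z))
    (fun i => holo_comp_up ℓ i hf)
    (fun i => by
      obtain ⟨w, hw⟩ := up_surjective ℓ i z₀
      exact ⟨w, by show f (up ℓ i w) ≠ 0; rw [hw]; exact hz₀⟩)
  exact ⟨w, Finset.prod_ne_zero_iff.mpr fun i _ => hw i⟩

theorem holo_prod_heckeRep {f : ℍ → ℂ} (hf : JN.Holo f) :
    JN.Holo (fun z => ∏ x : OnePoint (ZMod ℓ), f (heckeRep ℓ x • z)) := by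
  have : (fun z => ∏ x : OnePoint (ZMod ℓ), f (heckeRep ℓ x • z))
      = fun z => ∏ i : Option (Fin ℓ), f (up ℓ i z) := funext fun z => prod_heckeRep ℓ f z
  rw [this]
  exact holo_prod_up ℓ hf

theorem zeta_prod (m : ℕ) {σ : Type*} (s : Finset σ) (n : σ → ℤ) :
    ∏ x ∈ s, zeta m (n x) = zeta m (∑ x ∈ s, n x) := by
  classical
  induction s using Finset.induction_on with
  | empty => simp
  | insert a s ha ih => rw [Finset.prod_insert ha, Finset.sum_insert ha, zeta_add, ih]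


/-! ### Fact (H) -/

/-- **(H)** Hecke equivariance of the relation: `Rel λ x → Rel (tr_ℓ λ) (T_ℓ x)` for `ℓ ∤ N`. -/
theorem heckeStmt : Emb.HeckeStmt := by
  intro ι N _ m hm ℓ hℓN lam x hrel
  obtain ⟨y, D, a, b, hy, hD, rfl, ha, hb, hb0, hmul, P, Q, hQ, hPQ, hev⟩ := hrel
  haveI : NeZero (ℓ : ℕ) := ⟨ℓ.2.ne_zero⟩
  haveI : Fact (ℓ : ℕ).Prime := ⟨ℓ.2⟩
  obtain ⟨D', hD'mk, hD'⟩ := HeckeDiv.heckeOperatorBar_mk_root N ℓ D hy hD
  letI := algebraAlong (heckeAlphaBar Qb N ℓ)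
  have hy' : (Algebra.norm ↥(FF Qb N) (heckeBetaBar Qb N ℓ y) : ↥(FF Qb N)) ≠ 0 :=
    HeckeDiv.norm_beta_ne_zero N ℓ hy
  obtain ⟨P', Q', hQ', hyPQ'⟩ := Ext.exists_eq_div Qb N
    (Algebra.norm ↥(FF Qb N) (heckeBetaBar Qb N ℓ y))
  have e2 : (Algebra.norm ↥(FF Qb N) (heckeBetaBar Qb N ℓ y) : ↥(FF Qb N)) * evalL Qb N Q'
      = evalL Qb N P' := by
    rw [hyPQ', div_mul_cancel₀ _ hQ']
  have hP : evalL Qb N P ≠ 0 := by
    rw [← hPQ]
    exact mul_ne_zero hy hQ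
  refine ⟨Algebra.norm ↥(FF Qb N) (heckeBetaBar Qb N ℓ y), D',
    fun z => ∏ x : OnePoint (ZMod (ℓ : ℕ)), a (heckeRep (ℓ : ℕ) x • z),
    fun z => ∏ x : OnePoint (ZMod (ℓ : ℕ)), b (heckeRep (ℓ : ℕ) x • z),
    hy', hD', hD'mk, holo_prod_heckeRep (ℓ : ℕ) ha, holo_prod_heckeRep (ℓ : ℕ) hb, ?_, ?_,
    P', Q', hQ', e2, ?_⟩
  · -- `b' ≠ 0`
    obtain ⟨w, hw⟩ := exists_prod_up_ne_zero (ℓ : ℕ) hb (Function.ne_iff.mp hb0)
    intro h0
    apply hw
    have := congrFun h0 w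
    rw [← prod_heckeRep]
    exact this
  · -- the multiplier
    intro γ z
    have hab : ∀ (γ : Gamma0 N) (z : ℍ), a ((γ : SL(2, ℤ)) • z) * b z
        = zeta m ((lam : Additive (Gamma0 N) →+ ℤ) (Additive.ofMul γ)) * a z
          * b ((γ : SL(2, ℤ)) • z) := fun γ z => by
      rw [hmul γ z, mul_assoc]
    have key := HeckeMul.prod_heckeRep_smul_frac hℓN a b
      (fun γ => zeta m ((lam : Additive (Gamma0 N) →+ ℤ) (Additive.ofMul γ))) hab γ z
    have hz : ∏ x : OnePoint (ZMod (ℓ : ℕ)),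
        zeta m ((lam : Additive (Gamma0 N) →+ ℤ) (Additive.ofMul (delta hℓN γ x)))
        = zeta m (((trΛ N ℓ hℓN lam : Λ N) : Additive (Gamma0 N) →+ ℤ) (Additive.ofMul γ)) := by
      rw [zeta_prod, trΛ_apply]
    rw [hz] at key
    rw [key, mul_assoc]
  · -- the root identity
    intro z
    have hpoly := poly_identity ι N (ℓ : ℕ) ℓ.2 hℓN y P Q P' Q' hPQ e2
    have hcancel : ∀ z,
        ((∏ i : Option (Fin (ℓ : ℕ)), a (up (ℓ : ℕ) i z)) ^ m * fn ι N Q' z)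
          * ∏ i : Option (Fin (ℓ : ℕ)), fn ι N P (up (ℓ : ℕ) i z)
        = ((∏ i : Option (Fin (ℓ : ℕ)), b (up (ℓ : ℕ) i z)) ^ m * fn ι N P' z)
          * ∏ i : Option (Fin (ℓ : ℕ)), fn ι N P (up (ℓ : ℕ) i z) := by
      intro z
      have k1 : (∏ i : Option (Fin (ℓ : ℕ)), a (up (ℓ : ℕ) i z)) ^ m
            * ∏ i : Option (Fin (ℓ : ℕ)), fn ι N Q (up (ℓ : ℕ) i z)
          = (∏ i : Option (Fin (ℓ : ℕ)), b (up (ℓ : ℕ) i z)) ^ m
            * ∏ i : Option (Fin (ℓ : ℕ)), fn ι N P (up (ℓ : ℕ) i z) := by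
        rw [← Finset.prod_pow, ← Finset.prod_pow, ← Finset.prod_mul_distrib,
          ← Finset.prod_mul_distrib]
        exact Finset.prod_congr rfl fun i _ => hev (up (ℓ : ℕ) i z)
      have k2 := hpoly z
      linear_combination (fn ι N P' z) * k1
        - ((∏ i : Option (Fin (ℓ : ℕ)), a (up (ℓ : ℕ) i z)) ^ m) * k2
    have hholo1 : JN.Holo (fun z => (∏ i : Option (Fin (ℓ : ℕ)), a (up (ℓ : ℕ) i z)) ^ m
        * fn ι N Q' z) := ((holo_prod_up (ℓ : ℕ) ha).pow m).mul (holo_fn ι N Q')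
    have hholo2 : JN.Holo (fun z => (∏ i : Option (Fin (ℓ : ℕ)), b (up (ℓ : ℕ) i z)) ^ m
        * fn ι N P' z) := ((holo_prod_up (ℓ : ℕ) hb).pow m).mul (holo_fn ι N P')
    have hfinal := eq_of_mul_eq hholo1 hholo2 (holo_prod_up (ℓ : ℕ) (holo_fn ι N P))
      (exists_prod_up_ne_zero (ℓ : ℕ) (holo_fn ι N P) (exists_fn_ne_zero ι N P hP)) hcancel z
    show (∏ x : OnePoint (ZMod (ℓ : ℕ)), a (heckeRep (ℓ : ℕ) x • z)) ^ m * fn ι N Q' z
      = (∏ x : OnePoint (ZMod (ℓ : ℕ)), b (heckeRep (ℓ : ℕ) x • z)) ^ m * fn ι N P' z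
    rw [prod_heckeRep, prod_heckeRep]
    exact hfinal

end Fermat.Agent.S29.HeckeR

end
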