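/-
S29 (wave 9), [IV]: assembly of the existence statement `IV.KumExistsStmt` from the leaves of
`IVIface.lean`.

For `λ ∈ Λ`: `(THETA-FN)` gives `F ∈ Fld N` with multiplier `ζ^λ` and `F^m = an u`, `u ∈ FF ℂ N`;
`(PLACE-AN)` over `ℂ` makes `u` a Kummer function; `(KUM-FIN)` + `(DESC)` give
`u = c · w^m · h₁` with `h₁` the base change of `h₀ ∈ FF ℚ̄ N`; `(AN-COMPAT)` identifies the
analytic realisations, so `f = F / (c' · an w)` is an `m`-th root of `an h₀` with the same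
multiplier; `(PLACE-AN)` over `ℚ̄` gives `m ∣ ord_P h₀` for all places, hence the divisor
`D = (1/m) div h₀`, of degree zero, and the class of `D` is related to `λ`.
-/
import Fermat.Agent.S29.IVIface
import Fermat.Agent.S18.PHyp0

set_option autoImplicit false

noncomputable section

open scoped MatrixGroups
open ModularCurve AlgebraicCurve CongruenceSubgroup

namespace Fermat.Agent.S29.KumExists

open Fermat.Agent.S24 (FF)
open Fermat.Agent.S24.Mero (Fld actF)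
open Fermat.Agent.S29.IV

local notation "Qb" => AlgebraicClosure ℚ

/-- an integral parabolic homomorphism vanishes on elliptic and parabolic elements. -/
theorem lam_eq_zero {N : ℕ} (lam : Additive (Gamma0 N) →+ ℤ) (hlam : lam ∈ Lam N)
    (δ : Gamma0 N)
    (h : (∃ n : ℕ, 0 < n ∧ (δ : SL(2, ℤ)) ^ n = 1) ∨
      ((δ : SL(2, ℤ)) : Matrix (Fin 2) (Fin 2) ℤ).trace ^ 2 = 4) :
    lam (Additive.ofMul δ) = 0 := by
  rcases h with ⟨n, hn, hδ⟩ | h
  · have h1 : δ ^ n = 1 := Subtype.ext (by simpa using hδ)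
    have h2 : n • lam (Additive.ofMul δ) = 0 := by
      rw [← map_nsmul, ← ofMul_pow, h1, ofMul_one, map_zero]
    rcases smul_eq_zero.mp h2 with h3 | h3
    · exact absurd h3 hn.ne'
    · exact h3
  · exact hlam δ h

theorem cst_ne_zero (N : ℕ) {c : ℂ} (hc : c ≠ 0) : cst N c ≠ 0 := by
  intro h0
  have h1 : Fermat.Agent.S24.Mero.const N c = 0 :=
    IsFractionRing.injective (Fermat.Agent.S24.Mero.ring N) (Fld N) (by
      rw [map_zero]; exact h0)
  have h2 := congrFun (congrArg Subtype.val h1) UpperHalfPlane.I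
  exact hc h2

theorem actF_cst (N : ℕ) (γ : SL(2, ℤ)) (c : ℂ) : actF N γ (cst N c) = cst N c := by
  rw [cst, RingHom.comp_apply, Fermat.Agent.S24.Mero.actF_algebraMap,
    Fermat.Agent.S24.Mero.act_const]

theorem an_algebraMap (N : ℕ) [NeZero N] (c : ℂ) :
    an (RingHom.id ℂ) N (algebraMap ℂ ↥(FF ℂ N) c) = cst N c := by
  rw [an, Fermat.Agent.S24.DataTau.PhiL_algebraMap]
  rfl

/-- A function with multiplier `ζ^λ`, `λ ∈ Λ`, is fixed by elliptic and parabolic elements. -/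
theorem actF_eq_of_hasMult {N m : ℕ} {ζ : ℂ} {f : Fld N} {lam : Additive (Gamma0 N) →+ ℤ}
    (hlam : lam ∈ Lam N) (hf : HasMult N m ζ f (red N m lam)) (δ : SL(2, ℤ)) (hδ : δ ∈ Gamma0 N)
    (h : (∃ n : ℕ, 0 < n ∧ δ ^ n = 1) ∨ (δ : Matrix (Fin 2) (Fin 2) ℤ).trace ^ 2 = 4) :
    actF N δ f = f := by
  have h1 := hf ⟨δ, hδ⟩
  have h2 : lam (Additive.ofMul (⟨δ, hδ⟩ : Gamma0 N)) = 0 := lam_eq_zero lam hlam ⟨δ, hδ⟩ h
  rw [red_apply, h2] at h1
  simp only [Int.cast_zero, ZMod.val_zero, pow_zero] at h1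
  rw [h1, cst, map_one, one_mul]

/-- **(K1) from the leaves.** -/
theorem kumExistsStmt_of (hTh : ThetaFnStmt) (hPA : PlaceAnStmt) (hKF : KumFinStmt)
    (hDesc : DescStmt) (hAC : AnCompatStmt) : KumExistsStmt := by
  intro ι N m _ hm ζ hζ lam hlam
  have hζm : ζ ^ m = 1 := hζ.pow_eq_one
  obtain ⟨F, u, hF0, hFu, hFmult⟩ := hTh N m hm ζ hζm lam hlam
  have hu0 : u ≠ 0 := by
    rintro rfl
    rw [map_zero] at hFu
    exact hF0 ((pow_eq_zero_iff hm.ne').mp hFu)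
  have hKum : IsKum ℂ N m u :=
    ⟨hu0, fun P => hPA ℂ (RingHom.id ℂ) N m P u F hu0 hFu.symm
      (actF_eq_of_hasMult hlam hFmult)⟩
  obtain ⟨h₀, h₁, hh₀, hcoe, w, c, hw0, hc0, hrel⟩ := hDesc ι N m hm (hKF N m hm) u hKum
  obtain ⟨h₁', hcoe', han⟩ := hAC ι N h₀
  have h11 : h₁' = h₁ := Subtype.ext (hcoe'.trans hcoe.symm)
  rw [h11] at han
  obtain ⟨c', hc'⟩ : ∃ c' : ℂ, c' ^ m = c := IsAlgClosed.exists_pow_nat_eq c hm
  have hc'0 : c' ≠ 0 := by
    rintro rfl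
    rw [zero_pow hm.ne'] at hc'
    exact hc0 hc'.symm
  have hw0' : an (RingHom.id ℂ) N w ≠ 0 := by
    intro h0
    exact hw0 ((map_eq_zero_iff _ (an (RingHom.id ℂ) N).injective).mp h0)
  have hden : cst N c' * an (RingHom.id ℂ) N w ≠ 0 := mul_ne_zero (cst_ne_zero N hc'0) hw0'
  set f : Fld N := F / (cst N c' * an (RingHom.id ℂ) N w) with hfdef
  have hf : f ^ m = an ι N h₀ := by
    rw [han, hfdef, div_pow, hFu, hrel, map_mul, map_mul, map_pow, an_algebraMap, ← hc', cst_pow,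
      mul_pow]
    have e1 : cst N c' ^ m ≠ 0 := pow_ne_zero m (cst_ne_zero N hc'0)
    have e2 : an (RingHom.id ℂ) N w ^ m ≠ 0 := pow_ne_zero m hw0'
    field_simp
  have hfmult : HasMult N m ζ f (red N m lam) := by
    intro γ
    rw [hfdef, map_div₀, map_mul, actF_cst, hFmult γ,
      Fermat.Agent.S24.DataTau.actF_PhiL_of_mem (RingHom.id ℂ) N γ.2 w, mul_div_assoc]
  have hdvd : ∀ P : Place Qb ↥(FF Qb N), (m : ℤ) ∣ P.ord h₀ := fun P =>
    hPA Qb ι N m P h₀ f hh₀ hf.symm (actF_eq_of_hasMult hlam hfmult)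
  obtain ⟨D₀, hD₀, hdeg⟩ := (Fermat.Agent.S18.PHyp.hyp0_bar N).principal h₀ hh₀
  let D : Divisor Qb ↥(modularFunctionFieldBar N) :=
    D₀.mapRange (fun n => n / (m : ℤ)) (by simp)
  have hDv : ∀ P : Place Qb ↥(modularFunctionFieldBar N), (m : ℤ) * D P = P.ord h₀ := fun P => by
    show (m : ℤ) * (D₀.mapRange (fun n => n / (m : ℤ)) (by simp)) P = _
    rw [Finsupp.mapRange_apply, hD₀ P]
    exact Int.mul_ediv_cancel' (hdvd P)
  have hmD : (m : ℤ) • D = D₀ := Finsupp.ext fun P => by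
    rw [Finsupp.smul_apply, smul_eq_mul, hDv, hD₀]
  have hDdeg : D ∈ Divisor.degZero (K := Qb) (F := ↥(modularFunctionFieldBar N)) := by
    rw [Divisor.mem_degZero]
    have h1 : (m : ℤ) • Divisor.degree D = 0 := by rw [← map_zsmul, hmD, hdeg]
    rcases smul_eq_zero.mp h1 with h2 | h2
    · exact absurd h2 (by exact_mod_cast hm.ne')
    · exact h2
  exact ⟨Pic0.mk ⟨D, hDdeg⟩, D, hDdeg, h₀, f, rfl, hh₀, fun P => (hDv P).symm, hf, hfmult⟩

end Fermat.Agent.S29.KumExists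

end
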