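/-
S29 (wave 9), row [IV], Desc input `hfin`: **Kummer finiteness over `ℂ`**.

Up to `m`-th powers there are only finitely many nonzero functions `h` in the function field
`FF ℂ N` of `X₀(N)` over `ℂ` all of whose orders at the places are divisible by `m`.

Route (assembly): such an `h` is, up to an `m`-th power, a polynomial `G` in the `j (d z)`; the
holomorphic function `evalFun N G` on the upper half plane has all its orders divisible by `m`
(input `OrdStmt`: places are analytic), hence an `m`-th root `u` (`MRoot.exists_root_uhp`), which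
is multiplied by an `m`-th root of unity `σ γ` under every `γ ∈ Γ₀(N)`.  The values of `σ` on a
finite generating set of `Γ₀(N)` take finitely many values; if two roots `u`, `u'` have the same
values there, then `u * u' ^ (m - 1)` is `Γ₀(N)`-invariant, hence a rational function of the
`j (d z)` (input `InvStmt`), which makes the two functions equal up to an `m`-th power.
-/
import Mathlib
import Fermat.Agent.S24.Mod.DataTau
import Fermat.Agent.S24.MeroPoint
import Fermat.Agent.S29.MRoot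

set_option autoImplicit false

noncomputable section

open scoped MatrixGroups
open UpperHalfPlane ModularCurve CongruenceSubgroup AlgebraicCurve

namespace Fermat.Agent.S29.KumFin

open Fermat.Agent.S23 Fermat.Agent.S24

/-! ### The two inputs -/

/-- Input "places are analytic" (easy direction): a nonzero function on `X₀(N)` over `ℂ` all of
whose orders at the places are divisible by `m` has all its orders on the upper half plane
divisible by `m`. -/
def OrdStmt (N : ℕ) [NeZero N] (m : ℕ) : Prop :=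
  ∀ h : ↥(FF ℂ N), h ≠ 0 → (∀ P : Place ℂ ↥(FF ℂ N), (m : ℤ) ∣ P.ord h) →
    ∀ z : ℍ, (m : ℤ) ∣ Mero.ordAt N z (DataTau.PhiL (RingHom.id ℂ) N h)

/-- Input "invariant functions are algebraic", holomorphic form: a holomorphic `Γ₀(N)`-invariant
function on the upper half plane whose `m`-th power is a polynomial in the `j (d z)`, `d ∣ N`, is
a rational function of the `j (d z)`. -/
def InvStmt (N : ℕ) [NeZero N] (m : ℕ) : Prop :=
  ∀ f : ℍ → ℂ, JN.Holo f → (∀ γ ∈ Gamma0 N, ∀ z : ℍ, f (γ • z) = f z) →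
    ∀ G : MvPolynomial (Dv N) ℂ, (∀ z : ℍ, f z ^ m = evalFun N G z) →
      ∃ P Q : MvPolynomial (Dv N) ℂ, evalFun N Q ≠ 0 ∧
        ∀ z : ℍ, f z * evalFun N Q z = evalFun N P z

/-! ### Polynomials in the `j (d z)` as functions -/

variable (N : ℕ) [NeZero N]

theorem coe_evalRing_id (G : MvPolynomial (Dv N) ℂ) :
    ((DataTau.evalRing (RingHom.id ℂ) N G : Mero.ring N) : ℍ → ℂ) = evalFun N G := by
  rw [DataTau.coe_evalRing, MvPolynomial.map_id]

theorem holo_evalFun (G : MvPolynomial (Dv N) ℂ) : JN.Holo (evalFun N G) := by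
  rw [← coe_evalRing_id]
  exact Mero.holo_of_mem _

theorem evalL_eq_zero_iff (G : MvPolynomial (Dv N) ℂ) :
    evalL ℂ N G = 0 ↔ evalFun N G = 0 := by
  rw [Bridge.bridgeL (RingHom.id ℂ) N G, MvPolynomial.map_id]

theorem evalRing_ne_zero {G : MvPolynomial (Dv N) ℂ} (hG : evalL ℂ N G ≠ 0) :
    DataTau.evalRing (RingHom.id ℂ) N G ≠ 0 := fun h =>
  hG ((DataTau.evalRing_eq_zero_iff (RingHom.id ℂ) N G).mp h)

theorem evalFun_smul {γ : SL(2, ℤ)} (hγ : γ ∈ Gamma0 N) (G : MvPolynomial (Dv N) ℂ) (z : ℍ) :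
    evalFun N G (γ • z) = evalFun N G z := by
  induction G using MvPolynomial.induction_on with
  | C c => simp only [evalFun, MvPolynomial.aeval_C]; rfl
  | add p q hp hq => rw [map_add, Pi.add_apply, Pi.add_apply, hp, hq]
  | mul_X p d hp =>
    rw [map_mul, Pi.mul_apply, Pi.mul_apply, hp]
    congr 1
    simp only [evalFun, MvPolynomial.aeval_X]
    have : NeZero d.1 := ⟨d.ne_zero⟩
    exact JN.jN_smul_of_mem_Gamma0 d.1 (Mero.Gamma0_le_of_dvd d.2 hγ) z

/-! ### Roots -/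

/-- Under `OrdStmt`, the analytic orders of a Kummer polynomial are divisible by `m`. -/
theorem exists_order_eq {m : ℕ} (hPA : OrdStmt N m) (G : MvPolynomial (Dv N) ℂ)
    (hG : evalL ℂ N G ≠ 0) (hdiv : ∀ P : Place ℂ ↥(FF ℂ N), (m : ℤ) ∣ P.ord (evalL ℂ N G))
    (z : ℍ) :
    ∃ k : ℕ, analyticOrderAt (evalFun N G ∘ ofComplex) (z : ℂ) = ((m * k : ℕ) : ℕ∞) := by
  have h1 := hPA _ hG hdiv z
  rw [DataTau.PhiL_evalL] at h1
  have hne := evalRing_ne_zero N hG
  have h2 := Mero.ordRing_eq_coe_ord (Mero.isChart_point N z) hne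
  rw [Mero.ordRing, coe_evalRing_id] at h2
  have han : AnalyticAt ℂ (evalFun N G ∘ ofComplex) (z : ℂ) := by
    have := Mero.analyticAt_comp_ofComplex (DataTau.evalRing (RingHom.id ℂ) N G) z
    rwa [coe_evalRing_id] at this
  rw [han.meromorphicOrderAt_eq] at h2
  change (m : ℤ) ∣ Mero.ord (Mero.isChart_point N z) _ at h1
  cases hn : analyticOrderAt (evalFun N G ∘ ofComplex) (z : ℂ) with
  | top => rw [hn] at h2; simp at h2
  | coe n =>
    rw [hn] at h2
    have h3 : ((n : ℤ) : WithTop ℤ) = ((Mero.ord (Mero.isChart_point N z)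
        (algebraMap (Mero.ring N) (Mero.Fld N) (DataTau.evalRing (RingHom.id ℂ) N G)) : ℤ) :
          WithTop ℤ) := by
      rw [← h2]; rfl
    have h4 : (n : ℤ) = Mero.ord (Mero.isChart_point N z)
        (algebraMap (Mero.ring N) (Mero.Fld N) (DataTau.evalRing (RingHom.id ℂ) N G)) :=
      WithTop.coe_injective h3
    rw [← h4] at h1
    obtain ⟨k, hk⟩ := Int.natCast_dvd_natCast.mp h1
    exact ⟨k, by rw [hk]⟩

/-- Under `OrdStmt`, a Kummer polynomial has a holomorphic `m`-th root. -/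
theorem exists_root {m : ℕ} (hm : 0 < m) (hPA : OrdStmt N m) (G : MvPolynomial (Dv N) ℂ)
    (hG : evalL ℂ N G ≠ 0) (hdiv : ∀ P : Place ℂ ↥(FF ℂ N), (m : ℤ) ∣ P.ord (evalL ℂ N G)) :
    ∃ u : ℍ → ℂ, JN.Holo u ∧ ∀ z : ℍ, u z ^ m = evalFun N G z :=
  MRoot.exists_root_uhp hm (holo_evalFun N G) (exists_order_eq N hPA G hG hdiv)

/-- The multiplier of a root under an element of `Γ₀(N)`. -/
theorem exists_multiplier {m : ℕ} (hm : 0 < m) {G : MvPolynomial (Dv N) ℂ}
    (hG : evalL ℂ N G ≠ 0) {u : ℍ → ℂ} (hu : JN.Holo u) (hum : ∀ z : ℍ, u z ^ m = evalFun N G z)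
    {γ : SL(2, ℤ)} (hγ : γ ∈ Gamma0 N) :
    ∃ ζ : ℂ, ζ ^ m = 1 ∧ ∀ z : ℍ, u (γ • z) = ζ * u z := by
  have hne : ∃ z : ℍ, u z ≠ 0 := by
    by_contra hcon
    push Not at hcon
    apply hG
    rw [evalL_eq_zero_iff]
    funext z
    rw [← hum z, hcon z, zero_pow hm.ne']
    rfl
  exact MRoot.exists_const_of_pow_eq_uhp hm (Mero.holo_comp_smul hu γ) hu
    (fun z => by rw [hum, hum, evalFun_smul N hγ]) hne

/-- `u` has multipliers `σ` on the set `s` of elements of `Γ₀(N)`. -/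
def Sig (s : Finset (Gamma0 N)) (u : ℍ → ℂ) (σ : s → ℂ) : Prop :=
  ∀ (γ : s) (z : ℍ), u (((γ : Gamma0 N) : SL(2, ℤ)) • z) = σ γ * u z

theorem exists_sig {m : ℕ} (hm : 0 < m) (s : Finset (Gamma0 N)) {G : MvPolynomial (Dv N) ℂ}
    (hG : evalL ℂ N G ≠ 0) {u : ℍ → ℂ} (hu : JN.Holo u)
    (hum : ∀ z : ℍ, u z ^ m = evalFun N G z) :
    ∃ σ : s → ℂ, (∀ γ, σ γ ^ m = 1) ∧ Sig N s u σ := by
  have h : ∀ γ : s, ∃ ζ : ℂ, ζ ^ m = 1 ∧
      ∀ z : ℍ, u (((γ : Gamma0 N) : SL(2, ℤ)) • z) = ζ * u z := fun γ =>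
    exists_multiplier N hm hG hu hum (γ : Gamma0 N).2
  choose σ hσ hσu using h
  exact ⟨σ, hσ, hσu⟩

omit [NeZero N] in
/-- Two functions with the same multipliers on a generating set: `u * u' ^ (m - 1)` is
invariant. -/
theorem invariant_of_sig {m : ℕ} (hm : 0 < m) (s : Finset (Gamma0 N))
    (hs : Subgroup.closure (s : Set (Gamma0 N)) = ⊤) {u u' : ℍ → ℂ} {σ : s → ℂ}
    (hσ : ∀ γ, σ γ ^ m = 1) (h : Sig N s u σ) (h' : Sig N s u' σ)
    {γ : SL(2, ℤ)} (hγ : γ ∈ Gamma0 N) (z : ℍ) :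
    u (γ • z) * u' (γ • z) ^ (m - 1) = u z * u' z ^ (m - 1) := by
  let H : Subgroup (Gamma0 N) :=
    { carrier := {g | ∀ z : ℍ, u ((g : SL(2, ℤ)) • z) * u' ((g : SL(2, ℤ)) • z) ^ (m - 1)
        = u z * u' z ^ (m - 1)}
      mul_mem' := by
        intro a b ha hb z
        have e : (((a * b : Gamma0 N) : SL(2, ℤ)) • z) = (a : SL(2, ℤ)) • ((b : SL(2, ℤ)) • z) := by
          rw [Subgroup.coe_mul, mul_smul]
        rw [e, ha, hb]
      one_mem' := by
        intro z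
        simp
      inv_mem' := by
        intro a ha z
        have := ha ((((a⁻¹ : Gamma0 N) : SL(2, ℤ))) • z)
        rw [← this]
        simp }
  have hle : Subgroup.closure (s : Set (Gamma0 N)) ≤ H := by
    rw [Subgroup.closure_le]
    intro g hg z
    have e1 := h ⟨g, hg⟩ z
    have e2 := h' ⟨g, hg⟩ z
    simp only at e1 e2
    rw [e1, e2, mul_pow, mul_mul_mul_comm, ← pow_succ', Nat.sub_add_cancel hm, hσ ⟨g, hg⟩, one_mul]
  have hmem : (⟨γ, hγ⟩ : Gamma0 N) ∈ H := hle (by rw [hs]; trivial)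
  exact hmem z

/-! ### The finiteness theorem -/

/-- `Γ₀(N)` is finitely generated. -/
theorem exists_gens : ∃ s : Finset (Gamma0 N), Subgroup.closure (s : Set (Gamma0 N)) = ⊤ := by
  have : Group.FG SL(2, ℤ) := by
    rw [Group.fg_iff]
    exact ⟨{ModularGroup.S, ModularGroup.T}, SpecialLinearGroup.SL2Z_generators, by simp⟩
  have h : Group.FG (Gamma0 N) := inferInstance
  exact Group.fg_def.mp h

/-- **Kummer finiteness over `ℂ`**, from the two inputs. -/
theorem exists_finite_of {m : ℕ} (hm : 0 < m) (hPA : OrdStmt N m) (hInv : InvStmt N m) :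
    ∃ S : Set ↥(FF ℂ N), S.Finite ∧ ∀ h : ↥(FF ℂ N), h ≠ 0 →
      (∀ P : Place ℂ ↥(FF ℂ N), (m : ℤ) ∣ P.ord h) →
        ∃ s ∈ S, ∃ (u : ↥(FF ℂ N)) (c : ℂ), u ≠ 0 ∧ c ≠ 0 ∧
          h = algebraMap ℂ ↥(FF ℂ N) c * u ^ m * s := by
  classical
  obtain ⟨s, hs⟩ := exists_gens N
  -- the polynomials with a root of given multipliers
  let Good : (s → ℂ) → MvPolynomial (Dv N) ℂ → Prop := fun σ G =>
    evalL ℂ N G ≠ 0 ∧ ∃ u : ℍ → ℂ, JN.Holo u ∧ (∀ z : ℍ, u z ^ m = evalFun N G z) ∧ Sig N s u σ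
  let rep : (s → ℂ) → ↥(FF ℂ N) := fun σ =>
    if h : ∃ G, Good σ G then evalL ℂ N h.choose else 1
  let T : Finset (s → ℂ) := Fintype.piFinset fun _ => Polynomial.nthRootsFinset m (1 : ℂ)
  refine ⟨rep '' (T : Set (s → ℂ)), T.finite_toSet.image rep, ?_⟩
  intro h hh hdiv
  obtain ⟨k, rfl⟩ : ∃ k, m = k + 1 := ⟨m - 1, by omega⟩
  -- reduce to a polynomial
  obtain ⟨P, Q, hQ, rfl⟩ := Ext.exists_eq_div ℂ N h
  have hP : evalL ℂ N P ≠ 0 := by
    intro h0
    rw [h0, zero_div] at hh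
    exact hh rfl
  have hG : evalL ℂ N (P * Q ^ k) ≠ 0 := by
    rw [map_mul, map_pow]
    exact mul_ne_zero hP (pow_ne_zero _ hQ)
  have hGe : evalL ℂ N (P * Q ^ k) = evalL ℂ N P / evalL ℂ N Q * evalL ℂ N Q ^ (k + 1) := by
    rw [map_mul, map_pow]
    field_simp
    ring
  have hGdiv : ∀ P' : Place ℂ ↥(FF ℂ N), ((k + 1 : ℕ) : ℤ) ∣ P'.ord (evalL ℂ N (P * Q ^ k)) := by
    intro P'
    rw [hGe, P'.ord_mul hh (pow_ne_zero _ hQ), ← zpow_natCast, P'.ord_zpow]
    exact dvd_add (hdiv P') (Dvd.intro _ rfl)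
  obtain ⟨u, hu, hum⟩ := exists_root N hm hPA _ hG hGdiv
  obtain ⟨σ, hσ, hsig⟩ := exists_sig N hm s hG hu hum
  have hσT : σ ∈ T := by
    rw [Fintype.mem_piFinset]
    intro γ
    rw [Polynomial.mem_nthRootsFinset hm]
    exact hσ γ
  have hex : ∃ G', Good σ G' := ⟨_, hG, u, hu, hum, hsig⟩
  refine ⟨rep σ, ⟨σ, hσT, rfl⟩, ?_⟩
  have hrep : rep σ = evalL ℂ N hex.choose := dif_pos hex
  obtain ⟨hG', u', hu', hum', hsig'⟩ := hex.choose_spec
  generalize hex.choose = G' at hrep hG' hum'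
  -- the invariant function
  have hf : JN.Holo (fun z => u z * u' z ^ k) := hu.mul (hu'.pow k)
  have hfinv : ∀ γ ∈ Gamma0 N, ∀ z : ℍ, u (γ • z) * u' (γ • z) ^ k = u z * u' z ^ k :=
    fun γ hγ z => invariant_of_sig N hm s hs hσ hsig hsig' hγ z
  have hfpow : ∀ z : ℍ, (u z * u' z ^ k) ^ (k + 1) = evalFun N (P * Q ^ k * G' ^ k) z := by
    intro z
    have e : evalFun N (P * Q ^ k * G' ^ k) z
        = evalFun N (P * Q ^ k) z * evalFun N G' z ^ k := by
      rw [map_mul (evalFun N) (P * Q ^ k), map_pow]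
      rfl
    rw [e, mul_pow, ← pow_mul, mul_comm k (k + 1), pow_mul, hum, hum']
  obtain ⟨P', Q', hQ', hPQ⟩ := hInv _ hf hfinv _ hfpow
  have key : evalL ℂ N (P * Q ^ k * G' ^ k * Q' ^ (k + 1)) = evalL ℂ N (P' ^ (k + 1)) := by
    rw [← sub_eq_zero, ← map_sub, evalL_eq_zero_iff]
    funext z
    rw [map_sub, map_mul, map_pow, map_pow, Pi.sub_apply, Pi.mul_apply, Pi.pow_apply,
      Pi.pow_apply, ← hfpow z, ← mul_pow, hPQ z, sub_self]
    rfl
  have hQ'0 : evalL ℂ N Q' ≠ 0 := fun h0 => hQ' ((evalL_eq_zero_iff N Q').mp h0)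
  rw [map_mul, map_mul, map_mul, map_pow, map_pow, map_pow, map_pow] at key
  refine ⟨evalL ℂ N P' / (evalL ℂ N Q' * evalL ℂ N G') / evalL ℂ N Q, 1, ?_, one_ne_zero, ?_⟩
  · have hP'0 : evalL ℂ N P' ≠ 0 := by
      intro h0
      rw [h0, zero_pow (Nat.succ_ne_zero k)] at key
      exact mul_ne_zero (mul_ne_zero (mul_ne_zero hP (pow_ne_zero _ hQ)) (pow_ne_zero _ hG'))
        (pow_ne_zero _ hQ'0) key
    exact div_ne_zero (div_ne_zero hP'0 (mul_ne_zero hQ'0 hG')) hQ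
  · rw [map_one, one_mul, hrep, div_pow, div_pow, ← key, mul_pow]
    field_simp
    ring

end Fermat.Agent.S29.KumFin

end
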