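/-
S29 (wave 9), leaf (c3) of the [IV] chain: PLACES ARE ANALYTIC.

`L` is an algebraically closed field of characteristic zero with an embedding `ι : L →+* ℂ`
(`L = ℂ`, `ι = id` or `L = AlgebraicClosure ℚ`), `FF L N` the function field of `X₀(N)` over `L`,
`an := S24.DataTau.PhiL ι N : FF L N →+* Mero.Fld N` its analytic realisation (S24).

* `PlaceAn.exists_chart` (PA1): every place `P` of `FF L N` is the normalised order at a point of
  the upper half plane or at the cusp of a translate `f ↦ (an f) ∘ γ`; the analytic order is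
  `c * P.ord` (`c` = ramification index), and `c` divides the analytic order of every element of
  `Mero.Fld N` fixed by a generator `δ ∈ Γ₀(N)` of the stabiliser, which has finite order or is
  parabolic (`trace ^ 2 = 4`).
* `PlaceAn.dvd_ord_of_pow`: consumer form: if `an h = F ^ m` with `F ∈ Mero.Fld N` fixed by all
  finite-order and parabolic elements of `Γ₀(N)`, then `m ∣ P.ord h` for every place `P`.
* `PlaceAn.dvd_ordAt` (PA2), `PlaceAn.exists_orders`: if `m ∣ P.ord h` for every place `P`, then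
  `m` divides the analytic order of `an h` at every point of the upper half plane.

Abstract inputs: `exists_index_of_place` (every place over the zero of `y` is cut out by an
embedding of a valuation datum, with the exact ramification `m / d`; from `S24.Orbit`),
`dvd_log_of_forall_dvd` (a `ℤ`-valued valuation on a function field is trivial or a multiple of
the order at a place).
-/
import Fermat.Agent.S24.Main
import Fermat.Agent.S24.Mod.DataCore

set_option autoImplicit false

noncomputable section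

open AlgebraicCurve IntermediateField WithZero IsDedekindDomain
open scoped IntermediateField.algebraAdjoinAdjoin

namespace Fermat.Agent.S29.PlaceAn

open Fermat.Agent.S24

section Unit

variable {A K L B : Type*} [CommRing A]
  [Field L] [Algebra A L]
  [CommRing B] [IsDedekindDomain B] [Algebra A B] [Algebra B L] [IsScalarTower A B L]
  [IsFractionRing B L]
  {Ω : Type*} [Field Ω] (w : Valuation Ω ℤᵐ⁰)
  {I : Type*} (ι : I → L →+* Ω)

/-- If the `i`-th embedding cuts out the prime `v`, then `log (w ∘ ι i)` is an integer multiple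
of `log v`. -/
theorem exists_log_eq (hint : ∀ i (b : B), w (ι i (algebraMap B L b)) ≤ 1) (i : I)
    (v : HeightOneSpectrum B) (hv : Orbit.primeOf w ι hint i = v.asIdeal) :
    ∃ t : ℤ, ∀ f : L, f ≠ 0 → log (w (ι i f)) = t * log (v.valuation L f) := by
  obtain ⟨π, hπ⟩ := v.valuation_exists_uniformizer L
  have hπ0 : π ≠ 0 := by
    rintro rfl
    rw [map_zero] at hπ
    exact exp_ne_zero hπ.symm
  refine ⟨-log (w (ι i π)), fun f hf => ?_⟩
  have hvf : v.valuation L f ≠ 0 := (Valuation.ne_zero_iff _).mpr hf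
  set n : ℤ := log (v.valuation L f) with hn
  have hu : v.valuation L (f * π ^ n) = 1 := by
    rw [map_mul, map_zpow₀, hπ, ← exp_log hvf, ← hn, ← exp_zsmul, ← exp_add, ← exp_zero]
    congr 1
    simp
  have h1 := Orbit.val_eq_one_of_valuation_eq_one w ι hint i v hv _ hu
  rw [map_mul, map_mul, map_zpow₀, map_zpow₀] at h1
  have hwf : w (ι i f) ≠ 0 := (Valuation.ne_zero_iff _).mpr ((map_ne_zero _).mpr hf)
  have hwπ : w (ι i π) ≠ 0 := (Valuation.ne_zero_iff _).mpr ((map_ne_zero _).mpr hπ0)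
  have h2 := congrArg log h1
  rw [log_mul hwf (zpow_ne_zero _ hwπ), log_zpow, log_one, smul_eq_mul] at h2
  linarith

end Unit

section Index

variable {K F : Type*} [Field K] [Field F] [Algebra K F] [IsAlgClosed K] [CharZero K]
variable {Ω : Type*} [Field Ω] (w : Valuation Ω ℤᵐ⁰) (y : F) {I : Type*} (σ : Equiv.Perm I)
  (m : ℕ) (τ : I → F →+* Ω)

/-- **Places over the zero of `y` are cut out by the embeddings of a valuation datum**, with the
exact ramification: for every place `v` with `0 < v.ord y` there are an index `i` and a period `d`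
of `i` under `σ` with `d ∣ m` and `log (w (τ i f)) = -(m / d) * v.ord f` for all `f ≠ 0`. -/
theorem exists_index_of_place [FiniteDimensional K⟮y⟯ F] [Finite I]
    (hI : Module.finrank K⟮y⟯ F ≤ Nat.card I)
    (τ_injective : Function.Injective τ)
    (τ_const : ∀ i j (c : K), τ i (algebraMap K F c) = τ j (algebraMap K F c))
    (w_const : ∀ i (c : K), c ≠ 0 → w (τ i (algebraMap K F c)) = 1)
    (τ_y : ∀ i j, τ i y = τ j y)
    (m_pos : 0 < m)
    (w_y : ∀ i, w (τ i y) = exp (-(m : ℤ)))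
    (w_σ : ∀ i (f : F), w (τ (σ i) f) = w (τ i f))
    (dvd : ∀ i (d : ℕ), (σ ^ d) i = i → ∀ f : F, f ≠ 0 →
      ((m / Nat.gcd m d : ℕ) : ℤ) ∣ log (w (τ i f)))
    (v : Place K F) (hv : 0 < v.ord y) :
    ∃ (i : I) (d : ℕ), 0 < d ∧ (σ ^ d) i = i ∧ d ∣ m ∧
      ∀ f : F, f ≠ 0 → log (w (τ i f)) = -(((m / d : ℕ) : ℤ) * v.ord f) := by
  classical
  have := Fintype.ofFinite I
  have hpos : 0 < Module.finrank K⟮y⟯ F := Module.finrank_pos
  have hne : Nonempty I := by
    have h1 : 0 < Nat.card I := lt_of_lt_of_le hpos hI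
    exact (Nat.card_pos_iff.mp h1).1
  have hy := LocalCount.transcendental_of_val w y m τ w_const m_pos w_y
  have hy0 : y ≠ 0 := fun h0 => hy (h0 ▸ isAlgebraic_zero)
  have hPIR : IsPrincipalIdealRing (Algebra.adjoin K {y}) :=
    PlaceDict.isPrincipalIdealRing_adjoin K y
  have hchar : CharZero F := charZero_of_injective_algebraMap (algebraMap K F).injective
  have hsep : Algebra.IsSeparable K⟮y⟯ F := inferInstance
  have hagree : ∀ i j (z : K⟮y⟯), τ i (algebraMap K⟮y⟯ F z) = τ j (algebraMap K⟮y⟯ F z) := by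
    intro i j z
    obtain ⟨z, hz⟩ := z
    show τ i z = τ j z
    induction hz using IntermediateField.adjoin_induction with
    | mem x hx =>
      rw [Set.mem_singleton_iff] at hx
      rw [hx]
      exact τ_y i j
    | algebraMap c => exact τ_const i j c
    | add a b _ _ ha hb => rw [map_add, map_add, ha, hb]
    | inv a _ ha => rw [map_inv₀, map_inv₀, ha]
    | mul a b _ _ ha hb => rw [map_mul, map_mul, ha, hb]
  have hcard : Fintype.card I = Module.finrank K⟮y⟯ F :=
    le_antisymm (LocalCount.card_le_finrank τ τ_injective hagree)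
      (by rwa [Nat.card_eq_fintype_card] at hI)
  have hA : ∀ i (a : Algebra.adjoin K {y}),
      w (τ i (algebraMap (Algebra.adjoin K {y}) F a)) ≤ 1 := by
    intro i a
    obtain ⟨a, ha⟩ := a
    show w (τ i a) ≤ 1
    induction ha using Algebra.adjoin_induction with
    | mem x hx =>
      rw [Set.mem_singleton_iff] at hx
      rw [hx, w_y i, ← exp_zero, exp_le_exp]
      omega
    | algebraMap c =>
      rcases eq_or_ne c 0 with rfl | hc
      · simp
      · exact (w_const i c hc).le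
    | add a b _ _ ha hb =>
      rw [map_add]
      exact le_trans (w.map_add _ _) (max_le ha hb)
    | mul a b _ _ ha hb =>
      rw [map_mul, map_mul]
      exact mul_le_one' ha hb
  have hw : ∀ i, w (τ i (algebraMap (Algebra.adjoin K {y}) F (PlaceDict.gen K y))) =
      exp (-(m : ℤ)) := fun i => w_y i
  have hw1 : ∀ i, w (τ i (algebraMap (Algebra.adjoin K {y}) F (PlaceDict.gen K y))) < 1 := by
    intro i
    rw [hw i, ← exp_zero, exp_lt_exp]
    omega
  have hmax := PlaceDict.span_gen_isMaximal hy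
  have hgen0 := PlaceDict.gen_ne_zero hy
  have hf : ∀ P : Ideal (integralClosure (Algebra.adjoin K {y}) F), P.IsPrime →
      P.LiesOver (Ideal.span {PlaceDict.gen K y}) → P.inertiaDeg (Algebra.adjoin K {y}) = 1 :=
    fun P hP1 hP2 => PlaceDict.inertiaDeg_eq_one (Ideal.span {PlaceDict.gen K y}) P
      (PlaceDict.exists_sub_mem_span_gen K y)
  have hzpow : ∀ (n : ℤ) (i : I) (f : F), w (τ ((σ ^ n) i) f) = w (τ i f) := by
    intro n
    induction n using Int.induction_on with
    | zero => intro i f; simp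
    | succ n ih =>
      intro i f
      rw [zpow_add_one, Equiv.Perm.mul_apply, ih, w_σ]
    | pred n ih =>
      intro i f
      rw [zpow_sub_one, Equiv.Perm.mul_apply, ih]
      have h := w_σ (σ⁻¹ i) f
      have h2 : σ (σ⁻¹ i) = i := by simp
      rw [h2] at h
      exact h.symm
  have hinv : ∀ (g : Subgroup.zpowers σ) (i : I) (f : F), w (τ (g • i) f) = w (τ i f) := by
    rintro ⟨g, hg⟩ i f
    obtain ⟨n, rfl⟩ := Subgroup.mem_zpowers_iff.mp hg
    exact hzpow n i f
  have hper : ∀ i : I, (MulAction.orbit (Subgroup.zpowers σ) i).ncard =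
      Function.minimalPeriod (σ • ·) i := by
    intro i
    rw [MulAction.minimalPeriod_eq_card, ← Nat.card_eq_fintype_card, Nat.card_coe_set_eq]
  have hdiv : ∀ i : I, ∃ c : ℕ, m ∣ c * (MulAction.orbit (Subgroup.zpowers σ) i).ncard ∧
      ∀ f : F, f ≠ 0 → (c : ℤ) ∣ log (w (τ i f)) := by
    intro i
    have hs := hper i
    set s := Function.minimalPeriod (σ • ·) i with hs_def
    have hfix : (σ ^ s) i = i :=
      (MulAction.pow_smul_eq_iff_minimalPeriod_dvd (a := σ) (b := i) (n := s)).mpr dvd_rfl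
    refine ⟨m / Nat.gcd m s, ?_, dvd i s hfix⟩
    rw [hs]
    obtain ⟨a, ha⟩ := Nat.gcd_dvd_left m s
    obtain ⟨b, hb⟩ := Nat.gcd_dvd_right m s
    have hg : 0 < Nat.gcd m s := Nat.gcd_pos_of_pos_left s m_pos
    have hga : m / Nat.gcd m s = a := Nat.div_eq_of_eq_mul_right hg ha
    refine ⟨b, ?_⟩
    rw [hga]
    calc a * s = a * (Nat.gcd m s * b) := congrArg (a * ·) hb
      _ = Nat.gcd m s * a * b := by ring
      _ = m * b := by rw [← ha]
  obtain ⟨-, hram⟩ := Orbit.orbit_structure (K := K⟮y⟯)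
    (B := integralClosure (Algebra.adjoin K {y}) F) w τ τ_injective hcard hagree hA
    (PlaceDict.gen K y) hmax hgen0 m m_pos hw hf hinv hdiv
  -- the prime under `v`
  have hB : ∀ b : integralClosure (Algebra.adjoin K {y}) F,
      algebraMap (integralClosure (Algebra.adjoin K {y}) F) F b ∈ v.toValuationSubring :=
    fun b => PlaceDict.integralClosure_mem_of_mem v (PlaceDict.mem_of_ord_pos v hv) b
  have hDed : IsDedekindDomain (integralClosure (Algebra.adjoin K {y}) F) :=
    IsIntegralClosure.isDedekindDomain (Algebra.adjoin K {y}) K⟮y⟯ F _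
  have hfrac : IsFractionRing (integralClosure (Algebra.adjoin K {y}) F) F :=
    IsIntegralClosure.isFractionRing_of_finite_extension (Algebra.adjoin K {y}) K⟮y⟯ F _
  have hP1 := PlaceDict.primeUnder_isPrime v hB
  have hP2 := PlaceDict.primeUnder_liesOver hy v hv hB
  have hPne : PlaceDict.primeUnder v hB ≠ ⊥ := fun h0 =>
    PlaceDict.algebraMap_gen_ne_zero hy
      ((Ideal.mem_bot).mp (h0 ▸ PlaceDict.algebraMap_gen_mem_primeUnder v hv hB))
  have hint := Orbit.val_le_one_of_mem (B := integralClosure (Algebra.adjoin K {y}) F) w τ hA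
  obtain ⟨i, hi⟩ := Orbit.exists_primeOf_eq (K := K⟮y⟯) w τ hint τ_injective hcard hagree
    (PlaceDict.gen K y) hgen0 hw1 (PlaceDict.primeUnder v hB)
  let vP : HeightOneSpectrum (integralClosure (Algebra.adjoin K {y}) F) :=
    ⟨PlaceDict.primeUnder v hB, hP1, hPne⟩
  have hval := PlaceDict.valuationSubring_eq' v hB vP rfl
  have hK : ∀ a : K, ∃ b : integralClosure (Algebra.adjoin K {y}) F,
      algebraMap (integralClosure (Algebra.adjoin K {y}) F) F b = algebraMap K F a := fun a =>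
    ⟨algebraMap (Algebra.adjoin K {y}) _ (algebraMap K (Algebra.adjoin K {y}) a), rfl⟩
  have hv_eq : v = Places.ofPrime hK vP := Place.ext hval.symm
  have hord : ∀ f : F, v.ord f = -log (vP.valuation F f) := fun f => by
    rw [hv_eq]
    exact Places.ord_ofPrime hK vP f
  obtain ⟨t, ht⟩ := exists_log_eq w τ hint i vP hi
  set d := (MulAction.orbit (Subgroup.zpowers σ) i).ncard with hd_def
  have hdper : d = Function.minimalPeriod (σ • ·) i := hper i
  have hfix : (σ ^ d) i = i := by
    rw [hdper]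
    exact (MulAction.pow_smul_eq_iff_minimalPeriod_dvd (a := σ) (b := i)
      (n := Function.minimalPeriod (σ • ·) i)).mpr dvd_rfl
  have hdpos : 0 < d :=
    (Set.ncard_pos (Set.toFinite _)).mpr (MulAction.nonempty_orbit i)
  -- the valuation of `y` at `vP` is the ramification index, i.e. `d`
  have hϖB : algebraMap (Algebra.adjoin K {y}) (integralClosure (Algebra.adjoin K {y}) F)
      (PlaceDict.gen K y) ≠ 0 := PlaceDict.algebraMap_gen_ne_zero hy
  have hmapne : (Ideal.span {PlaceDict.gen K y}).map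
      (algebraMap (Algebra.adjoin K {y}) (integralClosure (Algebra.adjoin K {y}) F)) ≠ ⊥ := by
    rw [Ideal.map_span, Set.image_singleton, Ne, Ideal.span_singleton_eq_bot]
    exact hϖB
  have hvy : vP.valuation F y = exp (-(d : ℤ)) := by
    have h2 := hram i
    rw [hi] at h2
    show vP.valuation F (algebraMap (integralClosure (Algebra.adjoin K {y}) F) F
        (algebraMap (Algebra.adjoin K {y}) (integralClosure (Algebra.adjoin K {y}) F)
          (PlaceDict.gen K y))) = _
    rw [HeightOneSpectrum.valuation_of_algebraMap,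
      vP.intValuation_eq_exp_neg_multiplicity hϖB, hd_def, ← h2,
      Ideal.IsDedekindDomain.ramificationIdx_eq_multiplicity (Ideal.span {PlaceDict.gen K y})
        (PlaceDict.primeUnder v hB) hmapne, Ideal.map_span, Set.image_singleton]
  have hty : -(m : ℤ) = t * -(d : ℤ) := by
    have h := ht y hy0
    rw [w_y i, hvy, log_exp, log_exp] at h
    exact h
  have hdm : d ∣ m := by
    have : (d : ℤ) ∣ (m : ℤ) := ⟨t, by linarith⟩
    exact_mod_cast this
  have htc : t = ((m / d : ℕ) : ℤ) := by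
    obtain ⟨c, hc⟩ := hdm
    have hcd : m / d = c := by
      rw [hc]
      exact Nat.mul_div_cancel_left c hdpos
    rw [hcd]
    have hd0 : (d : ℤ) ≠ 0 := by exact_mod_cast hdpos.ne'
    have : (d : ℤ) * t = d * c := by
      have h3 : (m : ℤ) = d * c := by exact_mod_cast hc
      linarith
    exact mul_left_cancel₀ hd0 this
  refine ⟨i, d, hdpos, hfix, hdm, fun f hf0 => ?_⟩
  rw [ht f hf0, hord f, htc]
  ring

/-- `exists_index_of_place` with the field `K(y)` given up to equality. -/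
theorem exists_index_of_place_of_eq (E : IntermediateField K F) [FiniteDimensional E F]
    (hE : E = K⟮y⟯) [Finite I]
    (hI : Module.finrank E F ≤ Nat.card I)
    (τ_injective : Function.Injective τ)
    (τ_const : ∀ i j (c : K), τ i (algebraMap K F c) = τ j (algebraMap K F c))
    (w_const : ∀ i (c : K), c ≠ 0 → w (τ i (algebraMap K F c)) = 1)
    (τ_y : ∀ i j, τ i y = τ j y)
    (m_pos : 0 < m)
    (w_y : ∀ i, w (τ i y) = exp (-(m : ℤ)))
    (w_σ : ∀ i (f : F), w (τ (σ i) f) = w (τ i f))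
    (dvd : ∀ i (d : ℕ), (σ ^ d) i = i → ∀ f : F, f ≠ 0 →
      ((m / Nat.gcd m d : ℕ) : ℤ) ∣ log (w (τ i f)))
    (v : Place K F) (hv : 0 < v.ord y) :
    ∃ (i : I) (d : ℕ), 0 < d ∧ (σ ^ d) i = i ∧ d ∣ m ∧
      ∀ f : F, f ≠ 0 → log (w (τ i f)) = -(((m / d : ℕ) : ℤ) * v.ord f) := by
  subst hE
  exact exists_index_of_place w y σ m τ hI τ_injective τ_const w_const τ_y m_pos w_y w_σ dvd v hv

end Index

section Easy

variable {K F : Type*} [Field K] [Field F] [Algebra K F] [CharZero K]
variable {Ω : Type*} [Field Ω] (w : Valuation Ω ℤᵐ⁰) (Φ : F →+* Ω)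

/-- **Easy direction, abstract form.**  Let `w ∘ Φ` be a `ℤ`-valued valuation on a function
field `F / K` (finite over `K(x)`) with `w ∘ Φ ≤ 1` on `K[x]`.  If `m` divides the order of `h`
at every place of `F / K`, then `m` divides `log (w (Φ h))`: either `w ∘ Φ` is trivial, or it is
a multiple of the order at a place. -/
theorem dvd_log_of_forall_dvd (x : F) [FiniteDimensional K⟮x⟯ F]
    (hwx : w (Φ x) ≤ 1) (hwc : ∀ c : K, w (Φ (algebraMap K F c)) ≤ 1)
    {m : ℕ} (h : F) (hh : h ≠ 0) (hdiv : ∀ P : Place K F, (m : ℤ) ∣ P.ord h) :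
    (m : ℤ) ∣ log (w (Φ h)) := by
  classical
  have hPIR : IsPrincipalIdealRing (Algebra.adjoin K {x}) :=
    PlaceDict.isPrincipalIdealRing_adjoin K x
  have hchar : CharZero F := charZero_of_injective_algebraMap (algebraMap K F).injective
  have hsep : Algebra.IsSeparable K⟮x⟯ F := inferInstance
  have hDed : IsDedekindDomain (integralClosure (Algebra.adjoin K {x}) F) :=
    IsIntegralClosure.isDedekindDomain (Algebra.adjoin K {x}) K⟮x⟯ F _
  have hfrac : IsFractionRing (integralClosure (Algebra.adjoin K {x}) F) F :=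
    IsIntegralClosure.isFractionRing_of_finite_extension (Algebra.adjoin K {x}) K⟮x⟯ F _
  let τ : Unit → F →+* Ω := fun _ => Φ
  have hA : ∀ (i : Unit) (a : Algebra.adjoin K {x}),
      w (τ i (algebraMap (Algebra.adjoin K {x}) F a)) ≤ 1 := by
    intro i a
    obtain ⟨a, ha⟩ := a
    show w (Φ a) ≤ 1
    induction ha using Algebra.adjoin_induction with
    | mem y hy =>
      rw [Set.mem_singleton_iff] at hy
      rw [hy]
      exact hwx
    | algebraMap c => exact hwc c
    | add a b _ _ ha hb =>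
      rw [map_add]
      exact le_trans (w.map_add _ _) (max_le ha hb)
    | mul a b _ _ ha hb =>
      rw [map_mul, map_mul]
      exact mul_le_one' ha hb
  have hint := Orbit.val_le_one_of_mem (B := integralClosure (Algebra.adjoin K {x}) F) w τ hA
  by_cases hbot : Orbit.primeOf w τ hint () = ⊥
  · -- the valuation is trivial on the function field
    have hone : ∀ b : integralClosure (Algebra.adjoin K {x}) F, b ≠ 0 →
        w (Φ (algebraMap _ F b)) = 1 := by
      intro b hb
      apply Orbit.val_eq_one_of_notMem w τ hint ()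
      rw [hbot, Ideal.mem_bot]
      exact hb
    obtain ⟨a, s, hs, rfl⟩ := IsFractionRing.div_surjective
      (A := integralClosure (Algebra.adjoin K {x}) F) h
    have hs0 : s ≠ 0 := nonZeroDivisors.ne_zero hs
    have ha0 : a ≠ 0 := by
      rintro rfl
      rw [map_zero, zero_div] at hh
      exact hh rfl
    have : w (Φ (algebraMap _ F a / algebraMap _ F s)) = 1 := by
      rw [map_div₀, map_div₀, hone a ha0, hone s hs0, div_one]
    rw [this, log_one]
    exact dvd_zero _
  · let vP : HeightOneSpectrum (integralClosure (Algebra.adjoin K {x}) F) :=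
      ⟨Orbit.primeOf w τ hint (), Orbit.primeOf_isPrime w τ hint (), hbot⟩
    have hK : ∀ a : K, ∃ b : integralClosure (Algebra.adjoin K {x}) F,
        algebraMap (integralClosure (Algebra.adjoin K {x}) F) F b = algebraMap K F a := fun a =>
      ⟨algebraMap (Algebra.adjoin K {x}) _ (algebraMap K (Algebra.adjoin K {x}) a), rfl⟩
    obtain ⟨t, ht⟩ := exists_log_eq w τ hint () vP rfl
    obtain ⟨k, hk⟩ := hdiv (Places.ofPrime hK vP)
    rw [Places.ord_ofPrime] at hk
    have h5 : log (w (Φ h)) = t * log (vP.valuation F h) := ht h hh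
    rw [h5]
    refine ⟨-(t * k), ?_⟩
    have h6 : log (vP.valuation F h) = -((m : ℤ) * k) := by linarith
    rw [h6]
    ring

end Easy

section Modular

open scoped MatrixGroups
open UpperHalfPlane ModularCurve CongruenceSubgroup
open Fermat.Agent.S23 Fermat.Agent.S24.Mero Fermat.Agent.S24.DataTau

variable {L : Type*} [Field L] [Algebra ℚ L] [IsAlgClosed L] (ι : L →+* ℂ) (N : ℕ) [NeZero N]

/-- **Places are analytic, chart form.**  Given a chart with a symmetry `g` (as in
`S24.DataTau.valDatumOfChart`) in which `y` has order `m` along every coset embedding, every place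
`P` with `0 < P.ord y` is the normalised order in that chart along `f ↦ (an f) ∘ γ` for some
`γ ∈ SL(2, ℤ)`: the chart order is `(m / d) * P.ord`, where `γ * g ^ d * γ⁻¹ ∈ Γ₀(N)` generates
the stabiliser, and `m / d` divides the chart order of every germ fixed by that element. -/
theorem exists_chart_of_chart {χ : ℂ → ℍ} {p : ℂ} (h : IsChart N χ p) {g : SL(2, ℤ)}
    {gh : ℂ → ℂ} {lam : ℂ} (s : IsSym N χ p g gh lam) (hgh : AnalyticAt ℂ gh p) {m : ℕ}
    (hm : 0 < m) (hprim : IsPrimitiveRoot lam m) (hpow : cosetPerm N g⁻¹ ^ m = 1)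
    (y : ↥(FF L N))
    (hy : ∀ i, Mero.val h (tau ι N i y) = WithZero.exp (-(m : ℤ)))
    (hy' : ∀ i j, tau ι N i y = tau ι N j y)
    (hE : L⟮jElt L N⟯ = L⟮y⟯)
    (P : Place L ↥(FF L N)) (hP : 0 < P.ord y) :
    ∃ (γ : SL(2, ℤ)) (d : ℕ), 0 < d ∧ d ∣ m ∧ γ * g ^ d * γ⁻¹ ∈ Gamma0 N ∧
      (∀ f : ↥(FF L N), f ≠ 0 →
        log (Mero.val h (actF N γ (PhiL ι N f))) = -(((m / d : ℕ) : ℤ) * P.ord f)) ∧
      (∀ Y : Fld N, Y ≠ 0 → actF N (γ * g ^ d * γ⁻¹) Y = Y →
        ((m / d : ℕ) : ℤ) ∣ log (Mero.val h (actF N γ Y))) := by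
  classical
  have : CharZero L := algebraRat.charZero L
  have : Finite (SL(2, ℤ) ⧸ Gamma0 N) := Subgroup.finite_quotient_of_finiteIndex
  have := Degree.finiteDimensional ι N
  let dat := valDatumOfChart ι N h s hgh hm hprim hpow y hy hy'
  obtain ⟨i, d, hdpos, hfix, hdm, hlog⟩ := exists_index_of_place_of_eq (Mero.val h) y
    (cosetPerm N g⁻¹) m (tau ι N) L⟮jElt L N⟯ hE (Degree.finrank_le ι N) (tau_injective ι N)
    dat.τ_const dat.w_const hy' hm hy dat.w_σ dat.dvd P hP
  have hfix' : g ^ d • i = i := by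
    rw [cosetPerm_inv_pow_apply] at hfix
    have h2 : g ^ d • ((g ^ d)⁻¹ • i) = g ^ d • i := by rw [hfix]
    rw [smul_smul, mul_inv_cancel, one_smul] at h2
    exact h2.symm
  have hmem := DataCore.conj_mem_of_smul_eq (Gamma0 N) (g ^ d) i hfix'
  refine ⟨(Quotient.out i)⁻¹, d, hdpos, hdm, ?_, fun f hf => hlog f hf, fun Y hY hYfix => ?_⟩
  · rw [inv_inv]
    exact hmem
  · have hne : actF N (Quotient.out i)⁻¹ Y ≠ 0 := (map_ne_zero _).mpr hY
    have hfixZ : actF N (g ^ d) (actF N (Quotient.out i)⁻¹ Y) = actF N (Quotient.out i)⁻¹ Y := by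
      rw [← actF_mul]
      have e : (Quotient.out i)⁻¹ * g ^ d
          = ((Quotient.out i)⁻¹ * g ^ d * (Quotient.out i)⁻¹⁻¹) * (Quotient.out i)⁻¹ := by
        group
      rw [e, actF_mul, hYfix]
    have h1 := dvd_ord_of_fixed h s hm hprim d hne hfixZ
    rw [Nat.gcd_eq_right hdm, Mero.ord] at h1
    exact (dvd_neg).mp h1

/-- The datum at a finite point (mirror of `S24.Data.valDatum_point`). -/
theorem exists_chart_point (a : L) (g : SL(2, ℤ)) (hg : g • Data.zOf ι a = Data.zOf ι a)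
    (m : ℕ) (hm : 0 < m)
    (hord : analyticOrderAt (fun w : ℂ => JN.jFun (ofComplex w) - JN.jFun (Data.zOf ι a))
      (Data.zOf ι a : ℂ) = m)
    (hprim : IsPrimitiveRoot (mult g (Data.zOf ι a)) m) (hpow : cosetPerm N g⁻¹ ^ m = 1)
    (P : Place L ↥(FF L N)) (hP : 0 < P.ord (jElt L N - algebraMap L ↥(FF L N) a)) :
    ∃ (γ : SL(2, ℤ)) (d : ℕ), 0 < d ∧ d ∣ m ∧ γ * g ^ d * γ⁻¹ ∈ Gamma0 N ∧
      (∀ f : ↥(FF L N), f ≠ 0 →
        log (valAt N (Data.zOf ι a) (actF N γ (PhiL ι N f))) = -(((m / d : ℕ) : ℤ) * P.ord f)) ∧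
      (∀ Y : Fld N, Y ≠ 0 → actF N (γ * g ^ d * γ⁻¹) Y = Y →
        ((m / d : ℕ) : ℤ) ∣ log (valAt N (Data.zOf ι a) (actF N γ Y))) := by
  have : CharZero L := algebraRat.charZero L
  refine exists_chart_of_chart ι N (isChart_point N (Data.zOf ι a)) (isSym_point N hg)
    (analyticAt_moeb g (Data.zOf ι a)) hm hprim hpow _ (fun i => ?_) (fun i j => ?_)
    (Places.adjoin_sub_eq (jElt L N) a) P hP
  · rw [Data.tau_jElt_sub]
    exact valAt_jElt_sub N (Data.zOf ι a) hord
  · rw [Data.tau_jElt_sub, Data.tau_jElt_sub]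

omit [IsAlgClosed L] in
theorem conj_pow_eq_one {g γ : SL(2, ℤ)} {k : ℕ} (hk : g ^ k = 1) (d : ℕ) :
    (γ * g ^ d * γ⁻¹) ^ k = 1 := by
  rw [conj_pow, ← pow_mul, mul_comm, pow_mul, hk, one_pow, mul_one, mul_inv_cancel]

theorem trace_conj_T_pow (γ : SL(2, ℤ)) (d : ℕ) :
    ((γ * ModularGroup.T ^ d * γ⁻¹ : SL(2, ℤ)) : Matrix (Fin 2) (Fin 2) ℤ).trace ^ 2 = 4 := by
  have h1 : ((γ * ModularGroup.T ^ d * γ⁻¹ : SL(2, ℤ)) : Matrix (Fin 2) (Fin 2) ℤ)
      = (γ : Matrix (Fin 2) (Fin 2) ℤ) * ((ModularGroup.T ^ d : SL(2, ℤ)) : Matrix (Fin 2) (Fin 2) ℤ)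
        * ((γ⁻¹ : SL(2, ℤ)) : Matrix (Fin 2) (Fin 2) ℤ) := by
    simp only [Matrix.SpecialLinearGroup.coe_mul]
  have h2 : ((γ⁻¹ : SL(2, ℤ)) : Matrix (Fin 2) (Fin 2) ℤ) * (γ : Matrix (Fin 2) (Fin 2) ℤ) = 1 := by
    rw [← Matrix.SpecialLinearGroup.coe_mul, inv_mul_cancel, Matrix.SpecialLinearGroup.coe_one]
  have h3 : ((ModularGroup.T ^ d : SL(2, ℤ)) : Matrix (Fin 2) (Fin 2) ℤ) = !![1, (d : ℤ); 0, 1] := by
    rw [← zpow_natCast, ModularGroup.coe_T_zpow]
  rw [h1, Matrix.trace_mul_cycle, h2, one_mul, h3, Matrix.trace_fin_two]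
  simp

/-- **Places are analytic (PA1).**  Every place `P` of the function field of `X₀(N)` over `L` is
the normalised order at a point of the upper half plane or at the cusp `∞` of a translate
`f ↦ (an f) ∘ γ` of the analytic realisation: the analytic order is `c * P.ord`, where `c` is the
ramification index, and `c` divides the analytic order of every germ fixed by the generator `δ` of
the stabiliser in `Γ₀(N)`; `δ` has finite order or is parabolic. -/
theorem exists_chart (P : Place L ↥(FF L N)) :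
    ∃ (w : Valuation (Fld N) ℤᵐ⁰) (γ δ : SL(2, ℤ)) (c : ℕ), 0 < c ∧ δ ∈ Gamma0 N ∧
      ((∃ n : ℕ, 0 < n ∧ δ ^ n = 1) ∨ (δ : Matrix (Fin 2) (Fin 2) ℤ).trace ^ 2 = 4) ∧
      (∀ f : ↥(FF L N), f ≠ 0 → log (w (actF N γ (PhiL ι N f))) = -((c : ℤ) * P.ord f)) ∧
      (∀ Y : Fld N, Y ≠ 0 → actF N δ Y = Y → (c : ℤ) ∣ log (w (actF N γ Y))) := by
  classical
  have : CharZero L := algebraRat.charZero L
  have := Degree.finiteDimensional ι N
  have hx : Transcendental L (jElt L N) := DegreeCore.transcendental_jElt N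
  have hx0 : jElt L N ≠ 0 := fun h0 => hx (h0 ▸ isAlgebraic_zero)
  have key : ∀ (w : Valuation (Fld N) ℤᵐ⁰) (g : SL(2, ℤ)) (m : ℕ), 0 < m →
      (∀ γ : SL(2, ℤ), ∀ d : ℕ, (∃ n : ℕ, 0 < n ∧ (γ * g ^ d * γ⁻¹) ^ n = 1) ∨
        ((γ * g ^ d * γ⁻¹ : SL(2, ℤ)) : Matrix (Fin 2) (Fin 2) ℤ).trace ^ 2 = 4) →
      (∃ (γ : SL(2, ℤ)) (d : ℕ), 0 < d ∧ d ∣ m ∧ γ * g ^ d * γ⁻¹ ∈ Gamma0 N ∧
        (∀ f : ↥(FF L N), f ≠ 0 →
          log (w (actF N γ (PhiL ι N f))) = -(((m / d : ℕ) : ℤ) * P.ord f)) ∧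
        (∀ Y : Fld N, Y ≠ 0 → actF N (γ * g ^ d * γ⁻¹) Y = Y →
          ((m / d : ℕ) : ℤ) ∣ log (w (actF N γ Y)))) →
      ∃ (w : Valuation (Fld N) ℤᵐ⁰) (γ δ : SL(2, ℤ)) (c : ℕ), 0 < c ∧ δ ∈ Gamma0 N ∧
        ((∃ n : ℕ, 0 < n ∧ δ ^ n = 1) ∨ (δ : Matrix (Fin 2) (Fin 2) ℤ).trace ^ 2 = 4) ∧
        (∀ f : ↥(FF L N), f ≠ 0 → log (w (actF N γ (PhiL ι N f))) = -((c : ℤ) * P.ord f)) ∧
        (∀ Y : Fld N, Y ≠ 0 → actF N δ Y = Y → (c : ℤ) ∣ log (w (actF N γ Y))) := by
    rintro w g m hm hg ⟨γ, d, hd, hdm, hmem, h1, h2⟩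
    exact ⟨w, γ, γ * g ^ d * γ⁻¹, m / d, Nat.div_pos (Nat.le_of_dvd hm hdm) hd, hmem, hg γ d,
      h1, h2⟩
  by_cases hj : jElt L N ∈ P.toValuationSubring
  · obtain ⟨a, ha | ha⟩ := Places.residue (jElt L N) P hj
    · exact absurd (ha ▸ isAlgebraic_algebraMap a) hx
    by_cases ha0 : a = 0
    · subst ha0
      have hz : Data.zOf ι (0 : L) = JLocal.rho := Data.zOf_zero ι
      have hg : (ModularGroup.S * ModularGroup.T) • Data.zOf ι (0 : L) = Data.zOf ι (0 : L) := by
        rw [hz, ← JLocal.gST_eq]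
        exact JLocal.gST_smul_rho
      have hord : analyticOrderAt
          (fun w : ℂ => JN.jFun (ofComplex w) - JN.jFun (Data.zOf ι (0 : L)))
          (Data.zOf ι (0 : L) : ℂ) = (3 : ℕ) := by
        rw [hz, JLocal.order_jFun, if_pos JLocal.jFun_rho]
        rfl
      refine key _ _ 3 (by norm_num) (fun γ d => Or.inl ⟨6, by norm_num, ?_⟩)
        (exists_chart_point ι N 0 _ hg 3 (by norm_num) hord
          (by rw [hz]; exact isPrimitiveRoot_mult_ST _ JLocal.rho_sq_add)
          (Data.cosetPerm_inv_pow_eq_one N GenusNum.ST_cube) P ha)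
      apply conj_pow_eq_one
      rw [show (6 : ℕ) = 3 * 2 from rfl, pow_mul, GenusNum.ST_cube]
      simp
    by_cases ha1 : a = 1728
    · subst ha1
      have hz : Data.zOf ι (1728 : L) = UpperHalfPlane.I := Data.zOf_1728 ι
      have hg : ModularGroup.S • Data.zOf ι (1728 : L) = Data.zOf ι (1728 : L) := by
        rw [hz]
        exact JLocal.S_smul_I
      have hne : JN.jFun UpperHalfPlane.I ≠ 0 := by
        rw [JLocal.jFun_I]
        norm_num
      have hord : analyticOrderAt
          (fun w : ℂ => JN.jFun (ofComplex w) - JN.jFun (Data.zOf ι (1728 : L)))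
          (Data.zOf ι (1728 : L) : ℂ) = (2 : ℕ) := by
        rw [hz, JLocal.order_jFun, if_neg hne, if_pos JLocal.jFun_I]
        rfl
      refine key _ _ 2 (by norm_num) (fun γ d => Or.inl ⟨4, by norm_num, ?_⟩)
        (exists_chart_point ι N 1728 _ hg 2 (by norm_num) hord
          (by rw [hz]; exact isPrimitiveRoot_mult_S _ UpperHalfPlane.coe_I)
          (Data.cosetPerm_inv_pow_eq_one N GenusNum.S_sq) P ha)
      apply conj_pow_eq_one
      rw [show (4 : ℕ) = 2 * 2 from rfl, pow_mul, GenusNum.S_sq]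
      simp
    · have hj0 : JN.jFun (Data.zOf ι a) ≠ 0 := by
        rw [Data.jFun_zOf]
        exact (map_ne_zero ι).mpr ha0
      have hj1 : JN.jFun (Data.zOf ι a) ≠ 1728 := by
        rw [Data.jFun_zOf]
        intro h
        apply ha1
        apply ι.injective
        rw [h, map_ofNat]
      have hord := JLocal.order_jFun_generic (Data.zOf ι a) hj0 hj1
      refine key _ _ 1 one_pos (fun γ d => Or.inl ⟨1, one_pos, ?_⟩)
        (exists_chart_point ι N a 1 (one_smul _ _) 1 one_pos (by simpa using hord)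
          (by rw [mult_one]; exact IsPrimitiveRoot.one)
          (by rw [inv_one, Comb.cosetPerm_one, pow_one]) P ha)
      simp
  · have hP : 0 < P.ord (jElt L N)⁻¹ := by
      have h1 : ¬ 0 ≤ P.ord (jElt L N) := fun h =>
        hj ((Places.mem_iff_ord_nonneg P hx0).mpr h)
      rw [Place.ord_inv]
      omega
    have hy : ∀ i, tau ι N i (jElt L N)⁻¹
        = (algebraMap (Mero.ring N) (Fld N) (Mero.jElt N))⁻¹ := by
      intro i
      rw [map_inv₀, tau_jElt]
    refine key (valInf N) ModularGroup.T N (Nat.pos_of_ne_zero (NeZero.ne N))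
      (fun γ d => Or.inr (trace_conj_T_pow γ d))
      (exists_chart_of_chart ι N (isChart_inf N) (isSym_inf N) (by fun_prop)
        (Nat.pos_of_ne_zero (NeZero.ne N)) (isPrimitiveRoot_zetaN N)
        (Data.cosetPerm_T_inv_pow N) (jElt L N)⁻¹ (fun i => ?_) (fun i j => ?_)
        (Places.adjoin_inv_eq (jElt L N)) P hP)
    · rw [hy]
      exact valInf_inv_jElt N
    · rw [hy, hy]

/-- **Consumer form of PA1.**  If the analytic realisation of `h` is an `m`-th power `F ^ m` in
`Mero.Fld N` of an element `F` fixed by every element of `Γ₀(N)` that has finite order or is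
parabolic (`trace ^ 2 = 4`), then `m` divides the order of `h` at every place. -/
theorem dvd_ord_of_pow (P : Place L ↥(FF L N)) {m : ℕ} (h : ↥(FF L N)) (hh : h ≠ 0)
    (F : Fld N) (hF : PhiL ι N h = F ^ m)
    (hinv : ∀ δ ∈ Gamma0 N, ((∃ n : ℕ, 0 < n ∧ δ ^ n = 1) ∨
      (δ : Matrix (Fin 2) (Fin 2) ℤ).trace ^ 2 = 4) → actF N δ F = F) :
    (m : ℤ) ∣ P.ord h := by
  obtain ⟨w, γ, δ, c, hc, hδ, hδ', h1, h2⟩ := exists_chart ι N P
  have hΦ : PhiL ι N h ≠ 0 := (map_ne_zero _).mpr hh
  rcases Nat.eq_zero_or_pos m with rfl | hm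
  · -- `m = 0`: then `an h = 1`, so `h = 1`
    rw [pow_zero] at hF
    have h1' : h = 1 := (PhiL ι N).injective (by rw [hF, map_one])
    rw [h1', Place.ord_one]
    exact dvd_zero _
  have hF0 : F ≠ 0 := by
    rintro rfl
    rw [zero_pow hm.ne'] at hF
    exact hΦ hF
  have hne : actF N γ F ≠ 0 := (map_ne_zero _).mpr hF0
  have hw0 : w (actF N γ F) ≠ 0 := (Valuation.ne_zero_iff _).mpr hne
  obtain ⟨k, hk⟩ := h2 F hF0 (hinv δ hδ hδ')
  have h3 := h1 h hh
  rw [hF, map_pow, map_pow, log_pow, hk, nsmul_eq_mul] at h3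
  have hc0 : (c : ℤ) ≠ 0 := by exact_mod_cast hc.ne'
  refine ⟨-k, ?_⟩
  have h4 : (c : ℤ) * P.ord h = c * (m * -k) := by linarith
  exact mul_left_cancel₀ hc0 h4

/-! ### The easy direction: analytic orders of functions with `m`-divisible divisor -/

omit [IsAlgClosed L] [Algebra ℚ L] [NeZero N] in
theorem valAt_algebraMap_le_one (z : ℍ) (f : Mero.ring N) :
    valAt N z (algebraMap (Mero.ring N) (Fld N) f) ≤ 1 := by
  rw [valAt, val_algebraMap, valRing_apply, ordRing]
  have h0 : (0 : WithTop ℤ) ≤ meromorphicOrderAt ((f : ℍ → ℂ) ∘ ofComplex) (z : ℂ) :=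
    (analyticAt_comp_ofComplex f z).meromorphicOrderAt_nonneg
  exact toVal_anti h0

omit [IsAlgClosed L] in
/-- **PA2.**  If `m` divides the order of `h` at every place of the function field of `X₀(N)`
over `L`, then `m` divides the analytic order of `an h` at every point of the upper half plane
(no hypothesis on `j z`: if `j z` is not in the image of `L` the order is `0`). -/
theorem dvd_ordAt {m : ℕ} (h : ↥(FF L N)) (hh : h ≠ 0)
    (hdiv : ∀ P : Place L ↥(FF L N), (m : ℤ) ∣ P.ord h) (z : ℍ) :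
    (m : ℤ) ∣ Mero.ordAt N z (PhiL ι N h) := by
  have : CharZero L := algebraRat.charZero L
  have := Degree.finiteDimensional ι N
  have h1 := dvd_log_of_forall_dvd (valAt N z) (PhiL ι N) (jElt L N)
    (by rw [PhiL_jElt]; exact valAt_algebraMap_le_one N z _)
    (fun c => by rw [PhiL_algebraMap]; exact valAt_algebraMap_le_one N z _) h hh hdiv
  rw [Mero.ordAt, Mero.ord]
  exact (dvd_neg).mpr h1

omit [IsAlgClosed L] in
/-- PA2 in terms of a representation of `an h` as a quotient of two elements of `Mero.ring N`: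
the analytic orders of numerator and denominator differ by a multiple of `m` (the shape of the
hypothesis of `MRoot.exists_root_quot`). -/
theorem exists_orders {m : ℕ} (h : ↥(FF L N)) (hh : h ≠ 0)
    (hdiv : ∀ P : Place L ↥(FF L N), (m : ℤ) ∣ P.ord h) (a b : Mero.ring N) (hb : b ≠ 0)
    (hab : PhiL ι N h * algebraMap (Mero.ring N) (Fld N) b = algebraMap (Mero.ring N) (Fld N) a)
    (z : ℍ) :
    ∃ (i j : ℕ) (k : ℤ), analyticOrderAt ((a : ℍ → ℂ) ∘ ofComplex) (z : ℂ) = i ∧
      analyticOrderAt ((b : ℍ → ℂ) ∘ ofComplex) (z : ℂ) = j ∧ (i : ℤ) - j = m * k := by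
  have hΦ : PhiL ι N h ≠ 0 := (map_ne_zero _).mpr hh
  have hbF : algebraMap (Mero.ring N) (Fld N) b ≠ 0 := algebraMap_ne_zero hb
  have ha : a ≠ 0 := by
    rintro rfl
    rw [map_zero] at hab
    exact (mul_ne_zero hΦ hbF) hab
  have key : ∀ f : Mero.ring N, f ≠ 0 → ∃ i : ℕ,
      analyticOrderAt ((f : ℍ → ℂ) ∘ ofComplex) (z : ℂ) = i ∧
      Mero.ordAt N z (algebraMap (Mero.ring N) (Fld N) f) = i := by
    intro f hf
    have han := analyticAt_comp_ofComplex f z
    have hne := (isChart_point N z).ne_top f hf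
    rw [han.meromorphicOrderAt_eq] at hne
    have hfin : analyticOrderAt ((f : ℍ → ℂ) ∘ ofComplex) (z : ℂ) ≠ ⊤ := by
      intro htop
      rw [htop] at hne
      exact hne rfl
    obtain ⟨i, hi⟩ := ENat.ne_top_iff_exists.mp hfin
    refine ⟨i, hi.symm, ?_⟩
    apply ord_algebraMap (isChart_point N z)
    rw [ordRing, han.meromorphicOrderAt_eq, ← hi]
    rfl
  obtain ⟨i, hi1, hi2⟩ := key a ha
  obtain ⟨j, hj1, hj2⟩ := key b hb
  obtain ⟨k, hk⟩ := dvd_ordAt ι N h hh hdiv z
  refine ⟨i, j, k, hi1, hj1, ?_⟩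
  have h1 : Mero.ordAt N z (PhiL ι N h * algebraMap (Mero.ring N) (Fld N) b)
      = Mero.ordAt N z (PhiL ι N h) + Mero.ordAt N z (algebraMap (Mero.ring N) (Fld N) b) :=
    ord_mul (isChart_point N z) hΦ hbF
  rw [hab, hi2, hj2, hk] at h1
  linarith

end Modular

end Fermat.Agent.S29.PlaceAn

end
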