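/-
S29 (wave 9), row [IV], leaf (KUM-FIN): `IV.KumFinStmt` — finitely many Kummer classes over `ℂ`.

Assembly of `KumFin.exists_finite_of` with its two inputs:
* `KumFin.InvStmt` from `InvRoot.exists_eval_of_invariant_root` (invariant roots are algebraic);
* `KumFin.OrdStmt` from `PlaceAn.dvd_ordAt` ("places are analytic", easy direction: the orders on
  the upper half plane of a function whose orders at all places are divisible by `m` are divisible
  by `m`).
-/
import Fermat.Agent.S29.KumFin
import Fermat.Agent.S29.InvRoot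
import Fermat.Agent.S29.PlaceAn
import Fermat.Agent.S29.IVIface

set_option autoImplicit false

noncomputable section

open scoped MatrixGroups
open UpperHalfPlane ModularCurve CongruenceSubgroup AlgebraicCurve

namespace Fermat.Agent.S29.KumFin

open Fermat.Agent.S23 Fermat.Agent.S24

/-- The input `InvStmt` of the Kummer finiteness, from the division-free form of "Inv". -/
theorem invStmt (N : ℕ) [NeZero N] {m : ℕ} (hm : 0 < m) : InvStmt N m := by
  intro f hf hinv G hpow
  have h1 : evalFun N (1 : MvPolynomial (Dv N) ℂ) ≠ 0 := by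
    rw [map_one]
    exact one_ne_zero
  have hV : JN.Holo (fun _ : ℍ => (1 : ℂ)) := differentiableOn_const (c := (1 : ℂ))
  have hV0 : (fun _ : ℍ => (1 : ℂ)) ≠ 0 := fun h => one_ne_zero (congrFun h UpperHalfPlane.I)
  obtain ⟨P', Q', hQ', h⟩ := InvRoot.exists_eval_of_invariant_root N hm.ne' G 1 h1 f
    (fun _ => 1) hf hV hV0 (fun γ hγ z => by rw [hinv γ hγ z])
    (fun z => by
      rw [map_one, one_pow, one_mul, hpow z]
      simp)
  exact ⟨P', Q', hQ', fun z => by simpa using h z⟩

/-- Kummer finiteness over `ℂ` in the `IVIface` form, from the analytic-orders input. -/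
theorem kumFinStmt_of (hPA : ∀ (N m : ℕ) [NeZero N], OrdStmt N m) : IV.KumFinStmt := by
  intro N m _ hm
  obtain ⟨S, hS, h⟩ := exists_finite_of N hm (hPA N m) (invStmt N hm)
  exact ⟨S, hS, fun h' hh' => h h' hh'.1 hh'.2⟩

/-- The input `OrdStmt` of the Kummer finiteness, from "places are analytic". -/
theorem ordStmt (N : ℕ) [NeZero N] (m : ℕ) : OrdStmt N m :=
  fun h hh hdiv z => PlaceAn.dvd_ordAt (RingHom.id ℂ) N h hh hdiv z

/-- **(KUM-FIN)** finitely many Kummer classes over `ℂ`: up to `m`-th powers (and constants) there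
are only finitely many nonzero functions on `X₀(N)` over `ℂ` all of whose orders are divisible by
`m`. -/
theorem kumFinStmt : IV.KumFinStmt :=
  kumFinStmt_of fun N m _ => ordStmt N m

/-- The same statement, unfolded. -/
theorem exists_finite (N : ℕ) [NeZero N] {m : ℕ} (hm : 0 < m) :
    ∃ S : Set ↥(FF ℂ N), S.Finite ∧ ∀ h : ↥(FF ℂ N), h ≠ 0 →
      (∀ P : Place ℂ ↥(FF ℂ N), (m : ℤ) ∣ P.ord h) →
        ∃ s ∈ S, ∃ (u : ↥(FF ℂ N)) (c : ℂ), u ≠ 0 ∧ c ≠ 0 ∧
          h = algebraMap ℂ ↥(FF ℂ N) c * u ^ m * s :=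
  exists_finite_of N hm (ordStmt N m) (invStmt N hm)

end Fermat.Agent.S29.KumFin

end
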