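/-
S29 (wave 9), [IV] leaf (PLACE-AN): the interface Prop `IV.PlaceAnStmt` of `IVIface.lean`,
proved (no hypotheses) from `PlaceAn.dvd_ord_of_pow`.
-/
import Fermat.Agent.S29.IVIface
import Fermat.Agent.S29.PlaceAn

set_option autoImplicit false

namespace Fermat.Agent.S29.PlaceAn

/-- **(PLACE-AN)** of `IVIface`: places are analytic. -/
theorem placeAnStmt : Fermat.Agent.S29.IV.PlaceAnStmt := by
  intro L _ _ _ ι N m _ P h F hh hF hinv
  exact dvd_ord_of_pow ι N P h hh F hF hinv

end Fermat.Agent.S29.PlaceAn
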