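import Mathlib

/-!
# S29, leaf (a): Eisenstein series with a unitary character of `Γ₀(N)`

For a character `χ : Γ₀(N) →* ℂˣ` with values of absolute value one which is trivial on the
upper unipotent elements, we define

`G χ k z = ∑ over bottom rows (c, d) of Γ₀(N) of (χ γ_{c,d})⁻¹ (c z + d)^(-k)`

(the weight is `0` at vectors that are not bottom rows), and prove, for `3 ≤ k`: absolute
convergence, holomorphy, the transformation law `G (γ • z) = χ γ (c z + d)^k G z`, boundedness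
of every `SL(2, ℤ)`-translate at `i∞`, and (for even `k`, `χ` trivial on `± T ^ n`) `G z → 2`
at `i∞`.  If `χ ^ m = 1` then `(G χ k) ^ m` is a modular form of weight `k * m` on `Γ₀(N)`
(`GPow`, `GPowCast`, and the weight `4` pair `A4`, `B4`), which is not zero.
-/

set_option autoImplicit false

noncomputable section

open ModularForm UpperHalfPlane Complex Matrix CongruenceSubgroup Set Filter Topology
  EisensteinSeries
open scoped MatrixGroups Manifold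

namespace Fermat.Agent.S29.EisChar

variable {N : ℕ}

/-! ### Rows of products -/

theorem row_mul (A B : SL(2, ℤ)) (i : Fin 2) : (A * B).1 i = A.1 i ᵥ* B.1 := by
  ext j
  simp [Matrix.mul_apply, Matrix.vecMul, dotProduct]

theorem one_row_one : (1 : SL(2, ℤ)).1 1 = ![0, 1] := by
  ext i
  fin_cases i <;> simp

/-- Right multiplication by an element of `SL(2, ℤ)` as a permutation of integer vectors. -/
theorem coe_mul_inv (A : SL(2, ℤ)) : A.1 * (A⁻¹).1 = 1 := by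
  have h : (A * A⁻¹).1 = A.1 * (A⁻¹).1 := rfl
  rw [← h, mul_inv_cancel]
  rfl

theorem coe_inv_mul (A : SL(2, ℤ)) : (A⁻¹).1 * A.1 = 1 := by
  have h : (A⁻¹ * A).1 = (A⁻¹).1 * A.1 := rfl
  rw [← h, inv_mul_cancel]
  rfl

/-- Right multiplication by an element of `SL(2, ℤ)` as a permutation of integer vectors. -/
def vecMulEquiv (A : SL(2, ℤ)) : (Fin 2 → ℤ) ≃ (Fin 2 → ℤ) where
  toFun v := v ᵥ* A.1
  invFun v := v ᵥ* (A⁻¹).1
  left_inv v := by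
    show (v ᵥ* A.1) ᵥ* (A⁻¹).1 = v
    rw [vecMul_vecMul, coe_mul_inv, vecMul_one]
  right_inv v := by
    show (v ᵥ* (A⁻¹).1) ᵥ* A.1 = v
    rw [vecMul_vecMul, coe_inv_mul, vecMul_one]

@[simp] theorem vecMulEquiv_apply (A : SL(2, ℤ)) (v : Fin 2 → ℤ) :
    vecMulEquiv A v = v ᵥ* A.1 := rfl

@[simp] theorem vecMulEquiv_symm_apply (A : SL(2, ℤ)) (v : Fin 2 → ℤ) :
    (vecMulEquiv A).symm v = v ᵥ* (A⁻¹).1 := rfl

/-! ### The weight function -/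

open Classical in
/-- The weight of an integer vector: `(χ γ)⁻¹` if `v` is the bottom row of `γ ∈ Γ₀(N)`, and `0`
if `v` is not a bottom row. -/
def rowWeight (χ : ↥(Gamma0 N) →* ℂˣ) (v : Fin 2 → ℤ) : ℂ :=
  if h : ∃ γ : ↥(Gamma0 N), γ.1.1 1 = v then (((χ h.choose)⁻¹ : ℂˣ) : ℂ) else 0

/-- The character is trivial on the elements of `Γ₀(N)` with bottom row `(0, 1)`. -/
def TrivOnUnipotent (χ : ↥(Gamma0 N) →* ℂˣ) : Prop :=
  ∀ γ : ↥(Gamma0 N), γ.1.1 1 = ![0, 1] → χ γ = 1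

variable {χ : ↥(Gamma0 N) →* ℂˣ}

theorem chi_eq_of_row_eq (hU : TrivOnUnipotent χ) {γ γ' : ↥(Gamma0 N)}
    (h : γ'.1.1 1 = γ.1.1 1) : χ γ' = χ γ := by
  have h1 : (γ' * γ⁻¹).1.1 1 = ![0, 1] := by
    have : (γ' * γ⁻¹).1 = γ'.1 * γ.1⁻¹ := rfl
    rw [this, row_mul, h, ← row_mul, mul_inv_cancel, one_row_one]
  have h2 := hU _ h1
  rw [map_mul, map_inv, mul_inv_eq_one] at h2
  exact h2

theorem rowWeight_row (hU : TrivOnUnipotent χ) (γ : ↥(Gamma0 N)) :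
    rowWeight χ (γ.1.1 1) = (((χ γ)⁻¹ : ℂˣ) : ℂ) := by
  have h : ∃ γ' : ↥(Gamma0 N), γ'.1.1 1 = γ.1.1 1 := ⟨γ, rfl⟩
  rw [rowWeight, dif_pos h, chi_eq_of_row_eq hU h.choose_spec]

theorem rowWeight_of_not_row {v : Fin 2 → ℤ} (h : ¬ ∃ γ : ↥(Gamma0 N), γ.1.1 1 = v) :
    rowWeight χ v = 0 := by
  rw [rowWeight, dif_neg h]

theorem rowWeight_vecMul (hU : TrivOnUnipotent χ) (γ : ↥(Gamma0 N)) (v : Fin 2 → ℤ) :
    rowWeight χ (v ᵥ* γ.1.1) = (((χ γ)⁻¹ : ℂˣ) : ℂ) * rowWeight χ v := by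
  by_cases h : ∃ γ₀ : ↥(Gamma0 N), γ₀.1.1 1 = v
  · obtain ⟨γ₀, rfl⟩ := h
    have : (γ₀ * γ).1 = γ₀.1 * γ.1 := rfl
    rw [← row_mul, ← this, rowWeight_row hU, rowWeight_row hU, map_mul, mul_inv, Units.val_mul,
      mul_comm]
  · rw [rowWeight_of_not_row h, mul_zero]
    apply rowWeight_of_not_row
    rintro ⟨γ₁, h₁⟩
    apply h
    refine ⟨γ₁ * γ⁻¹, ?_⟩
    have : (γ₁ * γ⁻¹).1 = γ₁.1 * γ.1⁻¹ := rfl
    rw [this, row_mul, h₁, vecMul_vecMul, coe_mul_inv, vecMul_one]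

theorem norm_rowWeight_le (hχ : ∀ γ, ‖(χ γ : ℂ)‖ = 1) (v : Fin 2 → ℤ) :
    ‖rowWeight χ v‖ ≤ 1 := by
  rw [rowWeight]
  split_ifs with h
  · rw [Units.val_inv_eq_inv_val, norm_inv, hχ, inv_one]
  · simp

/-! ### The series -/

/-- The Eisenstein series of weight `k` attached to the character `χ` of `Γ₀(N)`. -/
def G (χ : ↥(Gamma0 N) →* ℂˣ) (k : ℤ) (z : ℍ) : ℂ :=
  ∑' v : Fin 2 → ℤ, rowWeight χ v * eisSummand k v z

theorem norm_term_le (hχ : ∀ γ, ‖(χ γ : ℂ)‖ = 1) (k : ℤ) (v : Fin 2 → ℤ) (z : ℍ) :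
    ‖rowWeight χ v * eisSummand k v z‖ ≤ ‖eisSummand k v z‖ := by
  rw [norm_mul]
  exact mul_le_of_le_one_left (norm_nonneg _) (norm_rowWeight_le hχ v)

theorem summable_term (hχ : ∀ γ, ‖(χ γ : ℂ)‖ = 1) {k : ℤ} (hk : 3 ≤ k) (z : ℍ) :
    Summable fun v : Fin 2 → ℤ => rowWeight χ v * eisSummand k v z :=
  Summable.of_norm_bounded (summable_norm_eisSummand hk z) (fun v => norm_term_le hχ k v z)

/-- The transformation law. -/
theorem G_smul (hU : TrivOnUnipotent χ) (k : ℤ) (γ : ↥(Gamma0 N)) (z : ℍ) :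
    G χ k (γ.1 • z) = (χ γ : ℂ) * denom γ.1 z ^ k * G χ k z := by
  have key : ∀ v : Fin 2 → ℤ, rowWeight χ v * eisSummand k v (γ.1 • z)
      = (χ γ : ℂ) * denom γ.1 z ^ k
        * (rowWeight χ (vecMulEquiv γ.1 v) * eisSummand k (vecMulEquiv γ.1 v) z) := by
    intro v
    rw [eisSummand_SL2_apply, vecMulEquiv_apply, rowWeight_vecMul hU]
    have h1 : (χ γ : ℂ) * (((χ γ)⁻¹ : ℂˣ) : ℂ) = 1 := by
      rw [← Units.val_mul, mul_inv_cancel, Units.val_one]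
    linear_combination (-(rowWeight χ v * denom γ.1 z ^ k * eisSummand k (v ᵥ* γ.1.1) z)) * h1
  unfold G
  simp_rw [key]
  rw [tsum_mul_left]
  congr 1
  exact (vecMulEquiv γ.1).tsum_eq (fun u => rowWeight χ u * eisSummand k u z)

/-! ### Holomorphy -/

theorem G_tendstoLocallyUniformly (hχ : ∀ γ, ‖(χ γ : ℂ)‖ = 1) {k : ℤ} (hk : 3 ≤ k) :
    TendstoLocallyUniformly
      (fun (s : Finset (Fin 2 → ℤ)) ↦ (∑ x ∈ s, rowWeight χ x * eisSummand k x ·))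
      (G χ k ·) Filter.atTop := by
  have hk' : (2 : ℝ) < k := by norm_cast
  have p_sum : Summable fun x : Fin 2 → ℤ ↦ ‖x‖ ^ (-k) :=
    mod_cast (summable_one_div_norm_rpow hk')
  simp only [tendstoLocallyUniformly_iff_forall_isCompact, G]
  intro K hK
  obtain ⟨A, B, hB, HABK⟩ := subset_verticalStrip_of_isCompact hK
  refine (tendstoUniformlyOn_tsum (hu := p_sum.mul_left <| r ⟨⟨A, B⟩, hB⟩ ^ (-k : ℝ))
    (fun p z hz ↦ ?_)).mono HABK
  refine (norm_term_le hχ k p z).trans ?_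
  simpa only [eisSummand, one_div, ← _root_.zpow_neg, norm_zpow, ← Real.rpow_intCast,
    Int.cast_neg] using summand_bound_of_mem_verticalStrip (by positivity) p hB hz

theorem G_tendstoLocallyUniformlyOn (hχ : ∀ γ, ‖(χ γ : ℂ)‖ = 1) {k : ℤ} (hk : 3 ≤ k) :
    TendstoLocallyUniformlyOn (fun (s : Finset (Fin 2 → ℤ)) ↦
      ↑ₕ(fun (z : ℍ) ↦ ∑ x ∈ s, rowWeight χ x * eisSummand k x z)) (↑ₕ(G χ k))
          Filter.atTop {z : ℂ | 0 < z.im} := by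
  rw [← upperHalfPlaneSet, ← range_coe, ← image_univ]
  apply TendstoLocallyUniformlyOn.comp (s := ⊤) _ _ _ (OpenPartialHomeomorph.continuousOn_symm _)
  · simp only [Set.top_eq_univ, tendstoLocallyUniformlyOn_univ]
    apply G_tendstoLocallyUniformly hχ hk
  · simp only [IsOpenEmbedding.toOpenPartialHomeomorph_target, Set.top_eq_univ, mapsTo_range_iff,
    Set.mem_univ, forall_const]

/-- `G χ k` is holomorphic on the upper half plane. -/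
theorem G_mdifferentiable (hχ : ∀ γ, ‖(χ γ : ℂ)‖ = 1) {k : ℤ} (hk : 3 ≤ k) :
    MDiff (G χ k) := by
  intro τ
  suffices DifferentiableAt ℂ (↑ₕ(G χ k)) τ.1 by
    convert!
      MDifferentiableAt.comp τ (DifferentiableAt.mdifferentiableAt this) τ.mdifferentiable_coe
    exact funext fun z ↦ (comp_ofComplex (G χ k) z).symm
  refine DifferentiableOn.differentiableAt ?_ (isOpen_upperHalfPlaneSet.mem_nhds τ.2)
  refine (G_tendstoLocallyUniformlyOn hχ hk).differentiableOn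
    (Eventually.of_forall fun s ↦ ?_) isOpen_upperHalfPlaneSet
  have h : ∀ x ∈ s, DifferentiableOn ℂ
      (↑ₕ(fun z : ℍ => rowWeight χ x * eisSummand k x z)) {z : ℂ | 0 < z.im} := by
    intro x _
    have := (eisSummand_extension_differentiableOn k x).const_mul (rowWeight χ x)
    refine this.congr (fun z _ => ?_)
    simp [Function.comp]
  have h2 := DifferentiableOn.fun_sum h
  refine h2.congr (fun z _ => ?_)
  simp [Function.comp]

/-! ### Translates and boundedness at the cusps -/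

theorem G_slash_apply (k : ℤ) (g : SL(2, ℤ)) (z : ℍ) :
    (G χ k ∣[k] g) z = ∑' v : Fin 2 → ℤ, rowWeight χ v * eisSummand k (v ᵥ* g.1) z := by
  rw [SL_slash_apply, G]
  simp_rw [eisSummand_SL2_apply]
  rw [← tsum_mul_right]
  congr 1
  ext v
  have hd : denom g z ≠ 0 := denom_ne_zero g z
  rw [_root_.zpow_neg]
  field_simp

theorem norm_G_slash_le (hχ : ∀ γ, ‖(χ γ : ℂ)‖ = 1) {k : ℤ} (hk : 3 ≤ k) (g : SL(2, ℤ))
    (z : ℍ) : ‖(G χ k ∣[k] g) z‖ ≤ ∑' x : Fin 2 → ℤ, ‖eisSummand k x z‖ := by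
  rw [G_slash_apply]
  have hs : Summable fun v : Fin 2 → ℤ => ‖eisSummand k (vecMulEquiv g v) z‖ :=
    (vecMulEquiv g).summable_iff.mpr (summable_norm_eisSummand hk z)
  have hle : ∀ v : Fin 2 → ℤ, ‖rowWeight χ v * eisSummand k (v ᵥ* g.1) z‖
      ≤ ‖eisSummand k (vecMulEquiv g v) z‖ := by
    intro v
    rw [norm_mul]
    exact mul_le_of_le_one_left (norm_nonneg _) (norm_rowWeight_le hχ v)
  have hs' : Summable fun v : Fin 2 → ℤ => ‖rowWeight χ v * eisSummand k (v ᵥ* g.1) z‖ :=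
    Summable.of_nonneg_of_le (fun _ => norm_nonneg _) hle hs
  calc ‖∑' v : Fin 2 → ℤ, rowWeight χ v * eisSummand k (v ᵥ* g.1) z‖
      ≤ ∑' v : Fin 2 → ℤ, ‖rowWeight χ v * eisSummand k (v ᵥ* g.1) z‖ :=
        norm_tsum_le_tsum_norm hs'
    _ ≤ ∑' v : Fin 2 → ℤ, ‖eisSummand k (vecMulEquiv g v) z‖ := hs'.tsum_le_tsum hle hs
    _ = ∑' x : Fin 2 → ℤ, ‖eisSummand k x z‖ :=
        (vecMulEquiv g).tsum_eq (fun x => ‖eisSummand k x z‖)

theorem denom_T_zpow (n : ℤ) (z : ℍ) (A : SL(2, ℤ)) (hA : A = ModularGroup.T ^ n) :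
    denom A z = 1 := by
  rw [ModularGroup.denom_apply]
  have h : A.1 = !![1, n; 0, 1] := by rw [hA, ModularGroup.coe_T_zpow]
  have h10 : A 1 0 = 0 := by
    show A.1 1 0 = 0
    rw [h]; rfl
  have h11 : A 1 1 = 1 := by
    show A.1 1 1 = 1
    rw [h]; rfl
  rw [h10, h11]
  simp

theorem tsum_norm_T_zpow (k : ℤ) (n : ℤ) (z : ℍ) :
    ∑' x : Fin 2 → ℤ, ‖eisSummand k x (ModularGroup.T ^ n • z)‖
      = ∑' x : Fin 2 → ℤ, ‖eisSummand k x z‖ := by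
  have h : ∀ x : Fin 2 → ℤ, ‖eisSummand k x (ModularGroup.T ^ n • z)‖
      = ‖eisSummand k (vecMulEquiv (ModularGroup.T ^ n) x) z‖ := by
    intro x
    rw [eisSummand_SL2_apply, denom_T_zpow n z _ rfl, _root_.one_zpow, one_mul]
    rfl
  simp_rw [h]
  exact (vecMulEquiv _).tsum_eq (fun x => ‖eisSummand k x z‖)

/-- Every `SL(2, ℤ)`-translate of `G χ k` is bounded at `i∞`. -/
theorem isBoundedAtImInfty_G_slash (hχ : ∀ γ, ‖(χ γ : ℂ)‖ = 1) {k : ℤ} (hk : 3 ≤ k)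
    (g : SL(2, ℤ)) : IsBoundedAtImInfty (G χ k ∣[k] g) := by
  rw [UpperHalfPlane.isBoundedAtImInfty_iff]
  refine ⟨∑' (x : Fin 2 → ℤ), r ⟨⟨1, 2⟩, Nat.ofNat_pos⟩ ^ (-k) * ‖x‖ ^ (-k), 2, fun z hz => ?_⟩
  obtain ⟨n, hn⟩ := ModularGroup_T_zpow_mem_verticalStrip z Nat.one_pos
  refine (norm_G_slash_le hχ hk g z).trans ?_
  rw [← tsum_norm_T_zpow k ((1 : ℕ) * n) z]
  have hk' : (2 : ℝ) < k := by norm_cast
  apply (summable_norm_eisSummand hk _).tsum_le_tsum _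
  · exact_mod_cast (summable_one_div_norm_rpow hk').mul_left <| r ⟨⟨1, 2⟩, Nat.ofNat_pos⟩ ^ (-k)
  · intro x
    simp_rw [eisSummand, norm_zpow]
    have hmem : ModularGroup.T ^ ((1 : ℕ) * n) • z ∈ verticalStrip 1 2 := by
      have := verticalStrip_anti_right (1 : ℕ) hz hn
      simpa using this
    exact_mod_cast
      summand_bound_of_mem_verticalStrip (lt_trans two_pos hk').le x two_pos hmem

/-! ### The value at `i∞` -/

/-- The character is trivial on the elements of `Γ₀(N)` with lower left entry `0`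
(that is, on `± T ^ n`). -/
def TrivOnBorel (χ : ↥(Gamma0 N) →* ℂˣ) : Prop :=
  ∀ γ : ↥(Gamma0 N), γ.1.1 1 0 = 0 → χ γ = 1

theorem TrivOnBorel.trivOnUnipotent (hB : TrivOnBorel χ) : TrivOnUnipotent χ := by
  intro γ h
  apply hB
  rw [h]
  rfl

theorem tendsto_eisSummand_atImInfty {k : ℤ} (hk : 1 ≤ k) (v : Fin 2 → ℤ) (hv : v 0 ≠ 0) :
    Tendsto (fun z : ℍ => eisSummand k v z) atImInfty (𝓝 0) := by
  rw [tendsto_zero_iff_norm_tendsto_zero]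
  have hle : ∀ z : ℍ, ‖eisSummand k v z‖ ≤ z.im ^ (-k) := by
    intro z
    rw [eisSummand, norm_zpow]
    have h1 : z.im ≤ ‖(v 0 : ℂ) * z + v 1‖ := by
      have h2 : |((v 0 : ℂ) * z + v 1).im| ≤ ‖(v 0 : ℂ) * z + v 1‖ := Complex.abs_im_le_norm _
      have h3 : ((v 0 : ℂ) * z + v 1).im = v 0 * z.im := by simp
      rw [h3, abs_mul, abs_of_pos z.im_pos] at h2
      have h4 : (1 : ℝ) ≤ |(v 0 : ℝ)| := by exact_mod_cast Int.one_le_abs hv
      calc z.im = 1 * z.im := (one_mul _).symm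
        _ ≤ |(v 0 : ℝ)| * z.im := mul_le_mul_of_nonneg_right h4 z.im_pos.le
        _ ≤ _ := h2
    rw [_root_.zpow_neg, _root_.zpow_neg]
    have hk0 : (0 : ℤ) ≤ k := by omega
    exact inv_anti₀ (zpow_pos z.im_pos k) (zpow_le_zpow_left₀ hk0 z.im_pos.le h1)
  refine squeeze_zero (fun _ => norm_nonneg _) hle ?_
  have him : Tendsto (fun z : ℍ => z.im) atImInfty atTop := tendsto_comap
  exact (tendsto_zpow_atTop_zero (by omega : -k < 0)).comp him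

/-- The limit at `i∞` of the term indexed by `v`. -/
def limTerm (χ : ↥(Gamma0 N) →* ℂˣ) (k : ℤ) (v : Fin 2 → ℤ) : ℂ :=
  if v 0 = 0 then rowWeight χ v * (v 1 : ℂ) ^ (-k) else 0

theorem tendsto_term {k : ℤ} (hk : 1 ≤ k) (v : Fin 2 → ℤ) :
    Tendsto (fun z : ℍ => rowWeight χ v * eisSummand k v z) atImInfty (𝓝 (limTerm χ k v)) := by
  by_cases h : v 0 = 0
  · have : (fun z : ℍ => rowWeight χ v * eisSummand k v z)
        = fun _ => rowWeight χ v * (v 1 : ℂ) ^ (-k) := by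
      funext z
      simp [eisSummand, h]
    rw [this, limTerm, if_pos h]
    exact tendsto_const_nhds
  · rw [limTerm, if_neg h]
    simpa using (tendsto_eisSummand_atImInfty hk v h).const_mul (rowWeight χ v)

theorem neg_one_mem_Gamma0 : (-1 : SL(2, ℤ)) ∈ Gamma0 N := by
  rw [Gamma0_mem]
  simp

theorem rowWeight_zero_one (hU : TrivOnUnipotent χ) : rowWeight χ ![0, 1] = 1 := by
  have h := rowWeight_row hU (1 : ↥(Gamma0 N))
  have h1 : (1 : ↥(Gamma0 N)).1.1 1 = ![0, 1] := one_row_one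
  rw [h1, map_one, inv_one, Units.val_one] at h
  exact h

theorem rowWeight_zero_neg_one (hB : TrivOnBorel χ) : rowWeight χ ![0, -1] = 1 := by
  have h := rowWeight_row hB.trivOnUnipotent (⟨-1, neg_one_mem_Gamma0⟩ : ↥(Gamma0 N))
  have h1 : (⟨-1, neg_one_mem_Gamma0⟩ : ↥(Gamma0 N)).1.1 1 = ![0, -1] := by
    ext i
    fin_cases i <;> simp
  have h2 : χ (⟨-1, neg_one_mem_Gamma0⟩ : ↥(Gamma0 N)) = 1 := by
    apply hB
    simp
  rw [h1, h2, inv_one, Units.val_one] at h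
  exact h

theorem rowWeight_eq_zero_of_c_eq_zero {v : Fin 2 → ℤ} (h0 : v 0 = 0) (h1 : v ≠ ![0, 1])
    (h2 : v ≠ ![0, -1]) : rowWeight χ v = 0 := by
  apply rowWeight_of_not_row
  rintro ⟨γ, rfl⟩
  have hdet : γ.1.1.det = 1 := γ.1.2
  rw [Matrix.det_fin_two, h0, mul_zero, sub_zero] at hdet
  rcases Int.eq_one_or_neg_one_of_mul_eq_one' hdet with ⟨_, h⟩ | ⟨_, h⟩
  · apply h1
    ext i
    fin_cases i
    · simpa using h0
    · simpa using h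
  · apply h2
    ext i
    fin_cases i
    · simpa using h0
    · simpa using h

theorem tsum_limTerm (hB : TrivOnBorel χ) {k : ℤ} (hk : Even k) :
    ∑' v : Fin 2 → ℤ, limTerm χ k v = 2 := by
  have hne : (![0, 1] : Fin 2 → ℤ) ≠ ![0, -1] := by
    intro h
    have := congrFun h 1
    simp at this
  rw [tsum_eq_sum (s := {![0, 1], ![0, -1]})]
  · rw [Finset.sum_pair hne, limTerm, limTerm, if_pos (by simp), if_pos (by simp),
      rowWeight_zero_one hB.trivOnUnipotent, rowWeight_zero_neg_one hB]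
    have h1 : ((-1 : ℤ) : ℂ) ^ (-k) = 1 := by
      rw [Int.cast_neg, Int.cast_one, hk.neg.neg_one_zpow]
    simp only [Matrix.cons_val_one, Matrix.cons_val_zero, Int.cast_one, _root_.one_zpow,
      mul_one, one_mul]
    rw [h1]
    norm_num
  · intro v hv
    simp only [Finset.mem_insert, Finset.mem_singleton, not_or] at hv
    rw [limTerm]
    split_ifs with h0
    · rw [rowWeight_eq_zero_of_c_eq_zero h0 hv.1 hv.2, zero_mul]
    · rfl

theorem tendsto_G_strip (hχ : ∀ γ, ‖(χ γ : ℂ)‖ = 1) {k : ℤ} (hk : 3 ≤ k) :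
    Tendsto (G χ k) (atImInfty ⊓ 𝓟 (verticalStrip 1 1)) (𝓝 (∑' v : Fin 2 → ℤ, limTerm χ k v)) := by
  have hk' : (2 : ℝ) < k := by norm_cast
  have p_sum : Summable fun x : Fin 2 → ℤ ↦ ‖x‖ ^ (-k) :=
    mod_cast (summable_one_div_norm_rpow hk')
  refine tendsto_tsum_of_dominated_convergence
    (p_sum.mul_left <| r ⟨⟨1, 1⟩, one_pos⟩ ^ (-k : ℝ))
    (fun v => (tendsto_term (by omega) v).mono_left inf_le_left) ?_
  rw [eventually_inf_principal]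
  refine Eventually.of_forall (fun z hz v => ?_)
  refine (norm_term_le hχ k v z).trans ?_
  simpa only [eisSummand, one_div, ← _root_.zpow_neg, norm_zpow, ← Real.rpow_intCast,
    Int.cast_neg] using summand_bound_of_mem_verticalStrip (by positivity) v one_pos hz

theorem T_zpow_mem_Gamma0 (n : ℤ) : ModularGroup.T ^ n ∈ Gamma0 N := by
  rw [Gamma0_mem]
  have h : (ModularGroup.T ^ n) 1 0 = 0 := by
    show (ModularGroup.T ^ n).1 1 0 = 0
    rw [ModularGroup.coe_T_zpow]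
    rfl
  rw [h]
  simp

/-- `G χ k` is invariant under translations. -/
theorem G_T_zpow_smul (hB : TrivOnBorel χ) (k : ℤ) (n : ℤ) (z : ℍ) :
    G χ k (ModularGroup.T ^ n • z) = G χ k z := by
  have h := G_smul hB.trivOnUnipotent k (⟨ModularGroup.T ^ n, T_zpow_mem_Gamma0 n⟩ : ↥(Gamma0 N)) z
  have h1 : χ (⟨ModularGroup.T ^ n, T_zpow_mem_Gamma0 n⟩ : ↥(Gamma0 N)) = 1 := by
    apply hB
    show (ModularGroup.T ^ n).1 1 0 = 0
    rw [ModularGroup.coe_T_zpow]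
    rfl
  rw [h1, denom_T_zpow n z _ rfl, Units.val_one, _root_.one_zpow, one_mul, one_mul] at h
  exact h

/-- The value of `G χ k` at `i∞` is `2` (for even `k ≥ 4` and `χ` trivial on `± T ^ n`). -/
theorem tendsto_G_atImInfty (hχ : ∀ γ, ‖(χ γ : ℂ)‖ = 1) (hB : TrivOnBorel χ) {k : ℤ}
    (hk : 3 ≤ k) (hk2 : Even k) : Tendsto (G χ k) atImInfty (𝓝 2) := by
  have h := tendsto_G_strip hχ hk (χ := χ)
  rw [tsum_limTerm hB hk2] at h
  intro U hU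
  have h1 := h hU
  rw [Filter.mem_map, Filter.mem_inf_principal, UpperHalfPlane.atImInfty_mem] at h1
  obtain ⟨A, hA⟩ := h1
  rw [Filter.mem_map, UpperHalfPlane.atImInfty_mem]
  refine ⟨max A 1, fun z hz => ?_⟩
  obtain ⟨n, hn⟩ := ModularGroup_T_zpow_mem_verticalStrip z Nat.one_pos
  have him : (ModularGroup.T ^ ((1 : ℕ) * n) • z).im = z.im := ModularGroup.im_T_zpow_smul z _
  have hmem : ModularGroup.T ^ ((1 : ℕ) * n) • z ∈ verticalStrip 1 1 := by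
    have := verticalStrip_anti_right (1 : ℕ) (le_of_max_le_right hz) hn
    simpa using this
  have h2 := hA (ModularGroup.T ^ ((1 : ℕ) * n) • z) (by rw [him]; exact le_of_max_le_left hz) hmem
  rw [Set.mem_preimage, G_T_zpow_smul hB] at h2
  exact h2

/-- `G χ k` is not identically zero. -/
theorem G_ne_zero (hχ : ∀ γ, ‖(χ γ : ℂ)‖ = 1) (hB : TrivOnBorel χ) {k : ℤ}
    (hk : 3 ≤ k) (hk2 : Even k) : G χ k ≠ 0 := by
  intro h0
  have h := tendsto_G_atImInfty hχ hB hk hk2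
  rw [h0] at h
  have h2 : Tendsto (0 : ℍ → ℂ) atImInfty (𝓝 0) := tendsto_const_nhds
  have := tendsto_nhds_unique h h2
  norm_num at this

/-! ### Characters killing the elements of trace `± 2`, the trivial character -/

/-- A character killing all elements with `trace ^ 2 = 4` is trivial on `± T ^ n`. -/
theorem trivOnBorel_of_trace_sq
    (h : ∀ γ : ↥(Gamma0 N), ((γ : SL(2, ℤ)) : Matrix (Fin 2) (Fin 2) ℤ).trace ^ 2 = 4 → χ γ = 1) :
    TrivOnBorel χ := by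
  intro γ hc
  apply h
  have hdet : γ.1.1.det = 1 := γ.1.2
  rw [Matrix.det_fin_two, hc, mul_zero, sub_zero] at hdet
  rw [Matrix.trace_fin_two]
  rcases Int.eq_one_or_neg_one_of_mul_eq_one' hdet with ⟨h0, h1⟩ | ⟨h0, h1⟩
  · show (γ.1.1 0 0 + γ.1.1 1 1) ^ 2 = 4
    rw [h0, h1]
    norm_num
  · show (γ.1.1 0 0 + γ.1.1 1 1) ^ 2 = 4
    rw [h0, h1]
    norm_num

theorem norm_one_char (γ : ↥(Gamma0 N)) : ‖(((1 : ↥(Gamma0 N) →* ℂˣ) γ : ℂˣ) : ℂ)‖ = 1 := by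
  simp

theorem trivOnBorel_one : TrivOnBorel (1 : ↥(Gamma0 N) →* ℂˣ) := fun _ _ => rfl

theorem trivOnUnipotent_one : TrivOnUnipotent (1 : ↥(Gamma0 N) →* ℂˣ) :=
  trivOnBorel_one.trivOnUnipotent

theorem one_char_pow (m : ℕ) (γ : ↥(Gamma0 N)) : (1 : ↥(Gamma0 N) →* ℂˣ) γ ^ m = 1 := by
  simp

/-- The classical (level one) transformation law for the trivial character, on `Γ₀(N)`. -/
theorem G_one_smul (k : ℤ) (γ : ↥(Gamma0 N)) (z : ℍ) :
    G (1 : ↥(Gamma0 N) →* ℂˣ) k (γ.1 • z) = denom γ.1 z ^ k * G (1 : ↥(Gamma0 N) →* ℂˣ) k z := by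
  have h := G_smul (trivOnUnipotent_one (N := N)) k γ z
  simpa using h

/-- The quotient `G χ k / G 1 k` transforms by the character `χ` (fraction-free form). -/
theorem G_mul_G_one_smul (hU : TrivOnUnipotent χ) (k : ℤ) (γ : ↥(Gamma0 N)) (z : ℍ) :
    G χ k (γ.1 • z) * G (1 : ↥(Gamma0 N) →* ℂˣ) k z
      = (χ γ : ℂ) * (G χ k z * G (1 : ↥(Gamma0 N) →* ℂˣ) k (γ.1 • z)) := by
  rw [G_smul hU, G_one_smul]
  ring

/-- The quotient `G χ k / G 1 k` transforms by the character `χ`. -/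
theorem G_div_G_one_smul (hU : TrivOnUnipotent χ) (k : ℤ) (γ : ↥(Gamma0 N)) (z : ℍ) :
    G χ k (γ.1 • z) / G (1 : ↥(Gamma0 N) →* ℂˣ) k (γ.1 • z)
      = (χ γ : ℂ) * (G χ k z / G (1 : ↥(Gamma0 N) →* ℂˣ) k z) := by
  rw [G_smul hU, G_one_smul]
  have hd : denom γ.1 z ^ k ≠ 0 := zpow_ne_zero _ (denom_ne_zero _ z)
  rw [mul_assoc, mul_div_assoc, mul_div_mul_left _ _ hd]

/-! ### Powers: honest modular forms on `Γ₀(N)` -/

theorem pow_slash (f : ℍ → ℂ) (k : ℤ) (m : ℕ) (g : SL(2, ℤ)) :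
    (fun z => f z ^ m) ∣[k * (m : ℤ)] g = fun z => ((f ∣[k] g) z) ^ m := by
  funext z
  rw [SL_slash_apply, SL_slash_apply, mul_pow, ← zpow_natCast (denom g z ^ (-k)) m,
    ← _root_.zpow_mul]
  congr 2
  ring

theorem isBoundedAtImInfty_pow {f : ℍ → ℂ} (hf : IsBoundedAtImInfty f) (m : ℕ) :
    IsBoundedAtImInfty (fun z => f z ^ m) := by
  rw [UpperHalfPlane.isBoundedAtImInfty_iff] at hf ⊢
  obtain ⟨M, A, h⟩ := hf
  refine ⟨M ^ m, A, fun z hz => ?_⟩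
  rw [norm_pow]
  exact pow_le_pow_left₀ (norm_nonneg _) (h z hz) m

/-- Slash invariance of `(G χ k) ^ m` under `Γ₀(N)` when `χ ^ m = 1`. -/
theorem G_pow_slash (hU : TrivOnUnipotent χ) (k : ℤ) (m : ℕ) (hm : ∀ γ, χ γ ^ m = 1)
    (γ : ↥(Gamma0 N)) :
    (fun z => G χ k z ^ m) ∣[k * (m : ℤ)] (γ : SL(2, ℤ)) = fun z => G χ k z ^ m := by
  rw [pow_slash]
  funext z
  have h : G χ k (γ.1 • z) = (χ γ : ℂ) * denom γ.1 z ^ k * G χ k z := G_smul hU k γ z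
  have hd : denom γ.1 z ≠ 0 := denom_ne_zero γ.1 z
  have hm' : ((χ γ : ℂˣ) : ℂ) ^ m = 1 := by
    rw [← Units.val_pow_eq_pow_val, hm, Units.val_one]
  rw [SL_slash_apply, h]
  have h3 : (χ γ : ℂ) * denom γ.1 z ^ k * G χ k z * denom γ.1 z ^ (-k)
      = (χ γ : ℂ) * G χ k z := by
    rw [_root_.zpow_neg]
    field_simp
  rw [h3, mul_pow, hm', one_mul]

/-- `(G χ k) ^ m` is not the zero function (even `k ≥ 4`, `χ` trivial on `± T ^ n`). -/
theorem G_pow_ne_zero (hχ : ∀ γ, ‖(χ γ : ℂ)‖ = 1) (hB : TrivOnBorel χ) {k : ℤ}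
    (hk : 3 ≤ k) (hk2 : Even k) (m : ℕ) : (fun z : ℍ => G χ k z ^ m) ≠ 0 := by
  intro h0
  have h := (tendsto_G_atImInfty hχ hB hk hk2).pow m
  rw [show (fun z : ℍ => G χ k z ^ m) = 0 from h0] at h
  have h2 : Tendsto (0 : ℍ → ℂ) atImInfty (𝓝 0) := tendsto_const_nhds
  have h3 := tendsto_nhds_unique h h2
  exact absurd h3 (pow_ne_zero m two_ne_zero)

variable [NeZero N]

/-- If `χ ^ m = 1` then `(G χ k) ^ m` is a modular form of weight `k * m` on `Γ₀(N)`. -/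
def GPow (χ : ↥(Gamma0 N) →* ℂˣ) (hχ : ∀ γ, ‖(χ γ : ℂ)‖ = 1) (hU : TrivOnUnipotent χ) {k : ℤ}
    (hk : 3 ≤ k) (m : ℕ) (hm : ∀ γ, χ γ ^ m = 1) : ModularForm (Gamma0 N) (k * (m : ℤ)) where
  toFun := fun z => G χ k z ^ m
  slash_action_eq' A hA := by
    obtain ⟨A, hA', rfl⟩ := hA
    exact G_pow_slash hU k m hm ⟨A, hA'⟩
  holo' := (G_mdifferentiable hχ hk).pow m
  bdd_at_cusps' {c} hc := by
    rw [Subgroup.IsArithmetic.isCusp_iff_isCusp_SL2Z] at hc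
    rw [OnePoint.isBoundedAt_iff_forall_SL2Z hc]
    intro γ _
    rw [pow_slash]
    exact isBoundedAtImInfty_pow (isBoundedAtImInfty_G_slash hχ hk γ) m

@[simp] theorem GPow_apply (hχ : ∀ γ, ‖(χ γ : ℂ)‖ = 1) (hU : TrivOnUnipotent χ) {k : ℤ}
    (hk : 3 ≤ k) (m : ℕ) (hm : ∀ γ, χ γ ^ m = 1) (z : ℍ) :
    GPow χ hχ hU hk m hm z = G χ k z ^ m := rfl

theorem coe_GPow (hχ : ∀ γ, ‖(χ γ : ℂ)‖ = 1) (hU : TrivOnUnipotent χ) {k : ℤ}
    (hk : 3 ≤ k) (m : ℕ) (hm : ∀ γ, χ γ ^ m = 1) :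
    (⇑(GPow χ hχ hU hk m hm) : ℍ → ℂ) = fun z => G χ k z ^ m := rfl

/-- The same modular form with the weight in any prescribed shape. -/
def GPowCast (χ : ↥(Gamma0 N) →* ℂˣ) (hχ : ∀ γ, ‖(χ γ : ℂ)‖ = 1) (hU : TrivOnUnipotent χ) {k : ℤ}
    (hk : 3 ≤ k) (m : ℕ) (hm : ∀ γ, χ γ ^ m = 1) {w : ℤ} (hw : k * (m : ℤ) = w) :
    ModularForm (Gamma0 N) w :=
  ModularForm.mcast hw (GPow χ hχ hU hk m hm)

@[simp] theorem GPowCast_apply (hχ : ∀ γ, ‖(χ γ : ℂ)‖ = 1) (hU : TrivOnUnipotent χ) {k : ℤ}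
    (hk : 3 ≤ k) (m : ℕ) (hm : ∀ γ, χ γ ^ m = 1) {w : ℤ} (hw : k * (m : ℤ) = w) (z : ℍ) :
    GPowCast χ hχ hU hk m hm hw z = G χ k z ^ m := rfl

theorem coe_GPowCast (hχ : ∀ γ, ‖(χ γ : ℂ)‖ = 1) (hU : TrivOnUnipotent χ) {k : ℤ}
    (hk : 3 ≤ k) (m : ℕ) (hm : ∀ γ, χ γ ^ m = 1) {w : ℤ} (hw : k * (m : ℤ) = w) :
    (⇑(GPowCast χ hχ hU hk m hm hw) : ℍ → ℂ) = fun z => G χ k z ^ m := rfl

theorem GPow_ne_zero (hχ : ∀ γ, ‖(χ γ : ℂ)‖ = 1) (hB : TrivOnBorel χ) {k : ℤ}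
    (hk : 3 ≤ k) (hk2 : Even k) (m : ℕ) (hm : ∀ γ, χ γ ^ m = 1) :
    (⇑(GPow χ hχ hB.trivOnUnipotent hk m hm) : ℍ → ℂ) ≠ 0 :=
  G_pow_ne_zero hχ hB hk hk2 m

theorem GPowCast_ne_zero (hχ : ∀ γ, ‖(χ γ : ℂ)‖ = 1) (hB : TrivOnBorel χ) {k : ℤ}
    (hk : 3 ≤ k) (hk2 : Even k) (m : ℕ) (hm : ∀ γ, χ γ ^ m = 1) {w : ℤ} (hw : k * (m : ℤ) = w) :
    (⇑(GPowCast χ hχ hB.trivOnUnipotent hk m hm hw) : ℍ → ℂ) ≠ 0 :=
  G_pow_ne_zero hχ hB hk hk2 m

/-! ### The weight `4` pair `A = G_χ ^ m`, `B = G_1 ^ m` with natural number weight `4 * m` -/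

/-- `A = (G χ 4) ^ m`, a modular form of weight `4 * m` on `Γ₀(N)` when `χ ^ m = 1`. -/
def A4 (χ : ↥(Gamma0 N) →* ℂˣ) (hχ : ∀ γ, ‖(χ γ : ℂ)‖ = 1) (hU : TrivOnUnipotent χ) (m : ℕ)
    (hm : ∀ γ, χ γ ^ m = 1) : ModularForm (Gamma0 N) ((4 * m : ℕ) : ℤ) :=
  GPowCast χ hχ hU (k := 4) (by norm_num) m hm (by push_cast; ring)

/-- `B = (G 1 4) ^ m`, a modular form of weight `4 * m` on `Γ₀(N)`. -/
def B4 (N : ℕ) [NeZero N] (m : ℕ) : ModularForm (Gamma0 N) ((4 * m : ℕ) : ℤ) :=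
  A4 (1 : ↥(Gamma0 N) →* ℂˣ) norm_one_char trivOnUnipotent_one m (one_char_pow m)

@[simp] theorem A4_apply (hχ : ∀ γ, ‖(χ γ : ℂ)‖ = 1) (hU : TrivOnUnipotent χ) (m : ℕ)
    (hm : ∀ γ, χ γ ^ m = 1) (z : ℍ) : A4 χ hχ hU m hm z = G χ 4 z ^ m := rfl

@[simp] theorem B4_apply (m : ℕ) (z : ℍ) :
    B4 N m z = G (1 : ↥(Gamma0 N) →* ℂˣ) 4 z ^ m := rfl

theorem B4_ne_zero (m : ℕ) : (⇑(B4 N m) : ℍ → ℂ) ≠ 0 :=
  G_pow_ne_zero norm_one_char trivOnBorel_one (by norm_num) (by decide) m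

theorem A4_ne_zero (hχ : ∀ γ, ‖(χ γ : ℂ)‖ = 1) (hB : TrivOnBorel χ) (m : ℕ)
    (hm : ∀ γ, χ γ ^ m = 1) : (⇑(A4 χ hχ hB.trivOnUnipotent m hm) : ℍ → ℂ) ≠ 0 :=
  G_pow_ne_zero hχ hB (by norm_num) (by decide) m

end Fermat.Agent.S29.EisChar
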