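/-
S29 (wave 9), row [IV], leaf (c2) "Inv": a quotient of two modular forms of the same weight on
`Γ₀(N)` is a rational function of the functions `z ↦ j (d z)`, `d ∣ N`, i.e. it comes from the
function field `S24.FF ℂ N` of `X₀(N)` over `ℂ`.

Proof.  Work inside `ℂ((q))`.  The quotients `q(a) / q(b)` of `q`-expansions of forms of equal
weight on `Γ₀(N)` are closed under the field operations and contain the constants and the
generators `jq (q ^ d)` of `FF ℂ N`.  Each of them is a root of a nonzero polynomial of degree at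
most the index `μ` of `Γ₀(N)` over `ℂ(j)` (the norm polynomial of `S23.NormPoly`, whose coefficients
are level one forms, hence polynomials in `j` times a power of `Δ`).  So the field generated by
`FF ℂ N` and such a quotient has degree at most `μ` over `ℂ(j)` (primitive element theorem,
`S24.DegreeAlg`), while `FF ℂ N` already has degree exactly `μ` (`S18.C0N.finrank_jElt`).
-/
import Mathlib
import Fermat.Agent.S18.C0N
import Fermat.Agent.S24.Mod.Degree
import Fermat.Agent.S24.QL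

set_option autoImplicit false

noncomputable section

open scoped MatrixGroups
open UpperHalfPlane ModularCurve IntermediateField CongruenceSubgroup

namespace Fermat.Agent.S29.InvAlg

open Fermat.Agent Fermat.Agent.S24 Fermat.Agent.S23 Fermat.Agent.S23.QNice Fermat.Agent.S24.QL
open Fermat.Agent.S24.DegreeForms

/-! ### Two transfer lemmas between functions and Laurent `q`-expansions -/

/-- If `f` has the Laurent expansion `L` and `f * b = a` with `a`, `b` nice, then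
`L * q(b) = q(a)`. -/
theorem mul_qL_eq_of_hasQL {f : ℍ → ℂ} {L : LaurentSeries ℂ} (h : HasQL f L) (a b : niceSub)
    (hab : ∀ z, f z * (b : ℍ → ℂ) z = (a : ℍ → ℂ) z) : L * qL b = qL a := by
  obtain ⟨g, d, hd, hf, hL⟩ := h
  have h1 : g * b = a * d := by
    apply Subtype.ext
    funext z
    show (g : ℍ → ℂ) z * (b : ℍ → ℂ) z = (a : ℍ → ℂ) z * (d : ℍ → ℂ) z
    rw [← hf z, ← hab z]
    ring
  have h2 : qL g * qL b = qL a * qL d := by rw [← qL_mul, ← qL_mul, h1]
  have hd0 : qL d ≠ 0 := qL_ne_zero hd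
  apply mul_right_cancel₀ hd0
  rw [← h2, ← hL]
  ring

/-- An identity `q(a) * L₁ = q(b) * L₂` between Laurent expansions is an identity between the
functions. -/
theorem eq_of_qL_mul_eq {f₁ f₂ : ℍ → ℂ} {L₁ L₂ : LaurentSeries ℂ} (h₁ : HasQL f₁ L₁)
    (h₂ : HasQL f₂ L₂) (a b : niceSub) (h : qL a * L₁ = qL b * L₂) (z : ℍ) :
    (a : ℍ → ℂ) z * f₁ z = (b : ℍ → ℂ) z * f₂ z := by
  have h3 : HasQL ((a : ℍ → ℂ) * f₁ - (b : ℍ → ℂ) * f₂) (qL a * L₁ - qL b * L₂) :=
    ((hasQL_nice a).mul h₁).sub ((hasQL_nice b).mul h₂)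
  rw [h, sub_self] at h3
  have h4 := congrFun (h3.eq_zero_iff.mpr rfl) z
  simpa [sub_eq_zero] using h4

theorem map_pow_qL (g : niceSub) (n : ℕ) : qL (g ^ n) = qL g ^ n := by
  induction n with
  | zero => rw [pow_zero, pow_zero, qL_one]
  | succ n ih => rw [pow_succ, pow_succ, qL_mul, ih]

/-! ### Quotients of `q`-expansions of forms of equal weight -/

/-- `t` is the quotient of the `q`-expansions of two modular forms of the same weight on
`Γ₀(N)`. -/
def IsQ (N : ℕ) (t : LaurentSeries ℂ) : Prop :=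
  ∃ (w : ℤ) (a b : niceSub), IsMF N w (a : ℍ → ℂ) ∧ IsMF N w (b : ℍ → ℂ) ∧ qL b ≠ 0 ∧
    t * qL b = qL a

variable {N : ℕ}

theorem IsQ.add {s t : LaurentSeries ℂ} (hs : IsQ N s) (ht : IsQ N t) : IsQ N (s + t) := by
  obtain ⟨w, a, b, ha, hb, hb0, hsb⟩ := hs
  obtain ⟨w', a', b', ha', hb', hb0', htb⟩ := ht
  refine ⟨w + w', a * b' + a' * b, b * b', ?_, hb.mul hb', ?_, ?_⟩
  · exact (ha.mul hb').add ((ha'.mul hb).cast (add_comm _ _))
  · rw [qL_mul]
    exact mul_ne_zero hb0 hb0'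
  · rw [qL_mul, qL_add, qL_mul, qL_mul, ← hsb, ← htb]
    ring

theorem IsQ.mul {s t : LaurentSeries ℂ} (hs : IsQ N s) (ht : IsQ N t) : IsQ N (s * t) := by
  obtain ⟨w, a, b, ha, hb, hb0, hsb⟩ := hs
  obtain ⟨w', a', b', ha', hb', hb0', htb⟩ := ht
  refine ⟨w + w', a * a', b * b', ha.mul ha', hb.mul hb', ?_, ?_⟩
  · rw [qL_mul]
    exact mul_ne_zero hb0 hb0'
  · rw [qL_mul, qL_mul, ← hsb, ← htb]
    ring

theorem isQ_zero (N : ℕ) : IsQ N 0 :=
  ⟨0, 0, 1, isMF_zero 0, isMF_one, by rw [qL_one]; exact one_ne_zero, by rw [qL_zero, zero_mul]⟩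

theorem IsQ.inv {s : LaurentSeries ℂ} (hs : IsQ N s) : IsQ N s⁻¹ := by
  obtain ⟨w, a, b, ha, hb, hb0, hsb⟩ := hs
  by_cases h0 : s = 0
  · rw [h0, inv_zero]
    exact isQ_zero N
  · have ha0 : qL a ≠ 0 := by
      rw [← hsb]
      exact mul_ne_zero h0 hb0
    refine ⟨w, b, a, hb, ha, ha0, ?_⟩
    rw [← hsb, ← mul_assoc, inv_mul_cancel₀ h0, one_mul]

theorem isQ_const (N : ℕ) (c : ℂ) : IsQ N (algebraMap ℂ (LaurentSeries ℂ) c) := by
  refine ⟨0, algebraMap ℂ niceSub c, 1, ?_, isMF_one, ?_, ?_⟩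
  · have h2 : ((algebraMap ℂ niceSub c : niceSub) : ℍ → ℂ) = c • (1 : ℍ → ℂ) := by
      ext z
      simp [Algebra.algebraMap_eq_smul_one]
    rw [h2]
    exact isMF_one.smul c
  · rw [qL_one]
    exact one_ne_zero
  · rw [qL_one, mul_one, qL_algebraMap]

theorem isQ_gen (N : ℕ) [NeZero N] (d : Dv N) : IsQ N (coeffEmb ℂ (jqd d)) := by
  have : NeZero d.1 := ⟨d.ne_zero⟩
  have h : HasQL (JN.jN d.1) (coeffEmb ℂ (jqd d)) := hasQL_jN d.1
  refine ⟨12, ⟨⇑(UV.uForm d.1), nice_gamma0 _⟩, ⟨⇑(UV.vForm d.1), nice_gamma0 _⟩,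
    isMF_uForm d.2, isMF_vForm d.2, ?_, ?_⟩
  · exact qL_ne_zero (fun z => UV.vForm_ne_zero d.1 z)
  · refine mul_qL_eq_of_hasQL h _ _ (fun z => ?_)
    show JN.jN d.1 z * UV.vForm d.1 z = UV.uForm d.1 z
    rw [Dist.jN_eq_uForm_div_vForm]
    exact div_mul_cancel₀ _ (UV.vForm_ne_zero d.1 z)

theorem isQ_aeval (N : ℕ) [NeZero N] (P : MvPolynomial (Dv N) ℂ) :
    IsQ N (MvPolynomial.aeval (fun d : Dv N => coeffEmb ℂ (jqd d)) P) := by
  induction P using MvPolynomial.induction_on with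
  | C c =>
    rw [MvPolynomial.aeval_C]
    exact isQ_const N c
  | add p q hp hq =>
    rw [map_add]
    exact hp.add hq
  | mul_X p d hp =>
    rw [map_mul, MvPolynomial.aeval_X]
    exact hp.mul (isQ_gen N d)

theorem isQ_of_mem_FF (N : ℕ) [NeZero N] (f : ↥(FF ℂ N)) : IsQ N (f : LaurentSeries ℂ) := by
  obtain ⟨P, Q, -, rfl⟩ := Ext.exists_eq_div ℂ N f
  have h : ((evalL ℂ N P / evalL ℂ N Q : ↥(FF ℂ N)) : LaurentSeries ℂ) =
      ((evalL ℂ N P : ↥(FF ℂ N)) : LaurentSeries ℂ) *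
        ((evalL ℂ N Q : ↥(FF ℂ N)) : LaurentSeries ℂ)⁻¹ := by
    rw [div_eq_mul_inv]
    rfl
  rw [h, Bridge.coe_evalL', Bridge.coe_evalL']
  exact (isQ_aeval N P).mul (isQ_aeval N Q).inv

/-! ### The norm relation -/

/-- Every quotient of `q`-expansions of forms of equal weight on `Γ₀(N)` satisfies a norm equation
of degree the index of `Γ₀(N)` over `ℂ[j]`. -/
theorem IsQ.exists_rel [NeZero N] {t : LaurentSeries ℂ} (ht : IsQ N t) :
    ∃ p : ℕ → Polynomial ℂ, p 0 ≠ 0 ∧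
      ∑ m ∈ Finset.range ((Gamma0 N).index + 1),
        (-1 : LaurentSeries ℂ) ^ m * Polynomial.aeval (coeffEmb ℂ jq) (p m) *
          t ^ ((Gamma0 N).index - m) = 0 := by
  obtain ⟨w, a, b, ha, hb, hb0, htb⟩ := ht
  set μ : ℕ := (Gamma0 N).index with hμ
  set e : ℕ := w.natAbs with he
  set K : ℕ := (w + (e : ℤ)).toNat with hKdef
  have hK : (K : ℤ) = w + (e : ℤ) := Int.toNat_of_nonneg (by omega)
  -- a nowhere vanishing form of weight 12
  let v : niceSub := ⟨⇑(UV.vForm N), nice_gamma0 _⟩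
  have hv : IsMF N 12 (v : ℍ → ℂ) := isMF_vForm dvd_rfl
  have hv0 : qL v ≠ 0 := qL_ne_zero (fun z => UV.vForm_ne_zero N z)
  let a' : niceSub := a * b ^ 11 * v ^ e
  let b' : niceSub := b ^ 12 * v ^ e
  have ha' : IsMF N (12 * (K : ℤ)) (a' : ℍ → ℂ) :=
    ((ha.mul (hb.pow 11)).mul (hv.pow e)).cast (by rw [hK]; push_cast; ring)
  have hb' : IsMF N (12 * (K : ℤ)) (b' : ℍ → ℂ) :=
    ((hb.pow 12).mul (hv.pow e)).cast (by rw [hK]; push_cast; ring)
  have hqb' : qL b' ≠ 0 := by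
    show qL (b ^ 12 * v ^ e) ≠ 0
    rw [qL_mul, map_pow_qL, map_pow_qL]
    exact mul_ne_zero (pow_ne_zero _ hb0) (pow_ne_zero _ hv0)
  have hqa' : qL a' = t * qL b' := by
    show qL (a * b ^ 11 * v ^ e) = t * qL (b ^ 12 * v ^ e)
    rw [qL_mul, qL_mul, qL_mul, map_pow_qL, map_pow_qL, map_pow_qL, ← htb]
    ring
  obtain ⟨P, hP⟩ := ha'
  obtain ⟨Q, hQ⟩ := hb'
  obtain ⟨Mm, hM0, hMrel⟩ := NormPoly.exists_normPoly P Q
  have hw : (12 * (K : ℤ)) * ((Gamma0 N).index : ℤ) = 12 * ((K * μ : ℕ) : ℤ) := by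
    push_cast
    ring
  choose p _ hp using fun m =>
    LevelOne.exists_poly_discriminant_pow (K * μ) (ModularForm.mcast hw (Mm m))
  have hMz : ∀ m z, Mm m z =
      ModularForm.discriminant z ^ (K * μ) * (p m).eval (JN.jN 1 z) := fun m z => by
    rw [DegreeCore.jN_one]
    exact hp m z
  have hQne : (⇑Q : ℍ → ℂ) ≠ 0 := by
    intro hQ0
    apply hqb'
    have : b' = 0 := Subtype.ext (hQ.symm.trans hQ0)
    rw [this, qL_zero]
  refine ⟨p, ?_, ?_⟩
  · intro h0
    apply hM0 hQne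
    ext τ
    rw [hMz, h0]
    simp
  · -- the relation between functions
    have hJ : HasQL (JN.jN 1) (coeffEmb ℂ jq) := by
      have h := hasQL_jN 1
      rwa [qExpand_one_apply] at h
    set G : ℍ → ℂ := ∑ m ∈ Finset.range (μ + 1),
      (-1 : ℍ → ℂ) ^ m * Polynomial.aeval (JN.jN 1) (p m) * (b' : ℍ → ℂ) ^ m *
        (a' : ℍ → ℂ) ^ (μ - m) with hG
    have hGQ : HasQL G (∑ m ∈ Finset.range (μ + 1),
        (-1 : LaurentSeries ℂ) ^ m * Polynomial.aeval (coeffEmb ℂ jq) (p m) * qL b' ^ m *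
          qL a' ^ (μ - m)) :=
      HasQL.sum _ fun m _ =>
        (((hasQL_one.neg.pow m).mul (hasQL_aeval (p m) hJ)).mul ((hasQL_nice b').pow m)).mul
          ((hasQL_nice a').pow (μ - m))
    have hG0 : G = 0 := by
      funext z
      have hΔ : ModularForm.discriminant z ^ (K * μ) ≠ 0 :=
        pow_ne_zero _ (ModularForm.discriminant_ne_zero z)
      apply mul_left_cancel₀ hΔ
      rw [Pi.zero_apply, mul_zero, ← hMrel z, hG, Finset.sum_apply, Finset.mul_sum]
      refine Finset.sum_congr rfl fun m _ => ?_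
      simp only [Pi.mul_apply, Pi.pow_apply, Pi.neg_apply, Pi.one_apply, aeval_apply]
      rw [hMz, ← congrFun hP z, ← congrFun hQ z]
      ring
    have hS := hGQ.eq_zero_iff.mp hG0
    have hfac : qL b' ^ μ * ∑ m ∈ Finset.range (μ + 1),
        (-1 : LaurentSeries ℂ) ^ m * Polynomial.aeval (coeffEmb ℂ jq) (p m) * t ^ (μ - m) = 0 := by
      rw [← hS, Finset.mul_sum]
      refine Finset.sum_congr rfl fun m hm => ?_
      have hmn : m ≤ μ := Nat.lt_succ_iff.mp (Finset.mem_range.mp hm)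
      have h3 : qL b' ^ μ = qL b' ^ m * qL b' ^ (μ - m) := by
        rw [← pow_add, Nat.add_sub_cancel' hmn]
      rw [hqa', mul_pow, h3]
      ring
    rcases mul_eq_zero.mp hfac with h | h
    · exact absurd h (pow_ne_zero _ hqb')
    · exact h

/-! ### The degree argument -/

/-- A field extension `Ω / k`, a subextension `F` of finite degree `n`, and an element `y` such
that every element of the field generated by `F` and `y` has degree at most `n` over `k`: then
`y ∈ F`. -/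
theorem mem_range_of_forall_exists_poly {k F Ω : Type*} [Field k] [Field F] [Field Ω]
    [CharZero k] [Algebra k F] [Algebra k Ω] (φ : F →ₐ[k] Ω) (n : ℕ)
    (hF : Module.finrank k F = n) (y : Ω)
    (hy : ∀ t ∈ IntermediateField.adjoin k (Set.range φ ∪ {y}),
      ∃ p : Polynomial k, p ≠ 0 ∧ p.natDegree ≤ n ∧ Polynomial.aeval t p = 0) :
    y ∈ Set.range φ := by
  set E : IntermediateField k Ω := IntermediateField.adjoin k (Set.range φ ∪ {y}) with hE
  have hdeg : FiniteDimensional k E ∧ Module.finrank k E ≤ n := by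
    apply DegreeAlg.finrank_le_of_forall_exists_poly
    intro x
    obtain ⟨p, hp0, hpn, hp⟩ := hy (x : Ω) x.2
    refine ⟨p, hp0, hpn, ?_⟩
    have h1 : E.val (Polynomial.aeval x p) = 0 := by
      rw [← Polynomial.aeval_algHom_apply E.val x p]
      exact hp
    exact (map_eq_zero_iff E.val E.val.injective).mp h1
  have hfin : FiniteDimensional k E := hdeg.1
  have hle : φ.fieldRange ≤ E := by
    rintro _ ⟨f, rfl⟩
    exact IntermediateField.subset_adjoin k _ (Or.inl ⟨f, rfl⟩)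
  have hrk : Module.finrank k φ.fieldRange = n := by
    rw [← hF]
    exact (AlgEquiv.ofInjectiveField φ).toLinearEquiv.finrank_eq.symm
  have heq : φ.fieldRange = E :=
    IntermediateField.eq_of_le_of_finrank_le hle (by rw [hrk]; exact hdeg.2)
  have hyE : y ∈ E := IntermediateField.subset_adjoin k _ (Or.inr rfl)
  rw [← heq] at hyE
  obtain ⟨f, hf⟩ := hyE
  exact ⟨f, hf⟩

set_option synthInstance.maxHeartbeats 400000 in
set_option maxHeartbeats 1600000 in
/-- **(c2), Laurent form.**  A quotient of `q`-expansions of two modular forms of the same weight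
on `Γ₀(N)` lies in the function field `FF ℂ N ⊆ ℂ((q))` of `X₀(N)`. -/
theorem mem_FF_of_isQ (N : ℕ) [NeZero N] (y : LaurentSeries ℂ) (hy : IsQ N y) : y ∈ FF ℂ N := by
  have hc1 : CharZero ℂ⟮jElt ℂ N⟯ :=
    charZero_of_injective_algebraMap (algebraMap ℂ ℂ⟮jElt ℂ N⟯).injective
  set μ : ℕ := (Gamma0 N).index with hμ
  have hrk : Module.finrank ℂ⟮jElt ℂ N⟯ ↥(FF ℂ N) = μ :=
    S18.C0N.finrank_jElt (RingHom.id ℂ) N
  let φ : ↥(FF ℂ N) →ₐ[ℂ⟮jElt ℂ N⟯] LaurentSeries ℂ :=
    IsScalarTower.toAlgHom ℂ⟮jElt ℂ N⟯ ↥(FF ℂ N) (LaurentSeries ℂ)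
  have hφ : ∀ f : ↥(FF ℂ N), φ f = (f : LaurentSeries ℂ) := fun f => rfl
  have key : y ∈ Set.range φ := by
    apply mem_range_of_forall_exists_poly φ μ hrk y
    intro t ht
    -- every element of the generated field is a quotient of forms
    have htQ : IsQ N t := by
      induction ht using IntermediateField.adjoin_induction with
      | mem x hx =>
        rcases hx with ⟨f, rfl⟩ | hx
        · exact isQ_of_mem_FF N f
        · rw [Set.mem_singleton_iff.mp hx]
          exact hy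
      | algebraMap c => exact isQ_of_mem_FF N (c : ↥(FF ℂ N))
      | add x z _ _ hx hz => exact hx.add hz
      | inv x _ hx => exact hx.inv
      | mul x z _ _ hx hz => exact hx.mul hz
    obtain ⟨p, hp0, hrel⟩ := htQ.exists_rel
    let jE : ℂ⟮jElt ℂ N⟯ := ⟨jElt ℂ N, mem_adjoin_simple_self ℂ _⟩
    have hjE : ∀ r : Polynomial ℂ, algebraMap ℂ⟮jElt ℂ N⟯ (LaurentSeries ℂ)
        (Polynomial.aeval jE r) = Polynomial.aeval (coeffEmb ℂ jq) r := fun r => by
      rw [← Polynomial.aeval_algebraMap_apply (A := ℂ⟮jElt ℂ N⟯) (B := LaurentSeries ℂ) jE r,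
        ← DegreeCore.jElt_coe N]
      rfl
    have hjE' : ∀ r : Polynomial ℂ, algebraMap ℂ⟮jElt ℂ N⟯ ↥(FF ℂ N) (Polynomial.aeval jE r) =
        Polynomial.aeval (jElt ℂ N) r := fun r =>
      (Polynomial.aeval_algebraMap_apply (A := ℂ⟮jElt ℂ N⟯) (B := ↥(FF ℂ N)) jE r).symm
    let c : ℕ → ℂ⟮jElt ℂ N⟯ := fun m => (-1) ^ m * Polynomial.aeval jE (p m)
    refine ⟨∑ m ∈ Finset.range (μ + 1), Polynomial.C (c m) * Polynomial.X ^ (μ - m), ?_, ?_, ?_⟩
    · intro hq
      have hcoeff := congrArg (fun r => Polynomial.coeff r μ) hq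
      simp only [Polynomial.finsetSum_coeff, Polynomial.coeff_C_mul, Polynomial.coeff_X_pow,
        Polynomial.coeff_zero] at hcoeff
      rw [Finset.sum_eq_single 0] at hcoeff
      · simp only [Nat.sub_zero, if_true, mul_one, c, pow_zero, one_mul] at hcoeff
        apply DegreeCore.aeval_jElt_ne_zero N (p 0) hp0
        rw [← hjE', hcoeff, map_zero]
      · intro m hm hm0
        have hmn : m ≤ μ := Nat.lt_succ_iff.mp (Finset.mem_range.mp hm)
        rw [if_neg (by omega), mul_zero]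
      · intro h0
        exact absurd (Finset.mem_range.mpr (Nat.succ_pos _)) h0
    · apply Polynomial.natDegree_sum_le_of_forall_le
      intro m _
      exact (Polynomial.natDegree_C_mul_X_pow_le _ _).trans (Nat.sub_le _ _)
    · simp only [map_sum, map_mul, Polynomial.aeval_C, map_pow, Polynomial.aeval_X]
      rw [← hrel]
      refine Finset.sum_congr rfl fun m _ => ?_
      simp only [c, map_mul, map_pow, map_neg, map_one, hjE]
      rfl
  obtain ⟨f, hf⟩ := key
  rw [← hf, hφ]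
  exact f.2

/-! ### The main statements -/

/-- The `q`-expansion (as a formal Laurent series) of a modular form on `Γ₀(N)`. -/
def qF {N : ℕ} [NeZero N] {w : ℤ} (A : ModularForm (Gamma0 N) w) : LaurentSeries ℂ :=
  qL ⟨⇑A, nice_gamma0 A⟩

theorem qF_eq {N : ℕ} [NeZero N] {w : ℤ} (A : ModularForm (Gamma0 N) w) :
    qF A = HahnSeries.ofPowerSeries ℤ ℂ (UpperHalfPlane.qExpansion 1 A) := rfl

theorem qF_ne_zero {N : ℕ} [NeZero N] {w : ℤ} (B : ModularForm (Gamma0 N) w)
    (hB : (⇑B : ℍ → ℂ) ≠ 0) : qF B ≠ 0 := fun h =>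
  hB (congrArg Subtype.val (qL_injective (h.trans qL_zero.symm)))

/-- **(c2), function field form.**  For modular forms `A`, `B ≠ 0` of the same weight on `Γ₀(N)`
there is an element `h` of the function field `FF ℂ N ⊆ ℂ((q))` of `X₀(N)` whose Laurent series is
the quotient of the `q`-expansions: `h * q(B) = q(A)`. -/
theorem exists_mem_FF (N : ℕ) [NeZero N] {w : ℤ} (A B : ModularForm (Gamma0 N) w)
    (hB : (⇑B : ℍ → ℂ) ≠ 0) :
    ∃ h : ↥(FF ℂ N), (h : LaurentSeries ℂ) * qF B = qF A := by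
  have hb0 : qF B ≠ 0 := qF_ne_zero B hB
  have hy : IsQ N (qF A / qF B) :=
    ⟨w, ⟨⇑A, nice_gamma0 A⟩, ⟨⇑B, nice_gamma0 B⟩, ⟨A, rfl⟩, ⟨B, rfl⟩, hb0,
      div_mul_cancel₀ _ hb0⟩
  exact ⟨⟨_, mem_FF_of_isQ N _ hy⟩, div_mul_cancel₀ _ hb0⟩

/-- An element `h = P(j(d z)) / Q(j(d z))` of the function field whose Laurent series is the
quotient `q(A) / q(B)` of the `q`-expansions of two forms represents the function `A / B`. -/
theorem eval_eq_of_coe_eq (N : ℕ) [NeZero N] {w : ℤ} (A B : ModularForm (Gamma0 N) w)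
    (P Q : MvPolynomial (Dv N) ℂ)
    (h : ((evalL ℂ N P : ↥(FF ℂ N)) : LaurentSeries ℂ) * qF B =
      ((evalL ℂ N Q : ↥(FF ℂ N)) : LaurentSeries ℂ) * qF A) (z : ℍ) :
    A z * evalFun N Q z = B z * evalFun N P z := by
  have hser : qL ⟨⇑A, nice_gamma0 A⟩ * evalSer N Q = qL ⟨⇑B, nice_gamma0 B⟩ * evalSer N P := by
    have e1 : ((evalL ℂ N P : ↥(FF ℂ N)) : LaurentSeries ℂ) = evalSer N P := Bridge.coe_evalL' N P
    have e2 : ((evalL ℂ N Q : ↥(FF ℂ N)) : LaurentSeries ℂ) = evalSer N Q := Bridge.coe_evalL' N Q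
    rw [e1, e2] at h
    show qF A * evalSer N Q = qF B * evalSer N P
    rw [mul_comm, ← h, mul_comm]
  exact eq_of_qL_mul_eq (Bridge.hasQL_eval N Q) (Bridge.hasQL_eval N P) _ _ hser z

/-- **(c2) "Inv".**  A quotient `A / B` of two modular forms of the same weight on `Γ₀(N)` is a
rational function of the functions `z ↦ j (d z)`, `d ∣ N`. -/
theorem exists_eval_of_modularForm (N : ℕ) [NeZero N] {w : ℤ} (A B : ModularForm (Gamma0 N) w)
    (hB : (⇑B : ℍ → ℂ) ≠ 0) :
    ∃ P Q : MvPolynomial (Dv N) ℂ, evalFun N Q ≠ 0 ∧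
      ∀ z : ℍ, A z * evalFun N Q z = B z * evalFun N P z := by
  obtain ⟨f, hf⟩ := exists_mem_FF N A B hB
  obtain ⟨P, Q, hQ, hfPQ⟩ := Ext.exists_eq_div ℂ N f
  refine ⟨P, Q, ?_, ?_⟩
  · intro h
    apply hQ
    rw [Bridge.bridgeL (RingHom.id ℂ) N Q, MvPolynomial.map_id]
    exact h
  · apply eval_eq_of_coe_eq N A B P Q
    have hQ' : ((evalL ℂ N Q : ↥(FF ℂ N)) : LaurentSeries ℂ) ≠ 0 := fun h0 =>
      hQ (Subtype.ext h0)
    have h1 : (f : LaurentSeries ℂ) * ((evalL ℂ N Q : ↥(FF ℂ N)) : LaurentSeries ℂ) =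
        ((evalL ℂ N P : ↥(FF ℂ N)) : LaurentSeries ℂ) := by
      have h2 : f * evalL ℂ N Q = evalL ℂ N P := by
        rw [hfPQ, div_mul_cancel₀ _ hQ]
      exact congrArg (fun x : ↥(FF ℂ N) => (x : LaurentSeries ℂ)) h2
    rw [← h1, ← hf]
    ring

end Fermat.Agent.S29.InvAlg

end
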