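/-
S29 (wave 9), piece [IV], glue: the characters `ζ_m ^ χ` of `Γ₀(N)` attached to an (integral,
parabolic) homomorphism `χ : Γ₀(N) → ℤ` and a modulus `m`.

* `chi N m χ : Γ₀(N) →* ℂˣ`, `γ ↦ exp (2 π i χ(γ) / m)`;
* it has values of absolute value one and of order dividing `m`, is additive in `χ`;
* it is trivial on elements of finite order, and on the elements of trace `± 2` when `χ` is
  parabolic;
* `chi N m χ = 1` iff `χ` is divisible by `m` (inside the parabolic homomorphisms if `χ` is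
  parabolic);
* compatibility with the transfer: `∏ x, chi χ (δ_x γ) = chi (tr χ) γ`.
-/
import Mathlib
import Fermat.Agent.S29.Transfer

set_option autoImplicit false

noncomputable section

open Matrix.SpecialLinearGroup CongruenceSubgroup ModularCurve.Period
open P2MW.S_ModularForm_heckeT_slash_eq_self_of_mem_Gamma0.ModularForm.HeckeSlashInvariance
open scoped MatrixGroups Real

namespace Fermat.Agent.S29.LamChar

open Fermat.Agent.S29.Transfer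

/-! ### The exponential `n ↦ exp (2 π i n / m)` -/

/-- `n ↦ exp (2 π i n / m)` as a homomorphism `Multiplicative ℤ →* ℂˣ`. -/
def eHom (m : ℕ) : Multiplicative ℤ →* ℂˣ where
  toFun n := Units.mk0 (Complex.exp (2 * π * Complex.I * ((Multiplicative.toAdd n : ℤ) : ℂ) / m))
    (Complex.exp_ne_zero _)
  map_one' := by
    apply Units.ext
    simp
  map_mul' a b := by
    apply Units.ext
    simp only [Units.val_mk0, Units.val_mul, toAdd_mul, Int.cast_add]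
    rw [← Complex.exp_add]
    congr 1
    ring

theorem coe_eHom (m : ℕ) (n : ℤ) :
    ((eHom m (Multiplicative.ofAdd n) : ℂˣ) : ℂ)
      = Complex.exp (2 * π * Complex.I * (n : ℂ) / m) := rfl

theorem eHom_pow {m : ℕ} (hm : m ≠ 0) (n : ℤ) : eHom m (Multiplicative.ofAdd n) ^ m = 1 := by
  apply Units.ext
  rw [Units.val_pow_eq_pow_val, coe_eHom, ← Complex.exp_nat_mul, Units.val_one]
  have hm' : (m : ℂ) ≠ 0 := Nat.cast_ne_zero.mpr hm
  have h : (m : ℂ) * (2 * π * Complex.I * (n : ℂ) / m) = (n : ℂ) * (2 * π * Complex.I) := by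
    field_simp
  rw [h]
  exact Complex.exp_int_mul_two_pi_mul_I n

theorem norm_eHom (m : ℕ) (n : ℤ) : ‖((eHom m (Multiplicative.ofAdd n) : ℂˣ) : ℂ)‖ = 1 := by
  rw [coe_eHom]
  have h : 2 * π * Complex.I * (n : ℂ) / m = ((2 * π * (n : ℝ) / m : ℝ) : ℂ) * Complex.I := by
    push_cast
    ring
  rw [h]
  exact Complex.norm_exp_ofReal_mul_I _

theorem eHom_eq_one_iff {m : ℕ} (hm : 0 < m) (n : ℤ) :
    eHom m (Multiplicative.ofAdd n) = 1 ↔ (m : ℤ) ∣ n := by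
  have hm' : (m : ℂ) ≠ 0 := Nat.cast_ne_zero.mpr hm.ne'
  rw [← Units.val_inj, coe_eHom, Units.val_one, Complex.exp_eq_one_iff]
  constructor
  · rintro ⟨k, hk⟩
    refine ⟨k, ?_⟩
    have h2 : (2 * π * Complex.I : ℂ) ≠ 0 := Complex.two_pi_I_ne_zero
    have h3 : (2 * π * Complex.I) * (n : ℂ) = (2 * π * Complex.I) * ((m : ℂ) * (k : ℂ)) := by
      have h4 : 2 * π * Complex.I * (n : ℂ) = (2 * π * Complex.I * (n : ℂ) / m) * m := by
        field_simp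
      rw [h4, hk]
      ring
    exact_mod_cast mul_left_cancel₀ h2 h3
  · rintro ⟨k, rfl⟩
    refine ⟨k, ?_⟩
    push_cast
    field_simp

/-! ### The characters -/

variable {N : ℕ}

/-- The character `γ ↦ exp (2 π i χ(γ) / m)` of `Γ₀(N)` attached to `χ : Γ₀(N) → ℤ`. -/
def chi (N m : ℕ) (χ : Additive ↥(Gamma0 N) →+ ℤ) : ↥(Gamma0 N) →* ℂˣ :=
  (eHom m).comp (AddMonoidHom.toMultiplicativeRight χ)

theorem chi_def (m : ℕ) (χ : Additive ↥(Gamma0 N) →+ ℤ) (γ : ↥(Gamma0 N)) :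
    chi N m χ γ = eHom m (Multiplicative.ofAdd (χ (Additive.ofMul γ))) := rfl

theorem chi_apply (m : ℕ) (χ : Additive ↥(Gamma0 N) →+ ℤ) (γ : ↥(Gamma0 N)) :
    ((chi N m χ γ : ℂˣ) : ℂ)
      = Complex.exp (2 * π * Complex.I * ((χ (Additive.ofMul γ) : ℤ) : ℂ) / m) := rfl

theorem chi_pow {m : ℕ} (hm : m ≠ 0) (χ : Additive ↥(Gamma0 N) →+ ℤ) (γ : ↥(Gamma0 N)) :
    chi N m χ γ ^ m = 1 :=
  eHom_pow hm _

theorem norm_chi (m : ℕ) (χ : Additive ↥(Gamma0 N) →+ ℤ) (γ : ↥(Gamma0 N)) :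
    ‖((chi N m χ γ : ℂˣ) : ℂ)‖ = 1 :=
  norm_eHom m _

theorem chi_zero (m : ℕ) : chi N m 0 = 1 := by
  ext γ
  rw [chi_apply]
  simp

theorem chi_add (m : ℕ) (χ χ' : Additive ↥(Gamma0 N) →+ ℤ) :
    chi N m (χ + χ') = chi N m χ * chi N m χ' := by
  ext γ
  rw [MonoidHom.mul_apply, chi_def, chi_def, chi_def, AddMonoidHom.add_apply, ofAdd_add, map_mul]

theorem chi_neg (m : ℕ) (χ : Additive ↥(Gamma0 N) →+ ℤ) :
    chi N m (-χ) = (chi N m χ)⁻¹ := by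
  ext γ
  rw [MonoidHom.inv_apply, chi_def, chi_def, AddMonoidHom.neg_apply, ofAdd_neg, map_inv]

theorem chi_eq_one_iff {m : ℕ} (hm : 0 < m) (χ : Additive ↥(Gamma0 N) →+ ℤ) (γ : ↥(Gamma0 N)) :
    chi N m χ γ = 1 ↔ (m : ℤ) ∣ χ (Additive.ofMul γ) := by
  rw [chi_def]
  exact eHom_eq_one_iff hm _

theorem chi_of_apply_eq_zero (m : ℕ) {χ : Additive ↥(Gamma0 N) →+ ℤ} {γ : ↥(Gamma0 N)}
    (h : χ (Additive.ofMul γ) = 0) : chi N m χ γ = 1 := by
  rw [chi_def, h]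
  exact map_one (eHom m)

/-- `ζ_m ^ χ` is trivial on the elements of trace `± 2` when `χ` is parabolic. -/
theorem chi_of_trace_sq (m : ℕ) {χ : Additive ↥(Gamma0 N) →+ ℤ}
    (hχ : IsParabolicHom (Gamma0 N) χ) (γ : ↥(Gamma0 N))
    (h : ((γ : SL(2, ℤ)) : Matrix (Fin 2) (Fin 2) ℤ).trace ^ 2 = 4) : chi N m χ γ = 1 :=
  chi_of_apply_eq_zero m (hχ γ h)

/-- `ζ_m ^ χ` is trivial on the elements of finite order. -/
theorem chi_of_finite_order (m : ℕ) (χ : Additive ↥(Gamma0 N) →+ ℤ) (γ : ↥(Gamma0 N))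
    {n : ℕ} (hn : 0 < n) (h : γ ^ n = 1) : chi N m χ γ = 1 := by
  apply chi_of_apply_eq_zero
  have h1 : n • χ (Additive.ofMul γ) = 0 := by
    rw [← map_nsmul, ← ofMul_pow, h, ofMul_one, map_zero]
  rcases smul_eq_zero.mp h1 with h2 | h2
  · exact absurd h2 hn.ne'
  · exact h2

/-- `ζ_m ^ χ = 1` iff `χ` is divisible by `m` (inside the parabolic homomorphisms). -/
theorem exists_eq_smul_of_chi_eq_one {m : ℕ} (hm : 0 < m) (χ : Λ N)
    (h : chi N m (χ : Additive ↥(Gamma0 N) →+ ℤ) = 1) : ∃ χ' : Λ N, χ = (m : ℤ) • χ' := by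
  have hdvd : ∀ a : Additive ↥(Gamma0 N), (m : ℤ) ∣ (χ : Additive ↥(Gamma0 N) →+ ℤ) a := by
    intro a
    have h1 := congrArg (fun f : ↥(Gamma0 N) →* ℂˣ => f (Additive.toMul a)) h
    exact (chi_eq_one_iff hm _ _).mp h1
  let ψ : Additive ↥(Gamma0 N) →+ ℤ :=
    { toFun := fun a => (χ : Additive ↥(Gamma0 N) →+ ℤ) a / (m : ℤ)
      map_zero' := by rw [map_zero, Int.zero_ediv]
      map_add' := fun a b => by rw [map_add, Int.add_ediv_of_dvd_left (hdvd a)] }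
  have hψ : ψ ∈ Λ N := by
    intro γ hγ
    show (χ : Additive ↥(Gamma0 N) →+ ℤ) (Additive.ofMul γ) / (m : ℤ) = 0
    rw [χ.2 γ hγ, Int.zero_ediv]
  refine ⟨⟨ψ, hψ⟩, Subtype.ext ?_⟩
  ext a
  show (χ : Additive ↥(Gamma0 N) →+ ℤ) a = (m : ℤ) • ((χ : Additive ↥(Gamma0 N) →+ ℤ) a / (m : ℤ))
  rw [smul_eq_mul, Int.mul_ediv_cancel' (hdvd a)]

theorem chi_smul_eq_one {m : ℕ} (χ : Additive ↥(Gamma0 N) →+ ℤ) :
    chi N m ((m : ℤ) • χ) = 1 := by
  rcases Nat.eq_zero_or_pos m with rfl | hm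
  · rw [Nat.cast_zero, zero_smul, chi_zero]
  · ext γ
    rw [MonoidHom.one_apply, Units.val_inj, chi_eq_one_iff hm]
    exact ⟨χ (Additive.ofMul γ), rfl⟩

/-- `ζ_m ^ χ` is trivial on the elements with bottom row `(0, 1)` (the upper unipotent elements)
when `χ` is parabolic. -/
theorem chi_of_row (m : ℕ) {χ : Additive ↥(Gamma0 N) →+ ℤ}
    (hχ : IsParabolicHom (Gamma0 N) χ) (γ : ↥(Gamma0 N)) (h : γ.1.1 1 = ![0, 1]) :
    chi N m χ γ = 1 := by
  apply chi_of_trace_sq m hχ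
  have h10 : γ.1.1 1 0 = 0 := by rw [h]; rfl
  have h11 : γ.1.1 1 1 = 1 := by rw [h]; rfl
  have hdet := γ.1.2
  rw [Matrix.det_fin_two, h10, h11, mul_zero, sub_zero, mul_one] at hdet
  rw [Matrix.trace_fin_two]
  show (γ.1.1 0 0 + γ.1.1 1 1) ^ 2 = 4
  rw [hdet, h11]
  norm_num

/-- `ζ_m ^ χ (-1) = 1`. -/
theorem chi_of_coe_eq_neg_one (m : ℕ) (χ : Additive ↥(Gamma0 N) →+ ℤ) (γ : ↥(Gamma0 N))
    (h : (γ : SL(2, ℤ)) = -1) : chi N m χ γ = 1 := by
  apply chi_of_finite_order m χ γ (n := 2) (by norm_num)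
  apply Subtype.ext
  rw [Subgroup.coe_pow, h, Subgroup.coe_one]
  norm_num

theorem chi_nsmul_apply (m n : ℕ) (χ : Additive ↥(Gamma0 N) →+ ℤ) (γ : ↥(Gamma0 N)) :
    chi N m (n • χ) γ = chi N m χ γ ^ n := by
  rw [chi_def, chi_def, AddMonoidHom.nsmul_apply, ofAdd_nsmul, map_pow]

/-! ### Compatibility with the transfer -/

section Transfer

variable {ℓ : ℕ} [Fact ℓ.Prime]

/-- The multiplier of `z ↦ ∏ x, F (α_x z)` for a function `F` with multiplier `ζ_m ^ χ` is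
`ζ_m ^ (tr χ)`. -/
theorem prod_chi_delta (m : ℕ) (hℓN : ¬ ℓ ∣ N) (χ : Additive ↥(Gamma0 N) →+ ℤ)
    (γ : ↥(Gamma0 N)) :
    ∏ x : OnePoint (ZMod ℓ), chi N m χ (delta hℓN γ x) = chi N m (tr ℤ hℓN χ) γ := by
  simp only [chi_def]
  rw [tr_apply, ofAdd_sum, map_prod]

end Transfer

end Fermat.Agent.S29.LamChar
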