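/-
S29 (wave 9), row [IV], leaf (THETA-FN): for `λ ∈ Λ = Hom_par(Γ₀(N), ℤ)` and an `m`-th root of
unity `ζ`, the quotient `F = G_χ / G_1` of the Eisenstein series of weight `4` with character
`χ = ζ^λ` by the one with trivial character is a nonzero element of `Mero.Fld N` with multiplier
`ζ^λ` whose `m`-th power is the analytic realisation of an element of the function field
`FF ℂ N` of `X₀(N)` over `ℂ`.
-/
import Mathlib
import Fermat.Agent.S29.IVIface
import Fermat.Agent.S29.ThetaFld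
import Fermat.Agent.S29.EisChar
import Fermat.Agent.S29.LamChar
import Fermat.Agent.S29.InvAlg

set_option autoImplicit false

noncomputable section

open UpperHalfPlane Filter Topology Function CongruenceSubgroup ModularCurve.Period
open scoped MatrixGroups ModularForm Manifold Real

namespace Fermat.Agent.S29.ThetaC

open Fermat.Agent.S23 Fermat.Agent.S24 Fermat.Agent.S24.Mero
open Fermat.Agent.S29.IV Fermat.Agent.S29.ThetaFld Fermat.Agent.S29.EisChar

/-- `ζ ^ n` for an integer `n` only depends on `n` mod `m` when `ζ ^ m = 1`. -/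
theorem zpow_eq_pow_val {m : ℕ} [NeZero m] {ζ : ℂ} (hζ : ζ ^ m = 1) (n : ℤ) :
    ζ ^ n = ζ ^ ((n : ZMod m)).val := by
  have hζ0 : ζ ≠ 0 := by
    rintro rfl
    rw [zero_pow (NeZero.ne m)] at hζ
    exact zero_ne_one hζ
  have h1 : ((((n : ZMod m)).val : ℕ) : ℤ) = n % (m : ℤ) := ZMod.val_intCast n
  have h2 : n = (m : ℤ) * (n / (m : ℤ)) + n % (m : ℤ) := (Int.mul_ediv_add_emod n m).symm
  conv_lhs => rw [h2]
  rw [zpow_add₀ hζ0, zpow_mul, zpow_natCast, hζ, one_zpow, one_mul, ← h1, zpow_natCast]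

variable {N : ℕ}

/-- The character of `j • λ` is `γ ↦ (exp (2 π i / m) ^ j) ^ λ(γ)`. -/
theorem chi_coe_eq (m j : ℕ) (lam : Additive ↥(Gamma0 N) →+ ℤ) (γ : ↥(Gamma0 N)) :
    ((LamChar.chi N m (j • lam) γ : ℂˣ) : ℂ)
      = (Complex.exp (2 * π * Complex.I / m) ^ j) ^ (lam (Additive.ofMul γ)) := by
  rw [LamChar.chi_nsmul_apply, Units.val_pow_eq_pow_val, LamChar.chi_apply]
  have h1 : 2 * (π : ℂ) * Complex.I * ((lam (Additive.ofMul γ) : ℤ) : ℂ) / m
      = ((lam (Additive.ofMul γ) : ℤ) : ℂ) * (2 * π * Complex.I / m) := by ring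
  rw [h1, Complex.exp_int_mul, ← zpow_natCast, ← zpow_natCast, ← zpow_mul, ← zpow_mul]
  congr 1
  exact mul_comm _ _

/-- **(THETA-FN)**: the Eisenstein quotient `G_χ / G_1`, `χ = ζ^λ`, in `Mero.Fld N`. -/
theorem thetaFnStmt : ThetaFnStmt := by
  intro N m _ hm ζ hζ lam hlam
  have : NeZero m := ⟨hm.ne'⟩
  obtain ⟨j, -, hj⟩ := (Complex.isPrimitiveRoot_exp m hm.ne').eq_pow_of_pow_eq_one hζ
  -- the character `χ = ζ^λ`
  have hpar : IsParabolicHom (Gamma0 N) (j • lam) := by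
    have h : j • lam ∈ Lam N := nsmul_mem hlam j
    exact h
  set χ : ↥(Gamma0 N) →* ℂˣ := LamChar.chi N m (j • lam) with hχdef
  have hχval : ∀ γ : ↥(Gamma0 N),
      ((χ γ : ℂˣ) : ℂ) = ζ ^ (red N m lam (Additive.ofMul γ)).val := by
    intro γ
    rw [hχdef, chi_coe_eq, hj, red_apply, ← zpow_eq_pow_val hζ]
  have hχn : ∀ γ : ↥(Gamma0 N), ‖((χ γ : ℂˣ) : ℂ)‖ = 1 := LamChar.norm_chi m (j • lam)
  have hχt : IsParabolicChar N χ := fun γ h => LamChar.chi_of_trace_sq m hpar γ h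
  have hB : TrivOnBorel χ := trivOnBorel_of_trace_sq hχt
  have hU : TrivOnUnipotent χ := hB.trivOnUnipotent
  have hχm : ∀ γ : ↥(Gamma0 N), χ γ ^ m = 1 := fun γ => LamChar.chi_pow hm.ne' (j • lam) γ
  -- the two Eisenstein series as twisted forms
  have hA : IsTwistedForm N 4 χ (G χ 4) := by
    refine ⟨JN.holo_iff_mdiff.mpr (G_mdifferentiable hχn (by norm_num)), fun γ z => ?_,
      fun g => ?_⟩
    · have := G_smul hU 4 γ z
      rw [this]
      norm_cast
    · exact isBoundedAtImInfty_G_slash hχn (by norm_num) g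
  have hB1 : IsTwistedForm N 4 1 (G (1 : ↥(Gamma0 N) →* ℂˣ) 4) := by
    refine ⟨JN.holo_iff_mdiff.mpr (G_mdifferentiable norm_one_char (by norm_num)), fun γ z => ?_,
      fun g => ?_⟩
    · have := G_smul (trivOnUnipotent_one (N := N)) 4 γ z
      rw [this]
      norm_cast
    · exact isBoundedAtImInfty_G_slash norm_one_char (by norm_num) g
  have hB0 : ∃ z, G (1 : ↥(Gamma0 N) →* ℂˣ) 4 z ≠ 0 :=
    Function.ne_iff.mp (G_ne_zero norm_one_char trivOnBorel_one (by norm_num) (by decide))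
  have hA0 : ∃ z, G χ 4 z ≠ 0 :=
    Function.ne_iff.mp (G_ne_zero hχn hB (by norm_num) (by decide))
  obtain ⟨F, a, b, hb, hF, hab, hact, hF0⟩ := exists_fld hχt hA hB1 hB0
  -- the `m`-th power is a rational function of the `j (d z)`
  obtain ⟨P, Q, hQ, hPQ⟩ := InvAlg.exists_eval_of_modularForm N (A4 χ hχn hU m hχm) (B4 N m)
    (B4_ne_zero m)
  set p : Mero.ring N := DataTau.evalRing (RingHom.id ℂ) N P with hpdef
  set q : Mero.ring N := DataTau.evalRing (RingHom.id ℂ) N Q with hqdef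
  have hp : ∀ z, (p : ℍ → ℂ) z = evalFun N P z := by
    intro z
    rw [hpdef, DataTau.coe_evalRing, MvPolynomial.map_id]
  have hq : ∀ z, (q : ℍ → ℂ) z = evalFun N Q z := by
    intro z
    rw [hqdef, DataTau.coe_evalRing, MvPolynomial.map_id]
  have hq0 : q ≠ 0 := by
    intro h0
    apply hQ
    funext z
    rw [← hq z, h0]
    rfl
  refine ⟨F, evalL ℂ N P / evalL ℂ N Q, hF0 hA0, ?_, fun γ => ?_⟩
  · show F ^ m = DataTau.PhiL (RingHom.id ℂ) N (evalL ℂ N P / evalL ℂ N Q)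
    rw [map_div₀, DataTau.PhiL_evalL, DataTau.PhiL_evalL, hF, div_pow,
      div_eq_div_iff (pow_ne_zero _ (Mero.algebraMap_ne_zero hb)) (Mero.algebraMap_ne_zero hq0),
      ← map_pow, ← map_pow, ← map_mul, ← map_mul]
    congr 1
    by_contra hne
    have hc : a ^ m * q - p * b ^ m ≠ 0 := sub_ne_zero.mpr hne
    obtain ⟨z₁, hz₁⟩ : ∃ z, ((a ^ m * q - p * b ^ m : Mero.ring N) : ℍ → ℂ) z ≠ 0 := by
      by_contra h
      push Not at h
      exact hc (Subtype.ext (funext h))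
    obtain ⟨z, hz⟩ := JN.exists_common_ne_zero (ι := Bool)
      (fun i => if i then ((a ^ m * q - p * b ^ m : Mero.ring N) : ℍ → ℂ)
        else G (1 : ↥(Gamma0 N) →* ℂˣ) 4)
      (fun i => by
        cases i
        · simpa using hB1.holo
        · simpa using Mero.holo_of_mem (a ^ m * q - p * b ^ m))
      (fun i => by
        cases i
        · simpa using hB0
        · exact ⟨z₁, by simpa using hz₁⟩)
    have h1 := hz true
    have h2 := hz false
    simp only [if_true, Bool.false_eq_true, if_false] at h1 h2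
    have e1 : (a : ℍ → ℂ) z ^ m * G (1 : ↥(Gamma0 N) →* ℂˣ) 4 z ^ m
        = (b : ℍ → ℂ) z ^ m * G χ 4 z ^ m := by
      rw [← mul_pow, ← mul_pow, hab z]
    have e2 : G χ 4 z ^ m * (q : ℍ → ℂ) z
        = G (1 : ↥(Gamma0 N) →* ℂˣ) 4 z ^ m * (p : ℍ → ℂ) z := by
      have := hPQ z
      rw [A4_apply, B4_apply] at this
      rw [hq z, hp z]
      exact this
    have e3 : G (1 : ↥(Gamma0 N) →* ℂˣ) 4 z ^ m
        * ((a ^ m * q - p * b ^ m : Mero.ring N) : ℍ → ℂ) z = 0 := by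
      show G (1 : ↥(Gamma0 N) →* ℂˣ) 4 z ^ m
        * ((a : ℍ → ℂ) z ^ m * (q : ℍ → ℂ) z - (p : ℍ → ℂ) z * (b : ℍ → ℂ) z ^ m) = 0
      linear_combination (q : ℍ → ℂ) z * e1 + (b : ℍ → ℂ) z ^ m * e2
    exact (mul_ne_zero (pow_ne_zero _ h2) h1) e3
  · show actF N (γ : SL(2, ℤ)) F = cst N (ζ ^ (red N m lam (Additive.ofMul γ)).val) * F
    rw [hact γ, hχval γ]
    rfl

end Fermat.Agent.S29.ThetaC

end
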