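/-
S29 (wave-9 candidate), piece (Q): the "quadratic representation" lemma.

Let `k` be a field of characteristic `p`, `G` a finite group, `W ≠ 0` a finite-dimensional
representation of `G` over `k`, `χ : G → kˣ` a character, and assume that every `g` satisfies
`g + χ(g) g⁻¹ = t(g)` (a scalar) on `W`.  Then there is a `2`-dimensional representation of `G`
over `k` in which `g` has characteristic polynomial `X² - t(g) X + χ(g)`.

Mathlib only.
-/
import Mathlib

set_option autoImplicit false

noncomputable section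

open Polynomial

namespace Fermat.Agent.S29.QuadRep

variable {k : Type*} [Field k] {G : Type*} [Group G] {U : Type*} [AddCommGroup U] [Module k U]

/-- `a ↦ ∑ a_g r(g)`. -/
def lc (r : G →* Module.End k U) : (G →₀ k) →ₗ[k] Module.End k U :=
  Finsupp.linearCombination k (fun g => r g)

/-- `a ↦ ∑ a_g χ(g) r(g⁻¹)`. -/
def lc' (r : G →* Module.End k U) (χ : G →* kˣ) : (G →₀ k) →ₗ[k] Module.End k U :=
  Finsupp.linearCombination k (fun g => ((χ g : kˣ) : k) • r g⁻¹)

/-- `a ↦ ∑ a_g t(g)`. -/
def lt (t : G → k) : (G →₀ k) →ₗ[k] k := Finsupp.linearCombination k t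

@[simp] theorem lc_single (r : G →* Module.End k U) (g : G) (c : k) :
    lc r (Finsupp.single g c) = c • r g := by
  simp [lc]

@[simp] theorem lc'_single (r : G →* Module.End k U) (χ : G →* kˣ) (g : G) (c : k) :
    lc' r χ (Finsupp.single g c) = c • ((χ g : kˣ) : k) • r g⁻¹ := by
  simp [lc']

@[simp] theorem lt_single (t : G → k) (g : G) (c : k) :
    lt t (Finsupp.single g c) = c * t g := by
  simp [lt]

/-- the scalar endomorphisms -/
def IsScal (x : Module.End k U) : Prop := ∃ s : k, x = s • (1 : Module.End k U)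

theorem IsScal.add {x y : Module.End k U} (hx : IsScal x) (hy : IsScal y) : IsScal (x + y) := by
  obtain ⟨s, rfl⟩ := hx
  obtain ⟨s', rfl⟩ := hy
  exact ⟨s + s', by rw [add_smul]⟩

theorem isScal_zero : IsScal (0 : Module.End k U) := ⟨0, by rw [zero_smul]⟩

theorem IsScal.smul {x : Module.End k U} (hx : IsScal x) (c : k) : IsScal (c • x) := by
  obtain ⟨s, rfl⟩ := hx
  exact ⟨c * s, by rw [smul_smul]⟩

section Quad

variable (r : G →* Module.End k U) (χ : G →* kˣ) (t : G → k)
  (h : ∀ g, r g + ((χ g : kˣ) : k) • r g⁻¹ = t g • (1 : Module.End k U))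

include h

theorem lc_add_lc' (a : G →₀ k) : lc r a + lc' r χ a = lt t a • (1 : Module.End k U) := by
  induction a using Finsupp.induction_linear with
  | zero => simp
  | add a b ha hb =>
    rw [map_add, map_add, map_add, add_smul, ← ha, ← hb]; abel
  | single g c =>
    rw [lc_single, lc'_single, lt_single, ← smul_add, h g, smul_smul]

theorem isScal_cross (a b : G →₀ k) : IsScal (lc r a * lc' r χ b + lc r b * lc' r χ a) := by
  induction a using Finsupp.induction_linear with
  | zero => simp [isScal_zero]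
  | add a a' ha ha' =>
    have := ha.add ha'
    rw [map_add, map_add, add_mul, mul_add]
    convert this using 1; abel
  | single g c =>
    induction b using Finsupp.induction_linear with
    | zero => simp [isScal_zero]
    | add b b' hb hb' =>
      have := hb.add hb'
      rw [map_add, map_add, add_mul, mul_add]
      convert this using 1; abel
    | single g' c' =>
      refine ⟨c * c' * ((χ g' : kˣ) : k) * t (g * g'⁻¹), ?_⟩
      rw [lc_single, lc'_single, lc_single, lc'_single]
      have h1 := h (g * g'⁻¹)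
      have e1 : r g * r g'⁻¹ = r (g * g'⁻¹) := (map_mul r _ _).symm
      have e2 : r g' * r g⁻¹ = r (g * g'⁻¹)⁻¹ := by
        rw [← map_mul, mul_inv_rev, inv_inv]
      have e3 : ((χ g : kˣ) : k) = ((χ g' : kˣ) : k) * ((χ (g * g'⁻¹) : kˣ) : k) := by
        rw [← Units.val_mul, mul_comm, ← map_mul, inv_mul_cancel_right]
      simp only [smul_mul_assoc, mul_smul_comm, smul_smul]
      rw [e1, e2, e3, ← smul_smul (c * c' * ((χ g' : kˣ) : k)) (t (g * g'⁻¹)), ← h1, smul_add,
        smul_smul]
      congr 2 <;> ring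

theorem isScal_lc_mul_lc' (a : G →₀ k) : IsScal (lc r a * lc' r χ a) := by
  induction a using Finsupp.induction_linear with
  | zero => simp [isScal_zero]
  | add a b ha hb =>
    have := (ha.add hb).add (isScal_cross r χ t h a b)
    rw [map_add, map_add, add_mul, mul_add, mul_add]
    convert this using 1; abel
  | single g c =>
    refine ⟨c * c * ((χ g : kˣ) : k), ?_⟩
    rw [lc_single, lc'_single]
    simp only [smul_mul_assoc, mul_smul_comm, smul_smul]
    rw [← map_mul, mul_inv_cancel, map_one]
    congr 1; ring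

/-- every element `b = ∑ a_g r(g)` satisfies a quadratic equation `b (T - b) = N`. -/
theorem exists_quad (a : G →₀ k) :
    ∃ N : k, lc r a * (lt t a • (1 : Module.End k U) - lc r a) = N • (1 : Module.End k U) := by
  obtain ⟨N, hN⟩ := isScal_lc_mul_lc' r χ t h a
  refine ⟨N, ?_⟩
  rw [← lc_add_lc' r χ t h a, add_sub_cancel_left, hN]

end Quad

/-! ### The image algebra and simplicity -/

/-- the subalgebra of `End_k U` generated by the image of `G`. -/
def B (r : G →* Module.End k U) : Subalgebra k (Module.End k U) := Algebra.adjoin k (Set.range r)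

theorem toSubmodule_B (r : G →* Module.End k U) :
    Subalgebra.toSubmodule (B r) = Submodule.span k (Set.range r) := by
  rw [B, Algebra.adjoin_eq_span, ← MonoidHom.coe_mrange, Submonoid.closure_eq]

theorem mem_B_iff (r : G →* Module.End k U) (b : Module.End k U) :
    b ∈ B r ↔ ∃ a : G →₀ k, lc r a = b := by
  rw [← Subalgebra.mem_toSubmodule, toSubmodule_B, ← Finsupp.range_linearCombination]
  rfl

theorem map_mem_B (r : G →* Module.End k U) (g : G) : r g ∈ B r :=
  Algebra.subset_adjoin ⟨g, rfl⟩

/-- a representation without proper invariant subspaces -/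
def IsSimpleRep (r : G →* Module.End k U) : Prop :=
  Nontrivial U ∧ ∀ U' : Submodule k U, (∀ g, ∀ u ∈ U', r g u ∈ U') → U' = ⊥ ∨ U' = ⊤

theorem exists_apply_eq {r : G →* Module.End k U} (hs : IsSimpleRep r) {u : U} (hu : u ≠ 0)
    (v : U) : ∃ b ∈ B r, b u = v := by
  let U' : Submodule k U := (Subalgebra.toSubmodule (B r)).map (LinearMap.applyₗ u)
  have hmem : ∀ w, w ∈ U' ↔ ∃ b ∈ B r, b u = w := by
    intro w
    simp only [U', Submodule.mem_map, Subalgebra.mem_toSubmodule, LinearMap.applyₗ_apply_apply]
  have hinv : ∀ g, ∀ w ∈ U', r g w ∈ U' := by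
    intro g w hw
    obtain ⟨b, hb, rfl⟩ := (hmem w).1 hw
    exact (hmem _).2 ⟨r g * b, mul_mem (map_mem_B r g) hb, rfl⟩
  have hu' : u ∈ U' := (hmem u).2 ⟨1, one_mem _, rfl⟩
  rcases hs.2 U' hinv with h0 | h1
  · rw [h0, Submodule.mem_bot] at hu'
    exact absurd hu' hu
  · exact (hmem v).1 (h1 ▸ Submodule.mem_top)

theorem finrank_span_singleton_le' (v : U) :
    Module.finrank k (Submodule.span k ({v} : Set U)) ≤ 1 := by
  classical
  have := finrank_span_finset_le_card (R := k) ({v} : Finset U)
  rw [Set.finrank, Finset.coe_singleton, Finset.card_singleton] at this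
  exact this

theorem finrank_span_pair_le' (v w : U) :
    Module.finrank k (Submodule.span k ({v, w} : Set U)) ≤ 2 := by
  classical
  have := finrank_span_finset_le_card (R := k) ({v, w} : Finset U)
  rw [Set.finrank, Finset.coe_pair] at this
  exact this.trans Finset.card_le_two

section Cases

variable (r : G →* Module.End k U) (χ : G →* kˣ) (t : G → k)
  (h : ∀ g, r g + ((χ g : kˣ) : k) • r g⁻¹ = t g • (1 : Module.End k U))

include h

/-- quadratic equation for the elements of `B`. -/
theorem exists_quad_B {b : Module.End k U} (hb : b ∈ B r) :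
    ∃ T N : k, b * (T • (1 : Module.End k U) - b) = N • (1 : Module.End k U) := by
  obtain ⟨a, rfl⟩ := (mem_B_iff r b).1 hb
  obtain ⟨N, hN⟩ := exists_quad r χ t h a
  exact ⟨_, N, hN⟩

/-- in the corner `e B e` of an idempotent `e ≠ 0, 1` everything is a multiple of `e`. -/
theorem corner {e : Module.End k U} (he : e ∈ B r) (hee : e * e = e) (h0 : e ≠ 0) (h1 : e ≠ 1)
    {b : Module.End k U} (hb : b ∈ B r) : ∃ c : k, e * b * e = c • e := by
  -- a vector killed by `e`
  obtain ⟨v, hv, hev⟩ : ∃ v : U, v ≠ 0 ∧ e v = 0 := by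
    by_contra hcon
    push Not at hcon
    apply h1
    ext w
    have : e (w - e w) = 0 := by
      rw [map_sub, ← Module.End.mul_apply, hee, sub_self]
    by_contra hne
    exact hcon (w - e w) (fun h' => hne (by rw [Module.End.one_apply]; exact (sub_eq_zero.1 h').symm))
      this
  have hx : e * b * e ∈ B r := mul_mem (mul_mem he hb) he
  obtain ⟨a, ha⟩ := (mem_B_iff r _).1 hx
  obtain ⟨ae, hae⟩ := (mem_B_iff r _).1 he
  -- the three quadratic relations
  obtain ⟨N1, hN1⟩ := exists_quad r χ t h a
  obtain ⟨N2, hN2⟩ := exists_quad r χ t h ae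
  obtain ⟨N3, hN3⟩ := exists_quad r χ t h (a + ae)
  rw [ha] at hN1
  rw [hae] at hN2
  rw [map_add, map_add, ha, hae] at hN3
  have hxv : (e * b * e) v = 0 := by
    rw [Module.End.mul_apply, hev, map_zero]
  -- the constants vanish
  have key : ∀ (y : Module.End k U) (T N : k), y v = 0 →
      y * (T • (1 : Module.End k U) - y) = N • (1 : Module.End k U) → N = 0 := by
    intro y T N hy hq
    have := congrArg (fun f : Module.End k U => f v) hq
    simp only [Module.End.mul_apply, LinearMap.sub_apply, LinearMap.smul_apply,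
      Module.End.one_apply, hy, sub_zero, map_smul, smul_zero] at this
    by_contra hN
    exact hv ((smul_eq_zero.1 this.symm).resolve_left hN)
  have hN1' := key _ _ _ hxv hN1
  have hN2' := key _ _ _ hev hN2
  have hN3' := key _ _ _ (by rw [LinearMap.add_apply, hxv, hev, add_zero]) hN3
  rw [hN1', zero_smul] at hN1
  rw [hN2', zero_smul] at hN2
  rw [hN3', zero_smul] at hN3
  -- `T(e) = 1`
  have hTe : lt t ae = 1 := by
    have : (lt t ae - 1) • e = 0 := by
      rw [sub_smul, one_smul]
      rw [mul_sub, hee, mul_smul_comm, mul_one] at hN2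
      exact hN2
    have := (smul_eq_zero.1 this).resolve_right h0
    exact sub_eq_zero.1 this
  refine ⟨lt t a, ?_⟩
  have hxe : e * b * e * e = e * b * e := by rw [mul_assoc, hee]
  have hex : e * (e * b * e) = e * b * e := by rw [← mul_assoc, ← mul_assoc, hee]
  set x := e * b * e with hxdef
  rw [hTe] at hN3
  -- expand the relations
  have r1 : lt t a • x = x * x := by
    rw [mul_sub, mul_smul_comm, mul_one, sub_eq_zero] at hN1
    exact hN1
  have r3 : (lt t a + 1) • (x + e) = (x + e) * (x + e) := by
    rw [mul_sub, mul_smul_comm, mul_one, sub_eq_zero] at hN3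
    exact hN3
  rw [add_mul, mul_add, mul_add, hxe, hex, hee, ← r1, add_smul, smul_add, one_smul] at r3
  -- r3 : T x + T e + (x + e) = T x + x + (x + e)
  have : lt t a • e = x := by
    have h3 := r3
    have e1 : lt t a • x + lt t a • e + (x + e) = (lt t a • e) + (lt t a • x + x + e) := by abel
    have e2 : lt t a • x + x + (x + e) = x + (lt t a • x + x + e) := by abel
    rw [e1, e2] at h3
    exact add_right_cancel h3
  exact this.symm

/-- the range of an idempotent `e ≠ 0, 1` of `B` is a line. -/
theorem range_idem_le (hs : IsSimpleRep r) {e : Module.End k U} (he : e ∈ B r) (hee : e * e = e)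
    (h0 : e ≠ 0) (h1 : e ≠ 1) : ∃ v₀ : U, LinearMap.range e ≤ Submodule.span k {v₀} := by
  obtain ⟨w₀, hw₀⟩ : ∃ w₀ : U, e w₀ ≠ 0 := by
    by_contra hcon
    push Not at hcon
    exact h0 (LinearMap.ext fun w => by rw [hcon w, LinearMap.zero_apply])
  refine ⟨e w₀, ?_⟩
  rintro y ⟨y', rfl⟩
  obtain ⟨b, hb, hbu⟩ := exists_apply_eq hs hw₀ y'
  obtain ⟨c, hc⟩ := corner r χ t h he hee h0 h1 hb
  have : e y' = c • e w₀ := by
    have := congrArg (fun f : Module.End k U => f w₀) hc
    simp only [Module.End.mul_apply, LinearMap.smul_apply] at this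
    rw [← hbu, ← this]
  rw [this]
  exact Submodule.smul_mem _ _ (Submodule.mem_span_singleton_self _)

theorem finrank_le_two_of_idem [Module.Finite k U] (hs : IsSimpleRep r) {e : Module.End k U}
    (he : e ∈ B r) (hee : e * e = e) (h0 : e ≠ 0) (h1 : e ≠ 1) : Module.finrank k U ≤ 2 := by
  obtain ⟨v₀, hv₀⟩ := range_idem_le r χ t h hs he hee h0 h1
  have he' : (1 - e) ∈ B r := sub_mem (one_mem _) he
  have hee' : (1 - e) * (1 - e) = 1 - e := by
    rw [mul_sub, sub_mul, sub_mul, one_mul, mul_one, one_mul, hee, sub_self, sub_zero]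
  have h0' : (1 - e) ≠ 0 := fun h' => h1 (sub_eq_zero.1 h').symm
  have h1' : (1 - e) ≠ 1 := fun h' => h0 (by simpa using h')
  obtain ⟨v₁, hv₁⟩ := range_idem_le r χ t h hs he' hee' h0' h1'
  have hker : LinearMap.ker e ≤ Submodule.span k {v₁} := by
    intro v hv
    apply hv₁
    refine ⟨v, ?_⟩
    rw [LinearMap.sub_apply, Module.End.one_apply, LinearMap.mem_ker.1 hv, sub_zero]
  have e1 : Module.finrank k (LinearMap.range e) ≤ 1 :=
    (Submodule.finrank_mono hv₀).trans (finrank_span_singleton_le' v₀)
  have e2 : Module.finrank k (LinearMap.ker e) ≤ 1 :=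
    (Submodule.finrank_mono hker).trans (finrank_span_singleton_le' v₁)
  have := LinearMap.finrank_range_add_finrank_ker e
  omega

end Cases

section NoIdem

variable (r : G →* Module.End k U) (χ : G →* kˣ) (t : G → k)
  (h : ∀ g, r g + ((χ g : kˣ) : k) • r g⁻¹ = t g • (1 : Module.End k U))
  (hI : ∀ e ∈ B r, e * e = e → e = 0 ∨ e = 1)

include h hI

theorem sq_zero_of_ker {b : Module.End k U} (hb : b ∈ B r) {v : U} (hv : v ≠ 0)
    (hbv : b v = 0) : b * b = 0 := by
  obtain ⟨T, N, hq⟩ := exists_quad_B r χ t h hb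
  have hN : N = 0 := by
    have := congrArg (fun f : Module.End k U => f v) hq
    simp only [Module.End.mul_apply, LinearMap.sub_apply, LinearMap.smul_apply,
      Module.End.one_apply, hbv, sub_zero, map_smul, smul_zero] at this
    by_contra hN
    exact hv ((smul_eq_zero.1 this.symm).resolve_left hN)
  rw [hN, zero_smul, mul_sub, mul_smul_comm, mul_one, sub_eq_zero] at hq
  by_cases hT : T = 0
  · rw [← hq, hT, zero_smul]
  · have hee : (T⁻¹ • b) * (T⁻¹ • b) = T⁻¹ • b := by
      rw [smul_mul_smul_comm, ← hq, smul_smul, mul_assoc, inv_mul_cancel₀ hT, mul_one]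
    rcases hI _ (Subalgebra.smul_mem _ hb _) hee with h0 | h1
    · have : b = 0 := by
        have := congrArg (fun f : Module.End k U => T • f) h0
        simpa [smul_smul, hT] using this
      rw [this, mul_zero]
    · exfalso
      have hb1 : b = T • (1 : Module.End k U) := by
        have := congrArg (fun f : Module.End k U => T • f) h1
        simpa [smul_smul, hT] using this
      rw [hb1, LinearMap.smul_apply, Module.End.one_apply] at hbv
      exact hv ((smul_eq_zero.1 hbv).resolve_left hT)

theorem eq_zero_of_ker (hs : IsSimpleRep r) {b : Module.End k U} (hb : b ∈ B r) {v : U}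
    (hv : v ≠ 0) (hbv : b v = 0) : b = 0 := by
  by_contra hb0
  obtain ⟨u, hu⟩ : ∃ u, b u ≠ 0 := by
    by_contra hcon
    push Not at hcon
    exact hb0 (LinearMap.ext fun w => by rw [hcon w, LinearMap.zero_apply])
  have hbb := sq_zero_of_ker r χ t h hI hb hv hbv
  have hbcb : ∀ c ∈ B r, b * c * b = 0 := by
    intro c hc
    have h1 : (c * b) * (c * b) = 0 :=
      sq_zero_of_ker r χ t h hI (mul_mem hc hb) hv (by rw [Module.End.mul_apply, hbv, map_zero])
    have h2 : ((1 + c) * b) * ((1 + c) * b) = 0 :=
      sq_zero_of_ker r χ t h hI (mul_mem (add_mem (one_mem _) hc) hb) hv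
        (by rw [Module.End.mul_apply, hbv, map_zero])
    have e : ((1 + c) * b) * ((1 + c) * b)
        = b * b + b * c * b + c * (b * b) + (c * b) * (c * b) := by
      noncomm_ring
    rw [e, hbb, h1, mul_zero, zero_add, add_zero, add_zero] at h2
    exact h2
  obtain ⟨c, hc, hcu⟩ := exists_apply_eq hs hu u
  apply hu
  have := congrArg (fun f : Module.End k U => f u) (hbcb c hc)
  simp only [Module.End.mul_apply, LinearMap.zero_apply] at this
  rw [hcu] at this
  exact this

theorem injective_of_ne_zero (hs : IsSimpleRep r) {b : Module.End k U} (hb : b ∈ B r)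
    (hb0 : b ≠ 0) : Function.Injective b := by
  refine (injective_iff_map_eq_zero b).2 fun v hv => ?_
  by_contra hv0
  exact hb0 (eq_zero_of_ker r χ t h hI hs hb hv0 hv)

/-- without idempotents the image of `G` is cyclic: all `r g` are powers of one element. -/
theorem exists_generator [Finite G] (p : ℕ) [NeZero p] [CharP k p] (hs : IsSimpleRep r) :
    ∃ Θ ∈ B r, ∀ g, ∃ n : ℕ, r g = Θ ^ n := by
  classical
  haveI := hs.1
  let R₀ : Subring (Module.End k U) := Subring.closure (Set.range r)
  have hR₀B : ∀ x ∈ R₀, x ∈ B r := by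
    intro x hx
    have hle : R₀ ≤ (B r).toSubring :=
      Subring.closure_le.2 (by rintro _ ⟨g, rfl⟩; exact map_mem_B r g)
    exact hle hx
  haveI : Finite R₀ := by
    haveI := Fintype.ofFinite G
    let φ : (G → ZMod p) →+ Module.End k U :=
      { toFun := fun f => ∑ g, (ZMod.castHom (dvd_refl p) k (f g)) • r g
        map_zero' := by simp
        map_add' := by intro f f'; simp [add_smul, Finset.sum_add_distrib] }
    have hsub : (R₀ : Set (Module.End k U)) ⊆ Set.range φ := by
      intro x hx
      have hx' : x ∈ AddSubgroup.closure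
          ((Submonoid.closure (Set.range r) : Submonoid _) : Set (Module.End k U)) :=
        Subring.mem_closure_iff.1 hx
      rw [← MonoidHom.coe_mrange, Submonoid.closure_eq, MonoidHom.coe_mrange] at hx'
      have hle : AddSubgroup.closure (Set.range r) ≤ φ.range := by
        rw [AddSubgroup.closure_le]
        rintro _ ⟨g, rfl⟩
        refine ⟨Pi.single g 1, ?_⟩
        show ∑ g', (ZMod.castHom (dvd_refl p) k ((Pi.single g 1 : G → ZMod p) g')) • r g' = r g
        rw [Finset.sum_eq_single g]
        · rw [Pi.single_eq_same, map_one, one_smul]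
        · intro g' _ hg'
          rw [Pi.single_eq_of_ne hg', map_zero, zero_smul]
        · intro hg
          exact absurd (Finset.mem_univ g) hg
      exact hle hx'
    exact (Set.Finite.subset (Set.finite_range φ) hsub).to_subtype
  haveI : NoZeroDivisors R₀ := ⟨fun {x y} hxy => by
    by_cases hx : x = 0
    · exact Or.inl hx
    · right
      have hx' : (x : Module.End k U) ≠ 0 := fun h' => hx (Subtype.ext h')
      have hinj := injective_of_ne_zero r χ t h hI hs (hR₀B _ x.2) hx'
      apply Subtype.ext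
      refine LinearMap.ext fun u => hinj ?_
      have := congrArg (fun f : R₀ => (f : Module.End k U) u) hxy
      simpa using this⟩
  haveI : IsDomain R₀ := NoZeroDivisors.to_isDomain _
  have hfield := Finite.isDomain_to_isField R₀
  have hcyc : ∃ θ : R₀ˣ, ∀ u : R₀ˣ, u ∈ Submonoid.powers θ := by
    letI : CommRing R₀ := { (inferInstance : Ring R₀) with mul_comm := hfield.mul_comm }
    haveI : IsDomain R₀ := NoZeroDivisors.to_isDomain _
    exact IsCyclic.exists_monoid_generator
  obtain ⟨θ, hθ⟩ := hcyc
  refine ⟨((θ : R₀) : Module.End k U), hR₀B _ (θ : R₀).2, fun g => ?_⟩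
  let ug : R₀ˣ :=
    ⟨⟨r g, Subring.subset_closure ⟨g, rfl⟩⟩, ⟨r g⁻¹, Subring.subset_closure ⟨g⁻¹, rfl⟩⟩,
      Subtype.ext (by
        show r g * r g⁻¹ = 1
        rw [← map_mul, mul_inv_cancel, map_one]),
      Subtype.ext (by
        show r g⁻¹ * r g = 1
        rw [← map_mul, inv_mul_cancel, map_one])⟩
  obtain ⟨n, hn⟩ := (Submonoid.mem_powers_iff _ _).1 (hθ ug)
  refine ⟨n, ?_⟩
  have := congrArg (fun x : R₀ˣ => ((x : R₀) : Module.End k U)) hn
  simpa [ug] using this.symm

theorem finrank_le_two_of_noIdem [Module.Finite k U] [Finite G] (p : ℕ) [NeZero p] [CharP k p]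
    (hs : IsSimpleRep r) : Module.finrank k U ≤ 2 := by
  obtain ⟨Θ, hΘ, hgen⟩ := exists_generator r χ t h hI p hs
  obtain ⟨T, N, hq⟩ := exists_quad_B r χ t h hΘ
  have hq' : Θ * Θ = T • Θ - N • (1 : Module.End k U) := by
    rw [mul_sub, mul_smul_comm, mul_one] at hq
    rw [← hq]; abel
  have hpow : ∀ n : ℕ, Θ ^ n ∈ Submodule.span k ({1, Θ} : Set (Module.End k U)) := by
    intro n
    induction n with
    | zero => rw [pow_zero]; exact Submodule.subset_span (by simp)
    | succ n ih =>
      obtain ⟨α, β, hαβ⟩ := Submodule.mem_span_pair.1 ih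
      rw [pow_succ, ← hαβ, add_mul, smul_mul_assoc, one_mul, smul_mul_assoc, hq', smul_sub,
        smul_smul, smul_smul]
      exact add_mem (Submodule.smul_mem _ _ (Submodule.subset_span (by simp)))
        (sub_mem (Submodule.smul_mem _ _ (Submodule.subset_span (by simp)))
          (Submodule.smul_mem _ _ (Submodule.subset_span (by simp))))
  have hB : ∀ b ∈ B r, b ∈ Submodule.span k ({1, Θ} : Set (Module.End k U)) := by
    intro b hb
    rw [← Subalgebra.mem_toSubmodule, toSubmodule_B] at hb
    refine Submodule.span_le.2 ?_ hb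
    rintro _ ⟨g, rfl⟩
    obtain ⟨n, hn⟩ := hgen g
    rw [hn]; exact hpow n
  haveI := hs.1
  obtain ⟨u, hu⟩ := exists_ne (0 : U)
  have htop : (⊤ : Submodule k U) ≤ Submodule.span k ({u, Θ u} : Set U) := by
    intro v _
    obtain ⟨b, hb, rfl⟩ := exists_apply_eq hs hu v
    obtain ⟨α, β, hαβ⟩ := Submodule.mem_span_pair.1 (hB b hb)
    rw [← hαβ]
    simp only [LinearMap.add_apply, LinearMap.smul_apply, Module.End.one_apply]
    exact Submodule.mem_span_pair.2 ⟨α, β, rfl⟩
  calc Module.finrank k U = Module.finrank k (⊤ : Submodule k U) := (finrank_top k U).symm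
    _ ≤ Module.finrank k (Submodule.span k ({u, Θ u} : Set U)) := Submodule.finrank_mono htop
    _ ≤ 2 := finrank_span_pair_le' u (Θ u)

end NoIdem

section Assembly

variable (r : G →* Module.End k U) (χ : G →* kˣ) (t : G → k)
  (h : ∀ g, r g + ((χ g : kˣ) : k) • r g⁻¹ = t g • (1 : Module.End k U))

include h

/-- a simple representation with the quadratic property has dimension `≤ 2`. -/
theorem finrank_le_two [Module.Finite k U] [Finite G] (p : ℕ) [NeZero p] [CharP k p]
    (hs : IsSimpleRep r) : Module.finrank k U ≤ 2 := by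
  by_cases hI : ∀ e ∈ B r, e * e = e → e = 0 ∨ e = 1
  · exact finrank_le_two_of_noIdem r χ t h hI p hs
  · push Not at hI
    obtain ⟨e, he, hee, h0, h1⟩ := hI
    exact finrank_le_two_of_idem r χ t h hs he hee h0 h1

/-- the quadratic equation of `r g`. -/
theorem sq_eq (g : G) :
    r g * r g = t g • r g - ((χ g : kˣ) : k) • (1 : Module.End k U) := by
  have := congrArg (fun f : Module.End k U => f * r g) (h g)
  simp only [add_mul, smul_mul_assoc, one_mul] at this
  have e : r g⁻¹ * r g = 1 := by rw [← map_mul, inv_mul_cancel, map_one]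
  rw [e] at this
  rw [← this]; abel

/-- a scalar `r g = c` in a simple representation of dimension `2`: `χ g = c²`, `t g = 2c`. -/
theorem scalar_case [Module.Finite k U] (hs : IsSimpleRep r) (h2 : Module.finrank k U = 2)
    {g : G} {c : k} (hc : r g = c • (1 : Module.End k U)) :
    ((χ g : kˣ) : k) = c * c ∧ t g = c + c := by
  haveI := hs.1
  -- a non-scalar element
  obtain ⟨h₀, hh₀⟩ : ∃ h₀ : G, ∀ d : k, r h₀ ≠ d • (1 : Module.End k U) := by
    by_contra hcon
    push Not at hcon
    obtain ⟨u, hu⟩ := exists_ne (0 : U)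
    have hinv : ∀ g', ∀ w ∈ Submodule.span k ({u} : Set U), r g' w ∈ Submodule.span k ({u} : Set U) := by
      intro g' w hw
      obtain ⟨d, hd⟩ := hcon g'
      rw [hd, LinearMap.smul_apply, Module.End.one_apply]
      exact Submodule.smul_mem _ _ hw
    rcases hs.2 _ hinv with h0 | h1
    · exact hu ((Submodule.span_singleton_eq_bot).1 h0)
    · have := finrank_span_singleton_le' (k := k) u
      rw [h1, finrank_top, h2] at this
      omega
  have hc0 : c ≠ 0 := by
    rintro rfl
    have : r g * r g⁻¹ = 1 := by rw [← map_mul, mul_inv_cancel, map_one]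
    rw [hc, zero_smul, zero_mul] at this
    exact zero_ne_one this
  have hinv : r g⁻¹ = c⁻¹ • (1 : Module.End k U) := by
    have : r g * r g⁻¹ = 1 := by rw [← map_mul, mul_inv_cancel, map_one]
    rw [hc, smul_mul_assoc, one_mul] at this
    rw [← this, smul_smul, inv_mul_cancel₀ hc0, one_smul]
  have hgh : r (g * h₀) = c • r h₀ := by rw [map_mul, hc, smul_mul_assoc, one_mul]
  have e1 := sq_eq r χ t h (g * h₀)
  have e2 := sq_eq r χ t h h₀
  rw [hgh, smul_mul_smul_comm, e2, map_mul, Units.val_mul] at e1
  -- e1 : (c*c) • (t h₀ • r h₀ - χ h₀ • 1) = t (g h₀) • c • r h₀ - (χ g * χ h₀) • 1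
  have e3 : (c * c * t h₀ - t (g * h₀) * c) • r h₀
      = (c * c * ((χ h₀ : kˣ) : k) - ((χ g : kˣ) : k) * ((χ h₀ : kˣ) : k)) •
        (1 : Module.End k U) := by
    rw [smul_sub, smul_smul, smul_smul, smul_smul] at e1
    rw [sub_smul, sub_smul]
    have := e1
    rw [sub_eq_sub_iff_add_eq_add] at this
    rw [sub_eq_sub_iff_add_eq_add]
    rw [this, add_comm]
  have hα : c * c * t h₀ - t (g * h₀) * c = 0 := by
    by_contra hα
    apply hh₀ ((c * c * t h₀ - t (g * h₀) * c)⁻¹ *
      (c * c * ((χ h₀ : kˣ) : k) - ((χ g : kˣ) : k) * ((χ h₀ : kˣ) : k)))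
    rw [← smul_smul, ← e3, smul_smul, inv_mul_cancel₀ hα, one_smul]
  rw [hα, zero_smul] at e3
  have hβ := (smul_eq_zero.1 e3.symm).resolve_right one_ne_zero
  have hχ : ((χ g : kˣ) : k) = c * c := by
    have : (c * c - ((χ g : kˣ) : k)) * ((χ h₀ : kˣ) : k) = 0 := by rw [sub_mul]; exact hβ
    rcases mul_eq_zero.1 this with h' | h'
    · exact (sub_eq_zero.1 h').symm
    · exact absurd h' (Units.ne_zero _)
  refine ⟨hχ, ?_⟩
  have e4 := h g
  rw [hc, hinv, hχ, smul_smul, ← add_smul] at e4
  have e5 : c + c * c * c⁻¹ = t g := by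
    by_contra hne
    have : (c + c * c * c⁻¹ - t g) • (1 : Module.End k U) = 0 := by rw [sub_smul, e4, sub_self]
    exact hne (sub_eq_zero.1 ((smul_eq_zero.1 this).resolve_right one_ne_zero))
  rw [← e5, mul_assoc, mul_inv_cancel₀ hc0, mul_one]

theorem charpoly_of_finrank_two [Module.Finite k U] (hs : IsSimpleRep r)
    (h2 : Module.finrank k U = 2) (b : Module.Basis (Fin 2) k U) (g : G) :
    (LinearMap.toMatrix b b (r g)).charpoly
      = X ^ 2 - C (t g) * X + C ((χ g : kˣ) : k) := by
  haveI := hs.1
  set M := LinearMap.toMatrix b b (r g) with hMdef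
  have hM : M * M = t g • M - ((χ g : kˣ) : k) • (1 : Matrix (Fin 2) (Fin 2) k) := by
    have := congrArg (LinearMap.toMatrix b b) (sq_eq r χ t h g)
    rw [LinearMap.toMatrix_mul, map_sub, map_smul, map_smul, LinearMap.toMatrix_one] at this
    exact this
  have hCH : M * M = M.trace • M - M.det • (1 : Matrix (Fin 2) (Fin 2) k) := by
    have := Matrix.aeval_self_charpoly M
    rw [Matrix.charpoly_fin_two] at this
    simp only [map_add, map_sub, map_mul, aeval_X, aeval_C,
      Algebra.algebraMap_eq_smul_one, smul_mul_assoc, one_mul, pow_two] at this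
    rw [← sub_eq_zero, ← this]; abel
  by_cases htr : t g = M.trace
  · have hdet : ((χ g : kˣ) : k) = M.det := by
      rw [hCH, htr] at hM
      have : (((χ g : kˣ) : k) - M.det) • (1 : Matrix (Fin 2) (Fin 2) k) = 0 := by
        rw [sub_smul, sub_eq_zero]
        exact (sub_right_injective hM).symm
      exact sub_eq_zero.1 ((smul_eq_zero.1 this).resolve_right one_ne_zero)
    rw [Matrix.charpoly_fin_two, htr, hdet]
  · -- `M` is scalar
    have hsc : M = ((t g - M.trace)⁻¹ * (((χ g : kˣ) : k) - M.det)) •
        (1 : Matrix (Fin 2) (Fin 2) k) := by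
      have e : (t g - M.trace) • M = (((χ g : kˣ) : k) - M.det) • (1 : Matrix (Fin 2) (Fin 2) k) := by
        rw [sub_smul, sub_smul, sub_eq_sub_iff_add_eq_add]
        have := hM.symm.trans hCH
        rw [sub_eq_sub_iff_add_eq_add] at this
        rw [this, add_comm]
      rw [← smul_smul, ← e, smul_smul, inv_mul_cancel₀ (sub_ne_zero.2 htr), one_smul]
    set c := (t g - M.trace)⁻¹ * (((χ g : kˣ) : k) - M.det) with hcdef
    have hrg : r g = c • (1 : Module.End k U) := by
      apply (LinearMap.toMatrix b b).injective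
      rw [map_smul, LinearMap.toMatrix_one]
      exact hsc
    obtain ⟨hχ, ht⟩ := scalar_case r χ t h hs h2 hrg
    rw [Matrix.charpoly_fin_two, hsc, Matrix.trace_smul, Matrix.det_smul, Matrix.trace_one,
      Matrix.det_one, Fintype.card_fin, hχ, ht]
    congr 2
    · congr 2
      rw [smul_eq_mul]; push_cast; ring
    · rw [mul_one, pow_two]

theorem exists_matrix_rep_of_finrank_one (h1 : Module.finrank k U = 1) :
    ∃ ρ : G →* Matrix (Fin 2) (Fin 2) k,
      ∀ g, (ρ g).charpoly = X ^ 2 - C (t g) * X + C ((χ g : kˣ) : k) := by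
  obtain ⟨u, hu, hgen⟩ := finrank_eq_one_iff'.1 h1
  choose ψ hψ using fun g : G => hgen (r g u)
  have hinj : ∀ {c d : k}, c • u = d • u → c = d := by
    intro c d hcd
    have : (c - d) • u = 0 := by rw [sub_smul, hcd, sub_self]
    exact sub_eq_zero.1 ((smul_eq_zero.1 this).resolve_right hu)
  have hψ1 : ψ 1 = 1 := hinj (by rw [hψ, map_one, Module.End.one_apply, one_smul])
  have hψmul : ∀ g g', ψ (g * g') = ψ g * ψ g' := by
    intro g g'
    apply hinj
    rw [hψ, map_mul, Module.End.mul_apply, ← hψ g', map_smul, ← hψ g, smul_smul, mul_comm]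
  have hψinv : ∀ g, ψ g * ψ g⁻¹ = 1 := by
    intro g
    rw [← hψmul, mul_inv_cancel, hψ1]
  have ht : ∀ g, t g = ψ g + ((χ g : kˣ) : k) * ψ g⁻¹ := by
    intro g
    apply hinj
    have := congrArg (fun f : Module.End k U => f u) (h g)
    simp only [LinearMap.add_apply, LinearMap.smul_apply, Module.End.one_apply] at this
    rw [← hψ g, ← hψ g⁻¹, smul_smul, ← add_smul] at this
    exact this.symm
  refine ⟨{ toFun := fun g => !![ψ g, 0; 0, ((χ g : kˣ) : k) * ψ g⁻¹]
            map_one' := by
              rw [Matrix.one_fin_two, inv_one, hψ1, map_one, Units.val_one, mul_one]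
            map_mul' := fun g g' => by
              rw [Matrix.mul_fin_two, hψmul, mul_inv_rev, hψmul, map_mul, Units.val_mul]
              congr 1
              ext i j
              fin_cases i <;> fin_cases j <;> simp <;> ring }, fun g => ?_⟩
  show (!![ψ g, 0; 0, ((χ g : kˣ) : k) * ψ g⁻¹] : Matrix (Fin 2) (Fin 2) k).charpoly = _
  rw [Matrix.charpoly_fin_two, Matrix.trace_fin_two_of, Matrix.det_fin_two_of, ht g]
  congr 2
  rw [mul_zero, sub_zero, mul_left_comm, hψinv, mul_one]

theorem exists_matrix_rep_of_simple [Module.Finite k U] [Finite G] (p : ℕ) [NeZero p]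
    [CharP k p] (hs : IsSimpleRep r) :
    ∃ ρ : G →* Matrix (Fin 2) (Fin 2) k,
      ∀ g, (ρ g).charpoly = X ^ 2 - C (t g) * X + C ((χ g : kˣ) : k) := by
  haveI := hs.1
  have hle := finrank_le_two r χ t h p hs
  have hpos : 0 < Module.finrank k U := Module.finrank_pos
  rcases (by omega : Module.finrank k U = 1 ∨ Module.finrank k U = 2) with h1 | h2
  · exact exists_matrix_rep_of_finrank_one r χ t h h1
  · let b := Module.finBasisOfFinrankEq k U h2
    exact ⟨{ toFun := fun g => LinearMap.toMatrix b b (r g)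
             map_one' := by rw [map_one, LinearMap.toMatrix_one]
             map_mul' := fun g g' => by rw [map_mul, LinearMap.toMatrix_mul] },
      fun g => charpoly_of_finrank_two r χ t h hs h2 b g⟩

end Assembly

/-! ### The general case: pass to a minimal invariant subspace -/

/-- **Lemma (Q).** -/
theorem exists_matrix_rep {k : Type*} [Field k] (p : ℕ) [NeZero p] [CharP k p] {G : Type*}
    [Group G] [Finite G] {W : Type*} [AddCommGroup W] [Module k W] [Module.Finite k W]
    [Nontrivial W] (r : G →* Module.End k W) (χ : G →* kˣ) (t : G → k)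
    (h : ∀ g, r g + ((χ g : kˣ) : k) • r g⁻¹ = t g • (1 : Module.End k W)) :
    ∃ ρ : G →* Matrix (Fin 2) (Fin 2) k,
      ∀ g, (ρ g).charpoly = X ^ 2 - C (t g) * X + C ((χ g : kˣ) : k) := by
  -- a minimal nonzero invariant subspace
  let S : Set (Submodule k W) := {V | V ≠ ⊥ ∧ ∀ g, ∀ u ∈ V, r g u ∈ V}
  have hS : S.Nonempty := ⟨⊤, top_ne_bot, fun _ _ _ => Submodule.mem_top⟩
  obtain ⟨V, hVS, hVmin⟩ :=
    (measure (fun V : Submodule k W => Module.finrank k V)).wf.has_min S hS
  obtain ⟨hV0, hVinv⟩ := hVS
  -- the restricted representation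
  let rV : G →* Module.End k V :=
    { toFun := fun g => (r g).restrict (hVinv g)
      map_one' := by
        ext v
        simp
      map_mul' := fun g g' => by
        ext v
        simp }
  have hrV : ∀ g (v : V), ((rV g v : V) : W) = r g v := fun _ _ => rfl
  have hh : ∀ g, rV g + ((χ g : kˣ) : k) • rV g⁻¹ = t g • (1 : Module.End k V) := by
    intro g
    ext v
    have := congrArg (fun f : Module.End k W => f (v : W)) (h g)
    simpa [hrV] using this
  have hs : IsSimpleRep rV := by
    refine ⟨(Submodule.nontrivial_iff_ne_bot).2 hV0, fun V' hV' => ?_⟩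
    by_cases hV'0 : V' = ⊥
    · exact Or.inl hV'0
    · right
      let V'' : Submodule k W := V'.map V.subtype
      have hle : V'' ≤ V := by
        rintro _ ⟨v, -, rfl⟩
        exact v.2
      have hV''0 : V'' ≠ ⊥ := by
        intro h0
        apply hV'0
        rw [Submodule.eq_bot_iff]
        intro v hv
        have : (V.subtype v) ∈ V'' := ⟨v, hv, rfl⟩
        rw [h0, Submodule.mem_bot] at this
        exact Subtype.ext this
      have hV''inv : ∀ g, ∀ u ∈ V'', r g u ∈ V'' := by
        rintro g _ ⟨v, hv, rfl⟩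
        exact ⟨rV g v, hV' g v hv, rfl⟩
      have hnlt := hVmin V'' ⟨hV''0, hV''inv⟩
      have hfin : Module.finrank k V ≤ Module.finrank k V'' := not_lt.1 hnlt
      have heq : V'' = V := Submodule.eq_of_le_of_finrank_le hle hfin
      rw [eq_top_iff]
      intro v _
      have hvm : (v : W) ∈ V'' := by rw [heq]; exact v.2
      obtain ⟨v', hv', hvv'⟩ := hvm
      have hv'v : v' = v := Subtype.ext hvv'
      rw [← hv'v]; exact hv'
  exact exists_matrix_rep_of_simple rV χ t hh p hs

/-- **Lemma (Q)**, as a representation on `Fin 2 → k`. -/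
theorem exists_rep {k : Type*} [Field k] (p : ℕ) [NeZero p] [CharP k p] {G : Type*}
    [Group G] [Finite G] {W : Type*} [AddCommGroup W] [Module k W] [Module.Finite k W]
    [Nontrivial W] (r : G →* Module.End k W) (χ : G →* kˣ) (t : G → k)
    (h : ∀ g, r g + ((χ g : kˣ) : k) • r g⁻¹ = t g • (1 : Module.End k W)) :
    ∃ ρ : G →* Module.End k (Fin 2 → k),
      ∀ g, LinearMap.charpoly (ρ g) = X ^ 2 - C (t g) * X + C ((χ g : kˣ) : k) := by
  obtain ⟨ρm, hρm⟩ := exists_matrix_rep p r χ t h
  refine ⟨{ toFun := fun g => Matrix.toLin' (ρm g)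
            map_one' := by rw [map_one, Matrix.toLin'_one]; rfl
            map_mul' := fun g g' => by rw [map_mul, Matrix.toLin'_mul]; rfl }, fun g => ?_⟩
  show LinearMap.charpoly (Matrix.toLin' (ρm g)) = _
  rw [Matrix.charpoly_toLin', hρm g]

end Fermat.Agent.S29.QuadRep
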