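/-
S29 (wave 9), top assembly: the frozen statement from the three inputs `[CYC]`, `[CHEB]`, `[GM]`
of `Iface.lean` and the quadratic-representation lemma `(Q)`.

For `N = 0` everything is vacuous (trivial representation on `k²`).  For `N ≥ 1` let `W`, `r`
be the Galois module of `[GM]` and `χ` the cyclotomic character of `[CYC]`.  Both factor through
a common number field `L`, so `f = (r, χ) : G_ℚ → (End W)ˣ × kˣ` has finite image `G`.  By `[CHEB]`
every element of `G` is a power of the image of a Frobenius element `τ` at a prime `ℓ ∤ N p`, for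
which `r τ + ℓ (r τ)⁻¹` is a scalar; the recursion `u_{m+1} = t u_m - c u_{m-1}` shows that
`g + χ(g) g⁻¹` is a scalar for every `g ∈ G`.  `(Q)` then gives a two-dimensional representation
of `G` with characteristic polynomials `X² - t(g) X + χ(g)`.
-/
import Fermat.Agent.S29.Iface
import Fermat.Agent.S29.QuadRep

set_option autoImplicit false
set_option linter.style.haveILetI false

noncomputable section

open Polynomial

namespace Fermat.Agent.S29.Top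

/-- The statement of the quadratic-representation lemma `(Q)` (proved in `QuadRep.lean`). -/
def QuadStmt : Prop :=
  ∀ {k : Type} [Field k] (p : ℕ) [NeZero p] [CharP k p] {G : Type} [Group G] [Finite G]
    {W : Type} [AddCommGroup W] [Module k W] [Module.Finite k W] [Nontrivial W]
    (r : G →* Module.End k W) (χ : G →* kˣ) (t : G → k),
    (∀ g, r g + ((χ g : kˣ) : k) • r g⁻¹ = t g • (1 : Module.End k W)) →
    ∃ ρ : G →* Matrix (Fin 2) (Fin 2) k,
      ∀ g, (ρ g).charpoly = X ^ 2 - C (t g) * X + C ((χ g : kˣ) : k)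

/-- The power recursion: if `s + c s⁻¹` is a scalar then so is `s ^ m + c ^ m s⁻ᵐ`. -/
theorem pow_add_smul_pow {k R : Type*} [CommRing k] [Ring R] [Algebra k R] {s s' : R}
    (hs : s * s' = 1) (hs' : s' * s = 1) {c t : k} (h : s + c • s' = t • (1 : R)) (m : ℕ) :
    ∃ u : k, s ^ m + c ^ m • s' ^ m = u • (1 : R) := by
  suffices H : ∀ m : ℕ, (∃ u : k, s ^ m + c ^ m • s' ^ m = u • (1 : R)) ∧
      ∃ u : k, s ^ (m + 1) + c ^ (m + 1) • s' ^ (m + 1) = u • (1 : R) from (H m).1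
  intro m
  induction m with
  | zero =>
    refine ⟨⟨2, ?_⟩, ⟨t, ?_⟩⟩
    · simp [two_smul]
    · simpa using h
  | succ m ih =>
    obtain ⟨⟨u0, h0⟩, ⟨u1, h1⟩⟩ := ih
    refine ⟨⟨u1, h1⟩, ⟨u1 * t - c * u0, ?_⟩⟩
    have key : s ^ (m + 1 + 1) + c ^ (m + 1 + 1) • s' ^ (m + 1 + 1)
        = (s ^ (m + 1) + c ^ (m + 1) • s' ^ (m + 1)) * (s + c • s')
          - c • (s ^ m + c ^ m • s' ^ m) := by
      have e1 : s ^ (m + 1) * s' = s ^ m := by rw [pow_succ, mul_assoc, hs, mul_one]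
      have e2 : s' ^ (m + 1) * s = s' ^ m := by rw [pow_succ, mul_assoc, hs', mul_one]
      have e3 : s ^ (m + 1) * s = s ^ (m + 1 + 1) := (pow_succ s (m + 1)).symm
      have e4 : s' ^ (m + 1) * s' = s' ^ (m + 1 + 1) := (pow_succ s' (m + 1)).symm
      rw [add_mul, mul_add, mul_add, mul_smul_comm, smul_mul_assoc, smul_mul_assoc,
        mul_smul_comm, e1, e2, e3, e4, smul_smul]
      module
    rw [key, h1, h, h0, smul_mul_smul_comm, mul_one, smul_smul, ← sub_smul]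


/-- A two-dimensional residual representation from a matrix-valued homomorphism of finite
level. -/
def repOfMatrix {k : Type} [Field k]
    (ρ : (AlgebraicClosure ℚ ≃ₐ[ℚ] AlgebraicClosure ℚ) →* Matrix (Fin 2) (Fin 2) k)
    (h : GaloisFactorsThroughFiniteLevel ρ) : ResidualGaloisRep k where
  V := Fin 2 → k
  finrank_eq := Module.finrank_fin_fun k
  ρ := (Matrix.toLinAlgEquiv' : Matrix (Fin 2) (Fin 2) k ≃ₐ[k] _).toAlgHom.toMonoidHom.comp ρ
  factorsThroughFiniteLevel := by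
    obtain ⟨L, hL, h1⟩ := h
    exact ⟨L, hL, fun σ hσ => by rw [MonoidHom.comp_apply, h1 σ hσ, map_one]⟩

theorem repOfMatrix_apply {k : Type} [Field k]
    (ρ : (AlgebraicClosure ℚ ≃ₐ[ℚ] AlgebraicClosure ℚ) →* Matrix (Fin 2) (Fin 2) k)
    (h : GaloisFactorsThroughFiniteLevel ρ) (σ : AlgebraicClosure ℚ ≃ₐ[ℚ] AlgebraicClosure ℚ) :
    (repOfMatrix ρ h).ρ σ = Matrix.toLin' (ρ σ) := rfl

theorem charpoly_repOfMatrix {k : Type} [Field k]
    (ρ : (AlgebraicClosure ℚ ≃ₐ[ℚ] AlgebraicClosure ℚ) →* Matrix (Fin 2) (Fin 2) k)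
    (h : GaloisFactorsThroughFiniteLevel ρ) (σ : AlgebraicClosure ℚ ≃ₐ[ℚ] AlgebraicClosure ℚ) :
    LinearMap.charpoly ((repOfMatrix ρ h).ρ σ) = (ρ σ).charpoly := by
  rw [repOfMatrix_apply]
  exact Matrix.charpoly_toLin' (ρ σ)

theorem repOfMatrix_eq_one {k : Type} [Field k]
    (ρ : (AlgebraicClosure ℚ ≃ₐ[ℚ] AlgebraicClosure ℚ) →* Matrix (Fin 2) (Fin 2) k)
    (h : GaloisFactorsThroughFiniteLevel ρ) {σ : AlgebraicClosure ℚ ≃ₐ[ℚ] AlgebraicClosure ℚ}
    (hσ : ρ σ = 1) : (repOfMatrix ρ h).ρ σ = 1 := by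
  rw [repOfMatrix_apply, hσ]
  exact map_one (Matrix.toLinAlgEquiv' : Matrix (Fin 2) (Fin 2) k ≃ₐ[k] _)

/-- The case `N = 0` of S29: every condition is vacuous. -/
theorem result_zero {g : CuspForm (CongruenceSubgroup.Gamma0 0) 2}
    {p : ℕ} {k : Type} [Field k] (φ : integralClosure ℤ ℂ →+* k) :
    ∃ ρ : ResidualGaloisRep k, ρ.IsAttachedTo g φ ∧
      ∀ ℓ : ℕ, ℓ.Prime → ¬ ℓ ∣ 0 * p → ρ.IsUnramifiedAt ℓ :=
  ⟨repOfMatrix 1 ⟨⊥, inferInstance, fun _ _ => rfl⟩,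
    fun ℓ _ hℓ0 => absurd (dvd_zero ℓ) hℓ0,
    fun ℓ _ hℓ0 => absurd (by rw [zero_mul]; exact dvd_zero ℓ) hℓ0⟩


/-- **S29 from the interface**, with `(Q)` as a hypothesis. -/
theorem result_of_quad (hQ : QuadStmt) (hCyc : CycStmt) (hCheb : ChebStmt) (hGM : GalModStmt)
    {N : ℕ} {g : CuspForm (CongruenceSubgroup.Gamma0 N) 2} (hg : g.IsNormalizedEigenform)
    {p : ℕ} (hp : p.Prime) {k : Type} [Field k] [CharP k p]
    (φ : integralClosure ℤ ℂ →+* k) :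
    ∃ ρ : ResidualGaloisRep k, ρ.IsAttachedTo g φ ∧
      ∀ ℓ : ℕ, ℓ.Prime → ¬ ℓ ∣ N * p → ρ.IsUnramifiedAt ℓ := by
  rcases Nat.eq_zero_or_pos N with hN0 | hNpos
  · subst hN0
    exact result_zero φ
  haveI : NeZero N := ⟨hNpos.ne'⟩
  haveI : NeZero p := ⟨hp.ne_zero⟩
  obtain ⟨W, iW1, iW2, iW3, iW4, r, ⟨Lr, hLr, hr1⟩, hrI, hrF⟩ := hGM N g hg p hp k φ
  obtain ⟨χ, ⟨Lχ, hLχ, hχ1⟩, hχI, hχF⟩ := hCyc p hp k
  -- the common level and the joint homomorphism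
  let L : IntermediateField ℚ (AlgebraicClosure ℚ) := Lr ⊔ Lχ
  haveI hLfd : FiniteDimensional ℚ L := IntermediateField.finiteDimensional_sup Lr Lχ
  let f : (AlgebraicClosure ℚ ≃ₐ[ℚ] AlgebraicClosure ℚ) →* (Module.End k W)ˣ × kˣ :=
    (r.toHomUnits).prod χ
  have hf1 : ∀ σ, ((f σ).1 : Module.End k W) = r σ := fun σ => rfl
  have hf2 : ∀ σ, (f σ).2 = χ σ := fun σ => rfl
  have hfL : ∀ σ : AlgebraicClosure ℚ ≃ₐ[ℚ] AlgebraicClosure ℚ, (∀ x ∈ L, σ x = x) → f σ = 1 := by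
    intro σ hσ
    have h1 : r σ = 1 := hr1 σ fun x hx => hσ x ((le_sup_left : Lr ≤ L) hx)
    have h2 : χ σ = 1 := hχ1 σ fun x hx => hσ x ((le_sup_right : Lχ ≤ L) hx)
    refine Prod.ext (Units.ext ?_) ?_
    · rw [hf1, h1]; rfl
    · rw [hf2, h2]; rfl
  have hfeq : ∀ σ τ : AlgebraicClosure ℚ ≃ₐ[ℚ] AlgebraicClosure ℚ,
      (∀ x ∈ L, σ x = τ x) → f σ = f τ := by
    intro σ τ hστ
    have h1 : f (τ⁻¹ * σ) = 1 := by
      refine hfL _ fun x hx => ?_
      rw [AlgEquiv.mul_apply, hστ x hx, AlgEquiv.aut_inv, AlgEquiv.symm_apply_apply]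
    rw [map_mul, map_inv, inv_mul_eq_one] at h1
    exact h1.symm
  -- the image is finite
  haveI : Finite f.range := by
    let e : f.range → (L →ₐ[ℚ] AlgebraicClosure ℚ) := fun y =>
      ((Classical.choose y.2 : AlgebraicClosure ℚ ≃ₐ[ℚ] AlgebraicClosure ℚ) :
        AlgebraicClosure ℚ →ₐ[ℚ] AlgebraicClosure ℚ).comp L.val
    refine Finite.of_injective e fun y y' hyy' => ?_
    have hc := Classical.choose_spec y.2
    have hc' := Classical.choose_spec y'.2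
    refine Subtype.ext ?_
    rw [← hc, ← hc']
    refine hfeq _ _ fun x hx => ?_
    exact congrArg (fun ψ : L →ₐ[ℚ] AlgebraicClosure ℚ => ψ ⟨x, hx⟩) hyy'
  -- the two projections of the image
  let rG : f.range →* Module.End k W :=
    (Units.coeHom (Module.End k W)).comp ((MonoidHom.fst _ _).comp f.range.subtype)
  let χG : f.range →* kˣ := (MonoidHom.snd _ _).comp f.range.subtype
  have hrG : ∀ σ, rG (f.rangeRestrict σ) = r σ := fun σ => rfl
  have hχG : ∀ σ, χG (f.rangeRestrict σ) = χ σ := fun σ => rfl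
  -- every element of the image satisfies the quadratic relation
  have hscal : ∀ y : f.range, ∃ t : k,
      rG y + ((χG y : kˣ) : k) • rG y⁻¹ = t • (1 : Module.End k W) := by
    intro y
    obtain ⟨σ, rfl⟩ := f.rangeRestrict_surjective y
    obtain ⟨ℓ, A, τ, m, hℓ, hℓS, hA, hτ, hστ⟩ := hCheb L hLfd (N * p).primeFactors σ
    have hNp0 : N * p ≠ 0 := Nat.mul_ne_zero hNpos.ne' hp.ne_zero
    have hℓNp : ¬ ℓ ∣ N * p := fun hd => hℓS (Nat.mem_primeFactors.mpr ⟨hℓ, hd, hNp0⟩)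
    have hℓp : ℓ ≠ p := fun h => hℓNp (h ▸ Dvd.intro_left N rfl)
    obtain ⟨a, -, hFrob⟩ := hrF ℓ hℓ hℓNp A hA τ hτ
    have hχτ : ((χ τ : kˣ) : k) = (ℓ : k) := hχF ℓ hℓ hℓp A hA τ hτ
    have hfσ : f σ = f (τ ^ m) := hfeq σ (τ ^ m) hστ
    have e1 : r σ = r τ ^ m := by
      rw [← hf1, hfσ, hf1, map_pow]
    have e2 : χ σ = χ τ ^ m := by
      rw [← hf2, hfσ, hf2, map_pow]
    have e3 : r σ⁻¹ = r τ⁻¹ ^ m := by
      have h1 : f σ⁻¹ = f ((τ⁻¹) ^ m) := by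
        rw [map_inv, hfσ, ← map_inv, inv_pow]
      rw [← hf1, h1, hf1, map_pow]
    have hs : r τ * r τ⁻¹ = 1 := by rw [← map_mul, mul_inv_cancel, map_one]
    have hs' : r τ⁻¹ * r τ = 1 := by rw [← map_mul, inv_mul_cancel, map_one]
    obtain ⟨u, hu⟩ := pow_add_smul_pow hs hs' hFrob m
    refine ⟨u, ?_⟩
    rw [← map_inv, hrG, hrG, hχG, e1, e2, e3, Units.val_pow_eq_pow_val, hχτ]
    exact hu
  choose t ht using hscal
  obtain ⟨ρm, hρm⟩ := hQ p rG χG t ht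
  have hlev : GaloisFactorsThroughFiniteLevel (ρm.comp f.rangeRestrict) := by
    refine ⟨L, hLfd, fun σ hσ => ?_⟩
    have h1 : f.rangeRestrict σ = 1 := Subtype.ext (hfL σ hσ)
    rw [MonoidHom.comp_apply, h1, map_one]
  refine ⟨repOfMatrix (ρm.comp f.rangeRestrict) hlev, ?_, ?_⟩
  · -- attached to `g`
    intro ℓ hℓ hℓN hℓk A hA σ hσ
    have hℓp : ℓ ≠ p := fun h => hℓk (by rw [h]; exact CharP.cast_eq_zero k p)
    have hℓNp : ¬ ℓ ∣ N * p := fun hd =>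
      (hℓ.dvd_mul.mp hd).elim hℓN fun h => hℓp ((Nat.prime_dvd_prime_iff_eq hℓ hp).mp h)
    obtain ⟨a, ha, hFrob⟩ := hrF ℓ hℓ hℓNp A hA σ hσ
    have hχσ : ((χ σ : kˣ) : k) = (ℓ : k) := hχF ℓ hℓ hℓp A hA σ hσ
    refine ⟨a, ha, ?_⟩
    have hty := ht (f.rangeRestrict σ)
    rw [← map_inv, hrG, hrG, hχG, hχσ, hFrob] at hty
    have htφ : t (f.rangeRestrict σ) = φ a := by
      have h0 : (φ a - t (f.rangeRestrict σ)) • (1 : Module.End k W) = 0 := by
        rw [sub_smul, hty, sub_self]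
      rcases smul_eq_zero.mp h0 with h | h
      · exact (sub_eq_zero.mp h).symm
      · exact absurd h one_ne_zero
    rw [charpoly_repOfMatrix, MonoidHom.comp_apply, hρm, htφ, hχG, hχσ]
  · -- unramified outside `N p`
    intro ℓ hℓ hℓNp A hA σ hσ
    have hℓp : ℓ ≠ p := fun h => hℓNp (h ▸ Dvd.intro_left N rfl)
    have h1 : r σ = 1 := hrI ℓ hℓ hℓNp A hA σ hσ
    have h2 : χ σ = 1 := hχI ℓ hℓ hℓp A hA σ hσ
    have hfσ : f σ = 1 := by
      refine Prod.ext (Units.ext ?_) ?_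
      · rw [hf1, h1]; rfl
      · rw [hf2, h2]; rfl
    refine repOfMatrix_eq_one _ hlev ?_
    have h3 : f.rangeRestrict σ = 1 := Subtype.ext hfσ
    rw [MonoidHom.comp_apply, h3, map_one]


/-- `(Q)` holds (`QuadRep.exists_matrix_rep`). -/
theorem quadStmt : QuadStmt := fun p _ _ _ _ _ _ _ _ _ _ r χ t h =>
  QuadRep.exists_matrix_rep p r χ t h

/-- **S29 from the interface**: the frozen statement follows from `[CYC]`, `[CHEB]` and
`[GM]`. -/
theorem result_of_iface (hCyc : CycStmt) (hCheb : ChebStmt) (hGM : GalModStmt)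
    {N : ℕ} {g : CuspForm (CongruenceSubgroup.Gamma0 N) 2} (hg : g.IsNormalizedEigenform)
    {p : ℕ} (hp : p.Prime) {k : Type} [Field k] [CharP k p]
    (φ : integralClosure ℤ ℂ →+* k) :
    ∃ ρ : ResidualGaloisRep k, ρ.IsAttachedTo g φ ∧
      ∀ ℓ : ℕ, ℓ.Prime → ¬ ℓ ∣ N * p → ρ.IsUnramifiedAt ℓ :=
  result_of_quad quadStmt hCyc hCheb hGM hg hp φ

end Fermat.Agent.S29.Top
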