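/-
S29 (wave 9), field-theory leaf of the descent `ℂ → ℚ̄` (helper18).

An algebraically closed field `K` has many automorphisms over a subfield `k`: a transcendental
element `c` can be moved to `c + a` for every `a ∈ k`.  Hence an element of `K` with finite orbit
under `Aut(K / k)` is algebraic over `k` (characteristic zero), and lies in `k` when `k` is
algebraically closed.
-/
import Mathlib

set_option autoImplicit false
set_option linter.style.haveILetI false

noncomputable section

open MvPolynomial

namespace Fermat.Agent.S29.AutC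

section Shift

variable {k : Type*} [CommRing k] {ι : Type*} [DecidableEq ι]

/-- The substitution `X i₀ ↦ X i₀ + a` of a polynomial ring. -/
def shift (i₀ : ι) (a : k) : MvPolynomial ι k →ₐ[k] MvPolynomial ι k :=
  aeval (fun i => if i = i₀ then X i + C a else X i)

theorem shift_X_self (i₀ : ι) (a : k) : shift i₀ a (X i₀) = X i₀ + C a := by
  simp [shift]

theorem shift_X_of_ne (i₀ : ι) (a : k) {i : ι} (hi : i ≠ i₀) :
    shift i₀ a (X i) = (X i : MvPolynomial ι k) := by
  simp [shift, hi]

theorem shift_comp_shift (i₀ : ι) (a b : k) :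
    (shift i₀ a).comp (shift i₀ b) = shift i₀ (b + a) := by
  apply MvPolynomial.algHom_ext
  intro i
  by_cases hi : i = i₀
  · subst hi
    rw [AlgHom.comp_apply, shift_X_self, map_add, shift_X_self, shift_X_self, map_add, add_assoc]
    congr 1
    rw [add_comm]
    congr 1
    exact (shift i a).commutes b
  · rw [AlgHom.comp_apply, shift_X_of_ne _ _ hi, shift_X_of_ne _ _ hi, shift_X_of_ne _ _ hi]

theorem shift_zero (i₀ : ι) : shift i₀ (0 : k) = AlgHom.id k (MvPolynomial ι k) := by
  apply MvPolynomial.algHom_ext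
  intro i
  by_cases hi : i = i₀
  · subst hi
    rw [shift_X_self, map_zero, add_zero, AlgHom.id_apply]
  · rw [shift_X_of_ne _ _ hi, AlgHom.id_apply]

/-- The substitution `X i₀ ↦ X i₀ + a` as an automorphism. -/
def shiftEquiv (i₀ : ι) (a : k) : MvPolynomial ι k ≃ₐ[k] MvPolynomial ι k :=
  AlgEquiv.ofAlgHom (shift i₀ a) (shift i₀ (-a))
    (by rw [shift_comp_shift, neg_add_cancel, shift_zero])
    (by rw [shift_comp_shift, add_neg_cancel, shift_zero])

theorem shiftEquiv_X_self (i₀ : ι) (a : k) : shiftEquiv i₀ a (X i₀) = X i₀ + C a :=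
  shift_X_self i₀ a

end Shift

variable {k K : Type*} [Field k] [Field K] [Algebra k K] [IsAlgClosed K]

/-- **A transcendental element of an algebraically closed field can be translated by any
constant by an automorphism.** -/
theorem exists_algEquiv_add (c : K) (hc : Transcendental k c) (a : k) :
    ∃ σ : K ≃ₐ[k] K, σ c = c + algebraMap k K a := by
  classical
  have hs : AlgebraicIndepOn k id ({c} : Set K) := by
    letI : Unique ({c} : Set K) := Set.uniqueSingleton c
    exact (algebraicIndependent_unique_type_iff (R := k)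
      (x := fun x : ({c} : Set K) => id (x : K))).mpr hc
  obtain ⟨t, hct, ht⟩ := exists_isTranscendenceBasis_superset hs
  let i₀ : t := ⟨c, hct rfl⟩
  haveI : IsAlgClosure (Algebra.adjoin k (Set.range ((↑) : t → K))) K :=
    IsAlgClosed.isAlgClosure_of_transcendence_basis _ ht
  let e : Algebra.adjoin k (Set.range ((↑) : t → K)) ≃ₐ[k]
      Algebra.adjoin k (Set.range ((↑) : t → K)) :=
    ht.1.aevalEquiv.symm.trans ((shiftEquiv i₀ a).trans ht.1.aevalEquiv)
  let σ₀ : K ≃+* K := IsAlgClosure.equivOfEquiv K K e.toRingEquiv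
  have hσ₀ : ∀ s : Algebra.adjoin k (Set.range ((↑) : t → K)),
      σ₀ (algebraMap _ K s) = algebraMap _ K (e s) := fun s =>
    IsAlgClosure.equivOfEquiv_algebraMap K K e.toRingEquiv s
  refine ⟨AlgEquiv.ofRingEquiv (f := σ₀) (fun x => ?_), ?_⟩
  · have h1 : algebraMap k K x
        = algebraMap (Algebra.adjoin k (Set.range ((↑) : t → K))) K (algebraMap k _ x) := rfl
    rw [h1, hσ₀, e.commutes]
  · show σ₀ c = c + algebraMap k K a
    have hc1 : c = algebraMap (Algebra.adjoin k (Set.range ((↑) : t → K))) K
        (ht.1.aevalEquiv (X i₀)) := by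
      rw [AlgebraicIndependent.algebraMap_aevalEquiv, aeval_X]
    have he : e (ht.1.aevalEquiv (X i₀)) = ht.1.aevalEquiv (X i₀ + C a) := by
      show ht.1.aevalEquiv (shiftEquiv i₀ a (ht.1.aevalEquiv.symm (ht.1.aevalEquiv (X i₀)))) = _
      rw [AlgEquiv.symm_apply_apply, shiftEquiv_X_self]
    conv_lhs => rw [hc1]
    rw [hσ₀, he, AlgebraicIndependent.algebraMap_aevalEquiv, map_add, aeval_X, aeval_C]

/-- **An element with finite orbit under the automorphism group is algebraic.** -/
theorem isAlgebraic_of_finite_orbit [CharZero K] (c : K)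
    (h : {x : K | ∃ σ : K ≃ₐ[k] K, σ c = x}.Finite) : IsAlgebraic k c := by
  by_contra hc
  have hc' : Transcendental k c := hc
  have hinj : Function.Injective (fun n : ℕ => c + (n : K)) := by
    intro m n hmn
    exact Nat.cast_injective (add_left_cancel hmn)
  have hsub : Set.range (fun n : ℕ => c + (n : K)) ⊆ {x : K | ∃ σ : K ≃ₐ[k] K, σ c = x} := by
    rintro _ ⟨n, rfl⟩
    obtain ⟨σ, hσ⟩ := exists_algEquiv_add c hc' (n : k)
    exact ⟨σ, by rw [hσ, map_natCast]⟩
  exact (Set.infinite_range_of_injective hinj) (h.subset hsub)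

/-- Over an algebraically closed base field, an element with finite orbit is a constant. -/
theorem mem_range_of_finite_orbit [CharZero K] [IsAlgClosed k] (c : K)
    (h : {x : K | ∃ σ : K ≃ₐ[k] K, σ c = x}.Finite) : c ∈ Set.range (algebraMap k K) := by
  have hint : IsIntegral k c := (isAlgebraic_of_finite_orbit c h).isIntegral
  have hdeg := IsAlgClosed.degree_eq_one_of_irreducible k (minpoly.irreducible hint)
  exact minpoly.mem_range_of_degree_eq_one k c hdeg

/-- Ring-automorphism form over the prime field `ℚ`. -/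
theorem isAlgebraic_of_finite_orbit_ringEquiv [CharZero K] [Algebra ℚ K] (c : K)
    (h : {x : K | ∃ σ : K ≃+* K, σ c = x}.Finite) : IsAlgebraic ℚ c := by
  apply isAlgebraic_of_finite_orbit (k := ℚ) c
  refine h.subset ?_
  rintro x ⟨σ, rfl⟩
  exact ⟨σ.toRingEquiv, rfl⟩

end Fermat.Agent.S29.AutC

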