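/-
S29 (wave 9), chain CHEB: the abstract induction over the subgroup lattice (helper3).

If, for every subgroup `D` of a finite group, `∑_{D' ≤ D} R_{D'}(s) = |D| · lg(s) + O(1)`, then
`R_D(s) = m(D) · lg(s) + O(1)` with `m(D) = #{z | ⟨z⟩ = D}` (the number of generators of `D`).
-/
import Mathlib

set_option autoImplicit false
set_option linter.style.haveILetI false

namespace Fermat.Agent.S29.CFInd

open Finset

variable {G : Type*} [Group G]

/-- the number of generators of a subgroup. -/
noncomputable def gens (D : Subgroup G) : ℕ := Nat.card {z : G // Subgroup.zpowers z = D}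

/-- every element of `D` generates exactly one subgroup of `D`. -/
theorem sum_gens [Finite G] [Fintype (Subgroup G)] [DecidableRel (α := Subgroup G) (· ≤ ·)]
    (D : Subgroup G) :
    ∑ D' ∈ univ.filter (fun D' : Subgroup G => D' ≤ D), gens D' = Nat.card D := by
  classical
  letI : Fintype G := Fintype.ofFinite G
  have h1 : Nat.card D = (univ.filter (fun z : G => z ∈ D)).card := by
    rw [Nat.card_eq_fintype_card, Fintype.card_subtype]
  rw [h1]
  rw [Finset.card_eq_sum_card_fiberwise (f := fun z : G => Subgroup.zpowers z)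
    (t := univ.filter (fun D' : Subgroup G => D' ≤ D))]
  · refine Finset.sum_congr rfl fun D' hD' => ?_
    rw [Finset.mem_filter] at hD'
    unfold gens
    rw [Nat.card_eq_fintype_card, Fintype.card_subtype]
    congr 1
    ext z
    simp only [Finset.mem_filter, Finset.mem_univ, true_and]
    constructor
    · intro hz
      refine ⟨?_, hz⟩
      exact hD'.2 (hz ▸ Subgroup.mem_zpowers z)
    · intro hz
      exact hz.2
  · intro z hz
    simp only [Finset.mem_coe, Finset.mem_filter, Finset.mem_univ, true_and] at hz ⊢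
    exact (Subgroup.zpowers_le).mpr hz

/-- **Induction over the subgroup lattice** (Finset form). -/
theorem subgroup_induction [Finite G] [Fintype (Subgroup G)]
    [DecidableRel (α := Subgroup G) (· ≤ ·)]
    (R : Subgroup G → ℝ → ℝ) (lg : ℝ → ℝ) (I : Set ℝ)
    (h : ∀ D : Subgroup G, ∃ C : ℝ, ∀ s ∈ I,
      |∑ D' ∈ univ.filter (fun D' : Subgroup G => D' ≤ D), R D' s - (Nat.card D : ℝ) * lg s| ≤ C) :
    ∀ D : Subgroup G, ∃ C : ℝ, ∀ s ∈ I, |R D s - (gens D : ℝ) * lg s| ≤ C := by
  classical
  intro D
  induction D using WellFoundedLT.induction with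
  | ind D ih =>
    obtain ⟨C, hC⟩ := h D
    choose C' hC' using ih
    -- the strict part
    let S : Finset (Subgroup G) := univ.filter (fun D' : Subgroup G => D' < D)
    have hsplit : univ.filter (fun D' : Subgroup G => D' ≤ D) = insert D S := by
      ext D'
      simp only [S, Finset.mem_filter, Finset.mem_univ, true_and, Finset.mem_insert]
      rw [le_iff_eq_or_lt]
    have hD : D ∉ S := by simp [S]
    refine ⟨C + ∑ D' ∈ S.attach, C' D'.1 ((Finset.mem_filter.mp D'.2).2), fun s hs => ?_⟩
    have h1 := hC s hs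
    have hcard : (Nat.card D : ℝ) = gens D + ∑ D' ∈ S, (gens D' : ℝ) := by
      have := sum_gens D
      rw [hsplit, Finset.sum_insert hD] at this
      rw [← this]; push_cast; ring
    rw [hsplit, Finset.sum_insert hD, hcard] at h1
    have h2 : ∀ D' : {x // x ∈ S}, |R D'.1 s - (gens D'.1 : ℝ) * lg s|
        ≤ C' D'.1 ((Finset.mem_filter.mp D'.2).2) := fun D' => hC' D'.1 _ s hs
    have h3 : |∑ D' ∈ S, (R D' s - (gens D' : ℝ) * lg s)|
        ≤ ∑ D' ∈ S.attach, C' D'.1 ((Finset.mem_filter.mp D'.2).2) := by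
      rw [← Finset.sum_attach S (fun D' => R D' s - (gens D' : ℝ) * lg s)]
      exact (Finset.abs_sum_le_sum_abs _ _).trans (Finset.sum_le_sum fun D' _ => h2 D')
    have e : R D s - (gens D : ℝ) * lg s
        = (R D s + ∑ D' ∈ S, R D' s - ((gens D : ℝ) + ∑ D' ∈ S, (gens D' : ℝ)) * lg s)
          - ∑ D' ∈ S, (R D' s - (gens D' : ℝ) * lg s) := by
      rw [Finset.sum_sub_distrib, ← Finset.sum_mul]; ring
    rw [e]
    calc |_ - _| ≤ |R D s + ∑ D' ∈ S, R D' s - ((gens D : ℝ) + ∑ D' ∈ S, (gens D' : ℝ)) * lg s|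
          + |∑ D' ∈ S, (R D' s - (gens D' : ℝ) * lg s)| := abs_sub _ _
      _ ≤ _ := add_le_add h1 h3

/-- the cyclic subgroup generated by `g` has at least one generator. -/
theorem gens_zpowers_pos [Finite G] (g : G) : 0 < gens (Subgroup.zpowers g) := by
  unfold gens
  have : Nonempty {z : G // Subgroup.zpowers z = Subgroup.zpowers g} := ⟨⟨g, rfl⟩⟩
  exact Nat.card_pos

end Fermat.Agent.S29.CFInd
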