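import Mathlib
import Fermat.Agent.S29.Iface
import Fermat.Agent.S54.Frobenius

/-!
# S29 (wave 9), row CHEB: the glue from prime ideals of number fields to Frobenius elements

`CycFrobStmt` is the arithmetic input: in a finite Galois extension `L / ℚ`, every `g ∈ Gal(L/ℚ)`
lies in the decomposition group of some prime `P` of `𝓞 L` over a rational prime `ℓ` outside a
given finite set, with trivial inertia group.  From it we derive the interface statement
`ChebStmt`: every `σ ∈ G_ℚ` agrees on a given number field with a power of a Frobenius element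
(in the sense of the frozen `ValuationSubring.IsFrobeniusAt`) at a prime outside a given finite
set.
-/

set_option autoImplicit false
set_option linter.unusedSectionVars false
set_option linter.style.haveILetI false

open scoped Pointwise NumberField

namespace Fermat.Agent.S29.ChebGlue

/-- **Arithmetic input of weak Chebotarev**: in a finite Galois extension `L / ℚ`, every
`g ∈ Gal(L/ℚ)` stabilises a prime `P` of `𝓞 L` over some rational prime `ℓ ∉ T` whose inertia
group is trivial. -/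
def CycFrobStmt : Prop :=
  ∀ (L : Type) [Field L] [NumberField L] [IsGalois ℚ L] (g : L ≃ₐ[ℚ] L) (T : Finset ℕ),
    ∃ (ℓ : ℕ) (P : Ideal (𝓞 L)), ℓ.Prime ∧ ℓ ∉ T ∧ P.IsPrime ∧ (ℓ : 𝓞 L) ∈ P ∧
      g ∈ MulAction.stabilizer (L ≃ₐ[ℚ] L) P ∧
      ∀ τ : L ≃ₐ[ℚ] L, (∀ x : 𝓞 L, τ • x - x ∈ P) → τ = 1

/-! ### Core: the decomposition group of an unramified prime is generated by a Frobenius -/

section Core

variable {B : Type*} [CommRing B] {G : Type*} [Group G] [MulSemiringAction G B]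

/-- An element of the decomposition group of `P` acts on the finite field `B ⧸ P` of
characteristic `ℓ` as a power of the Frobenius. -/
theorem exists_pow_frob (P : Ideal B) [P.IsMaximal] [Finite (B ⧸ P)] (ℓ : ℕ) [Fact ℓ.Prime]
    (hℓ : (ℓ : B) ∈ P) (g : G) (hg : g ∈ MulAction.stabilizer G P) :
    ∃ n : ℕ, ∀ x : B, g • x - x ^ (ℓ ^ n) ∈ P := by
  letI := Ideal.Quotient.field P
  haveI : CharP (B ⧸ P) ℓ := by
    rw [CharP.charP_iff_prime_eq_zero (Fact.out : ℓ.Prime)]
    have h : ((ℓ : B) : B ⧸ P) = 0 := Ideal.Quotient.eq_zero_iff_mem.mpr hℓ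
    exact_mod_cast h
  letI : Algebra (ZMod ℓ) (B ⧸ P) := ZMod.algebra _ ℓ
  have hle : P ≤ P.comap (MulSemiringAction.toRingHom G B g) := by
    intro y hy
    rw [Ideal.mem_comap]
    have h1 : g • y ∈ g • P := Ideal.smul_mem_pointwise_smul g y P hy
    rw [MulAction.mem_stabilizer_iff.mp hg] at h1
    exact h1
  let f : (B ⧸ P) →+* (B ⧸ P) := Ideal.quotientMap P (MulSemiringAction.toRingHom G B g) hle
  let fA : (B ⧸ P) →ₐ[ZMod ℓ] (B ⧸ P) :=
    { f with
      commutes' := fun c => RingHom.congr_fun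
        (Subsingleton.elim (f.comp (algebraMap (ZMod ℓ) (B ⧸ P))) (algebraMap (ZMod ℓ) (B ⧸ P))) c }
  obtain ⟨n, hn⟩ := (FiniteField.bijective_frobeniusAlgHom_pow (ZMod ℓ) (B ⧸ P)).2 fA
  refine ⟨n.1, fun x => ?_⟩
  have h2 := DFunLike.congr_fun hn (Ideal.Quotient.mk P x)
  simp only [AlgHom.coe_pow, FiniteField.coe_frobeniusAlgHom, pow_iterate, ZMod.card] at h2
  have h3 : fA (Ideal.Quotient.mk P x) = Ideal.Quotient.mk P (g • x) := rfl
  rw [h3, ← map_pow] at h2
  rw [← Ideal.Quotient.eq]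
  exact h2.symm

/-- If `s` acts as the Frobenius modulo `P` and the inertia group of `P` is trivial, then every
element of the decomposition group of `P` is a power of `s`. -/
theorem eq_pow_of_frob (P : Ideal B) [P.IsMaximal] [Finite (B ⧸ P)] (ℓ : ℕ) [Fact ℓ.Prime]
    (hℓ : (ℓ : B) ∈ P) (g s : G) (hg : g ∈ MulAction.stabilizer G P)
    (hs : ∀ x : B, s • x - x ^ ℓ ∈ P)
    (hI : ∀ τ : G, (∀ x : B, τ • x - x ∈ P) → τ = 1) : ∃ n : ℕ, g = s ^ n := by
  obtain ⟨n, hn⟩ := exists_pow_frob P ℓ hℓ g hg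
  refine ⟨n, ?_⟩
  have hsP : ∀ y ∈ P, s • y ∈ P := fun y hy => by
    have h1 := hs y
    have h2 : y ^ ℓ ∈ P := P.pow_mem_of_mem hy ℓ (Fact.out : ℓ.Prime).pos
    have h3 : s • y = (s • y - y ^ ℓ) + y ^ ℓ := by ring
    rw [h3]
    exact P.add_mem h1 h2
  have hspow : ∀ m : ℕ, ∀ x : B, s ^ m • x - x ^ (ℓ ^ m) ∈ P := by
    intro m
    induction m with
    | zero => intro x; simp
    | succ m ih =>
      intro x
      have h1 : s ^ (m + 1) • x - x ^ (ℓ ^ (m + 1))
          = s • (s ^ m • x - x ^ (ℓ ^ m)) + (s • (x ^ (ℓ ^ m)) - (x ^ (ℓ ^ m)) ^ ℓ) := by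
        rw [pow_succ', mul_smul, smul_sub, pow_succ, pow_mul]
        ring
      rw [h1]
      exact P.add_mem (hsP _ (ih x)) (hs _)
  have hginv : ∀ y ∈ P, g⁻¹ • y ∈ P := fun y hy => by
    have h1 : y ∈ g • P := by rw [MulAction.mem_stabilizer_iff.mp hg]; exact hy
    exact Ideal.mem_pointwise_smul_iff_inv_smul_mem.mp h1
  have hτ : g⁻¹ * s ^ n = 1 := hI _ (fun x => by
    have h1 : (g⁻¹ * s ^ n) • x - x
        = g⁻¹ • ((s ^ n • x - x ^ (ℓ ^ n)) - (g • x - x ^ (ℓ ^ n))) := by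
      rw [mul_smul, sub_sub_sub_cancel_right, smul_sub, inv_smul_smul]
    rw [h1]
    exact hginv _ (P.sub_mem (hspow n x) (hn x)))
  exact (inv_mul_eq_one.mp hτ)

end Core

/-! ### Valuation rings of a field over a maximal ideal of a subring -/

section Val

variable {K : Type*} [Field K] {B : Type*} [CommRing B]

/-- A valuation ring of `K` whose maximal ideal cuts out a given maximal ideal `P` of a subring
`B ↪ K`. -/
theorem exists_valuationSubring_over (ι : B →+* K) (hι : Function.Injective ι) (P : Ideal B)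
    [hP : P.IsMaximal] :
    ∃ A : ValuationSubring K, (∀ x : B, ι x ∈ A) ∧ ∀ x : B, ι x ∈ A.nonunits ↔ x ∈ P := by
  let R : Subring K := ι.range
  let I : Ideal R := P.map ι.rangeRestrict
  have hsurj : Function.Surjective ι.rangeRestrict := ι.rangeRestrict_surjective
  have hI : I ≠ ⊤ := by
    intro h
    have h1 : (1 : R) ∈ I := h ▸ Submodule.mem_top
    obtain ⟨y, hy, hy1⟩ := (Ideal.mem_map_iff_of_surjective _ hsurj).mp h1
    have h2 : ι y = 1 := congrArg Subtype.val hy1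
    have h3 : y = 1 := hι (h2.trans (map_one ι).symm)
    exact hP.ne_top ((Ideal.eq_top_iff_one P).mpr (h3 ▸ hy))
  obtain ⟨A, hRA, hIA⟩ := Ideal.image_subset_nonunits_valuationSubring I hI
  have hmem : ∀ x : B, ι x ∈ A := fun x => hRA ⟨x, rfl⟩
  have hP1 : ∀ x ∈ P, ι x ∈ A.nonunits := fun x hx =>
    hIA ⟨ι.rangeRestrict x, Ideal.mem_map_of_mem _ hx, rfl⟩
  refine ⟨A, hmem, fun x => ⟨fun hx => ?_, hP1 x⟩⟩
  by_contra hxP
  obtain ⟨y, i, hi, hyi⟩ := hP.exists_inv hxP
  have h1 : ι y * ι x + ι i = 1 := by rw [← map_mul, ← map_add, hyi, map_one]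
  have h2 : ι y * ι x ∈ A.nonunits := Fermat.Agent.S54.mul_mem_nonunits A (hmem y) hx
  have h3 : (1 : K) ∈ A.nonunits := by
    rw [← h1]
    exact A.nonunits.add_mem h2 (hP1 i hi)
  exact Fermat.Agent.S54.one_notMem_nonunits A h3

end Val

/-! ### Frobenius elements -/

section Frob

variable {K L : Type*} [Field K] [Field L] [Algebra K L]

/-- A Frobenius element satisfies the Frobenius congruence on the valuation ring. -/
theorem sub_pow_mem_nonunits {A : ValuationSubring L} {σ : L ≃ₐ[K] L} {q : ℕ}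
    (h : A.IsFrobeniusAt σ q) (a : A) : σ (a : L) - (a : L) ^ q ∈ A.nonunits := by
  obtain ⟨hσ, h⟩ := h
  have h1 := h (IsLocalRing.residue A a)
  rw [← IsLocalRing.ResidueField.residue_smul, ← map_pow, ← sub_eq_zero, ← map_sub,
    IsLocalRing.residue_eq_zero_iff, ← A.coe_mem_nonunits_iff] at h1
  exact h1

end Frob

/-! ### The glue -/

/-- **Weak Chebotarev in the interface form**, from its prime-ideal form. -/
theorem chebStmt_of (hb : CycFrobStmt) : ChebStmt := by
  intro L₀ hL₀ S σ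
  haveI := hL₀
  have hcl : IsAlgClosure ℚ (AlgebraicClosure ℚ) := AlgebraicClosure.instIsAlgClosure ℚ
  haveI : Normal ℚ (AlgebraicClosure ℚ) := IsAlgClosure.normal ℚ (AlgebraicClosure ℚ)
  let L' : IntermediateField ℚ (AlgebraicClosure ℚ) :=
    IntermediateField.normalClosure ℚ L₀ (AlgebraicClosure ℚ)
  haveI : FiniteDimensional ℚ L' := normalClosure.is_finiteDimensional ℚ L₀ (AlgebraicClosure ℚ)
  haveI : Normal ℚ L' := normalClosure.normal ℚ L₀ (AlgebraicClosure ℚ)
  haveI : IsGalois ℚ L' := ⟨⟩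
  haveI : NumberField L' := ⟨⟩
  let g : L' ≃ₐ[ℚ] L' := AlgEquiv.restrictNormalHom L' σ
  obtain ⟨ℓ, P, hℓ, hℓS, hPprime, hℓP, hgP, hI⟩ := hb L' g S
  haveI : Fact ℓ.Prime := ⟨hℓ⟩
  have hP0 : P ≠ ⊥ := by
    intro h
    rw [h, Ideal.mem_bot] at hℓP
    exact hℓ.ne_zero (by exact_mod_cast hℓP)
  haveI hPmax : P.IsMaximal := Ring.DimensionLEOne.maximalOfPrime hP0 hPprime
  let ι : 𝓞 L' →+* AlgebraicClosure ℚ :=
    (algebraMap L' (AlgebraicClosure ℚ)).comp (algebraMap (𝓞 L') L')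
  have hι : Function.Injective ι :=
    (algebraMap L' (AlgebraicClosure ℚ)).injective.comp NumberField.RingOfIntegers.coe_injective
  obtain ⟨A, hA1, hA2⟩ := exists_valuationSubring_over ι hι P
  have hA : A.LiesOverPrime ℓ := by
    have h1 := (hA2 (ℓ : 𝓞 L')).mpr hℓP
    have h2 : ι (ℓ : 𝓞 L') = (ℓ : AlgebraicClosure ℚ) := map_natCast ι ℓ
    rw [h2] at h1
    exact h1
  obtain ⟨τ, hτ⟩ := Fermat.Agent.S54.exists_isFrobeniusAt A hℓ hA
  let s : L' ≃ₐ[ℚ] L' := AlgEquiv.restrictNormalHom L' τ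
  have hs : ∀ x : 𝓞 L', s • x - x ^ ℓ ∈ P := by
    intro x
    rw [← hA2]
    have h0 : ι (s • x) = τ (ι x) := by
      show algebraMap L' (AlgebraicClosure ℚ) (algebraMap (𝓞 L') L' (s • x))
        = τ (algebraMap L' (AlgebraicClosure ℚ) (algebraMap (𝓞 L') L' x))
      have h00 : algebraMap (𝓞 L') L' (s • x) = s (algebraMap (𝓞 L') L' x) := rfl
      rw [h00]
      exact AlgEquiv.restrictNormal_commutes τ L' _
    have h1 : ι (s • x - x ^ ℓ) = τ (ι x) - (ι x) ^ ℓ := by
      rw [map_sub, map_pow, h0]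
    rw [h1]
    exact sub_pow_mem_nonunits hτ ⟨ι x, hA1 x⟩
  obtain ⟨n, hn⟩ := eq_pow_of_frob P ℓ hℓP g s hgP hs hI
  refine ⟨ℓ, A, τ, n, hℓ, hℓS, hA, hτ, fun x hx => ?_⟩
  have hxL' : x ∈ L' := IntermediateField.le_normalClosure L₀ hx
  have h1 : ((g ⟨x, hxL'⟩ : L') : AlgebraicClosure ℚ) = σ x :=
    AlgEquiv.restrictNormal_commutes σ L' ⟨x, hxL'⟩
  have h2 : (((s ^ n) ⟨x, hxL'⟩ : L') : AlgebraicClosure ℚ) = (τ ^ n) x := by
    have h3 : s ^ n = AlgEquiv.restrictNormalHom L' (τ ^ n) := (map_pow _ τ n).symm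
    rw [h3]
    exact AlgEquiv.restrictNormal_commutes (τ ^ n) L' ⟨x, hxL'⟩
  rw [← h1, hn, h2]

end Fermat.Agent.S29.ChebGlue
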