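import Mathlib
import Fermat.Prelude.Def_ModularCurve_LaurentCoeff
import Fermat.Agent.S29.AutC
import Fermat.Agent.S29.DescLin
import Fermat.Agent.S24.Mod.Defs

/-!
# `m`-th roots descend along an extension of algebraically closed constant fields

`K ⊆ L` algebraically closed of characteristic zero, `F₀ ⊆ ℚ((q))`.  If `y ∈ K(F₀)` becomes
`c · v ^ m` in `L(F₀)`, then already `y = c₀ · v₀ ^ m` in `K(F₀)`.

Route: normalise `v` to leading `q`-coefficient `1`; every `σ ∈ Aut(L/K)` acting
coefficientwise maps `v` to an `m`-th root of the same series with the same leading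
coefficient, hence fixes it; so the coefficients of `v` lie in `K` (`AutC`), and `v` comes
from `K(F₀)` (`DescLin`).

Main statements: `root_descent_generic`, `root_descent`.
-/

set_option autoImplicit false

noncomputable section

namespace Fermat.Agent.S29.DescRoot

open ModularCurve HahnSeries

local notation "Qb" => AlgebraicClosure ℚ

section Order

variable {R S : Type} [Field R] [Field S]

theorem coeffMap_C (f : R →+* S) (r : R) :
    coeffMap f (HahnSeries.C r : LaurentSeries R) = HahnSeries.C (f r) :=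
  coeffMap_single f 0 r

theorem leadingCoeff_C (r : R) : (HahnSeries.C r : LaurentSeries R).leadingCoeff = r :=
  HahnSeries.leadingCoeff_of_single

theorem order_coeffMap (f : R →+* S) (x : LaurentSeries R) :
    (coeffMap f x).order = x.order := by
  rcases eq_or_ne x 0 with rfl | hx
  · simp
  have hy : coeffMap f x ≠ 0 := (map_ne_zero_iff _ (coeffMap f).injective).mpr hx
  apply le_antisymm
  · apply HahnSeries.order_le_of_coeff_ne_zero
    rw [coeffMap_coeff]
    exact (map_ne_zero f).mpr (fun h0 => hx (HahnSeries.coeff_order_eq_zero.mp h0))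
  · apply HahnSeries.order_le_of_coeff_ne_zero
    have h : (coeffMap f x).coeff (coeffMap f x).order ≠ 0 :=
      fun h0 => hy (HahnSeries.coeff_order_eq_zero.mp h0)
    rw [coeffMap_coeff] at h
    exact fun h0 => h (by rw [h0, map_zero])

theorem leadingCoeff_coeffMap (f : R →+* S) (x : LaurentSeries R) :
    (coeffMap f x).leadingCoeff = f x.leadingCoeff := by
  rw [HahnSeries.leadingCoeff_eq, HahnSeries.leadingCoeff_eq, order_coeffMap, coeffMap_coeff]

theorem leadingCoeff_pow' (x : LaurentSeries R) (n : ℕ) :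
    (x ^ n).leadingCoeff = x.leadingCoeff ^ n := by
  induction n with
  | zero => rw [pow_zero, pow_zero, HahnSeries.leadingCoeff_one]
  | succ n ih => rw [pow_succ, HahnSeries.leadingCoeff_mul, ih, pow_succ]

theorem order_pow' (x : LaurentSeries R) (hx : x ≠ 0) (n : ℕ) :
    (x ^ n).order = n • x.order := by
  induction n with
  | zero => rw [pow_zero, zero_smul, HahnSeries.order_one]
  | succ n ih =>
      have hne : (x ^ n).leadingCoeff * x.leadingCoeff ≠ 0 := by
        rw [leadingCoeff_pow']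
        exact mul_ne_zero (pow_ne_zero _ (HahnSeries.leadingCoeff_ne_zero.mpr hx))
          (HahnSeries.leadingCoeff_ne_zero.mpr hx)
      rw [pow_succ, HahnSeries.order_mul_of_ne_zero hne, ih, succ_nsmul]

/-- An `m`-th root of unity in `R((q))` with leading coefficient `1` is `1`. -/
theorem eq_one_of_pow_eq_one [CharZero R] (ζ : LaurentSeries R) (m : ℕ) (hm : 0 < m)
    (h : ζ ^ m = 1) (hlc : ζ.leadingCoeff = 1) : ζ = 1 := by
  have hζ : ζ ≠ 0 := by
    rintro rfl
    rw [zero_pow hm.ne'] at h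
    exact zero_ne_one h
  have hord : ζ.order = 0 := by
    have h1 := order_pow' ζ hζ m
    rw [h, HahnSeries.order_one, nsmul_eq_mul] at h1
    rcases mul_eq_zero.mp h1.symm with h2 | h2
    · exact absurd (by exact_mod_cast h2) hm.ne'
    · exact h2
  have hc : ∀ i : ℕ, (ζ ^ i).coeff 0 = 1 := by
    intro i
    have h1 : (ζ ^ i).order = 0 := by rw [order_pow' ζ hζ i, hord, smul_zero]
    have h2 := leadingCoeff_pow' ζ i
    rw [HahnSeries.leadingCoeff_eq, h1, hlc, one_pow] at h2
    exact h2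
  have hgeom : (∑ i ∈ Finset.range m, ζ ^ i) * (ζ - 1) = 0 := by
    rw [geom_sum_mul, h, sub_self]
  rcases mul_eq_zero.mp hgeom with h0 | h0
  · exfalso
    have h1 := congrArg (fun z : LaurentSeries R => z.coeff 0) h0
    simp only [HahnSeries.coeff_sum, hc, Finset.sum_const, Finset.card_range, nsmul_eq_mul,
      mul_one, HahnSeries.coeff_zero] at h1
    exact hm.ne' (by exact_mod_cast h1)
  · exact sub_eq_zero.mp h0

end Order

/-- **Descent of `m`-th roots**, generic form. -/
theorem root_descent_generic {K L : Type} [Field K] [Field L] [Algebra ℚ K] [Algebra ℚ L]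
    [CharZero L] [IsAlgClosed K] [IsAlgClosed L] [Algebra K L]
    (F₀ : IntermediateField ℚ (LaurentSeries ℚ)) (m : ℕ) (hm : 0 < m)
    (y : LaurentSeries K) (hy : y ≠ 0)
    (v : LaurentSeries L) (hv : v ∈ laurentBaseChange L F₀) (c : L)
    (h : coeffMap (algebraMap K L) y = HahnSeries.C c * v ^ m) :
    ∃ v₀ ∈ laurentBaseChange K F₀, ∃ c₀ : K, c₀ ≠ 0 ∧ y = HahnSeries.C c₀ * v₀ ^ m := by
  have hιy : coeffMap (algebraMap K L) y ≠ 0 :=
    (map_ne_zero_iff _ (coeffMap (algebraMap K L)).injective).mpr hy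
  have hv0 : v ≠ 0 := by
    rintro rfl
    apply hιy
    rw [h, zero_pow hm.ne', mul_zero]
  have ha0 : v.leadingCoeff ≠ 0 := HahnSeries.leadingCoeff_ne_zero.mpr hv0
  obtain ⟨v₁, hv₁⟩ : ∃ v₁ : LaurentSeries L, v₁ = HahnSeries.C v.leadingCoeff⁻¹ * v := ⟨_, rfl⟩
  have hlc₁ : v₁.leadingCoeff = 1 := by
    rw [hv₁, HahnSeries.leadingCoeff_mul, leadingCoeff_C, inv_mul_cancel₀ ha0]
  have hv₁F : v₁ ∈ laurentBaseChange L F₀ := by
    rw [hv₁]
    refine mul_mem ?_ hv
    have := (laurentBaseChange L F₀).algebraMap_mem v.leadingCoeff⁻¹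
    rwa [algebraMap_laurentSeries_eq_single] at this
  have hc₀ : y.leadingCoeff ≠ 0 := HahnSeries.leadingCoeff_ne_zero.mpr hy
  have hvv : v = HahnSeries.C v.leadingCoeff * v₁ := by
    rw [hv₁, ← mul_assoc, ← map_mul, mul_inv_cancel₀ ha0, map_one, one_mul]
  have h2 : coeffMap (algebraMap K L) y = HahnSeries.C (c * v.leadingCoeff ^ m) * v₁ ^ m := by
    rw [h, map_mul, map_pow, mul_assoc, ← mul_pow, ← hvv]
  have h3 : algebraMap K L y.leadingCoeff = c * v.leadingCoeff ^ m := by
    have h' := congrArg HahnSeries.leadingCoeff h2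
    rw [leadingCoeff_coeffMap, HahnSeries.leadingCoeff_mul, leadingCoeff_pow', hlc₁, one_pow,
      mul_one, leadingCoeff_C] at h'
    exact h'
  have h4 : v₁ ^ m = coeffMap (algebraMap K L) (HahnSeries.C y.leadingCoeff⁻¹ * y) := by
    rw [map_mul, h2, ← h3, coeffMap_C, ← mul_assoc, ← map_mul, ← map_mul,
      inv_mul_cancel₀ hc₀, map_one, map_one, one_mul]
  have hv₁0 : v₁ ≠ 0 := HahnSeries.leadingCoeff_ne_zero.mp (by rw [hlc₁]; exact one_ne_zero)
  -- coefficientwise automorphisms over `K` fix `v₁`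
  have hfix : ∀ σ : L ≃ₐ[K] L, coeffMap (σ : L →+* L) v₁ = v₁ := by
    intro σ
    have hpow : (coeffMap (σ : L →+* L) v₁) ^ m = v₁ ^ m := by
      rw [← map_pow, h4, coeffMap_coeffMap]
      exact coeffMap_congr (RingHom.ext fun a => σ.commutes a) _
    have hlc₂ : (coeffMap (σ : L →+* L) v₁).leadingCoeff = 1 := by
      rw [leadingCoeff_coeffMap, hlc₁]
      exact map_one _
    have hζ : (coeffMap (σ : L →+* L) v₁ / v₁) ^ m = 1 := by
      rw [div_pow, hpow, div_self (pow_ne_zero m hv₁0)]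
    have hζlc : (coeffMap (σ : L →+* L) v₁ / v₁).leadingCoeff = 1 := by
      have h' : (coeffMap (σ : L →+* L) v₁ / v₁).leadingCoeff * v₁.leadingCoeff =
          (coeffMap (σ : L →+* L) v₁).leadingCoeff := by
        rw [← HahnSeries.leadingCoeff_mul, div_mul_cancel₀ _ hv₁0]
      rw [hlc₁, hlc₂, mul_one] at h'
      exact h'
    exact (div_eq_one_iff_eq hv₁0).mp (eq_one_of_pow_eq_one _ m hm hζ hζlc)
  have hcoef : ∀ n, v₁.coeff n ∈ (algebraMap K L).range := by
    intro n
    have hfin : {x : L | ∃ σ : L ≃ₐ[K] L, σ (v₁.coeff n) = x}.Finite := by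
      apply Set.Finite.subset (Set.finite_singleton (v₁.coeff n))
      rintro x ⟨σ, rfl⟩
      have h' := congrArg (fun z : LaurentSeries L => z.coeff n) (hfix σ)
      exact h'
    exact AutC.mem_range_of_finite_orbit (k := K) (v₁.coeff n) hfin
  obtain ⟨v₀, hv₀F, hv₀⟩ := DescLin.exists_of_coeff_mem_algebraMap F₀ v₁ hv₁F hcoef
  refine ⟨v₀, hv₀F, y.leadingCoeff, hc₀, ?_⟩
  apply (coeffMap (algebraMap K L)).injective
  rw [map_mul, map_pow, hv₀, coeffMap_C, h2, h3]

/-- **Descent of `m`-th roots for the function field of `X₀(N)`**: a function over `ℚ̄` that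
is a constant times an `m`-th power over `ℂ` is a constant times an `m`-th power over `ℚ̄`. -/
theorem root_descent (ι : Qb →+* ℂ) (N : ℕ) [NeZero N] (m : ℕ) (hm : 0 < m)
    (y : ↥(S24.FF Qb N)) (hy : y ≠ 0) (v : ↥(S24.FF ℂ N)) (c : ℂ)
    (h : coeffMap ι (y : LaurentSeries Qb) = HahnSeries.C c * (v : LaurentSeries ℂ) ^ m) :
    ∃ (v₀ : ↥(S24.FF Qb N)) (c₀ : Qb), c₀ ≠ 0 ∧ y = algebraMap Qb _ c₀ * v₀ ^ m := by
  let _ : Algebra Qb ℂ := ι.toAlgebra
  have hy' : (y : LaurentSeries Qb) ≠ 0 := fun h0 => hy (Subtype.ext h0)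
  obtain ⟨v₀, hv₀F, c₀, hc₀, hyv⟩ := root_descent_generic (K := Qb) (L := ℂ)
    (modularFunctionFieldFull N) m hm (y : LaurentSeries Qb) hy' (v : LaurentSeries ℂ) v.2 c h
  refine ⟨⟨v₀, hv₀F⟩, c₀, hc₀, Subtype.ext ?_⟩
  rw [hyv]
  show HahnSeries.C c₀ * v₀ ^ m = algebraMap Qb (LaurentSeries Qb) c₀ * v₀ ^ m
  rw [algebraMap_laurentSeries_eq_single]
  rfl

end Fermat.Agent.S29.DescRoot

end
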