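/-
S29, wave 9, [IV]: the ABSTRACT ASSEMBLY of the embedding `Φ : Λ/mΛ ↪ J₀(N)(ℚ̄)[m]`.

Let `R : Λ N → JZero N → Prop` be a relation ("`x` is the class attached to the character
`ζ_m ^ λ`") with

* (E) existence:  `∀ λ, ∃ x, R λ x`;
* (U) uniqueness: `R λ x → R λ x' → x = x'`;
* (A) additivity: `R λ x → R λ' x' → R (λ + λ') (x + x')`;
* (T) torsion:    `R λ x → m • x = 0`;
* (K) kernel:     `R λ 0 → λ ∈ m Λ`;
* (H) Hecke:      `R λ x → R (trΛ ℓ λ) (T_ℓ x)` for the primes `ℓ ∤ N m`.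

Then the function of `R` is a `ℤ`-linear map `Φ : Λ N → J₀(N)[m]` with kernel inside `m Λ`
which intertwines the transfer operators `trΛ` with the Hecke operators.
-/
import Fermat.Agent.S29.Iface
import Fermat.Agent.S29.Transfer

set_option autoImplicit false

noncomputable section

open ModularCurve AlgebraicCurve

namespace Fermat.Agent.S29.EmbAsm

open Fermat.Agent.S29.Transfer

/-- `ℓ ∤ N m ⇒ ℓ ∤ N` -/
theorem not_dvd_of_not_dvd_mul {ℓ N m : ℕ} (h : ¬ ℓ ∣ N * m) : ¬ ℓ ∣ N :=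
  fun h' => h (Dvd.dvd.mul_right h' m)

/-- **Abstract assembly of the embedding.** -/
theorem exists_emb (N : ℕ) [NeZero N] (m : ℕ) (R : Λ N → JZero N → Prop)
    (hE : ∀ lam, ∃ x, R lam x)
    (hU : ∀ lam x x', R lam x → R lam x' → x = x')
    (hA : ∀ lam lam' x x', R lam x → R lam' x' → R (lam + lam') (x + x'))
    (hT : ∀ lam x, R lam x → (m : ℤ) • x = 0)
    (hK : ∀ lam, R lam 0 → ∃ lam' : Λ N, lam = (m : ℤ) • lam')
    (hH : ∀ (ℓ : Nat.Primes) (hℓ : ¬ (ℓ : ℕ) ∣ N * m) (lam : Λ N) (x : JZero N), R lam x →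
      R (trΛ N ℓ (not_dvd_of_not_dvd_mul hℓ) lam) (heckeOperatorBar N ℓ x)) :
    ∃ Φ : Λ N →ₗ[ℤ] Jtor N m,
      (∀ lam, R lam (Φ lam : JZero N)) ∧
      (∀ lam, Φ lam = 0 → ∃ lam' : Λ N, lam = (m : ℤ) • lam') ∧
      ∀ (ℓ : Nat.Primes) (hℓ : ¬ (ℓ : ℕ) ∣ N * m) (lam : Λ N),
        heckeTor N m ℓ (Φ lam) = Φ (trΛ N ℓ (not_dvd_of_not_dvd_mul hℓ) lam) := by
  choose f hf using hE
  have hfT : ∀ lam, f lam ∈ Jtor N m := fun lam =>
    (Submodule.mem_torsionBy_iff _ _).mpr (hT lam (f lam) (hf lam))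
  let Φ₀ : Λ N →+ Jtor N m :=
    { toFun := fun lam => ⟨f lam, hfT lam⟩
      map_zero' := by
        apply Subtype.ext
        show f 0 = 0
        have h := hA 0 0 (f 0) (f 0) (hf 0) (hf 0)
        rw [add_zero] at h
        have h2 := hU 0 _ _ h (hf 0)
        exact add_left_cancel (a := f 0) (by rw [h2, add_zero])
      map_add' := fun lam lam' => by
        apply Subtype.ext
        show f (lam + lam') = f lam + f lam'
        exact hU _ _ _ (hf _) (hA _ _ _ _ (hf lam) (hf lam')) }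
  refine ⟨Φ₀.toIntLinearMap, fun lam => hf lam, ?_, ?_⟩
  · intro lam h
    apply hK
    have h1 : ((Φ₀ lam : Jtor N m) : JZero N) = 0 := by
      rw [show Φ₀ lam = 0 from h]; rfl
    have h2 := hf lam
    rwa [show f lam = 0 from h1] at h2
  · intro ℓ hℓ lam
    apply Subtype.ext
    show heckeOperatorBar N ℓ (f lam) = f (trΛ N ℓ (not_dvd_of_not_dvd_mul hℓ) lam)
    exact hU _ _ _ (hH ℓ hℓ lam (f lam) (hf lam)) (hf _)

end Fermat.Agent.S29.EmbAsm
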