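/-
S29, wave 9, [IV]: roots inside `S24.Mero.Fld N` (FLD-ROOT).

`Mero.Fld N` is the fraction field of `Mero.ring N`, the ring of holomorphic functions on the
upper half plane all of whose `SL(2, ℤ)`-translates are `N`-periodic and meromorphic at the cusp.

Main result (`exists_fld_root`): a meromorphic function `U / V` on `ℍ` (`U`, `V` holomorphic,
`V ≢ 0`) whose `m`-th power is an element `a / b` of `Fld N` and all of whose
`SL(2, ℤ)`-translates are `N`-periodic IS an element of `Fld N`.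

Also: the multiplier of such an element under `γ ∈ SL(2, ℤ)` can be read off pointwise
(`actF_eq_of_pointwise`).
-/
import Fermat.Agent.S24.MeroOrd
import Fermat.Agent.S23.Division
import Fermat.Agent.S29.HoloRoot

set_option autoImplicit false

noncomputable section

open UpperHalfPlane Filter Topology Function
open scoped MatrixGroups ModularForm Manifold Real

namespace Fermat.Agent.S29.FldRoot

open Fermat.Agent.S23 Fermat.Agent.S24 Fermat.Agent.S24.Mero

/-! ### Holomorphic functions on the upper half plane -/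

/-- cancellation of a nonzero holomorphic factor -/
theorem eq_of_mul_eq_mul {P Q W : ℍ → ℂ} (hP : JN.Holo P) (hQ : JN.Holo Q) (hW : JN.Holo W)
    (hW0 : ∃ z, W z ≠ 0) (h : ∀ z, P z * W z = Q z * W z) : P = Q := by
  by_contra hne
  have hPQ : ∃ z, (P - Q) z ≠ 0 := by
    by_contra h0
    push Not at h0
    exact hne (funext fun z => sub_eq_zero.mp (h0 z))
  have hPQh : JN.Holo (P - Q) := hP.sub hQ
  obtain ⟨z, hz⟩ := JN.exists_common_ne_zero (ι := Bool)
    (fun b => if b then (P - Q) else W)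
    (fun b => by cases b <;> simp [hPQh, hW])
    (fun b => by cases b <;> simpa using ‹_›)
  have h1 := hz true
  have h2 := hz false
  simp only [if_true, Bool.false_eq_true, if_false] at h1 h2
  apply mul_ne_zero h1 h2
  rw [Pi.sub_apply, sub_mul, h z, sub_self]

/-- the translation by `N` is the action of `T ^ N` -/
theorem vadd_eq_T_zpow_smul (N : ℕ) (z : ℍ) :
    (N : ℝ) +ᵥ z = (ModularGroup.T ^ (N : ℤ)) • z := by
  rw [UpperHalfPlane.modular_T_zpow_smul]
  simp

theorem holo_comp_vadd {f : ℍ → ℂ} (hf : JN.Holo f) (N : ℕ) (γ : SL(2, ℤ)) :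
    JN.Holo (fun z => f (γ • ((N : ℝ) +ᵥ z))) := by
  have h := Mero.holo_comp_smul hf (γ * ModularGroup.T ^ (N : ℤ))
  have h2 : (fun z => f ((γ * ModularGroup.T ^ (N : ℤ)) • z))
      = fun z => f (γ • ((N : ℝ) +ᵥ z)) := by
    funext z
    rw [mul_smul, vadd_eq_T_zpow_smul]
  rwa [h2] at h

/-! ### The cusp function of a periodic holomorphic function -/

/-- The cusp function of an `N`-periodic holomorphic function on `ℍ` is differentiable on the
punctured unit disc. -/
theorem differentiableAt_cuspFn {N : ℕ} [NeZero N] {F : ℍ → ℂ} (hF : JN.Holo F)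
    (hper : ∀ z : ℍ, F ((N : ℝ) +ᵥ z) = F z) {q : ℂ} (hq : ‖q‖ < 1) (hq0 : q ≠ 0) :
    DifferentiableAt ℂ (cuspFn N F) q := by
  have hN : (0 : ℝ) < (N : ℝ) := natCast_pos_real N
  have hFper : Function.Periodic (F ∘ ofComplex) ((N : ℝ) : ℂ) := by
    intro z
    simp only [Function.comp_apply]
    by_cases hz : 0 < z.im
    · have hz' : 0 < (z + ((N : ℝ) : ℂ)).im := by simpa using hz
      have h1 : ofComplex (z + ((N : ℝ) : ℂ)) = (N : ℝ) +ᵥ ofComplex z := by
        apply UpperHalfPlane.ext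
        rw [ofComplex_apply_of_im_pos hz', coe_vadd, ofComplex_apply_of_im_pos hz]
        ring
      rw [h1, hper]
    · have hz1 : z.im ≤ 0 := not_lt.mp hz
      have hz' : (z + ((N : ℝ) : ℂ)).im ≤ 0 := by simpa using hz1
      rw [ofComplex_apply_eq_of_im_nonpos hz' hz1]
  set z₀ : ℂ := Function.Periodic.invQParam N q with hz₀
  have hz₀pos : 0 < z₀.im := Function.Periodic.im_invQParam_pos_of_norm_lt_one hN hq hq0
  have hqz : Function.Periodic.qParam N z₀ = q := Function.Periodic.qParam_right_inv hN.ne' hq0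
  have hdiff : DifferentiableAt ℂ (F ∘ ofComplex) z₀ :=
    (hF z₀ hz₀pos).differentiableAt
      ((isOpen_lt continuous_const Complex.continuous_im).mem_nhds hz₀pos)
  have h1 : DifferentiableAt ℂ (Function.Periodic.cuspFunction N (F ∘ ofComplex)) q := by
    rw [← hqz]
    exact Function.Periodic.differentiableAt_cuspFunction hN.ne' hFper hdiff
  refine h1.congr_of_eventuallyEq ?_
  filter_upwards [isOpen_ne.mem_nhds hq0] with q' hq'
  rw [Function.Periodic.cuspFunction_eq_of_nonzero _ _ hq']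
  rfl

/-! ### Roots in the fraction field -/

/-- **FLD-ROOT.**  Let `a / b ∈ Fld N` and let `U`, `V` be holomorphic on the upper half plane,
`V ≢ 0`, with `(U / V) ^ m = a / b` (i.e. `U ^ m * b = V ^ m * a`), such that all
`SL(2, ℤ)`-translates of `U / V` are `N`-periodic (in fraction-free form).  Then `U / V` is an
element `f = c / d` of `Fld N`, and `f ^ m = a / b`. -/
theorem exists_fld_root (N m : ℕ) [NeZero N] (hm : 0 < m) (a b : Mero.ring N) (hb : b ≠ 0)
    (U V : ℍ → ℂ) (hU : JN.Holo U) (hV : JN.Holo V) (hV0 : ∃ z, V z ≠ 0)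
    (hpow : ∀ z, U z ^ m * (b : ℍ → ℂ) z = V z ^ m * (a : ℍ → ℂ) z)
    (hper : ∀ (γ : SL(2, ℤ)) (z : ℍ),
      U (γ • ((N : ℝ) +ᵥ z)) * V (γ • z) = U (γ • z) * V (γ • ((N : ℝ) +ᵥ z))) :
    ∃ (f : Mero.Fld N) (c d : Mero.ring N), d ≠ 0 ∧
      f * algebraMap (Mero.ring N) (Mero.Fld N) d = algebraMap (Mero.ring N) (Mero.Fld N) c ∧
      (∀ z, (c : ℍ → ℂ) z * V z = (d : ℍ → ℂ) z * U z) ∧
      f ^ m * algebraMap (Mero.ring N) (Mero.Fld N) b
        = algebraMap (Mero.ring N) (Mero.Fld N) a := by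
  classical
  have hbH : JN.Holo (b : ℍ → ℂ) := holo_of_mem b
  have haH : JN.Holo (a : ℍ → ℂ) := holo_of_mem a
  -- Step 1: the holomorphic quotient `G = U * b / V`
  obtain ⟨G, hGd, hGuv, hGeq⟩ := Division.exists_holo_quotient_upperHalfPlane (μ := m)
    (fun z => U z * (b : ℍ → ℂ) z) V
    (fun i z => if (i : ℕ) = m - 1 then -((a : ℍ → ℂ) z * (b : ℍ → ℂ) z ^ (m - 1)) else 0)
    (JN.holo_iff_mdiff.mp (hU.mul hbH)) (JN.holo_iff_mdiff.mp hV)
    (fun i => by
      by_cases hi : (i : ℕ) = m - 1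
      · simp only [hi, if_true]
        exact ((JN.holo_iff_mdiff.mp haH).continuous.mul
          ((JN.holo_iff_mdiff.mp hbH).continuous.pow _)).neg
      · simp only [hi, if_false]
        exact continuous_const) hV0
    (fun z => by
      rw [Finset.sum_eq_single (⟨m - 1, Nat.sub_lt hm one_pos⟩ : Fin m)]
      · show (U z * (b : ℍ → ℂ) z) ^ m
            + (if m - 1 = m - 1 then -((a : ℍ → ℂ) z * (b : ℍ → ℂ) z ^ (m - 1)) else 0)
              * (U z * (b : ℍ → ℂ) z) ^ (m - 1 - (m - 1)) * V z ^ (m - 1 + 1) = 0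
        rw [if_pos rfl, Nat.sub_self, pow_zero, mul_one, Nat.sub_add_cancel hm]
        have h1 := hpow z
        have h2 : (b : ℍ → ℂ) z ^ m = (b : ℍ → ℂ) z ^ (m - 1) * (b : ℍ → ℂ) z := by
          rw [← pow_succ, Nat.sub_add_cancel hm]
        rw [mul_pow, h2]
        linear_combination (b : ℍ → ℂ) z ^ (m - 1) * h1
      · intro i _ hi
        have hi' : (i : ℕ) ≠ m - 1 := fun h => hi (Fin.ext h)
        simp [hi']
      · intro h
        exact absurd (Finset.mem_univ _) h)
  have hGH : JN.Holo G := JN.holo_iff_mdiff.mpr hGd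
  have hGpow : ∀ z, G z ^ m = (a : ℍ → ℂ) z * (b : ℍ → ℂ) z ^ (m - 1) := by
    intro z
    have h := hGeq z
    rw [Finset.sum_eq_single (⟨m - 1, Nat.sub_lt hm one_pos⟩ : Fin m)] at h
    · have h' : G z ^ m
          + (if m - 1 = m - 1 then -((a : ℍ → ℂ) z * (b : ℍ → ℂ) z ^ (m - 1)) else 0)
            * G z ^ (m - 1 - (m - 1)) = 0 := h
      rw [if_pos rfl, Nat.sub_self, pow_zero, mul_one] at h'
      linear_combination h'
    · intro i _ hi
      have hi' : (i : ℕ) ≠ m - 1 := fun h => hi (Fin.ext h)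
      simp [hi']
    · intro h
      exact absurd (Finset.mem_univ _) h
  -- Step 2: `G` lies in the ring
  have hH : IsMod N (fun z => (a : ℍ → ℂ) z * (b : ℍ → ℂ) z ^ (m - 1)) :=
    (a * b ^ (m - 1) : Mero.ring N).2
  have hGper : ∀ (γ : SL(2, ℤ)) (z : ℍ), G (γ • ((N : ℝ) +ᵥ z)) = G (γ • z) := by
    intro γ
    have hVγ : JN.Holo (fun z => V (γ • z)) := Mero.holo_comp_smul hV γ
    have hVγN : JN.Holo (fun z => V (γ • ((N : ℝ) +ᵥ z))) := holo_comp_vadd hV N γ
    have hW0 : ∃ z, V (γ • ((N : ℝ) +ᵥ z)) * V (γ • z) ≠ 0 := by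
      obtain ⟨z, hz⟩ := JN.exists_common_ne_zero (ι := Bool)
        (fun b => if b then (fun z => V (γ • ((N : ℝ) +ᵥ z))) else (fun z => V (γ • z)))
        (fun b => by
          cases b
          · exact hVγ
          · exact hVγN)
        (fun b => by
          obtain ⟨z₁, hz₁⟩ := hV0
          cases b
          · refine ⟨γ⁻¹ • z₁, ?_⟩
            show V (γ • γ⁻¹ • z₁) ≠ 0
            rw [smul_inv_smul]; exact hz₁
          · refine ⟨(-(N : ℝ)) +ᵥ (γ⁻¹ • z₁), ?_⟩
            show V (γ • ((N : ℝ) +ᵥ ((-(N : ℝ)) +ᵥ (γ⁻¹ • z₁)))) ≠ 0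
            rw [vadd_vadd, add_neg_cancel, zero_vadd, smul_inv_smul]; exact hz₁)
      have h1 := hz true
      have h2 := hz false
      simp only [if_true, Bool.false_eq_true, if_false] at h1 h2
      exact ⟨z, mul_ne_zero h1 h2⟩
    have key := eq_of_mul_eq_mul (P := fun z => G (γ • ((N : ℝ) +ᵥ z)))
      (Q := fun z => G (γ • z))
      (W := fun z => V (γ • ((N : ℝ) +ᵥ z)) * V (γ • z))
      (holo_comp_vadd hGH N γ) (Mero.holo_comp_smul hGH γ) (hVγN.mul hVγ) hW0
      (fun z => by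
        have e1 := hGuv (γ • ((N : ℝ) +ᵥ z))
        have e2 := hGuv (γ • z)
        have e3 := hper γ z
        have e4 : (b : ℍ → ℂ) (γ • ((N : ℝ) +ᵥ z)) = (b : ℍ → ℂ) (γ • z) := (b.2.2 γ).1 z
        rw [e4] at e1
        show G (γ • ((N : ℝ) +ᵥ z)) * (V (γ • ((N : ℝ) +ᵥ z)) * V (γ • z))
          = G (γ • z) * (V (γ • ((N : ℝ) +ᵥ z)) * V (γ • z))
        linear_combination (-V (γ • z)) * e1 + V (γ • ((N : ℝ) +ᵥ z)) * e2
          + (b : ℍ → ℂ) (γ • z) * e3)
    intro z
    exact congrFun key z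
  have hGmod : IsMod N G := by
    refine ⟨hGH, fun γ => ⟨hGper γ, ?_⟩⟩
    refine HoloRoot.meromorphicAt_of_pow (m := m) hm.ne' ?_ (hH.2 γ).2 ?_
    · filter_upwards [eventually_punctured_norm_lt_one] with q hq
      exact differentiableAt_cuspFn (Mero.holo_comp_smul hGH γ)
        (fun z => by simpa using hGper γ z) hq.1 hq.2
    · exact Filter.Eventually.of_forall fun q => hGpow _
  -- Step 3: the element of the fraction field
  set G' : Mero.ring N := ⟨G, hGmod⟩ with hG'
  have hb' : algebraMap (Mero.ring N) (Mero.Fld N) b ≠ 0 := algebraMap_ne_zero hb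
  refine ⟨algebraMap (Mero.ring N) (Mero.Fld N) G' / algebraMap (Mero.ring N) (Mero.Fld N) b,
    G', b, hb, div_mul_cancel₀ _ hb', fun z => ?_, ?_⟩
  · have h3 : U z * (b : ℍ → ℂ) z = G z * V z := hGuv z
    show G z * V z = (b : ℍ → ℂ) z * U z
    rw [← h3]; ring
  · have hG'pow : G' ^ m = a * b ^ (m - 1) := by
      apply Subtype.ext
      funext z
      exact hGpow z
    rw [div_pow, ← map_pow, hG'pow, map_mul, map_pow]
    have h2 : algebraMap (Mero.ring N) (Mero.Fld N) b ^ m
        = algebraMap (Mero.ring N) (Mero.Fld N) b ^ (m - 1)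
          * algebraMap (Mero.ring N) (Mero.Fld N) b := by
      rw [← pow_succ, Nat.sub_add_cancel hm]
    rw [h2]
    field_simp

/-- **Pointwise multiplier.**  If `f = c / d ∈ Fld N` is the function `U / V` (`c V = d U`) and
`U / V` has multiplier `ψ` under `γ` in the fraction-free sense, then `actF N γ f = ψ • f`. -/
theorem actF_eq_of_pointwise (N : ℕ) (f : Mero.Fld N) (c d : Mero.ring N) (hd : d ≠ 0)
    (hf : f * algebraMap (Mero.ring N) (Mero.Fld N) d = algebraMap (Mero.ring N) (Mero.Fld N) c)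
    (U V : ℍ → ℂ) (hV : JN.Holo V) (hV0 : ∃ z, V z ≠ 0)
    (hcd : ∀ z, (c : ℍ → ℂ) z * V z = (d : ℍ → ℂ) z * U z)
    (γ : SL(2, ℤ)) (ψ : ℂ) (hmul : ∀ z, U (γ • z) * V z = ψ * U z * V (γ • z)) :
    Mero.actF N γ f
      = algebraMap (Mero.ring N) (Mero.Fld N) (Mero.const N ψ) * f := by
  have hd' : algebraMap (Mero.ring N) (Mero.Fld N) d ≠ 0 := algebraMap_ne_zero hd
  have hγd : Mero.act N γ d ≠ 0 := by
    intro h0
    apply hd
    have := congrArg (Mero.act N γ).symm h0
    simpa using this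
  have hγd' : algebraMap (Mero.ring N) (Mero.Fld N) (Mero.act N γ d) ≠ 0 := algebraMap_ne_zero hγd
  -- the identity in the ring
  have hring : Mero.act N γ c * d = Mero.const N ψ * c * Mero.act N γ d := by
    apply Subtype.ext
    have hVγ : JN.Holo (fun z => V (γ • z)) := Mero.holo_comp_smul hV γ
    have hW0 : ∃ z, V (γ • z) * V z ≠ 0 := by
      obtain ⟨z, hz⟩ := JN.exists_common_ne_zero (ι := Bool)
        (fun b => if b then (fun z => V (γ • z)) else V)
        (fun b => by
          cases b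
          · exact hV
          · exact hVγ)
        (fun b => by
          obtain ⟨z₁, hz₁⟩ := hV0
          cases b
          · exact ⟨z₁, hz₁⟩
          · refine ⟨γ⁻¹ • z₁, ?_⟩
            show V (γ • γ⁻¹ • z₁) ≠ 0
            rw [smul_inv_smul]; exact hz₁)
      have h1 := hz true
      have h2 := hz false
      simp only [if_true, Bool.false_eq_true, if_false] at h1 h2
      exact ⟨z, mul_ne_zero h1 h2⟩
    refine eq_of_mul_eq_mul (W := fun z => V (γ • z) * V z)
      (holo_of_mem (Mero.act N γ c * d)) (holo_of_mem (Mero.const N ψ * c * Mero.act N γ d))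
      (hVγ.mul hV) hW0 (fun z => ?_)
    have e1 := hcd (γ • z)
    have e2 := hcd z
    have e3 := hmul z
    show (c : ℍ → ℂ) (γ • z) * (d : ℍ → ℂ) z * (V (γ • z) * V z)
      = ψ * (c : ℍ → ℂ) z * (d : ℍ → ℂ) (γ • z) * (V (γ • z) * V z)
    linear_combination (d : ℍ → ℂ) z * V z * e1 - ψ * (d : ℍ → ℂ) (γ • z) * V (γ • z) * e2
      + (d : ℍ → ℂ) (γ • z) * (d : ℍ → ℂ) z * e3
  have h1 : Mero.actF N γ f * algebraMap (Mero.ring N) (Mero.Fld N) (Mero.act N γ d)
      = algebraMap (Mero.ring N) (Mero.Fld N) (Mero.act N γ c) := by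
    rw [← actF_algebraMap, ← actF_algebraMap, ← map_mul, hf]
  have h2 := congrArg (algebraMap (Mero.ring N) (Mero.Fld N)) hring
  simp only [map_mul] at h2
  have hfd : f = algebraMap (Mero.ring N) (Mero.Fld N) c
      / algebraMap (Mero.ring N) (Mero.Fld N) d := by
    rw [eq_div_iff hd']; exact hf
  have hγf : Mero.actF N γ f = algebraMap (Mero.ring N) (Mero.Fld N) (Mero.act N γ c)
      / algebraMap (Mero.ring N) (Mero.Fld N) (Mero.act N γ d) := by
    rw [eq_div_iff hγd']; exact h1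
  rw [hγf, hfd, div_eq_iff hγd']
  field_simp
  linear_combination h2

end Fermat.Agent.S29.FldRoot
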