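/-
S29 (wave 9), analytic core of the Hecke compatibility of the torsion Abel–Jacobi map.

For a prime `ℓ ∤ N` and `y` in the function field `F_N` of `X₀(N)` over `ℚ̄`, the analytic
function of the norm `Nm_α (β y)` along `α : F_N → F_{Nℓ}` is the product of the translates of the
analytic function of `y` under the `ℓ + 1` Hecke representatives
`z ↦ ℓ z`, `z ↦ (z + b) / ℓ` (`b < ℓ`):

  `an (Nm_α (β y)) (z) = ∏ x, an (y) (heckeRep ℓ x • z)`.

Language: `Mero.ring M` is the ring of holomorphic functions on the upper half plane all of whose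
`SL(2, ℤ)`-translates are `M`-periodic and meromorphic at the cusp; `Mero.Fld M` is its fraction
field; `Phi.PhiMero ι N : F_N → Mero.Fld N` is the analytic realisation.  The proof uses no
`q`-expansions: the norm is the product over the `ℓ + 1` distinct embeddings
`actF γ_x ∘ PhiMero` of `F_{Nℓ}` over `F_N`.
-/
import Fermat.Agent.S24.Mod.Phi
import Fermat.Agent.S24.MeroOrd
import Fermat.Agent.S37.KNormB
import Fermat.Agent.S29.Transfer

set_option autoImplicit false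
set_option synthInstance.maxHeartbeats 400000
set_option linter.style.haveILetI false

noncomputable section

open UpperHalfPlane Filter Topology Function
open scoped MatrixGroups ModularForm Manifold Real
open ModularCurve AlgebraicCurve
open P2MW.S_ModularForm_heckeT_slash_eq_self_of_mem_Gamma0.ModularForm.HeckeSlashInvariance

namespace Fermat.Agent.S29.HeckeAn

open Fermat.Agent.S23 Fermat.Agent.S24

/-! ### Composition with maps compatible with the cusp charts -/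

theorem meromorphicAt_comp_mul_pow {F : ℂ → ℂ} (hF : MeromorphicAt F 0) (c : ℂ) {k : ℕ}
    (hk : 0 < k) : MeromorphicAt (fun q => F (c * q ^ k)) 0 := by
  have hg : AnalyticAt ℂ (fun q : ℂ => c * q ^ k) 0 := by fun_prop
  have h0 : c * (0 : ℂ) ^ k = 0 := by simp [hk.ne']
  exact MeromorphicAt.comp_analyticAt (f := F) (g := fun q : ℂ => c * q ^ k) (x := 0)
    (by show MeromorphicAt F (c * (0 : ℂ) ^ k); rw [h0]; exact hF) hg

/-- the cusp function of `F ∘ ψ` when `ψ` is compatible with the cusp charts -/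
theorem cuspFn_comp {N M : ℕ} [NeZero N] [NeZero M] {F : ℍ → ℂ}
    (hF : ∀ z : ℍ, F ((N : ℝ) +ᵥ z) = F z) (ψ : ℍ → ℍ) (c : ℂ) (k : ℕ)
    (hψ : ∀ z : ℍ, Periodic.qParam N (ψ z : ℂ) = c * Periodic.qParam M (z : ℂ) ^ k) :
    Mero.cuspFn M (fun z => F (ψ z)) =ᶠ[𝓝[≠] 0] fun q => Mero.cuspFn N F (c * q ^ k) := by
  filter_upwards [Mero.eventually_punctured_norm_lt_one] with q hq
  show F (ψ (Mero.chartInf M q)) = _
  rw [← Mero.cuspFn_qParam hF (ψ (Mero.chartInf M q)), hψ, Mero.qParam_chartInf hq.1 hq.2]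

/-- A criterion for `f ∘ φ` to be of level `M` when `f` is of level `N`. -/
theorem isMod_comp {N M : ℕ} [NeZero N] [NeZero M] {f : ℍ → ℂ} (hf : Mero.IsMod N f)
    (φ : ℍ → ℍ) (hholo : JN.Holo (fun z => f (φ z)))
    (hφ : ∀ γ : SL(2, ℤ), ∃ (g' : SL(2, ℤ)) (ψ : ℍ → ℍ) (c : ℂ) (k : ℕ) (m : ℤ), 0 < k ∧
      (∀ z : ℍ, φ (γ • z) = g' • ψ z) ∧
      (∀ z : ℍ, ψ ((M : ℝ) +ᵥ z) = ((m : ℝ) * (N : ℝ)) +ᵥ ψ z) ∧
      (∀ z : ℍ, Periodic.qParam N (ψ z : ℂ) = c * Periodic.qParam M (z : ℂ) ^ k)) :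
    Mero.IsMod M (fun z => f (φ z)) := by
  refine ⟨hholo, fun γ => ?_⟩
  obtain ⟨g', ψ, c, k, m, hk, h1, h2, h3⟩ := hφ γ
  have hper : ∀ z : ℍ, f (g' • ((N : ℝ) +ᵥ z)) = f (g' • z) := (hf.2 g').1
  have hmer : MeromorphicAt (Mero.cuspFn N (fun z => f (g' • z))) 0 := (hf.2 g').2
  constructor
  · intro z
    show f (φ (γ • ((M : ℝ) +ᵥ z))) = f (φ (γ • z))
    rw [h1, h1, h2]
    exact Mero.vadd_int_mul (f := fun w => f (g' • w)) hper m (ψ z)
  · have hfun : (fun z => f (φ (γ • z))) = fun z => (fun w => f (g' • w)) (ψ z) := by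
      funext z
      rw [h1]
    rw [hfun]
    exact (meromorphicAt_comp_mul_pow hmer c hk).congr (cuspFn_comp hper ψ c k h3).symm

/-! ### The Hecke representatives -/

open scoped OnePoint

section Reps

variable {ℓ : ℕ} [Fact ℓ.Prime]

theorem prime_ne_zero : ℓ ≠ 0 := (Fact.out : ℓ.Prime).ne_zero

omit [Fact ℓ.Prime] in
theorem det_heckeRep_pos (x : OnePoint (ZMod ℓ)) : 0 < ((heckeRep ℓ x).det : ℝ) := by
  induction x using OnePoint.rec with
  | infty => exact ModularForm.det_heckeDiagMatrix_pos ℓ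
  | coe y => exact ModularForm.det_heckeMatrix_pos ℓ y.val

theorem coe_heckeRep_infty_smul (z : ℍ) :
    ((heckeRep ℓ (∞ : OnePoint (ZMod ℓ)) • z : ℍ) : ℂ) = (ℓ : ℂ) * z :=
  ModularForm.coe_heckeDiagMatrix_smul prime_ne_zero z

theorem coe_heckeRep_coe_smul (b : ZMod ℓ) (z : ℍ) :
    ((heckeRep ℓ (b : OnePoint (ZMod ℓ)) • z : ℍ) : ℂ) = ((z : ℂ) + (b.val : ℕ)) / ℓ :=
  ModularForm.coe_heckeMatrix_smul prime_ne_zero b.val z

theorem sl_smul_eq (γ : SL(2, ℤ)) (z : ℍ) :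
    γ • z = Matrix.SpecialLinearGroup.mapGL ℝ γ • z := rfl

theorem heckeRep_smul_smul (γ : SL(2, ℤ)) (x : OnePoint (ZMod ℓ)) :
    ∃ g' : SL(2, ℤ), ∀ z : ℍ,
      heckeRep ℓ x • (γ • z) = g' • (heckeRep ℓ (redMatrix ℓ γ • x) • z) := by
  have h1 : ¬ ℓ ∣ 1 := fun h => (Fact.out : ℓ.Prime).one_lt.ne' (Nat.dvd_one.mp h)
  obtain ⟨g', -, hmul⟩ := heckeRep_mul (N := 1) h1 γ (by simp) x
  refine ⟨g', fun z => ?_⟩
  rw [sl_smul_eq, sl_smul_eq, ← mul_smul, ← mul_smul, hmul]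

/-- chart compatibility of the Hecke representatives, from level `N` to level `N * ℓ` -/
theorem heckeRep_chart (N : ℕ) [NeZero N] (x : OnePoint (ZMod ℓ)) :
    ∃ (c : ℂ) (k : ℕ) (m : ℤ), 0 < k ∧
      (∀ z : ℍ, heckeRep ℓ x • (((N * ℓ : ℕ) : ℝ) +ᵥ z) =
        ((m : ℝ) * (N : ℝ)) +ᵥ (heckeRep ℓ x • z)) ∧
      (∀ z : ℍ, Periodic.qParam N ((heckeRep ℓ x • z : ℍ) : ℂ) =
        c * Periodic.qParam (N * ℓ : ℕ) (z : ℂ) ^ k) := by
  have hℓ0 : (ℓ : ℂ) ≠ 0 := by exact_mod_cast (prime_ne_zero (ℓ := ℓ))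
  have hN0 : (N : ℂ) ≠ 0 := by exact_mod_cast NeZero.ne N
  induction x using OnePoint.rec with
  | infty =>
    refine ⟨1, ℓ * ℓ, (ℓ : ℤ) * ℓ, Nat.mul_pos (Fact.out : ℓ.Prime).pos (Fact.out : ℓ.Prime).pos,
      fun z => ?_, fun z => ?_⟩
    · apply UpperHalfPlane.ext
      rw [coe_heckeRep_infty_smul, coe_vadd, coe_vadd, coe_heckeRep_infty_smul]
      push_cast
      ring
    · rw [coe_heckeRep_infty_smul, one_mul]
      simp only [Periodic.qParam]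
      rw [← Complex.exp_nat_mul]
      congr 1
      push_cast
      field_simp
  | coe b =>
    refine ⟨Complex.exp (2 * π * Complex.I * (b.val : ℕ) / (ℓ * N)), 1, 1, one_pos,
      fun z => ?_, fun z => ?_⟩
    · apply UpperHalfPlane.ext
      rw [coe_heckeRep_coe_smul, coe_vadd, coe_vadd, coe_heckeRep_coe_smul]
      push_cast
      field_simp
      ring
    · rw [coe_heckeRep_coe_smul, pow_one]
      simp only [Periodic.qParam]
      rw [← Complex.exp_add]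
      congr 1
      push_cast
      field_simp
      ring_nf

omit [Fact ℓ.Prime] in
theorem holo_comp_heckeRep {f : ℍ → ℂ} (hf : JN.Holo f) (x : OnePoint (ZMod ℓ)) :
    JN.Holo (fun z => f (heckeRep ℓ x • z)) := by
  rw [JN.holo_iff_mdiff] at hf ⊢
  exact hf.comp (mdifferentiable_smul (det_heckeRep_pos x))

theorem isMod_comp_heckeRep {N : ℕ} [NeZero N] {f : ℍ → ℂ} (hf : Mero.IsMod N f)
    (x : OnePoint (ZMod ℓ)) : Mero.IsMod (N * ℓ) (fun z => f (heckeRep ℓ x • z)) := by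
  refine isMod_comp hf (fun z => heckeRep ℓ x • z) (holo_comp_heckeRep hf.1 x) fun γ => ?_
  obtain ⟨g', hg'⟩ := heckeRep_smul_smul γ x
  obtain ⟨c, k, m, hk, h1, h2⟩ := heckeRep_chart N (redMatrix ℓ γ • x)
  exact ⟨g', fun z => heckeRep ℓ (redMatrix ℓ γ • x) • z, c, k, m, hk, hg', h1, h2⟩

theorem isMod_mul_right {N : ℕ} [NeZero N] {f : ℍ → ℂ} (hf : Mero.IsMod N f) :
    Mero.IsMod (N * ℓ) f := by
  have hℓ0 : (ℓ : ℂ) ≠ 0 := by exact_mod_cast (prime_ne_zero (ℓ := ℓ))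
  have hN0 : (N : ℂ) ≠ 0 := by exact_mod_cast NeZero.ne N
  refine isMod_comp hf (fun z => z) hf.1 fun γ => ?_
  refine ⟨γ, fun z => z, 1, ℓ, (ℓ : ℤ), (Fact.out : ℓ.Prime).pos, fun z => rfl, fun z => ?_,
    fun z => ?_⟩
  · show (((N * ℓ : ℕ) : ℝ)) +ᵥ z = (((ℓ : ℤ) : ℝ) * (N : ℝ)) +ᵥ z
    have h : ((N * ℓ : ℕ) : ℝ) = ((ℓ : ℤ) : ℝ) * (N : ℝ) := by
      push_cast
      ring
    rw [h]
  · rw [one_mul]
    simp only [Periodic.qParam]
    rw [← Complex.exp_nat_mul]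
    congr 1
    push_cast
    field_simp

end Reps

/-! ### The ring maps `f ↦ f ∘ α_x` and the inclusion -/

section Maps

variable (N ℓ : ℕ) [NeZero N] [Fact ℓ.Prime]

/-- composition with the Hecke representative `α_x = heckeRep ℓ x`, from level `N` to level
`N * ℓ` -/
def compR (x : OnePoint (ZMod ℓ)) : Mero.ring N →+* Mero.ring (N * ℓ) where
  toFun f := ⟨fun z => (f : ℍ → ℂ) (heckeRep ℓ x • z), isMod_comp_heckeRep f.2 x⟩
  map_one' := rfl
  map_mul' _ _ := rfl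
  map_zero' := rfl
  map_add' _ _ := rfl

@[simp] theorem compR_apply (x : OnePoint (ZMod ℓ)) (f : Mero.ring N) (z : ℍ) :
    (compR N ℓ x f : ℍ → ℂ) z = (f : ℍ → ℂ) (heckeRep ℓ x • z) := rfl

/-- the inclusion of level `N` into level `N * ℓ` -/
def incR : Mero.ring N →+* Mero.ring (N * ℓ) where
  toFun f := ⟨(f : ℍ → ℂ), isMod_mul_right f.2⟩
  map_one' := rfl
  map_mul' _ _ := rfl
  map_zero' := rfl
  map_add' _ _ := rfl

@[simp] theorem incR_apply (f : Mero.ring N) (z : ℍ) :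
    (incR N ℓ f : ℍ → ℂ) z = (f : ℍ → ℂ) z := rfl

theorem compR_const (x : OnePoint (ZMod ℓ)) (c : ℂ) :
    compR N ℓ x (Mero.const N c) = Mero.const (N * ℓ) c := rfl

theorem incR_const (c : ℂ) : incR N ℓ (Mero.const N c) = Mero.const (N * ℓ) c := rfl

theorem incR_jd (d : ℕ) (hd : d ∣ N) :
    incR N ℓ (Mero.jd N d hd) = Mero.jd (N * ℓ) d (Dvd.dvd.mul_right hd ℓ) := rfl

theorem compR_infty_jd (d : ℕ) (hd : d ∣ N) :
    compR N ℓ (∞ : OnePoint (ZMod ℓ)) (Mero.jd N d hd) =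
      Mero.jd (N * ℓ) (ℓ * d) (by rw [mul_comm]; exact mul_dvd_mul_right hd ℓ) := by
  have hd0 : NeZero d := ⟨fun h => NeZero.ne N (Nat.eq_zero_of_zero_dvd (h ▸ hd))⟩
  have hd1 : NeZero (ℓ * d) := ⟨Nat.mul_ne_zero prime_ne_zero hd0.ne⟩
  apply Subtype.ext
  funext z
  rw [compR_apply, Mero.jd_apply, Mero.jd_apply,
    JN.jN_eq_of_coe (ℓ * d) (w := JN.dil d (heckeRep ℓ (∞ : OnePoint (ZMod ℓ)) • z))
      (by rw [JN.coe_dil, coe_heckeRep_infty_smul]; push_cast; ring)]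
  rfl

theorem compR_injective (x : OnePoint (ZMod ℓ)) : Function.Injective (compR N ℓ x) := by
  intro f g h
  apply Subtype.ext
  funext z
  have h1 := congrFun (congrArg Subtype.val h) ((heckeRep ℓ x)⁻¹ • z)
  simpa only [compR_apply, smul_inv_smul] using h1

theorem incR_injective : Function.Injective (incR N ℓ) := by
  intro f g h
  apply Subtype.ext
  funext z
  exact congrFun (congrArg Subtype.val h) z

/-- `f ↦ f ∘ α_x` on the fraction fields -/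
def compF (x : OnePoint (ZMod ℓ)) : Mero.Fld N →+* Mero.Fld (N * ℓ) :=
  IsFractionRing.lift (A := Mero.ring N) (K := Mero.Fld N)
    (g := (algebraMap (Mero.ring (N * ℓ)) (Mero.Fld (N * ℓ))).comp (compR N ℓ x))
    ((IsFractionRing.injective (Mero.ring (N * ℓ)) (Mero.Fld (N * ℓ))).comp
      (compR_injective N ℓ x))

@[simp] theorem compF_algebraMap (x : OnePoint (ZMod ℓ)) (f : Mero.ring N) :
    compF N ℓ x (algebraMap (Mero.ring N) (Mero.Fld N) f) =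
      algebraMap (Mero.ring (N * ℓ)) (Mero.Fld (N * ℓ)) (compR N ℓ x f) :=
  IsFractionRing.lift_algebraMap _ f

/-- the inclusion on the fraction fields -/
def incF : Mero.Fld N →+* Mero.Fld (N * ℓ) :=
  IsFractionRing.lift (A := Mero.ring N) (K := Mero.Fld N)
    (g := (algebraMap (Mero.ring (N * ℓ)) (Mero.Fld (N * ℓ))).comp (incR N ℓ))
    ((IsFractionRing.injective (Mero.ring (N * ℓ)) (Mero.Fld (N * ℓ))).comp
      (incR_injective N ℓ))

@[simp] theorem incF_algebraMap (f : Mero.ring N) :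
    incF N ℓ (algebraMap (Mero.ring N) (Mero.Fld N) f) =
      algebraMap (Mero.ring (N * ℓ)) (Mero.Fld (N * ℓ)) (incR N ℓ f) :=
  IsFractionRing.lift_algebraMap _ f

omit [NeZero N] in
/-- ring homomorphisms out of `Mero.Fld N` are determined on `Mero.ring N` -/
theorem fld_hom_ext {K' : Type*} [Field K'] {φ ψ : Mero.Fld N →+* K'}
    (h : ∀ f : Mero.ring N, φ (algebraMap (Mero.ring N) (Mero.Fld N) f) =
      ψ (algebraMap (Mero.ring N) (Mero.Fld N) f)) : φ = ψ :=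
  IsFractionRing.ringHom_ext h

/-- the inclusion commutes with the action of `SL(2, ℤ)` -/
theorem incF_actF (γ : SL(2, ℤ)) (y : Mero.Fld N) :
    incF N ℓ (Mero.actF N γ y) = Mero.actF (N * ℓ) γ (incF N ℓ y) := by
  have h : (incF N ℓ).comp (Mero.actF N γ).toRingHom =
      (Mero.actF (N * ℓ) γ).toRingHom.comp (incF N ℓ) := by
    apply fld_hom_ext
    intro f
    show incF N ℓ (Mero.actF N γ (algebraMap _ _ f)) =
      Mero.actF (N * ℓ) γ (incF N ℓ (algebraMap _ _ f))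
    rw [Mero.actF_algebraMap, incF_algebraMap, incF_algebraMap, Mero.actF_algebraMap]
    rfl
  exact RingHom.congr_fun h y

end Maps

/-! ### Coset representatives of `Γ₀(N ℓ) \ Γ₀(N)` -/

section Rep

open Fermat.Agent.S18

variable (N ℓ : ℕ) [NeZero N] [Fact ℓ.Prime]

omit [NeZero N] in
theorem natCast_ne_zero_of_not_dvd (hℓN : ¬ ℓ ∣ N) : (N : ZMod ℓ) ≠ 0 := by
  rwa [Ne, ZMod.natCast_eq_zero_iff]

omit [NeZero N] in
theorem exists_rep (hℓN : ¬ ℓ ∣ N) (x : OnePoint (ZMod ℓ)) :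
    ∃ γ : SL(2, ℤ), γ ∈ CongruenceSubgroup.Gamma0 N ∧
      redMatrix ℓ γ • (∞ : OnePoint (ZMod ℓ)) = x := by
  induction x using OnePoint.rec with
  | infty => exact ⟨1, Subgroup.one_mem _, by rw [Transfer.redMatrix_one, one_smul]⟩
  | coe b =>
    have h0 : IsCoprime (N : ℤ) (ℓ : ℤ) :=
      Nat.isCoprime_iff_coprime.mpr ((Nat.Prime.coprime_iff_not_dvd Fact.out).mpr hℓN).symm
    have hcop : IsCoprime (N : ℤ) ((b.val : ℤ) * N + ℓ) := by
      have h1 : (b.val : ℤ) * N + ℓ = (ℓ : ℤ) + (N : ℤ) * (b.val : ℤ) := by ring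
      rw [h1]
      exact h0.add_mul_left_right (b.val : ℤ)
    obtain ⟨u, v, huv⟩ := hcop
    let γ : SL(2, ℤ) := ⟨!![v, -u; (N : ℤ), (b.val : ℤ) * N + ℓ], by
      rw [Matrix.det_fin_two_of]; linear_combination huv⟩
    have hN : (N : ZMod ℓ) ≠ 0 := natCast_ne_zero_of_not_dvd N ℓ hℓN
    have h10 : (redMatrix ℓ γ) 1 0 = (N : ZMod ℓ) := by
      rw [redMatrix_apply_one_zero]
      simp [γ]
    have h00 : (redMatrix ℓ γ) 0 0 = b * (N : ZMod ℓ) := by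
      rw [redMatrix_apply_zero_zero]
      simp [γ]
    refine ⟨γ, ?_, ?_⟩
    · rw [CongruenceSubgroup.Gamma0_mem]
      simp [γ]
    · rw [OnePoint.smul_infty_eq_ite, if_neg (by rw [h10]; exact hN), h00, h10,
        mul_div_cancel_right₀ _ hN]

omit [NeZero N] in
/-- coset representatives `γ ∈ Γ₀(N)` with `α_∞ γ = δ α_x`, `δ ∈ Γ₀(N)` -/
theorem exists_rep' (hℓN : ¬ ℓ ∣ N) (x : OnePoint (ZMod ℓ)) :
    ∃ γ δ : SL(2, ℤ), γ ∈ CongruenceSubgroup.Gamma0 N ∧ δ ∈ CongruenceSubgroup.Gamma0 N ∧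
      redMatrix ℓ γ • (∞ : OnePoint (ZMod ℓ)) = x ∧
      ∀ z : ℍ, heckeRep ℓ (∞ : OnePoint (ZMod ℓ)) • (γ • z) = δ • (heckeRep ℓ x • z) := by
  obtain ⟨γ, hγ, hx⟩ := exists_rep N ℓ hℓN x
  have hγN : (N : ℤ) ∣ γ 1 0 :=
    (ZMod.intCast_zmod_eq_zero_iff_dvd _ _).mp (CongruenceSubgroup.Gamma0_mem.mp hγ)
  obtain ⟨δ, hδ, hmul⟩ := heckeRep_mul hℓN γ hγN (∞ : OnePoint (ZMod ℓ))
  rw [hx] at hmul
  refine ⟨γ, δ, hγ,
    CongruenceSubgroup.Gamma0_mem.mpr ((ZMod.intCast_zmod_eq_zero_iff_dvd _ _).mpr hδ), hx,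
    fun z => ?_⟩
  rw [sl_smul_eq, sl_smul_eq, ← mul_smul, ← mul_smul, hmul]

omit [NeZero N] in
theorem smul_infty_eq_of_mem {γ γ' : SL(2, ℤ)}
    (h : γ * γ'⁻¹ ∈ CongruenceSubgroup.Gamma0 (N * ℓ)) :
    redMatrix ℓ γ • (∞ : OnePoint (ZMod ℓ)) = redMatrix ℓ γ' • (∞ : OnePoint (ZMod ℓ)) := by
  have hg : γ = (γ * γ'⁻¹) * γ' := by group
  have hdvd : ((N * ℓ : ℕ) : ℤ) ∣ (γ * γ'⁻¹) 1 0 :=
    (ZMod.intCast_zmod_eq_zero_iff_dvd _ _).mp (CongruenceSubgroup.Gamma0_mem.mp h)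
  have hℓdvd : (ℓ : ℤ) ∣ (γ * γ'⁻¹) 1 0 :=
    (Int.natCast_dvd_natCast.mpr (Dvd.intro_left N rfl)).trans hdvd
  have h10 : (redMatrix ℓ (γ * γ'⁻¹)) 1 0 = 0 := by
    rw [redMatrix_apply_one_zero]
    exact (ZMod.intCast_zmod_eq_zero_iff_dvd _ _).mpr hℓdvd
  have hfix : redMatrix ℓ (γ * γ'⁻¹) • (∞ : OnePoint (ZMod ℓ)) = ∞ :=
    OnePoint.smul_infty_eq_self_iff.mpr h10
  conv_lhs => rw [hg, Transfer.redMatrix_mul, mul_smul, hfix]

end Rep

/-! ### Compatibility of `PhiMero` with `α`, `β` and `Γ₀(N)` -/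

section Compat

open Fermat.Agent.S18

variable (N ℓ : ℕ) [NeZero N] [Fact ℓ.Prime] (ι : Qb →+* ℂ)

theorem alpha_gen (d : Dv N) :
    heckeAlphaBar Qb N ℓ (gen Qb N d) = gen Qb (N * ℓ) ⟨d.1, Dvd.dvd.mul_right d.2 ℓ⟩ :=
  Subtype.ext rfl

theorem beta_gen (d : Dv N) :
    heckeBetaBar Qb N ℓ (gen Qb N d) =
      gen Qb (N * ℓ) ⟨ℓ * d.1, by rw [mul_comm]; exact mul_dvd_mul_right d.2 ℓ⟩ := by
  have : NeZero d.1 := ⟨d.ne_zero⟩
  apply Subtype.ext
  show qExpand Qb ℓ (coeffMap (algebraMap ℚ Qb) (qExpand ℚ d.1 jq)) =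
    coeffMap (algebraMap ℚ Qb) (qExpand ℚ (ℓ * d.1) jq)
  rw [← QL.coeffMap_qExpand, qExpand_qExpand]

/-- `an ∘ α = inclusion ∘ an` -/
theorem incF_phiMero (y : ↥(FN N)) :
    incF N ℓ (Phi.PhiMero ι N y) = Phi.PhiMero ι (N * ℓ) (heckeAlphaBar Qb N ℓ y) := by
  have h : (incF N ℓ).comp (Phi.PhiMero ι N) =
      (Phi.PhiMero ι (N * ℓ)).comp (heckeAlphaBar Qb N ℓ).toRingHom := by
    apply Phi.hom_ext' (L := Qb) N
    · intro c
      show incF N ℓ (Phi.PhiMero ι N (algebraMap Qb _ c)) =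
        Phi.PhiMero ι (N * ℓ) (heckeAlphaBar Qb N ℓ (algebraMap Qb _ c))
      rw [AlgHom.commutes, Phi.PhiMero_algebraMap, Phi.PhiMero_algebraMap, incF_algebraMap,
        incR_const]
    · intro d
      show incF N ℓ (Phi.PhiMero ι N (gen Qb N d)) =
        Phi.PhiMero ι (N * ℓ) (heckeAlphaBar Qb N ℓ (gen Qb N d))
      rw [alpha_gen, Phi.PhiMero_gen, Phi.PhiMero_gen, incF_algebraMap, incR_jd]
  exact RingHom.congr_fun h y

/-- `an ∘ β = (· ∘ (z ↦ ℓ z)) ∘ an` -/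
theorem compF_infty_phiMero (y : ↥(FN N)) :
    compF N ℓ (∞ : OnePoint (ZMod ℓ)) (Phi.PhiMero ι N y) =
      Phi.PhiMero ι (N * ℓ) (heckeBetaBar Qb N ℓ y) := by
  have h : (compF N ℓ (∞ : OnePoint (ZMod ℓ))).comp (Phi.PhiMero ι N) =
      (Phi.PhiMero ι (N * ℓ)).comp (heckeBetaBar Qb N ℓ).toRingHom := by
    apply Phi.hom_ext' (L := Qb) N
    · intro c
      rw [RingHom.comp_apply, RingHom.comp_apply, AlgHom.toRingHom_eq_coe, RingHom.coe_coe,
        AlgHom.commutes, Phi.PhiMero_algebraMap, Phi.PhiMero_algebraMap, compF_algebraMap,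
        compR_const]
    · intro d
      rw [RingHom.comp_apply, RingHom.comp_apply, AlgHom.toRingHom_eq_coe, RingHom.coe_coe,
        beta_gen, Phi.PhiMero_gen, Phi.PhiMero_gen, compF_algebraMap, compR_infty_jd]
  exact RingHom.congr_fun h y

/-- the analytic function of an element of `F_N` is `Γ₀(N)`-invariant -/
theorem actF_phiMero_of_mem {γ : SL(2, ℤ)} (hγ : γ ∈ CongruenceSubgroup.Gamma0 N)
    (y : ↥(FN N)) : Mero.actF N γ (Phi.PhiMero ι N y) = Phi.PhiMero ι N y := by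
  have h : (Mero.actF N γ).toRingHom.comp (Phi.PhiMero ι N) = Phi.PhiMero ι N := by
    apply Phi.hom_ext' (L := Qb) N
    · intro c
      show Mero.actF N γ (Phi.PhiMero ι N (algebraMap Qb _ c)) = _
      rw [Phi.PhiMero_algebraMap, Mero.actF_algebraMap, Mero.act_const]
    · intro d
      show Mero.actF N γ (Phi.PhiMero ι N (gen Qb N d)) = _
      rw [Phi.PhiMero_gen, Mero.actF_algebraMap, Mero.act_jd_of_mem N d.1 d.2 hγ]
  exact RingHom.congr_fun h y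

/-- `(f ∘ (z ↦ ℓ z)) ∘ γ = (f ∘ δ) ∘ α_x` when `α_∞ γ = δ α_x` -/
theorem actF_compF_infty {γ δ : SL(2, ℤ)} {x : OnePoint (ZMod ℓ)}
    (h : ∀ z : ℍ, heckeRep ℓ (∞ : OnePoint (ZMod ℓ)) • (γ • z) = δ • (heckeRep ℓ x • z))
    (y : Mero.Fld N) :
    Mero.actF (N * ℓ) γ (compF N ℓ (∞ : OnePoint (ZMod ℓ)) y) =
      compF N ℓ x (Mero.actF N δ y) := by
  have h' : (Mero.actF (N * ℓ) γ).toRingHom.comp (compF N ℓ (∞ : OnePoint (ZMod ℓ))) =
      (compF N ℓ x).comp (Mero.actF N δ).toRingHom := by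
    apply fld_hom_ext
    intro f
    show Mero.actF (N * ℓ) γ (compF N ℓ ∞ (algebraMap _ _ f)) =
      compF N ℓ x (Mero.actF N δ (algebraMap _ _ f))
    rw [compF_algebraMap, Mero.actF_algebraMap, Mero.actF_algebraMap, compF_algebraMap]
    congr 1
    apply Subtype.ext
    funext z
    show (f : ℍ → ℂ) (heckeRep ℓ (∞ : OnePoint (ZMod ℓ)) • (γ • z)) =
      (f : ℍ → ℂ) (δ • (heckeRep ℓ x • z))
    rw [h]
  exact RingHom.congr_fun h' y

end Compat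

/-! ### The norm formula -/

section Norm

open Fermat.Agent.S18 Fermat.Agent.S37

variable (N ℓ : ℕ) [NeZero N] [Fact ℓ.Prime] (ι : Qb →+* ℂ)

/-- the embedding `w ↦ an(w) ∘ γ` of `F_{Nℓ}` -/
def tau (γ : SL(2, ℤ)) : ↥(FN (N * ℓ)) →+* Mero.Fld (N * ℓ) :=
  (Mero.actF (N * ℓ) γ).toRingHom.comp (Phi.PhiMero ι (N * ℓ))

theorem tau_apply (γ : SL(2, ℤ)) (w : ↥(FN (N * ℓ))) :
    tau N ℓ ι γ w = Mero.actF (N * ℓ) γ (Phi.PhiMero ι (N * ℓ) w) := rfl

theorem tau_alpha {γ : SL(2, ℤ)} (hγ : γ ∈ CongruenceSubgroup.Gamma0 N) (a : ↥(FN N)) :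
    tau N ℓ ι γ (heckeAlphaBar Qb N ℓ a) = incF N ℓ (Phi.PhiMero ι N a) := by
  rw [tau_apply, ← incF_phiMero, ← incF_actF, actF_phiMero_of_mem N ι hγ]

theorem tau_beta {γ δ : SL(2, ℤ)} {x : OnePoint (ZMod ℓ)}
    (hδ : δ ∈ CongruenceSubgroup.Gamma0 N)
    (h : ∀ z : ℍ, heckeRep ℓ (∞ : OnePoint (ZMod ℓ)) • (γ • z) = δ • (heckeRep ℓ x • z))
    (y : ↥(FN N)) :
    tau N ℓ ι γ (heckeBetaBar Qb N ℓ y) = compF N ℓ x (Phi.PhiMero ι N y) := by
  rw [tau_apply, ← compF_infty_phiMero, actF_compF_infty N ℓ h, actF_phiMero_of_mem N ι hδ]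

theorem tau_injective {γ γ' : SL(2, ℤ)} (h : tau N ℓ ι γ = tau N ℓ ι γ') :
    γ * γ'⁻¹ ∈ CongruenceSubgroup.Gamma0 (N * ℓ) := by
  have h1 := DFunLike.congr_fun h (gen Qb (N * ℓ) ⟨N * ℓ, dvd_rfl⟩)
  rw [tau_apply, tau_apply, Phi.PhiMero_gen, Mero.actF_algebraMap, Mero.actF_algebraMap] at h1
  have h2 := IsFractionRing.injective (Mero.ring (N * ℓ)) (Mero.Fld (N * ℓ)) h1
  exact (Mero.act_jd_self_eq_iff (N * ℓ) γ γ').mp h2

theorem card_onePoint : Fintype.card (OnePoint (ZMod ℓ)) = ℓ + 1 := by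
  have h : Fintype.card (Option (ZMod ℓ)) = ℓ + 1 := by
    rw [Fintype.card_option, ZMod.card]
  exact h

/-- **The analytic norm formula**: `an (Nm_α (β y)) = ∏ x, an (y) ∘ α_x`. -/
theorem phiMero_norm (hℓN : ¬ ℓ ∣ N) (y : ↥(FN N)) :
    letI := algebraAlong (heckeAlphaBar Qb N ℓ)
    incF N ℓ (Phi.PhiMero ι N (Algebra.norm ↥(FN N) (heckeBetaBar Qb N ℓ y))) =
      ∏ x : OnePoint (ZMod ℓ), compF N ℓ x (Phi.PhiMero ι N y) := by
  classical
  letI := algebraAlong (heckeAlphaBar Qb N ℓ)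
  haveI : Module.Finite ↥(FN N) ↥(FN (N * ℓ)) := KNormB.finite_along N ℓ
  haveI : CharZero ↥(FN N) := charZero_of_injective_algebraMap (algebraMap Qb ↥(FN N)).injective
  haveI : Algebra.IsSeparable ↥(FN N) ↥(FN (N * ℓ)) := inferInstance
  choose γ δ hγ hδ hx hz using exists_rep' N ℓ hℓN
  let e : Fin (ℓ + 1) ≃ OnePoint (ZMod ℓ) :=
    (Fintype.equivFinOfCardEq (card_onePoint ℓ)).symm
  have hinj : Function.Injective fun i : Fin (ℓ + 1) => tau N ℓ ι (γ (e i)) := by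
    intro i j hij
    have h1 := smul_infty_eq_of_mem N ℓ (tau_injective N ℓ ι hij)
    rw [hx, hx] at h1
    exact e.injective h1
  have key := KNormB.map_norm_eq_prod (F := ↥(FN N)) (F' := ↥(FN (N * ℓ)))
    ((incF N ℓ).comp (Phi.PhiMero ι N)) (fun i : Fin (ℓ + 1) => tau N ℓ ι (γ (e i)))
    (KNormB.finrank_along N ℓ Fact.out hℓN)
    (fun i a => tau_alpha N ℓ ι (hγ (e i)) a) hinj (heckeBetaBar Qb N ℓ y)
  rw [RingHom.comp_apply] at key
  rw [key, ← e.prod_comp]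
  exact Finset.prod_congr rfl fun i _ => tau_beta N ℓ ι (hδ (e i)) (hz (e i)) y

/-- Fraction-free pointwise form of the norm formula: if `an(y) = a / b` and
`an (Nm_α (β y)) = a' / b'` with `a, b, a', b'` holomorphic, then
`a'(z) ∏ₓ b(α_x z) = b'(z) ∏ₓ a(α_x z)` for all `z`. -/
theorem norm_pointwise (hℓN : ¬ ℓ ∣ N) (y : ↥(FN N)) {a b a' b' : Mero.ring N}
    (hy : Phi.PhiMero ι N y * algebraMap (Mero.ring N) (Mero.Fld N) b =
      algebraMap (Mero.ring N) (Mero.Fld N) a)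
    (hn : letI := algebraAlong (heckeAlphaBar Qb N ℓ)
      Phi.PhiMero ι N (Algebra.norm ↥(FN N) (heckeBetaBar Qb N ℓ y)) *
        algebraMap (Mero.ring N) (Mero.Fld N) b' = algebraMap (Mero.ring N) (Mero.Fld N) a')
    (z : ℍ) :
    (a' : ℍ → ℂ) z * ∏ x : OnePoint (ZMod ℓ), (b : ℍ → ℂ) (heckeRep ℓ x • z) =
      (b' : ℍ → ℂ) z * ∏ x : OnePoint (ZMod ℓ), (a : ℍ → ℂ) (heckeRep ℓ x • z) := by
  classical
  letI := algebraAlong (heckeAlphaBar Qb N ℓ)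
  set P := incF N ℓ (Phi.PhiMero ι N (Algebra.norm ↥(FN N) (heckeBetaBar Qb N ℓ y))) with hP
  have h1 : P * algebraMap (Mero.ring (N * ℓ)) (Mero.Fld (N * ℓ)) (incR N ℓ b') =
      algebraMap (Mero.ring (N * ℓ)) (Mero.Fld (N * ℓ)) (incR N ℓ a') := by
    have := congrArg (incF N ℓ) hn
    rwa [map_mul, incF_algebraMap, incF_algebraMap] at this
  have h2 : P * algebraMap (Mero.ring (N * ℓ)) (Mero.Fld (N * ℓ))
        (∏ x : OnePoint (ZMod ℓ), compR N ℓ x b) =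
      algebraMap (Mero.ring (N * ℓ)) (Mero.Fld (N * ℓ))
        (∏ x : OnePoint (ZMod ℓ), compR N ℓ x a) := by
    rw [hP, phiMero_norm N ℓ ι hℓN y, map_prod, map_prod, ← Finset.prod_mul_distrib]
    refine Finset.prod_congr rfl fun x _ => ?_
    have := congrArg (compF N ℓ x) hy
    rwa [map_mul, compF_algebraMap, compF_algebraMap] at this
  have h3 : incR N ℓ a' * ∏ x : OnePoint (ZMod ℓ), compR N ℓ x b =
      incR N ℓ b' * ∏ x : OnePoint (ZMod ℓ), compR N ℓ x a := by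
    apply IsFractionRing.injective (Mero.ring (N * ℓ)) (Mero.Fld (N * ℓ))
    rw [map_mul, map_mul, ← h1, ← h2]
    ring
  have h4 := congrFun (congrArg Subtype.val h3) z
  simpa only [Subring.coe_mul, Pi.mul_apply, incR_apply, SubmonoidClass.coe_finsetProd,
    Finset.prod_apply, compR_apply] using h4

end Norm

end Fermat.Agent.S29.HeckeAn

end
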