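/-
S29 (wave 9), row [IV]: the leaf `InvHStmt` ("Inv" in the division-free honest-function form),
consumed by (U) `Kum.UniqStmt` and by the Kummer finiteness over `ℂ`.
-/
import Fermat.Agent.S24.Mod.DataTau

set_option autoImplicit false

noncomputable section

open scoped MatrixGroups
open CongruenceSubgroup UpperHalfPlane

namespace Fermat.Agent.S29.Kum

open Fermat.Agent.S24 Fermat.Agent.S23

/-- **(INV-H)** if `U / V` (`U, V` holomorphic on `ℍ`, `V ≠ 0`) is `Γ₀(N)`-invariant and its `m`-th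
power is a rational function `P / Q` of the `j(dz)`, `d ∣ N`, then `U / V` is a rational function
of the `j(dz)`. -/
def InvHStmt : Prop :=
  ∀ (N m : ℕ) [NeZero N], 0 < m → ∀ (U V : ℍ → ℂ), JN.Holo U → JN.Holo V → V ≠ 0 →
    (∀ (γ : Gamma0 N) (z : ℍ),
      U ((γ : SL(2, ℤ)) • z) * V z = U z * V ((γ : SL(2, ℤ)) • z)) →
    ∀ P Q : MvPolynomial (Dv N) ℂ, evalFun N Q ≠ 0 →
      (∀ z : ℍ, U z ^ m * evalFun N Q z = V z ^ m * evalFun N P z) →
      ∃ P' Q' : MvPolynomial (Dv N) ℂ, evalFun N Q' ≠ 0 ∧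
        ∀ z : ℍ, U z * evalFun N Q' z = V z * evalFun N P' z

end Fermat.Agent.S29.Kum
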