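/-
S29 (wave 9), row [IV]: THE relation `Kum.R` between `Λ = Hom_par(Γ₀(N), ℤ)` and `J₀(N)(ℚ̄)`, in
the division-free "honest function" form, and the assembly of the embedding
`Φ : Λ/mΛ ↪ J₀(N)(ℚ̄)[m]` from its properties.

`R ι N m ζ λ x` :  `x = [D]`, `m D = div h` (`h ∈ F_N = FF ℚ̄ N`), and the analytic realisation
`a₀ / b₀` of `h` (`a₀, b₀ ∈ Mero.ring N`) has an `m`-th root `a / b`, `a, b` holomorphic on `ℍ`,
with multiplier `ζ^λ`:  `a(γz) b(z) = ζ^{λ(γ)} a(z) b(γz)` for `γ ∈ Γ₀(N)`.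

Proved here: (T) `R.smul_eq_zero`, (A) `R.add`, and `emb_of` (assembly with `EmbAsm.exists_emb`).
Leaves (Props): (E) `ExStmt`, (U) `UniqStmt`, (K) `KerStmt`, (H) `HeckeStmt`.
-/
import Fermat.Agent.S29.EmbAsm
import Fermat.Agent.S24.Mod.DataTau

set_option autoImplicit false

noncomputable section

open scoped MatrixGroups
open ModularCurve AlgebraicCurve CongruenceSubgroup UpperHalfPlane

namespace Fermat.Agent.S29.Kum

open Fermat.Agent.S24 Fermat.Agent.S23 Fermat.Agent.S29.Transfer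

local notation "Qb" => AlgebraicClosure ℚ

/-- **The Kummer relation** (division-free form). -/
def R (ι : Qb →+* ℂ) (N m : ℕ) [NeZero N] (ζ : ℂˣ) (lam : Λ N) (x : JZero N) : Prop :=
  ∃ (D : Divisor.degZero (K := Qb) (F := ↥(modularFunctionFieldBar N)))
    (h : ↥(modularFunctionFieldBar N)) (a₀ b₀ : Mero.ring N) (a b : ℍ → ℂ),
    Pic0.mk D = x ∧ h ≠ 0 ∧
    (∀ v : Place Qb ↥(modularFunctionFieldBar N),
      (m : ℤ) * (D : Divisor Qb ↥(modularFunctionFieldBar N)) v = v.ord h) ∧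
    b₀ ≠ 0 ∧
    DataTau.PhiL ι N h * algebraMap (Mero.ring N) (Mero.Fld N) b₀
      = algebraMap (Mero.ring N) (Mero.Fld N) a₀ ∧
    JN.Holo a ∧ JN.Holo b ∧ b ≠ 0 ∧
    (∀ z : ℍ, a z ^ m * (b₀ : ℍ → ℂ) z = b z ^ m * (a₀ : ℍ → ℂ) z) ∧
    ∀ (γ : Gamma0 N) (z : ℍ), a ((γ : SL(2, ℤ)) • z) * b z
      = ((ζ ^ (lam : Additive (Gamma0 N) →+ ℤ) (Additive.ofMul γ) : ℂˣ) : ℂ) * a z
          * b ((γ : SL(2, ℤ)) • z)

/-! ### Holomorphic functions on `ℍ` form a domain -/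

theorem holo_mul {a b : ℍ → ℂ} (ha : JN.Holo a) (hb : JN.Holo b) :
    JN.Holo (fun z => a z * b z) :=
  DifferentiableOn.mul ha hb

theorem holo_pow {a : ℍ → ℂ} (ha : JN.Holo a) (n : ℕ) : JN.Holo (fun z => a z ^ n) :=
  DifferentiableOn.pow ha n

theorem exists_ne_zero_of_ne {a : ℍ → ℂ} (ha : a ≠ 0) : ∃ z, a z ≠ 0 := by
  by_contra hcon
  push Not at hcon
  exact ha (funext hcon)

/-- two nonzero holomorphic functions have a common non-zero -/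
theorem exists_common_ne_zero₂ {a b : ℍ → ℂ} (ha : JN.Holo a) (hb : JN.Holo b)
    (ha0 : a ≠ 0) (hb0 : b ≠ 0) : ∃ z, a z ≠ 0 ∧ b z ≠ 0 := by
  obtain ⟨z, hz⟩ := JN.exists_common_ne_zero (ι := Bool)
    (fun i => if i then a else b)
    (fun i => by cases i <;> simp [ha, hb])
    (fun i => by
      cases i
      · simpa using exists_ne_zero_of_ne hb0
      · simpa using exists_ne_zero_of_ne ha0)
  exact ⟨z, by simpa using hz true, by simpa using hz false⟩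

theorem mul_ne_zero_fun {a b : ℍ → ℂ} (ha : JN.Holo a) (hb : JN.Holo b)
    (ha0 : a ≠ 0) (hb0 : b ≠ 0) : (fun z => a z * b z) ≠ 0 := by
  obtain ⟨z, h1, h2⟩ := exists_common_ne_zero₂ ha hb ha0 hb0
  intro h
  exact mul_ne_zero h1 h2 (congrFun h z)

/-- cancellation of a nonzero holomorphic factor -/
theorem holo_mul_right_cancel {u v w : ℍ → ℂ} (hu : JN.Holo u) (hv : JN.Holo v) (hw : JN.Holo w)
    (hw0 : w ≠ 0) (h : ∀ z, u z * w z = v z * w z) : ∀ z, u z = v z := by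
  by_contra hcon
  have hd : (fun z => u z - v z) ≠ 0 := by
    intro h0
    apply hcon
    intro z
    have := congrFun h0 z
    simpa [sub_eq_zero] using this
  have hdh : JN.Holo (fun z => u z - v z) := DifferentiableOn.sub hu hv
  obtain ⟨z, h1, h2⟩ := exists_common_ne_zero₂ hdh hw hd hw0
  apply mul_ne_zero h1 h2
  rw [sub_mul, h z, sub_self]

/-! ### (T) and (A) -/

/-- **(T)** related classes are `m`-torsion. -/
theorem R.smul_eq_zero {ι : Qb →+* ℂ} {N m : ℕ} [NeZero N] {ζ : ℂˣ} {lam : Λ N} {x : JZero N}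
    (h : R ι N m ζ lam x) : (m : ℤ) • x = 0 := by
  obtain ⟨D, f, a₀, b₀, a, b, rfl, hf, hord, -⟩ := h
  have h1 : (m : ℤ) • (Pic0.mk D : JZero N) = Pic0.mk ((m : ℤ) • D) := rfl
  rw [h1]
  refine (QuotientAddGroup.eq_zero_iff _).mpr ?_
  rw [AddSubgroup.mem_addSubgroupOf]
  refine ⟨f, hf, fun P => ?_⟩
  rw [← hord P]
  simp

/-- **(A)** the relation is additive. -/
theorem R.add {ι : Qb →+* ℂ} {N m : ℕ} [NeZero N] {ζ : ℂˣ} {lam lam' : Λ N} {x x' : JZero N}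
    (h : R ι N m ζ lam x) (h' : R ι N m ζ lam' x') : R ι N m ζ (lam + lam') (x + x') := by
  obtain ⟨D, f, a₀, b₀, a, b, rfl, hf, hord, hb₀, hphi, ha, hb, hb0, hpow, hmul⟩ := h
  obtain ⟨D', f', a₀', b₀', a', b', rfl, hf', hord', hb₀', hphi', ha', hb', hb0', hpow', hmul'⟩ :=
    h'
  refine ⟨D + D', f * f', a₀ * a₀', b₀ * b₀', fun z => a z * a' z, fun z => b z * b' z, rfl,
    mul_ne_zero hf hf', fun v => ?_, mul_ne_zero hb₀ hb₀', ?_, holo_mul ha ha', holo_mul hb hb',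
    mul_ne_zero_fun hb hb' hb0 hb0', fun z => ?_, fun γ z => ?_⟩
  · rw [v.ord_mul hf hf', ← hord v, ← hord' v]
    show (m : ℤ) * ((D : Divisor Qb ↥(modularFunctionFieldBar N)) v
      + (D' : Divisor Qb ↥(modularFunctionFieldBar N)) v) = _
    ring
  · rw [map_mul, map_mul, map_mul, ← hphi, ← hphi']
    ring
  · have e1 := hpow z
    have e2 := hpow' z
    show (a z * a' z) ^ m * ((b₀ : ℍ → ℂ) z * (b₀' : ℍ → ℂ) z)
      = (b z * b' z) ^ m * ((a₀ : ℍ → ℂ) z * (a₀' : ℍ → ℂ) z)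
    rw [mul_pow, mul_pow]
    linear_combination (a' z ^ m * (b₀' : ℍ → ℂ) z) * e1 + (b z ^ m * (a₀ : ℍ → ℂ) z) * e2
  · have e1 := hmul γ z
    have e2 := hmul' γ z
    have e3 : ((lam + lam' : Λ N) : Additive (Gamma0 N) →+ ℤ) (Additive.ofMul γ)
        = (lam : Additive (Gamma0 N) →+ ℤ) (Additive.ofMul γ)
          + (lam' : Additive (Gamma0 N) →+ ℤ) (Additive.ofMul γ) := rfl
    rw [e3, zpow_add, Units.val_mul]
    show a ((γ : SL(2, ℤ)) • z) * a' ((γ : SL(2, ℤ)) • z) * (b z * b' z) = _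
    linear_combination (a' ((γ : SL(2, ℤ)) • z) * b' z) * e1
      + (((ζ ^ (lam : Additive (Gamma0 N) →+ ℤ) (Additive.ofMul γ) : ℂˣ) : ℂ) * a z
          * b ((γ : SL(2, ℤ)) • z)) * e2

/-! ### The leaves -/

/-- **(E)** existence (Θ + PlaceAn + KumFin + Desc). -/
def ExStmt : Prop :=
  ∀ (ι : Qb →+* ℂ) (N m : ℕ) [NeZero N], 0 < m → ∀ ζ : ℂˣ, IsPrimitiveRoot ζ m →
    ∀ lam : Λ N, ∃ x : JZero N, R ι N m ζ lam x

/-- **(U)** uniqueness (Inv + DescRoot). -/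
def UniqStmt : Prop :=
  ∀ (ι : Qb →+* ℂ) (N m : ℕ) [NeZero N], 0 < m → ∀ ζ : ℂˣ, IsPrimitiveRoot ζ m →
    ∀ (lam : Λ N) (x x' : JZero N), R ι N m ζ lam x → R ι N m ζ lam x' → x = x'

/-- **(K)** kernel. -/
def KerStmt : Prop :=
  ∀ (ι : Qb →+* ℂ) (N m : ℕ) [NeZero N], 0 < m → ∀ ζ : ℂˣ, IsPrimitiveRoot ζ m →
    ∀ lam : Λ N, R ι N m ζ lam 0 → ∃ lam' : Λ N, lam = (m : ℤ) • lam'

/-- **(H)** Hecke (HeckeDiv + NormAn + HeckeMul). -/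
def HeckeStmt : Prop :=
  ∀ (ι : Qb →+* ℂ) (N m : ℕ) [NeZero N], 0 < m → ∀ ζ : ℂˣ, IsPrimitiveRoot ζ m →
    ∀ (ℓ : Nat.Primes) (hℓ : ¬ (ℓ : ℕ) ∣ N) (lam : Λ N) (x : JZero N), R ι N m ζ lam x →
      R ι N m ζ (trΛ N ℓ hℓ lam) (heckeOperatorBar N ℓ x)

/-- the embedding, for every modulus `m ≥ 1`. -/
def EmbStmtM : Prop :=
  ∀ (N : ℕ) [NeZero N] (m : ℕ), 0 < m →
    ∃ Φ : Λ N →ₗ[ℤ] Jtor N m,
      (∀ lam, Φ lam = 0 → ∃ lam' : Λ N, lam = (m : ℤ) • lam') ∧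
      ∀ (ℓ : Nat.Primes) (hℓ : ¬ (ℓ : ℕ) ∣ N * m) (lam : Λ N),
        heckeTor N m ℓ (Φ lam) = Φ (trΛ N ℓ (EmbAsm.not_dvd_of_not_dvd_mul hℓ) lam)

/-- **Assembly of the embedding** from (E), (U), (K), (H). -/
theorem emb_of (hE : ExStmt) (hU : UniqStmt) (hK : KerStmt) (hH : HeckeStmt) : EmbStmtM := by
  intro N _ m hm
  have : Algebra.IsAlgebraic ℚ Qb := AlgebraicClosure.isAlgebraic ℚ
  obtain ⟨ι⟩ : Nonempty (Qb →+* ℂ) := ⟨(IsAlgClosed.lift : Qb →ₐ[ℚ] ℂ).toRingHom⟩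
  have hm0 : m ≠ 0 := hm.ne'
  obtain ⟨ζ₀, hζ₀⟩ : ∃ ζ₀ : ℂ, IsPrimitiveRoot ζ₀ m :=
    ⟨_, Complex.isPrimitiveRoot_exp m hm0⟩
  obtain ⟨ζ, hζ⟩ : ∃ ζ : ℂˣ, IsPrimitiveRoot ζ m :=
    ⟨hζ₀.isUnit hm0 |>.unit, by
      rw [← IsPrimitiveRoot.coe_units_iff]; simpa using hζ₀⟩
  obtain ⟨Φ, -, h2, h3⟩ := EmbAsm.exists_emb N m (R ι N m ζ)
    (hE ι N m hm ζ hζ) (hU ι N m hm ζ hζ)
    (fun _ _ _ _ h h' => h.add h') (fun _ _ h => h.smul_eq_zero)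
    (hK ι N m hm ζ hζ)
    (fun ℓ hℓ lam x h => hH ι N m hm ζ hζ ℓ (EmbAsm.not_dvd_of_not_dvd_mul hℓ) lam x h)
  exact ⟨Φ, h2, h3⟩

end Fermat.Agent.S29.Kum
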