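/-
S29 (wave 9), chain [IV], leaf (c2) "Inv", modular-form-quotient form.

The `q`-expansion of a quotient `A / B` of two modular forms of the same weight on `Γ₀(N)` lies in
the function field `FF ℂ N = ℂ(j(d z) : d ∣ N) ⊂ ℂ((q))` of `X₀(N)` (the S24 model).

Proof.  The quotients `Â / B̂` (`A`, `B` of equal weight `12 n`) form a subfield `mfField N` of
`ℂ((q))` containing `FF ℂ N` (the generators are `uForm / vForm`).  Every element `x` of it is a
root of `∑_{m ≤ μ} (-1)^m p_m(j) X^(μ - m)` with `p_0 ≠ 0`, `μ = [SL₂(ℤ) : Γ₀(N)]`: the norm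
polynomial of `(A, B)` has level one coefficients of weight `12 n μ`, which are `Δ^(n μ)` times
polynomials in `j`.  Hence `[mfField N : ℂ(j)] ≤ μ = [FF ℂ N : ℂ(j)]` and the two fields coincide.
No fundamental domain and no classification of level one functions is needed.
-/
import Mathlib
import Fermat.Agent.S24.Mod.DegreeForms
import Fermat.Agent.S24.Mod.DegreeCore
import Fermat.Agent.S24.Mod.DegreeAlg
import Fermat.Agent.S24.Mod.Ext
import Fermat.Agent.S24.Mod.Bridge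
import Fermat.Agent.S24.QL
import Fermat.Agent.S24.MeroRing
import Fermat.Agent.S20.LB.Count

set_option autoImplicit false
set_option synthInstance.maxHeartbeats 400000

noncomputable section

open UpperHalfPlane ModularCurve IntermediateField CongruenceSubgroup
open scoped MatrixGroups

namespace Fermat.Agent.S29.InvMF

open Fermat.Agent.S23 Fermat.Agent.S23.QNice Fermat.Agent.S24 Fermat.Agent.S24.QL
open Fermat.Agent.S24.DegreeForms

/-- `x` is the quotient of the `q`-expansions of two modular forms of the same weight `12 n` on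
`Γ₀(N)`. -/
def IsQ (N : ℕ) (x : LaurentSeries ℂ) : Prop :=
  ∃ (n : ℕ) (a b : ℍ → ℂ) (La Lb : LaurentSeries ℂ), IsMF N (12 * (n : ℤ)) a ∧
    IsMF N (12 * (n : ℤ)) b ∧ Lb ≠ 0 ∧ HasQL a La ∧ HasQL b Lb ∧ x * Lb = La

variable {N : ℕ}

theorem isQ_algebraMap (c : ℂ) : IsQ N (algebraMap ℂ (LaurentSeries ℂ) c) := by
  refine ⟨0, fun _ => c, 1, algebraMap ℂ (LaurentSeries ℂ) c, 1, ?_, ?_, one_ne_zero,
    hasQL_const c, hasQL_one, mul_one _⟩
  · have h : IsMF N 0 (c • (1 : ℍ → ℂ)) := isMF_one.smul c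
    have e : (c • (1 : ℍ → ℂ)) = fun _ => c := by
      funext z
      simp
    rw [e] at h
    exact h.cast (by simp)
  · exact (isMF_one (N := N)).cast (by simp)

theorem IsQ.add {x y : LaurentSeries ℂ} (hx : IsQ N x) (hy : IsQ N y) : IsQ N (x + y) := by
  obtain ⟨n₁, a₁, b₁, La₁, Lb₁, ha₁, hb₁, hne₁, hLa₁, hLb₁, h₁⟩ := hx
  obtain ⟨n₂, a₂, b₂, La₂, Lb₂, ha₂, hb₂, hne₂, hLa₂, hLb₂, h₂⟩ := hy
  refine ⟨n₁ + n₂, a₁ * b₂ + a₂ * b₁, b₁ * b₂, La₁ * Lb₂ + La₂ * Lb₁, Lb₁ * Lb₂, ?_, ?_,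
    mul_ne_zero hne₁ hne₂, (hLa₁.mul hLb₂).add (hLa₂.mul hLb₁), hLb₁.mul hLb₂, ?_⟩
  · exact ((ha₁.mul hb₂).cast (by push_cast; ring)).add ((ha₂.mul hb₁).cast (by push_cast; ring))
  · exact (hb₁.mul hb₂).cast (by push_cast; ring)
  · rw [← h₁, ← h₂]
    ring

theorem IsQ.mul {x y : LaurentSeries ℂ} (hx : IsQ N x) (hy : IsQ N y) : IsQ N (x * y) := by
  obtain ⟨n₁, a₁, b₁, La₁, Lb₁, ha₁, hb₁, hne₁, hLa₁, hLb₁, h₁⟩ := hx
  obtain ⟨n₂, a₂, b₂, La₂, Lb₂, ha₂, hb₂, hne₂, hLa₂, hLb₂, h₂⟩ := hy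
  refine ⟨n₁ + n₂, a₁ * a₂, b₁ * b₂, La₁ * La₂, Lb₁ * Lb₂, ?_, ?_,
    mul_ne_zero hne₁ hne₂, hLa₁.mul hLa₂, hLb₁.mul hLb₂, ?_⟩
  · exact (ha₁.mul ha₂).cast (by push_cast; ring)
  · exact (hb₁.mul hb₂).cast (by push_cast; ring)
  · rw [← h₁, ← h₂]
    ring

theorem IsQ.inv {x : LaurentSeries ℂ} (hx : IsQ N x) : IsQ N x⁻¹ := by
  by_cases hx0 : x = 0
  · rw [hx0, inv_zero]
    have := isQ_algebraMap (N := N) 0
    rwa [map_zero] at this
  obtain ⟨n, a, b, La, Lb, ha, hb, hne, hLa, hLb, h⟩ := hx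
  have hLa0 : La ≠ 0 := by
    rw [← h]
    exact mul_ne_zero hx0 hne
  refine ⟨n, b, a, Lb, La, hb, ha, hLa0, hLb, hLa, ?_⟩
  rw [← h, ← mul_assoc, inv_mul_cancel₀ hx0, one_mul]

/-- The field of quotients of `q`-expansions of modular forms of equal weight on `Γ₀(N)`. -/
def mfField (N : ℕ) : IntermediateField ℂ (LaurentSeries ℂ) where
  carrier := {x | IsQ N x}
  mul_mem' := fun hx hy => hx.mul hy
  one_mem' := by
    have := isQ_algebraMap (N := N) 1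
    rwa [map_one] at this
  add_mem' := fun hx hy => hx.add hy
  zero_mem' := by
    have := isQ_algebraMap (N := N) 0
    rwa [map_zero] at this
  algebraMap_mem' := fun c => isQ_algebraMap c
  inv_mem' := fun _ hx => hx.inv

theorem mem_mfField {x : LaurentSeries ℂ} : x ∈ mfField N ↔ IsQ N x := Iff.rfl

variable [NeZero N]

/-- The generators `j(d z)` are quotients of forms of weight `12`. -/
theorem genS_mem (d : Dv N) : Ext.genS ℂ N d ∈ mfField N := by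
  have : NeZero d.1 := ⟨d.ne_zero⟩
  have hj : HasQL (JN.jN d.1) (Ext.genS ℂ N d) := hasQL_jN d.1
  have hu : HasQL (⇑(UV.uForm d.1)) (qL ⟨⇑(UV.uForm d.1), nice_gamma0 _⟩) :=
    hasQL_nice ⟨⇑(UV.uForm d.1), nice_gamma0 _⟩
  have hv : HasQL (⇑(UV.vForm d.1)) (qL ⟨⇑(UV.vForm d.1), nice_gamma0 _⟩) :=
    hasQL_nice ⟨⇑(UV.vForm d.1), nice_gamma0 _⟩
  refine ⟨1, ⇑(UV.uForm d.1), ⇑(UV.vForm d.1), _, _, (isMF_uForm d.2).cast (by norm_num),
    (isMF_vForm d.2).cast (by norm_num), qL_ne_zero (fun z => UV.vForm_ne_zero d.1 z), hu, hv, ?_⟩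
  have h1 : HasQL (JN.jN d.1 * ⇑(UV.vForm d.1)) (Ext.genS ℂ N d * qL ⟨⇑(UV.vForm d.1), nice_gamma0 _⟩) :=
    hj.mul hv
  have h2 : JN.jN d.1 * ⇑(UV.vForm d.1) = ⇑(UV.uForm d.1) := by
    funext z
    show JN.jN d.1 z * UV.vForm d.1 z = UV.uForm d.1 z
    rw [Dist.jN_eq_uForm_div_vForm, div_mul_cancel₀ _ (UV.vForm_ne_zero d.1 z)]
  rw [h2] at h1
  exact h1.series_unique hu

theorem aeval_genS_mem (P : MvPolynomial (Dv N) ℂ) :
    MvPolynomial.aeval (Ext.genS ℂ N) P ∈ mfField N := by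
  induction P using MvPolynomial.induction_on with
  | C c =>
    rw [MvPolynomial.aeval_C]
    exact (mfField N).algebraMap_mem c
  | add p q hp hq =>
    rw [map_add]
    exact (mfField N).add_mem hp hq
  | mul_X p i hp =>
    rw [map_mul, MvPolynomial.aeval_X]
    exact (mfField N).mul_mem hp (genS_mem i)

/-- The function field of `X₀(N)` consists of quotients of modular forms. -/
theorem FF_le_mfField : FF ℂ N ≤ mfField N := by
  intro x hx
  obtain ⟨P, Q, -, rfl⟩ := Ext.isFrac_of_mem hx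
  exact (mfField N).div_mem (aeval_genS_mem P) (aeval_genS_mem Q)

/-- The `q`-expansion of `j`. -/
theorem hasQL_jFun : HasQL JN.jFun (coeffEmb ℂ jq) := by
  have h := hasQL_jN 1
  rw [Mero.jN_one, qExpand_one_apply] at h
  exact h

theorem hasQL_discriminant :
    HasQL (⇑UV.DeltaMF) (qL ⟨⇑UV.DeltaMF, nice_levelOne UV.DeltaMF⟩) :=
  hasQL_nice ⟨⇑UV.DeltaMF, nice_levelOne UV.DeltaMF⟩

/-- **Norm equation** for a quotient of modular forms: it is a root of a polynomial of degree at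
most the index with coefficients in `ℂ[j]` and nonzero leading coefficient. -/
theorem exists_rel {x : LaurentSeries ℂ} (hx : IsQ N x) :
    ∃ p : ℕ → Polynomial ℂ, p 0 ≠ 0 ∧
      ∑ m ∈ Finset.range ((Gamma0 N).index + 1),
        (-1 : LaurentSeries ℂ) ^ m * Polynomial.aeval (coeffEmb ℂ jq) (p m)
          * x ^ ((Gamma0 N).index - m) = 0 := by
  obtain ⟨n, a, b, La, Lb, ⟨P, rfl⟩, ⟨Q, rfl⟩, hne, hLa, hLb, hx⟩ := hx
  have hQne : (⇑Q : ℍ → ℂ) ≠ 0 := fun h0 => hne (hLb.eq_zero_iff.mp h0)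
  obtain ⟨Mm, hM0, hMrel⟩ := NormPoly.exists_normPoly P Q
  have hw : (12 * (n : ℤ)) * (((Gamma0 N).index : ℕ) : ℤ)
      = 12 * ((n * (Gamma0 N).index : ℕ) : ℤ) := by
    push_cast
    ring
  choose p _ hp using fun m =>
    LevelOne.exists_poly_discriminant_pow (n * (Gamma0 N).index) (ModularForm.mcast hw (Mm m))
  have hMz : ∀ m z, Mm m z
      = ModularForm.discriminant z ^ (n * (Gamma0 N).index) * (p m).eval (JN.jFun z) :=
    fun m z => hp m z
  refine ⟨p, ?_, ?_⟩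
  · intro h0
    apply hM0 hQne
    ext τ
    rw [hMz, h0]
    simp
  · have hLΔne : qL ⟨⇑UV.DeltaMF, nice_levelOne UV.DeltaMF⟩ ≠ 0 :=
      qL_ne_zero (fun z => ModularForm.discriminant_ne_zero z)
    -- the expansion of the level one coefficients
    have hMm : ∀ m, HasQL (⇑(Mm m)) (qL ⟨⇑UV.DeltaMF, nice_levelOne UV.DeltaMF⟩
        ^ (n * (Gamma0 N).index) * Polynomial.aeval (coeffEmb ℂ jq) (p m)) := by
      intro m
      have h1 : HasQL (⇑UV.DeltaMF ^ (n * (Gamma0 N).index) * Polynomial.aeval JN.jFun (p m))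
          (qL ⟨⇑UV.DeltaMF, nice_levelOne UV.DeltaMF⟩ ^ (n * (Gamma0 N).index)
            * Polynomial.aeval (coeffEmb ℂ jq) (p m)) :=
        (hasQL_discriminant.pow _).mul (hasQL_aeval (p m) hasQL_jFun)
      have h2 : (⇑(Mm m) : ℍ → ℂ)
          = ⇑UV.DeltaMF ^ (n * (Gamma0 N).index) * Polynomial.aeval JN.jFun (p m) := by
        funext z
        rw [hMz, Pi.mul_apply, Pi.pow_apply, aeval_apply]
        rfl
      rw [h2]
      exact h1
    -- the relation between the expansions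
    have hsum : HasQL (∑ m ∈ Finset.range ((Gamma0 N).index + 1),
          (fun _ : ℍ => (-1 : ℂ) ^ m) * ⇑(Mm m) * ⇑Q ^ m * ⇑P ^ ((Gamma0 N).index - m))
        (∑ m ∈ Finset.range ((Gamma0 N).index + 1),
          algebraMap ℂ (LaurentSeries ℂ) ((-1 : ℂ) ^ m)
            * (qL ⟨⇑UV.DeltaMF, nice_levelOne UV.DeltaMF⟩ ^ (n * (Gamma0 N).index)
              * Polynomial.aeval (coeffEmb ℂ jq) (p m)) * Lb ^ m
            * La ^ ((Gamma0 N).index - m)) :=
      HasQL.sum _ fun m _ =>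
        (((hasQL_const ((-1 : ℂ) ^ m)).mul (hMm m)).mul (hLb.pow m)).mul (hLa.pow _)
    have hzero : (∑ m ∈ Finset.range ((Gamma0 N).index + 1),
        (fun _ : ℍ => (-1 : ℂ) ^ m) * ⇑(Mm m) * ⇑Q ^ m * ⇑P ^ ((Gamma0 N).index - m)) = 0 := by
      funext τ
      rw [Finset.sum_apply]
      exact hMrel τ
    have hS := hsum.eq_zero_iff.mp hzero
    have hfac : (∑ m ∈ Finset.range ((Gamma0 N).index + 1),
          algebraMap ℂ (LaurentSeries ℂ) ((-1 : ℂ) ^ m)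
            * (qL ⟨⇑UV.DeltaMF, nice_levelOne UV.DeltaMF⟩ ^ (n * (Gamma0 N).index)
              * Polynomial.aeval (coeffEmb ℂ jq) (p m)) * Lb ^ m
            * La ^ ((Gamma0 N).index - m))
        = (qL ⟨⇑UV.DeltaMF, nice_levelOne UV.DeltaMF⟩ ^ (n * (Gamma0 N).index)
            * Lb ^ (Gamma0 N).index) * ∑ m ∈ Finset.range ((Gamma0 N).index + 1),
          (-1 : LaurentSeries ℂ) ^ m * Polynomial.aeval (coeffEmb ℂ jq) (p m)
            * x ^ ((Gamma0 N).index - m) := by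
      rw [Finset.mul_sum]
      refine Finset.sum_congr rfl fun m hm => ?_
      have hmn : m ≤ (Gamma0 N).index := Nat.lt_succ_iff.mp (Finset.mem_range.mp hm)
      have h3 : Lb ^ (Gamma0 N).index = Lb ^ m * Lb ^ ((Gamma0 N).index - m) := by
        rw [← pow_add, Nat.add_sub_cancel' hmn]
      rw [← hx, mul_pow, h3, map_pow, map_neg, map_one]
      ring
    rw [hfac] at hS
    exact (mul_eq_zero.mp hS).resolve_left
      (mul_ne_zero (pow_ne_zero _ hLΔne) (pow_ne_zero _ hne))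

/-! ### The degree count -/

set_option maxHeartbeats 1600000 in
/-- Quotients of modular forms of equal weight on `Γ₀(N)` lie in the function field. -/
theorem mfField_le : mfField N ≤ FF ℂ N := by
  have hc1 : CharZero ℂ⟮S20.LB.xC N⟯ :=
    charZero_of_injective_algebraMap (algebraMap ℂ ℂ⟮S20.LB.xC N⟯).injective
  -- the two fields over `E = ℂ(j)`
  let F₁ : IntermediateField ℂ⟮S20.LB.xC N⟯ (LaurentSeries ℂ) :=
    (IsScalarTower.toAlgHom ℂ⟮S20.LB.xC N⟯ ↥(FF ℂ N) (LaurentSeries ℂ)).fieldRange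
  let K₁ : IntermediateField ℂ⟮S20.LB.xC N⟯ (LaurentSeries ℂ) :=
    (mfField N).toSubfield.toIntermediateField
      (fun e => FF_le_mfField ((e : ↥(FF ℂ N))).2)
  have hmemK : ∀ y : LaurentSeries ℂ, y ∈ K₁ ↔ y ∈ mfField N := fun y => Iff.rfl
  have hFK : F₁ ≤ K₁ := by
    rintro y ⟨f, rfl⟩
    exact FF_le_mfField f.2
  -- degree of `F₁`
  have hF₁ : Module.finrank ℂ⟮S20.LB.xC N⟯ ↥F₁ = (Gamma0 N).index := by
    have h1 := (AlgEquiv.ofInjectiveField
      (IsScalarTower.toAlgHom ℂ⟮S20.LB.xC N⟯ ↥(FF ℂ N) (LaurentSeries ℂ))).toLinearEquiv.finrank_eq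
    exact h1.symm.trans (S20.LB.finrank_xC N)
  -- degree of `K₁`
  have hK₁ : FiniteDimensional ℂ⟮S20.LB.xC N⟯ ↥K₁ ∧
      Module.finrank ℂ⟮S20.LB.xC N⟯ ↥K₁ ≤ (Gamma0 N).index := by
    apply DegreeAlg.finrank_le_of_forall_exists_poly
    intro y
    obtain ⟨p, hp0, hrel⟩ := exists_rel ((hmemK _).mp y.2)
    let jE : ℂ⟮S20.LB.xC N⟯ := ⟨S20.LB.xC N, mem_adjoin_simple_self ℂ _⟩
    have hjE : ∀ r : Polynomial ℂ, algebraMap ℂ⟮S20.LB.xC N⟯ ↥(FF ℂ N) (Polynomial.aeval jE r) =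
        Polynomial.aeval (jElt ℂ N) r := fun r =>
      (Polynomial.aeval_algebraMap_apply (A := ℂ⟮S20.LB.xC N⟯) (B := ↥(FF ℂ N)) jE r).symm
    have hjΩ : ∀ r : Polynomial ℂ,
        algebraMap ℂ⟮S20.LB.xC N⟯ (LaurentSeries ℂ) (Polynomial.aeval jE r) =
          Polynomial.aeval (coeffEmb ℂ jq) r := by
      intro r
      rw [IsScalarTower.algebraMap_apply ℂ⟮S20.LB.xC N⟯ ↥(FF ℂ N) (LaurentSeries ℂ), hjE,
        ← DegreeCore.jElt_coe N]
      exact (Polynomial.aeval_algHom_apply (FF ℂ N).val (jElt ℂ N) r).symm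
    let c : ℕ → ℂ⟮S20.LB.xC N⟯ := fun m => (-1) ^ m * Polynomial.aeval jE (p m)
    refine ⟨∑ m ∈ Finset.range ((Gamma0 N).index + 1),
      Polynomial.C (c m) * Polynomial.X ^ ((Gamma0 N).index - m), ?_, ?_, ?_⟩
    · intro hq
      have hcoeff := congrArg (fun r => Polynomial.coeff r (Gamma0 N).index) hq
      simp only [Polynomial.finsetSum_coeff, Polynomial.coeff_C_mul, Polynomial.coeff_X_pow,
        Polynomial.coeff_zero] at hcoeff
      rw [Finset.sum_eq_single 0] at hcoeff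
      · simp only [Nat.sub_zero, if_true, mul_one, c, pow_zero, one_mul] at hcoeff
        apply DegreeCore.aeval_jElt_ne_zero N (p 0) hp0
        rw [← hjE, hcoeff, map_zero]
      · intro m hm hm0
        have hmn : m ≤ (Gamma0 N).index := Nat.lt_succ_iff.mp (Finset.mem_range.mp hm)
        rw [if_neg (by omega), mul_zero]
      · intro h0
        exact absurd (Finset.mem_range.mpr (Nat.succ_pos _)) h0
    · apply Polynomial.natDegree_sum_le_of_forall_le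
      intro m _
      exact (Polynomial.natDegree_C_mul_X_pow_le _ _).trans (Nat.sub_le _ _)
    · simp only [map_sum, map_mul, Polynomial.aeval_C, map_pow, Polynomial.aeval_X]
      apply K₁.val.injective
      rw [map_sum, map_zero, ← hrel]
      refine Finset.sum_congr rfl fun m _ => ?_
      have h4 : K₁.val.toRingHom (algebraMap ℂ⟮S20.LB.xC N⟯ ↥K₁ (c m))
          = algebraMap ℂ⟮S20.LB.xC N⟯ (LaurentSeries ℂ) (c m) := rfl
      have h5 : K₁.val.toRingHom y = (y : LaurentSeries ℂ) := rfl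
      rw [map_mul, map_pow, h4, h5]
      simp only [c, map_mul, map_pow, map_neg, map_one, hjΩ]
  obtain ⟨hfd, hle⟩ := hK₁
  have heq : F₁ = K₁ := IntermediateField.eq_of_le_of_finrank_le hFK (hle.trans_eq hF₁.symm)
  intro x hx
  have hx' : x ∈ F₁ := by
    rw [heq]
    exact (hmemK x).mpr hx
  obtain ⟨f, rfl⟩ := hx'
  exact f.2

/-- The two fields coincide. -/
theorem mfField_eq : mfField N = FF ℂ N := le_antisymm mfField_le FF_le_mfField

/-! ### Consumer forms -/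

/-- **Inv, modular-form-quotient form.** The `q`-expansion of the quotient of two modular forms of
the same weight on `Γ₀(N)` lies in the function field `FF ℂ N` of `X₀(N)`. -/
theorem exists_mem_FF {k : ℕ} (A B : ModularForm (Gamma0 N) (k : ℤ)) (hB : (⇑B : ℍ → ℂ) ≠ 0) :
    ∃ u : ↥(FF ℂ N), (u : LaurentSeries ℂ) * qL ⟨⇑B, nice_gamma0 B⟩ = qL ⟨⇑A, nice_gamma0 A⟩ := by
  have hA' : HasQL (⇑A) (qL ⟨⇑A, nice_gamma0 A⟩) := hasQL_nice ⟨⇑A, nice_gamma0 A⟩
  have hB' : HasQL (⇑B) (qL ⟨⇑B, nice_gamma0 B⟩) := hasQL_nice ⟨⇑B, nice_gamma0 B⟩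
  have hBne : qL ⟨⇑B, nice_gamma0 B⟩ ≠ 0 := fun h0 => hB (hB'.eq_zero_iff.mpr h0)
  have hq : IsQ N (qL ⟨⇑A, nice_gamma0 A⟩ / qL ⟨⇑B, nice_gamma0 B⟩) := by
    refine ⟨k, ⇑A * ⇑B ^ 11, ⇑B ^ 12, _, _, ?_, ?_, pow_ne_zero 12 hBne,
      hA'.mul (hB'.pow 11), hB'.pow 12, ?_⟩
    · exact ((show IsMF N k ⇑A from ⟨A, rfl⟩).mul
        ((show IsMF N k ⇑B from ⟨B, rfl⟩).pow 11)).cast (by push_cast; ring)
    · exact ((show IsMF N k ⇑B from ⟨B, rfl⟩).pow 12).cast (by push_cast; ring)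
    · field_simp
  refine ⟨⟨_, mfField_le hq⟩, ?_⟩
  exact div_mul_cancel₀ _ hBne

/-- The same for a function with a Laurent expansion: if `f * B = A` then the expansion of `f`
lies in the function field. -/
theorem mem_FF_of_hasQL {k : ℕ} (A B : ModularForm (Gamma0 N) (k : ℤ)) (hB : (⇑B : ℍ → ℂ) ≠ 0)
    {f : ℍ → ℂ} {L : LaurentSeries ℂ} (hf : HasQL f L) (h : ∀ z, f z * B z = A z) :
    L ∈ FF ℂ N := by
  obtain ⟨u, hu⟩ := exists_mem_FF A B hB
  have hA' : HasQL (⇑A) (qL ⟨⇑A, nice_gamma0 A⟩) := hasQL_nice ⟨⇑A, nice_gamma0 A⟩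
  have hB' : HasQL (⇑B) (qL ⟨⇑B, nice_gamma0 B⟩) := hasQL_nice ⟨⇑B, nice_gamma0 B⟩
  have hBne : qL ⟨⇑B, nice_gamma0 B⟩ ≠ 0 := fun h0 => hB (hB'.eq_zero_iff.mpr h0)
  have h1 : HasQL (f * ⇑B) (L * qL ⟨⇑B, nice_gamma0 B⟩) := hf.mul hB'
  have h2 : f * ⇑B = ⇑A := funext h
  rw [h2] at h1
  have h3 : L * qL ⟨⇑B, nice_gamma0 B⟩ = (u : LaurentSeries ℂ) * qL ⟨⇑B, nice_gamma0 B⟩ := by
    rw [hu]
    exact h1.series_unique hA'
  rw [mul_right_cancel₀ hBne h3]
  exact u.2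

/-- **Inv, function form.** A quotient of two modular forms of the same weight on `Γ₀(N)` is a
quotient of polynomial expressions in the functions `z ↦ j (d z)`, `d ∣ N`. -/
theorem exists_polys {k : ℕ} (A B : ModularForm (Gamma0 N) (k : ℤ)) (hB : (⇑B : ℍ → ℂ) ≠ 0) :
    ∃ P Q : MvPolynomial (Dv N) ℂ, evalFun N Q ≠ 0 ∧
      ∀ z : ℍ, A z * evalFun N Q z = B z * evalFun N P z := by
  obtain ⟨u, hu⟩ := exists_mem_FF A B hB
  obtain ⟨P, Q, hQ, hPQ⟩ := Ext.isFrac_of_mem u.2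
  have hA' : HasQL (⇑A) (qL ⟨⇑A, nice_gamma0 A⟩) := hasQL_nice ⟨⇑A, nice_gamma0 A⟩
  have hB' : HasQL (⇑B) (qL ⟨⇑B, nice_gamma0 B⟩) := hasQL_nice ⟨⇑B, nice_gamma0 B⟩
  have hP : HasQL (evalFun N P) (MvPolynomial.aeval (Ext.genS ℂ N) P) := Bridge.hasQL_eval N P
  have hQ' : HasQL (evalFun N Q) (MvPolynomial.aeval (Ext.genS ℂ N) Q) := Bridge.hasQL_eval N Q
  refine ⟨P, Q, fun h0 => hQ (hQ'.eq_zero_iff.mp h0), ?_⟩
  have h1 : HasQL (⇑A * evalFun N Q)
      (qL ⟨⇑A, nice_gamma0 A⟩ * MvPolynomial.aeval (Ext.genS ℂ N) Q) := hA'.mul hQ'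
  have h2 : HasQL (⇑B * evalFun N P)
      (qL ⟨⇑B, nice_gamma0 B⟩ * MvPolynomial.aeval (Ext.genS ℂ N) P) := hB'.mul hP
  have h3 : qL ⟨⇑A, nice_gamma0 A⟩ * MvPolynomial.aeval (Ext.genS ℂ N) Q
      = qL ⟨⇑B, nice_gamma0 B⟩ * MvPolynomial.aeval (Ext.genS ℂ N) P := by
    rw [← hu, hPQ]
    field_simp
  rw [h3] at h1
  intro z
  exact congrFun (h1.fun_unique h2) z

end Fermat.Agent.S29.InvMF

end
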