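/-
S29 (wave 9), row [IV], leaf (c2) "Inv", second part: an invariant root of an element of the
function field of `X₀(N)` over `ℂ` lies in the function field.

Division-free holomorphic form: if `U`, `V ≠ 0` are holomorphic on the upper half plane, `U / V` is
`Γ₀(N)`-invariant and `(U / V) ^ m` is a rational function of the `j (d z)`, `d ∣ N`, then so is
`U / V`.

Proof.  Write `(U / V) ^ m = A₀ / B₀` with `A₀`, `B₀` modular forms of the same weight `w₀` on
`Γ₀(N)` (`S24.DegreeForms.isMF_homog`).  By the division lemma (`S23.Division`) `U * B₀ = g * V`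
with `g` holomorphic and `g ^ m = A₀ * B₀ ^ (m - 1)`.  Then `g` is slash invariant of weight `w₀`
under `Γ₀(N)` and bounded at all cusps (its `m`-th power is), i.e. a modular form, and
`U / V = g / B₀` is a quotient of two forms of the same weight: apply `InvAlg`.
-/
import Mathlib
import Fermat.Agent.S29.InvAlg
import Fermat.Agent.S23.Division
import Fermat.Agent.S24.MeroRing

set_option autoImplicit false

noncomputable section

open scoped MatrixGroups ModularForm Manifold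
open UpperHalfPlane ModularCurve CongruenceSubgroup

namespace Fermat.Agent.S29.InvRoot

open Fermat.Agent Fermat.Agent.S24 Fermat.Agent.S23
open Fermat.Agent.S24.DegreeForms

/-- Cancellation of a nonzero holomorphic factor. -/
theorem eq_of_mul_eq {f g h : ℍ → ℂ} (hf : MDiff f) (hg : MDiff g) (hh : MDiff h) (h0 : h ≠ 0)
    (H : ∀ z, h z * f z = h z * g z) : f = g := by
  have h1 : h * (f - g) = 0 := by
    funext z
    simp only [Pi.mul_apply, Pi.sub_apply, Pi.zero_apply, mul_sub, H z, sub_self]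
  rcases (UpperHalfPlane.mul_eq_zero_iff hh (hf.sub hg)).mp h1 with h2 | h2
  · exact absurd h2 h0
  · exact sub_eq_zero.mp h2

/-- A function whose `m`-th power is bounded at `i∞` is bounded at `i∞`. -/
theorem isBoundedAtImInfty_of_pow {m : ℕ} (hm : m ≠ 0) {F : ℍ → ℂ}
    (h : IsBoundedAtImInfty (F ^ m)) : IsBoundedAtImInfty F := by
  rw [isBoundedAtImInfty_iff] at h ⊢
  obtain ⟨M, A, hMA⟩ := h
  refine ⟨max M 1, A, fun z hz => ?_⟩
  have h1 : ‖F z‖ ^ m ≤ M := by
    have := hMA z hz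
    simpa [Pi.pow_apply, norm_pow] using this
  by_cases h2 : ‖F z‖ ≤ 1
  · exact h2.trans (le_max_right _ _)
  · push Not at h2
    have h3 : ‖F z‖ ≤ ‖F z‖ ^ m := le_self_pow₀ h2.le hm
    exact (h3.trans h1).trans (le_max_left _ _)

/-- The slash action of `SL(2, ℤ)` on a power. -/
theorem pow_slash_SL (g : ℍ → ℂ) (w : ℤ) (m : ℕ) (γ : SL(2, ℤ)) :
    (g ^ m) ∣[w * m] γ = (g ∣[w] γ) ^ m := by
  funext z
  rw [ModularForm.SL_slash_apply, Pi.pow_apply, Pi.pow_apply, ModularForm.SL_slash_apply, mul_pow,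
    ← zpow_natCast (denom γ z ^ (-w)) m, ← zpow_mul, neg_mul]

/-- A holomorphic function which is slash invariant of weight `w` under `Γ₀(N)` and whose `m`-th
power is a modular form on `Γ₀(N)` is a modular form. -/
theorem exists_modularForm_of_pow {N : ℕ} [NeZero N] {m : ℕ} (hm : m ≠ 0) {w : ℤ} (g : ℍ → ℂ)
    (hg : MDiff g) (hslash : ∀ γ ∈ Gamma0 N, g ∣[w] γ = g)
    (C : ModularForm (Gamma0 N) (w * m)) (hC : ∀ z, g z ^ m = C z) :
    ∃ G : ModularForm (Gamma0 N) w, (⇑G : ℍ → ℂ) = g := by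
  have hpow : g ^ m = ⇑C := funext hC
  refine ⟨{ toFun := g
            slash_action_eq' := fun _ ⟨γ, hγ, h⟩ => h ▸ hslash γ hγ
            holo' := hg
            bdd_at_cusps' := fun {c} hc => ?_ }, rfl⟩
  rw [Subgroup.IsArithmetic.isCusp_iff_isCusp_SL2Z] at hc
  rw [OnePoint.isBoundedAt_iff_forall_SL2Z hc]
  intro γ _
  apply isBoundedAtImInfty_of_pow hm
  rw [← pow_slash_SL, hpow]
  exact ModularFormClass.bdd_at_infty_slash C γ

/-- **(c2) "Inv", invariant roots (division-free holomorphic form).**  Let `U`, `V ≠ 0` be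
holomorphic on the upper half plane, with `U / V` invariant under `Γ₀(N)`
(`U (γ z) V z = U z V (γ z)`) and `(U / V) ^ m = P (j (d z)) / Q (j (d z))` a rational function of
the `j (d z)`, `d ∣ N`.  Then `U / V` is itself a rational function of the `j (d z)`. -/
theorem exists_eval_of_invariant_root (N : ℕ) [NeZero N] {m : ℕ} (hm : m ≠ 0)
    (P Q : MvPolynomial (Dv N) ℂ) (hQ : evalFun N Q ≠ 0) (U V : ℍ → ℂ)
    (hU : JN.Holo U) (hV : JN.Holo V) (hV0 : V ≠ 0)
    (hinv : ∀ γ ∈ Gamma0 N, ∀ z : ℍ, U (γ • z) * V z = U z * V (γ • z))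
    (hpow : ∀ z : ℍ, U z ^ m * evalFun N Q z = V z ^ m * evalFun N P z) :
    ∃ P' Q' : MvPolynomial (Dv N) ℂ, evalFun N Q' ≠ 0 ∧
      ∀ z : ℍ, U z * evalFun N Q' z = V z * evalFun N P' z := by
  classical
  have hUm : MDiff U := JN.holo_iff_mdiff.mp hU
  have hVm : MDiff V := JN.holo_iff_mdiff.mp hV
  have : ∀ d : Dv N, NeZero d.1 := fun d => ⟨d.ne_zero⟩
  let _ : Fintype (Dv N) := DegreeCore.fintypeDv N
  set M : ℕ := ∑ i : Dv N, (P.degreeOf i + Q.degreeOf i) with hMdef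
  have hMP : ∀ e ∈ P.support, ∀ i, e i ≤ M := by
    intro e he i
    have h1 : e i ≤ P.degreeOf i := MvPolynomial.monomial_le_degreeOf i he
    have h2 : P.degreeOf i + Q.degreeOf i ≤ M :=
      Finset.single_le_sum (f := fun i => P.degreeOf i + Q.degreeOf i)
        (fun _ _ => Nat.zero_le _) (Finset.mem_univ i)
    omega
  have hMQ : ∀ e ∈ Q.support, ∀ i, e i ≤ M := by
    intro e he i
    have h1 : e i ≤ Q.degreeOf i := MvPolynomial.monomial_le_degreeOf i he
    have h2 : P.degreeOf i + Q.degreeOf i ≤ M :=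
      Finset.single_le_sum (f := fun i => P.degreeOf i + Q.degreeOf i)
        (fun _ _ => Nat.zero_le _) (Finset.mem_univ i)
    omega
  set w₀ : ℤ := 12 * (M : ℤ) * (Fintype.card (Dv N) : ℤ) with hw₀
  obtain ⟨A₀, hA₀⟩ := isMF_homog (N := N) (fun d : Dv N => d.1) (fun d => d.2) P M hMP
  obtain ⟨B₀, hB₀⟩ := isMF_homog (N := N) (fun d : Dv N => d.1) (fun d => d.2) Q M hMQ
  set W : ℍ → ℂ := fun z => ∏ i : Dv N, UV.vForm i.1 z with hW
  have hWne : ∀ z, W z ≠ 0 := fun z =>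
    Finset.prod_ne_zero_iff.mpr fun i _ => UV.vForm_ne_zero i.1 z
  have hev : ∀ (G : MvPolynomial (Dv N) ℂ) (z : ℍ),
      MvPolynomial.eval (fun d : Dv N => JN.jN d.1 z) G = evalFun N G z := fun G z => by
    rw [DegreeCore.evalFun_apply, MvPolynomial.aeval_eq_eval]
  have hAz : ∀ z, A₀ z = W z ^ M * evalFun N P z := fun z => by
    rw [← hev]
    exact congrFun hA₀ z
  have hBz : ∀ z, B₀ z = W z ^ M * evalFun N Q z := fun z => by
    rw [← hev]
    exact congrFun hB₀ z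
  have hB₀ne : (⇑B₀ : ℍ → ℂ) ≠ 0 := by
    intro h0
    apply hQ
    funext z
    have h1 := congrFun h0 z
    rw [hBz] at h1
    rcases mul_eq_zero.mp h1 with h2 | h2
    · exact absurd h2 (pow_ne_zero M (hWne z))
    · exact h2
  have hrel : ∀ z, U z ^ m * B₀ z = V z ^ m * A₀ z := fun z => by
    rw [hAz, hBz]
    linear_combination (W z ^ M) * hpow z
  obtain ⟨m', rfl⟩ : ∃ m', m = m' + 1 := Nat.exists_eq_succ_of_ne_zero hm
  -- the form `C = A₀ * B₀ ^ m'`
  have hA₀mf : IsMF N w₀ (⇑A₀ : ℍ → ℂ) := ⟨A₀, rfl⟩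
  have hB₀mf : IsMF N w₀ (⇑B₀ : ℍ → ℂ) := ⟨B₀, rfl⟩
  obtain ⟨C, hC⟩ : IsMF N (w₀ * ((m' + 1 : ℕ) : ℤ)) ((⇑A₀ : ℍ → ℂ) * (⇑B₀ : ℍ → ℂ) ^ m') :=
    (hA₀mf.mul (hB₀mf.pow m')).cast (by push_cast; ring)
  have hCz : ∀ z, C z = A₀ z * B₀ z ^ m' := fun z => congrFun hC z
  -- the division lemma
  let c : Fin (m' + 1) → ℍ → ℂ := fun j => if (j : ℕ) = m' then -(⇑C : ℍ → ℂ) else 0
  have hc : ∀ j, Continuous (c j) := by
    intro j
    show Continuous (if (j : ℕ) = m' then -(⇑C : ℍ → ℂ) else 0)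
    split_ifs
    · exact (ModularFormClass.holo C).continuous.neg
    · exact continuous_zero
  have hsum : ∀ (s : Fin (m' + 1) → ℂ) (z : ℍ),
      ∑ j : Fin (m' + 1), c j z * s j = -(C z) * s (Fin.last m') := by
    intro s z
    rw [Finset.sum_eq_single (Fin.last m')]
    · simp [c]
    · intro j _ hj
      have hj' : (j : ℕ) ≠ m' := fun h => hj (Fin.ext (by simpa using h))
      simp [c, hj']
    · intro h
      exact absurd (Finset.mem_univ _) h
  have hv0 : ∃ z, V z ≠ 0 := by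
    by_contra hcon
    push Not at hcon
    exact hV0 (funext hcon)
  obtain ⟨g, hg, hgv, hgm⟩ := Division.exists_holo_quotient_upperHalfPlane (μ := m' + 1)
    (U * ⇑B₀) V c (hUm.mul (ModularFormClass.holo B₀)) hVm hc hv0 (fun z => by
      have h1 : ∑ j : Fin (m' + 1), c j z * (U * ⇑B₀) z ^ (m' + 1 - 1 - (j : ℕ)) *
          V z ^ ((j : ℕ) + 1) = -(C z) * ((U * ⇑B₀) z ^ (m' + 1 - 1 - m') * V z ^ (m' + 1)) := by
        have := hsum (fun j => (U * ⇑B₀) z ^ (m' + 1 - 1 - (j : ℕ)) * V z ^ ((j : ℕ) + 1)) z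
        simpa [mul_assoc] using this
      rw [h1, hCz]
      have h2 : m' + 1 - 1 - m' = 0 := by omega
      rw [h2, pow_zero, one_mul, Pi.mul_apply]
      linear_combination (B₀ z ^ m') * hrel z)
  have hgv' : ∀ z, U z * B₀ z = g z * V z := fun z => hgv z
  have hgC : ∀ z, g z ^ (m' + 1) = C z := by
    intro z
    have h1 := hgm z
    have h2 := hsum (fun j => g z ^ (m' + 1 - 1 - (j : ℕ))) z
    rw [h2] at h1
    have h3 : m' + 1 - 1 - ((Fin.last m' : Fin (m' + 1)) : ℕ) = 0 := by simp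
    rw [h3, pow_zero, mul_one] at h1
    linear_combination h1
  -- `g` is slash invariant of weight `w₀`
  have hslash : ∀ γ ∈ Gamma0 N, g ∣[w₀] γ = g := by
    intro γ hγ
    have hVγ : MDiff (fun z : ℍ => V (γ • z)) :=
      JN.holo_iff_mdiff.mp (Mero.holo_comp_smul hV γ)
    have hVγ0 : (fun z : ℍ => V (γ • z)) ≠ 0 := by
      intro h0
      apply hV0
      funext z
      have h1 := congrFun h0 (γ⁻¹ • z)
      simpa using h1
    have hgs : MDiff (g ∣[w₀] γ) := hg.slash w₀ _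
    have hh : MDiff (V * fun z : ℍ => V (γ • z)) := hVm.mul hVγ
    have hh0 : (V * fun z : ℍ => V (γ • z)) ≠ 0 := by
      intro h0
      rcases (UpperHalfPlane.mul_eq_zero_iff hVm hVγ).mp h0 with h1 | h1
      · exact hV0 h1
      · exact hVγ0 h1
    refine eq_of_mul_eq hgs hg hh hh0 fun z => ?_
    show (V z * V (γ • z)) * (g ∣[w₀] γ) z = (V z * V (γ • z)) * g z
    rw [ModularForm.SL_slash_apply]
    have hd : denom γ z ^ w₀ ≠ 0 := zpow_ne_zero _ (denom_ne_zero _ z)
    have h1 : B₀ (γ • z) = denom γ z ^ w₀ * B₀ z :=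
      SlashInvariantForm.slash_action_eqn_SL'' B₀ hγ z
    have h2 := hgv' (γ • z)
    have h3 := hgv' z
    have h4 := hinv γ hγ z
    rw [h1] at h2
    have e : (V z * V (γ • z)) * g (γ • z) = (V z * V (γ • z)) * g z * denom γ z ^ w₀ := by
      linear_combination (-(V z)) * h2 + (denom γ z ^ w₀ * B₀ z) * h4 +
        (V (γ • z) * denom γ z ^ w₀) * h3
    rw [zpow_neg, ← mul_assoc, e, mul_assoc, mul_inv_cancel₀ hd, mul_one]
  obtain ⟨G, hG⟩ := exists_modularForm_of_pow (Nat.succ_ne_zero m') g hg hslash C hgC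
  obtain ⟨P₁, Q₁, hQ₁, h₁⟩ := InvAlg.exists_eval_of_modularForm N G B₀ hB₀ne
  refine ⟨P₁, Q₁, hQ₁, fun z => ?_⟩
  have hP₁ : MDiff (evalFun N P₁) := (Bridge.hasQL_eval N P₁).mdifferentiable
  have hQ₁' : MDiff (evalFun N Q₁) := (Bridge.hasQL_eval N Q₁).mdifferentiable
  have hfin : U * evalFun N Q₁ = V * evalFun N P₁ := by
    refine eq_of_mul_eq (hUm.mul hQ₁') (hVm.mul hP₁) (ModularFormClass.holo B₀) hB₀ne fun z => ?_
    have h5 := h₁ z
    have h6 := hgv' z
    rw [hG] at h5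
    simp only [Pi.mul_apply]
    linear_combination (evalFun N Q₁ z) * h6 + (V z) * h5
  exact congrFun hfin z

end Fermat.Agent.S29.InvRoot

end
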