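/-
S29 (wave 9), row [IV], fact (E): existence in the Kummer relation,
`IV.kumExists_of : ThetaFnStmt → PlaceAnStmt → KumFinStmt → DescStmt → AnCompatStmt → KumExistsStmt`.

For `λ ∈ Λ`: `F = F_{ζ^λ} ∈ Fld N` with `F^m = an u`, `u ∈ FF ℂ N` (THETA-FN); `u` is Kummer
(PLACE-AN over `ℂ`, `F` is invariant under the elliptic and parabolic elements because `λ` kills
them); descent gives `u = c · w^m · h₁` with `h₁` the base change of `h₀ ∈ FF ℚ̄ N` (KUM-FIN + DESC);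
then `f := F / (c^{1/m} · an w)` is an `m`-th root of `an h₀` with the same multiplier, `h₀` is
Kummer over `ℚ̄` (PLACE-AN over `ℚ̄`), and `x := [(1/m) div h₀]`.
-/
import Fermat.Agent.S29.IVIface
import Fermat.Agent.S18.PHyp0

set_option autoImplicit false

noncomputable section

open scoped MatrixGroups
open ModularCurve AlgebraicCurve CongruenceSubgroup

namespace Fermat.Agent.S29.IV

open Fermat.Agent.S24 (FF)
open Fermat.Agent.S24.Mero (Fld actF)

local notation "Qb" => AlgebraicClosure ℚ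

theorem actF_cst (N : ℕ) (γ : SL(2, ℤ)) (c : ℂ) : actF N γ (cst N c) = cst N c := by
  show actF N γ (algebraMap _ _ (Fermat.Agent.S24.Mero.const N c)) = _
  rw [Fermat.Agent.S24.Mero.actF_algebraMap, Fermat.Agent.S24.Mero.act_const]
  rfl

/-- an integral parabolic character kills the elliptic and the parabolic elements. -/
theorem lam_eq_zero_of_special {N : ℕ} {lam : Additive (Gamma0 N) →+ ℤ} (hlam : lam ∈ Lam N)
    (δ : SL(2, ℤ)) (hδ : δ ∈ Gamma0 N)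
    (h : (∃ n : ℕ, 0 < n ∧ δ ^ n = 1) ∨ (δ : Matrix (Fin 2) (Fin 2) ℤ).trace ^ 2 = 4) :
    lam (Additive.ofMul (⟨δ, hδ⟩ : Gamma0 N)) = 0 := by
  rcases h with ⟨n, hn, hpow⟩ | htr
  · have h1 : n • lam (Additive.ofMul (⟨δ, hδ⟩ : Gamma0 N)) = 0 := by
      rw [← map_nsmul, ← ofMul_pow]
      have : (⟨δ, hδ⟩ : Gamma0 N) ^ n = 1 := Subtype.ext (by simpa using hpow)
      rw [this]
      exact map_zero lam
    rcases smul_eq_zero.mp h1 with h2 | h2
    · exact absurd h2 hn.ne'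
    · exact h2
  · exact hlam ⟨δ, hδ⟩ htr

/-- a function with multiplier `ζ^λ`, `λ ∈ Λ`, is invariant under the elliptic and parabolic
elements of `Γ₀(N)`. -/
theorem actF_eq_of_hasMult_red {N m : ℕ} {ζ : ℂ} {lam : Additive (Gamma0 N) →+ ℤ}
    (hlam : lam ∈ Lam N) {G : Fld N} (hG : HasMult N m ζ G (red N m lam))
    (δ : SL(2, ℤ)) (hδ : δ ∈ Gamma0 N)
    (h : (∃ n : ℕ, 0 < n ∧ δ ^ n = 1) ∨ (δ : Matrix (Fin 2) (Fin 2) ℤ).trace ^ 2 = 4) :
    actF N δ G = G := by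
  have h0 := lam_eq_zero_of_special hlam δ hδ h
  have h1 := hG ⟨δ, hδ⟩
  rw [red_apply, h0] at h1
  simpa using h1

/-- **(E)** existence in the Kummer relation, from the leaves. -/
theorem kumExists_of (hTh : ThetaFnStmt) (hPA : PlaceAnStmt) (hKF : KumFinStmt)
    (hDesc : DescStmt) (hAC : AnCompatStmt) : KumExistsStmt := by
  intro ι N m _ hm ζ hζ lam hlam
  have hm0 : m ≠ 0 := hm.ne'
  have hmZ : (m : ℤ) ≠ 0 := by exact_mod_cast hm0
  obtain ⟨F, u, hF0, hFu, hFmul⟩ := hTh N m hm ζ hζ.pow_eq_one lam hlam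
  have hu0 : u ≠ 0 := by
    rintro rfl
    rw [map_zero] at hFu
    exact hF0 ((pow_eq_zero_iff hm0).mp hFu)
  -- `u` is Kummer over `ℂ`
  have hKum : IsKum ℂ N m u :=
    ⟨hu0, fun P => hPA ℂ (RingHom.id ℂ) N m P u F hu0 hFu.symm
      (fun δ hδ h => actF_eq_of_hasMult_red hlam hFmul δ hδ h)⟩
  -- descent
  obtain ⟨h₀, h₁, hh₀, hcoe, w, c, hw0, hc0, huw⟩ := hDesc ι N m hm (hKF N m hm) u hKum
  obtain ⟨h₁', hcoe', han⟩ := hAC ι N h₀
  have h11 : h₁' = h₁ := Subtype.ext (hcoe'.trans hcoe.symm)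
  rw [h11] at han
  obtain ⟨c', hc'⟩ := IsAlgClosed.exists_pow_nat_eq c hm
  have hc'0 : c' ≠ 0 := by
    rintro rfl
    rw [zero_pow hm0] at hc'
    exact hc0 hc'.symm
  have hanw : an (RingHom.id ℂ) N w ≠ 0 := (map_ne_zero _).mpr hw0
  have hcst : cst N c' ≠ 0 := (map_ne_zero _).mpr hc'0
  have hg0 : cst N c' * an (RingHom.id ℂ) N w ≠ 0 := mul_ne_zero hcst hanw
  have hfpow : (F / (cst N c' * an (RingHom.id ℂ) N w)) ^ m = an ι N h₀ := by
    have e0 : an (RingHom.id ℂ) N (algebraMap ℂ ↥(FF ℂ N) c) = cst N c :=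
      Fermat.Agent.S24.DataTau.PhiL_algebraMap (RingHom.id ℂ) N c
    have e1 : F ^ m = cst N c * an (RingHom.id ℂ) N w ^ m * an ι N h₀ := by
      rw [hFu, huw, map_mul, map_mul, map_pow, han, e0]
    rw [div_pow, e1, mul_pow, ← cst_pow, hc']
    have h3 : cst N c * an (RingHom.id ℂ) N w ^ m ≠ 0 := by
      rw [← hc', cst_pow, ← mul_pow]
      exact pow_ne_zero m hg0
    exact mul_div_cancel_left₀ _ h3
  have hfmul : HasMult N m ζ (F / (cst N c' * an (RingHom.id ℂ) N w)) (red N m lam) := fun γ => by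
    rw [map_div₀, hFmul γ, map_mul, actF_cst,
      Fermat.Agent.S24.DataTau.actF_PhiL_of_mem (RingHom.id ℂ) N γ.2 w, mul_div_assoc]
  -- `h₀` is Kummer over `ℚ̄`
  have hdvd : ∀ P : Place Qb ↥(FF Qb N), (m : ℤ) ∣ P.ord h₀ := fun P =>
    hPA Qb ι N m P h₀ _ hh₀ hfpow.symm
      (fun δ hδ h => actF_eq_of_hasMult_red hlam hfmul δ hδ h)
  -- the divisor `(1/m) div h₀`
  obtain ⟨D₀, hD₀, hdeg₀⟩ := (Fermat.Agent.S18.PHyp.hyp0_bar N).principal h₀ hh₀
  let D : Divisor Qb ↥(modularFunctionFieldBar N) :=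
    Finsupp.mapRange (fun n : ℤ => n / (m : ℤ)) (by simp) D₀
  have hDv : ∀ P : Place Qb ↥(modularFunctionFieldBar N), (m : ℤ) * D P = P.ord h₀ := fun P => by
    show (m : ℤ) * (D₀ P / (m : ℤ)) = _
    rw [hD₀ P, Int.mul_ediv_cancel' (hdvd P)]
  have hmD : (m : ℤ) • D = D₀ := by
    ext P
    rw [Finsupp.smul_apply, smul_eq_mul, hDv P, hD₀ P]
  have hD : D ∈ Divisor.degZero (K := Qb) (F := ↥(modularFunctionFieldBar N)) := by
    rw [Divisor.mem_degZero]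
    have h5 : (m : ℤ) • Divisor.degree D = 0 := by rw [← map_zsmul, hmD, hdeg₀]
    rcases smul_eq_zero.mp h5 with h6 | h6
    · exact absurd h6 hmZ
    · exact h6
  exact ⟨Pic0.mk ⟨D, hD⟩, D, hD, h₀, _, rfl, hh₀, fun P => (hDv P).symm, hfpow, hfmul⟩

end Fermat.Agent.S29.IV
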