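/-
S29 (wave 9), leaf of the chain (IV), analytic core of "Inv": the LEVEL ONE THEOREM in the
language of S24.

`Mero.ring N` is the ring of holomorphic functions on the upper half plane all of whose
`SL(2, ℤ)`-translates are `N`-periodic and meromorphic at the cusp, `Mero.Fld N` its fraction
field.  We show

* `exists_poly` : an element of `Mero.ring N` fixed by `SL(2, ℤ)` is a polynomial in `j`;
* `exists_ratFunc` : an element of `Mero.Fld N` fixed by `SL(2, ℤ)` is a rational function of `j`.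
-/
import Mathlib
import Fermat.Agent.S23.LevelOne
import Fermat.Agent.S24.MeroCusp
import Fermat.Agent.S24.MeroPoint
import Fermat.Agent.S24.JLocal

set_option autoImplicit false

noncomputable section

open UpperHalfPlane Filter Topology Function ModularForm ModularFormClass
open scoped MatrixGroups ModularForm Manifold Real

namespace Fermat.Agent.S29.LevelOne

open Fermat.Agent.S23 Fermat.Agent.S24

local notation "Δ" => ModularForm.discriminant

/-! ### Level one forms -/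

/-- A level one form from slash invariance, holomorphy and boundedness at `i∞`. -/
def lvlOne (k : ℤ) (f : ℍ → ℂ) (hs : ∀ γ : SL(2, ℤ), f ∣[k] γ = f) (hd : MDiff f)
    (hb : IsBoundedAtImInfty f) : ModularForm 𝒮ℒ k where
  toFun := f
  slash_action_eq' := fun _ ⟨γ, hγ⟩ => hγ ▸ hs γ
  holo' := hd
  bdd_at_cusps' {c} hc := by
    rw [Subgroup.IsArithmetic.isCusp_iff_isCusp_SL2Z] at hc
    rw [OnePoint.isBoundedAt_iff_forall_SL2Z hc]
    intro γ _
    rw [hs γ]
    exact hb

@[simp] theorem lvlOne_apply (k : ℤ) (f : ℍ → ℂ) (hs : ∀ γ : SL(2, ℤ), f ∣[k] γ = f)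
    (hd : MDiff f) (hb : IsBoundedAtImInfty f) (z : ℍ) : lvlOne k f hs hd hb z = f z := rfl

theorem discriminant_smul (γ : SL(2, ℤ)) (z : ℍ) :
    Δ (γ • z) = denom γ z ^ (12 : ℤ) * Δ z := by
  have h12 : CuspForm.discriminant (γ • z) = denom γ z ^ (12 : ℤ) * CuspForm.discriminant z :=
    SlashInvariantForm.slash_action_eqn'' (Γ := 𝒮ℒ) CuspForm.discriminant
      (γ := Matrix.SpecialLinearGroup.mapGL ℝ γ) ⟨γ, rfl⟩ z
  simpa only [CuspForm.coe_discriminant] using h12

/-- `Δ ^ m * g` is slash invariant of weight `12 m` when `g` is invariant. -/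
theorem slash_pow_mul (m : ℕ) (g : ℍ → ℂ) (hg : ∀ (γ : SL(2, ℤ)) (z : ℍ), g (γ • z) = g z)
    (γ : SL(2, ℤ)) :
    (fun z : ℍ => Δ z ^ m * g z) ∣[(12 * (m : ℤ))] γ = fun z : ℍ => Δ z ^ m * g z := by
  funext z
  rw [ModularForm.SL_slash_apply, discriminant_smul, hg]
  have hd : denom γ z ≠ 0 := denom_ne_zero _ z
  rw [mul_pow, ← zpow_natCast (denom γ z ^ (12 : ℤ)) m, ← zpow_mul, zpow_neg]
  field_simp

/-- The discriminant is `O(q)` at `i∞`, quantitatively. -/
theorem exists_discriminant_bound :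
    ∃ C : ℝ, 0 < C ∧ ∀ᶠ z : ℍ in atImInfty, ‖Δ z‖ ≤ C * Real.exp (-2 * π * z.im) := by
  have h := CuspFormClass.exp_decay_atImInfty (h := 1) CuspForm.discriminant one_pos
    one_mem_strictPeriods_SL
  obtain ⟨C, hC, hb⟩ := h.exists_pos
  refine ⟨C, hC, ?_⟩
  filter_upwards [hb.bound] with z hz
  simpa [CuspForm.coe_discriminant, Real.norm_eq_abs, abs_of_pos (Real.exp_pos _)] using hz

/-- An element of `Mero.ring N` has at most a pole at the cusp: `q_N ^ m * f` is bounded at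
`i∞` for some `m`. -/
theorem exists_pow_mul_bounded (N : ℕ) [NeZero N] (f : Mero.ring N) :
    ∃ (m : ℕ) (C : ℝ), ∀ᶠ z : ℍ in atImInfty,
      ‖Function.Periodic.qParam N (z : ℂ) ^ m * (f : ℍ → ℂ) z‖ ≤ C := by
  obtain ⟨m, hm⟩ := (Mero.isChart_inf N).mero f
  have hcont := hm.continuousAt.norm
  have hev : ∀ᶠ q : ℂ in 𝓝 0, ‖(q - 0) ^ m • ((f : ℍ → ℂ) ∘ Mero.chartInf N) q‖
      < ‖((0 : ℂ) - 0) ^ m • ((f : ℍ → ℂ) ∘ Mero.chartInf N) 0‖ + 1 :=
    hcont.eventually (gt_mem_nhds (lt_add_one _))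
  refine ⟨m, ‖((0 : ℂ) - 0) ^ m • ((f : ℍ → ℂ) ∘ Mero.chartInf N) 0‖ + 1, ?_⟩
  have h1 := (qParam_tendsto_atImInfty (Mero.natCast_pos_real N)).eventually hev
  filter_upwards [h1] with z hz
  have h2 := Mero.cuspFn_qParam (f := (f : ℍ → ℂ)) (Mero.periodic_of_mem f) z
  have h3 : ((f : ℍ → ℂ) ∘ Mero.chartInf N) (Function.Periodic.qParam N (z : ℂ))
      = (f : ℍ → ℂ) z := h2
  rw [h3, sub_zero, smul_eq_mul] at hz
  exact hz.le

/-- For an invariant `g` in the ring, `Δ ^ m * g` is bounded at `i∞` for some `m`. -/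
theorem exists_bounded (N : ℕ) [NeZero N] (g : Mero.ring N) :
    ∃ m : ℕ, IsBoundedAtImInfty (fun z : ℍ => Δ z ^ m * (g : ℍ → ℂ) z) := by
  obtain ⟨m, C, hC⟩ := exists_pow_mul_bounded N g
  obtain ⟨C', hC'pos, hC'⟩ := exists_discriminant_bound
  refine ⟨m, ?_⟩
  rw [UpperHalfPlane.isBoundedAtImInfty_iff]
  have hev : ∀ᶠ z : ℍ in atImInfty, ‖Δ z ^ m * (g : ℍ → ℂ) z‖ ≤ C' ^ m * C := by
    filter_upwards [hC, hC'] with z h1 h2
    have hN : (1 : ℝ) ≤ (N : ℝ) := by exact_mod_cast Nat.one_le_iff_ne_zero.mpr (NeZero.ne N)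
    have hq : ‖Function.Periodic.qParam N (z : ℂ)‖ = Real.exp (-2 * π * z.im / N) := by
      rw [Function.Periodic.norm_qParam]
      rfl
    have hle : Real.exp (-2 * π * z.im) ≤ Real.exp (-2 * π * z.im / N) := by
      apply Real.exp_le_exp.mpr
      have hy : 0 < z.im := z.im_pos
      have hpos : 0 ≤ 2 * π * z.im := by positivity
      have h3 : 2 * π * z.im / N ≤ 2 * π * z.im := div_le_self hpos hN
      have h4 : -2 * π * z.im / N = -(2 * π * z.im / N) := by ring
      rw [h4]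
      linarith
    rw [norm_mul, norm_pow] at h1 ⊢
    rw [hq] at h1
    have hg0 : 0 ≤ ‖(g : ℍ → ℂ) z‖ := norm_nonneg _
    calc ‖Δ z‖ ^ m * ‖(g : ℍ → ℂ) z‖
        ≤ (C' * Real.exp (-2 * π * z.im / N)) ^ m * ‖(g : ℍ → ℂ) z‖ := by
          gcongr
          exact h2.trans (by gcongr)
      _ = C' ^ m * (Real.exp (-2 * π * z.im / N) ^ m * ‖(g : ℍ → ℂ) z‖) := by ring
      _ ≤ C' ^ m * C := by gcongr
  obtain ⟨A, hA⟩ := (UpperHalfPlane.atImInfty_mem _).mp hev
  exact ⟨C' ^ m * C, A, fun z hz => hA z hz⟩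

/-- The polynomial expression `P(j)` in the ring. -/
def jp (N : ℕ) [NeZero N] (P : Polynomial ℂ) : Mero.ring N :=
  Polynomial.eval₂ (Mero.const N) (Mero.jElt N) P

theorem jp_apply (N : ℕ) [NeZero N] (P : Polynomial ℂ) (z : ℍ) :
    (jp N P : ℍ → ℂ) z = P.eval (JN.jFun z) := by
  unfold jp
  induction P using Polynomial.induction_on' with
  | add p q hp hq =>
    rw [Polynomial.eval₂_add, Polynomial.eval_add, ← hp, ← hq]
    rfl
  | monomial n a =>
    rw [Polynomial.eval₂_monomial, Polynomial.eval_monomial]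
    rfl

/-- **Level one, holomorphic case.**  An element of `Mero.ring N` which is invariant under
`SL(2, ℤ)` is a polynomial in `j`. -/
theorem exists_poly (N : ℕ) [NeZero N] (g : Mero.ring N)
    (hg : ∀ γ : SL(2, ℤ), Mero.act N γ g = g) :
    ∃ P : Polynomial ℂ, g = Polynomial.eval₂ (Mero.const N) (Mero.jElt N) P := by
  have hinv : ∀ (γ : SL(2, ℤ)) (z : ℍ), (g : ℍ → ℂ) (γ • z) = (g : ℍ → ℂ) z := by
    intro γ z
    have := congrFun (congrArg Subtype.val (hg γ)) z
    simpa using this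
  obtain ⟨m, hb⟩ := exists_bounded N g
  have hd : MDiff (fun z : ℍ => Δ z ^ m * (g : ℍ → ℂ) z) :=
    (JLocal.mdiff_discriminant.pow m).mul (JN.holo_iff_mdiff.mp (Mero.holo_of_mem g))
  set G : ModularForm 𝒮ℒ (12 * (m : ℤ)) :=
    lvlOne (12 * (m : ℤ)) _ (slash_pow_mul m _ hinv) hd hb with hG
  obtain ⟨p, -, hp⟩ := Fermat.Agent.S23.LevelOne.exists_poly_discriminant_pow m G
  refine ⟨p, ?_⟩
  apply Subtype.ext
  funext z
  have h1 := hp z
  rw [hG, lvlOne_apply] at h1
  have hΔ : Δ z ^ m ≠ 0 := pow_ne_zero _ (ModularForm.discriminant_ne_zero z)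
  have h2 := mul_left_cancel₀ hΔ h1
  rw [h2]
  exact (jp_apply N p z).symm

/-! ### Orders at the points of the upper half plane -/

theorem jp_ne_zero (N : ℕ) [NeZero N] {Q : Polynomial ℂ} (hQ : Q ≠ 0) : jp N Q ≠ 0 := by
  intro h
  apply hQ
  apply Polynomial.funext
  intro x
  obtain ⟨z, rfl⟩ := JLocal.jFun_surjective x
  rw [← jp_apply N Q z, h, Polynomial.eval_zero]
  rfl

theorem act_jp (N : ℕ) [NeZero N] (γ : SL(2, ℤ)) (Q : Polynomial ℂ) :
    Mero.act N γ (jp N Q) = jp N Q := by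
  apply Subtype.ext
  funext z
  rw [Mero.act_apply, jp_apply, jp_apply, JN.jFun_smul]

theorem jp_mul (N : ℕ) [NeZero N] (P Q : Polynomial ℂ) : jp N (P * Q) = jp N P * jp N Q :=
  Polynomial.eval₂_mul _ _

theorem jp_pow (N : ℕ) [NeZero N] (P : Polynomial ℂ) (n : ℕ) : jp N (P ^ n) = jp N P ^ n :=
  Polynomial.eval₂_pow _ _ _

/-- The order at a point transforms under `SL(2, ℤ)`. -/
theorem ordRing_smul (N : ℕ) (γ : SL(2, ℤ)) (z0 : ℍ) (f : Mero.ring N) :
    Mero.ordRing (⇑ofComplex) ((γ • z0 : ℍ) : ℂ) f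
      = Mero.ordRing (⇑ofComplex) (z0 : ℂ) (Mero.act N γ f) := by
  have hdet' : 0 < (Matrix.SpecialLinearGroup.mapGL ℝ γ).det.val := by
    rw [Matrix.SpecialLinearGroup.det_mapGL]; simp
  have hdet : 0 < (Matrix.SpecialLinearGroup.mapGL ℝ γ : GL (Fin 2) ℝ).val.det := hdet'
  have h := UpperHalfPlane.meromorphicOrderAt_comp_smul (f := (f : ℍ → ℂ)) (τ := z0) hdet
  exact h.symm

theorem ordAt_zero (N : ℕ) (z0 : ℍ) : Mero.ordAt N z0 0 = 0 := by
  simp [Mero.ordAt, Mero.ord]

theorem ordAt_actF (N : ℕ) (γ : SL(2, ℤ)) (z0 : ℍ) (y : Mero.Fld N) :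
    Mero.ordAt N (γ • z0) y = Mero.ordAt N z0 (Mero.actF N γ y) := by
  by_cases hy : y = 0
  · rw [hy, map_zero, ordAt_zero, ordAt_zero]
  obtain ⟨a, b, hb, rfl⟩ := Mero.exists_div y
  have ha : a ≠ 0 := by
    rintro rfl
    simp at hy
  have hkey : ∀ f : Mero.ring N, f ≠ 0 →
      Mero.ordAt N (γ • z0) (algebraMap (Mero.ring N) (Mero.Fld N) f)
        = Mero.ordAt N z0 (algebraMap (Mero.ring N) (Mero.Fld N) (Mero.act N γ f)) := by
    intro f hf
    have hf' : Mero.act N γ f ≠ 0 := fun h => hf ((Mero.act N γ).injective (by rw [h, map_zero]))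
    have h1 := Mero.ordRing_eq_coe_ord (Mero.isChart_point N (γ • z0)) hf
    have h2 := Mero.ordRing_eq_coe_ord (Mero.isChart_point N z0) hf'
    rw [ordRing_smul, h2] at h1
    exact (WithTop.coe_injective h1).symm
  have ha' : Mero.act N γ a ≠ 0 := fun h => ha ((Mero.act N γ).injective (by rw [h, map_zero]))
  have hb' : Mero.act N γ b ≠ 0 := fun h => hb ((Mero.act N γ).injective (by rw [h, map_zero]))
  rw [map_div₀, Mero.actF_algebraMap, Mero.actF_algebraMap]
  unfold Mero.ordAt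
  rw [Mero.ord_div _ (Mero.algebraMap_ne_zero ha) (Mero.algebraMap_ne_zero hb),
    Mero.ord_div _ (Mero.algebraMap_ne_zero ha') (Mero.algebraMap_ne_zero hb')]
  have h1 := hkey a ha
  have h2 := hkey b hb
  unfold Mero.ordAt at h1 h2
  rw [h1, h2]

theorem ordAt_nonneg (N : ℕ) (z0 : ℍ) {f : Mero.ring N} (hf : f ≠ 0) :
    0 ≤ Mero.ordAt N z0 (algebraMap (Mero.ring N) (Mero.Fld N) f) := by
  have h1 := Mero.ordRing_eq_coe_ord (Mero.isChart_point N z0) hf
  have h2 : (0 : WithTop ℤ) ≤ Mero.ordRing (⇑ofComplex) (z0 : ℂ) f :=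
    (Mero.analyticAt_comp_ofComplex f z0).meromorphicOrderAt_nonneg
  rw [h1] at h2
  exact_mod_cast h2

theorem ordAt_eq_zero (N : ℕ) (z0 : ℍ) {f : Mero.ring N} (hz : (f : ℍ → ℂ) z0 ≠ 0) :
    Mero.ordAt N z0 (algebraMap (Mero.ring N) (Mero.Fld N) f) = 0 := by
  apply Mero.ord_algebraMap
  unfold Mero.ordRing
  rw [(Mero.analyticAt_comp_ofComplex f z0).meromorphicOrderAt_eq]
  have : analyticOrderAt ((f : ℍ → ℂ) ∘ ofComplex) (z0 : ℂ) = 0 := by
    rw [analyticOrderAt_eq_zero]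
    right
    simpa using hz
  rw [this]
  rfl

theorem one_le_ordAt (N : ℕ) (z0 : ℍ) {f : Mero.ring N} (hf : f ≠ 0)
    (hz : (f : ℍ → ℂ) z0 = 0) :
    1 ≤ Mero.ordAt N z0 (algebraMap (Mero.ring N) (Mero.Fld N) f) := by
  have h1 := Mero.ordRing_eq_coe_ord (Mero.isChart_point N z0) hf
  have han := Mero.analyticAt_comp_ofComplex f z0
  unfold Mero.ordRing at h1
  rw [han.meromorphicOrderAt_eq] at h1
  have hne : analyticOrderAt ((f : ℍ → ℂ) ∘ ofComplex) (z0 : ℂ) ≠ 0 := by
    rw [analyticOrderAt_ne_zero]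
    exact ⟨han, by simpa using hz⟩
  cases hk : analyticOrderAt ((f : ℍ → ℂ) ∘ ofComplex) (z0 : ℂ) with
  | top =>
    rw [hk] at h1
    exact absurd h1 (by simp)
  | coe k =>
    rw [hk] at h1 hne
    have hk0 : k ≠ 0 := by
      rintro rfl
      exact hne rfl
    have h2 : ((k : ℤ) : WithTop ℤ)
        = ((Mero.ord (Mero.isChart_point N z0) (algebraMap (Mero.ring N) (Mero.Fld N) f) : ℤ) :
            WithTop ℤ) := by
      rw [← h1]
      rfl
    have h3 : (k : ℤ) = Mero.ord (Mero.isChart_point N z0)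
        (algebraMap (Mero.ring N) (Mero.Fld N) f) := WithTop.coe_injective h2
    unfold Mero.ordAt
    omega

theorem ordAt_pow (N : ℕ) (z0 : ℍ) {y : Mero.Fld N} (hy : y ≠ 0) (n : ℕ) :
    Mero.ordAt N z0 (y ^ n) = n * Mero.ordAt N z0 y := by
  induction n with
  | zero =>
    simp [Mero.ordAt, Mero.ord]
  | succ k ih =>
    unfold Mero.ordAt at ih ⊢
    rw [pow_succ, Mero.ord_mul _ (pow_ne_zero _ hy) hy, ih]
    push_cast
    ring

/-! ### Clearing the zeros of the denominator -/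

/-- A nonzero element of the ring does not vanish high up in the upper half plane. -/
theorem exists_im_bound (N : ℕ) [NeZero N] {b : Mero.ring N} (hb : b ≠ 0) :
    ∃ A : ℝ, ∀ z : ℍ, A ≤ z.im → (b : ℍ → ℂ) z ≠ 0 := by
  have h1 := (Mero.isChart_inf N).ne_top b hb
  rw [meromorphicOrderAt_ne_top_iff_eventually_ne_zero ((Mero.isChart_inf N).mero b)] at h1
  have h2 := (Mero.tendsto_qParam_punctured N).eventually h1
  have h3 : ∀ᶠ z : ℍ in atImInfty, (b : ℍ → ℂ) z ≠ 0 := by
    filter_upwards [h2] with z hz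
    have := Mero.cuspFn_qParam (f := (b : ℍ → ℂ)) (Mero.periodic_of_mem b) z
    rw [← this]
    exact hz
  obtain ⟨A, hA⟩ := (UpperHalfPlane.atImInfty_mem _).mp h3
  exact ⟨A, fun z hz => hA z hz⟩

theorem im_ge_of_mem_fd {z : ℍ} (hz : z ∈ ModularGroup.fd) : (1 : ℝ) / 2 ≤ z.im := by
  obtain ⟨h1, h2⟩ := hz
  have hpos : 0 < z.im := z.im_pos
  rw [Complex.normSq_apply] at h1
  have h3 : z.re * z.re ≤ 1 / 4 := by
    have := abs_le.mp h2
    nlinarith [this.1, this.2]
  have h4 : (z : ℂ).re = z.re := rfl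
  have h5 : (z : ℂ).im = z.im := rfl
  rw [h4, h5] at h1
  nlinarith

/-- There is a polynomial `Q ≠ 0` such that `Q(j)` vanishes at least to the order of `b` at every
point of the standard fundamental domain. -/
theorem exists_clearing_poly (N : ℕ) [NeZero N] {b : Mero.ring N} (hb : b ≠ 0) :
    ∃ Q : Polynomial ℂ, Q ≠ 0 ∧ ∀ z : ℍ, z ∈ ModularGroup.fd →
      Mero.ordAt N z (algebraMap (Mero.ring N) (Mero.Fld N) b)
        ≤ Mero.ordAt N z (algebraMap (Mero.ring N) (Mero.Fld N) (jp N Q)) := by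
  obtain ⟨A, hA⟩ := exists_im_bound N hb
  set K : Set ℂ := Set.Icc (-(1 : ℝ) / 2) (1 / 2) ×ℂ Set.Icc ((1 : ℝ) / 2) A with hK
  have hKc : IsCompact K := isCompact_Icc.reProdIm isCompact_Icc
  have hKU : ∀ w ∈ K, 0 < w.im := by
    intro w hw
    rw [hK, Complex.mem_reProdIm] at hw
    have := hw.2.1
    linarith
  set B : ℂ → ℂ := (b : ℍ → ℂ) ∘ ofComplex with hB
  have hBan : ∀ w : ℂ, 0 < w.im → AnalyticAt ℂ B w := fun w hw =>
    (Mero.holo_of_mem b).analyticAt (Mero.isOpen_upper.mem_nhds hw)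
  have hBmer : MeromorphicOn B K := fun w hw => (hBan w (hKU w hw)).meromorphicAt
  set D := MeromorphicOn.divisor B K with hD
  have hfin : (Function.support D).Finite := D.finiteSupport hKc
  set Z : Finset ℂ := hfin.toFinset with hZ
  set Q : Polynomial ℂ :=
    ∏ w ∈ Z, (Polynomial.X - Polynomial.C (JN.jFun (ofComplex w))) ^ (D w).toNat with hQ
  have hQ0 : Q ≠ 0 := by
    rw [hQ, Finset.prod_ne_zero_iff]
    intro w _
    exact pow_ne_zero _ (Polynomial.X_sub_C_ne_zero _)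
  refine ⟨Q, hQ0, fun z hz => ?_⟩
  by_cases hbz : (b : ℍ → ℂ) z = 0
  swap
  · rw [ordAt_eq_zero N z hbz]
    exact ordAt_nonneg N z (jp_ne_zero N hQ0)
  · have hzA : z.im ≤ A := by
      by_contra hcon
      push Not at hcon
      exact hA z hcon.le hbz
    have hzK : (z : ℂ) ∈ K := by
      rw [hK, Complex.mem_reProdIm]
      refine ⟨?_, im_ge_of_mem_fd hz, hzA⟩
      have := abs_le.mp hz.2
      constructor
      · have h1 := this.1
        show -(1 : ℝ) / 2 ≤ z.re
        linarith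
      · exact this.2
    have hn1 := one_le_ordAt N z hb hbz
    have hDz : D (z : ℂ) = Mero.ordAt N z (algebraMap (Mero.ring N) (Mero.Fld N) b) := by
      rw [hD, MeromorphicOn.divisor_apply hBmer hzK]
      have h1 := Mero.ordRing_eq_coe_ord (Mero.isChart_point N z) hb
      unfold Mero.ordRing at h1
      rw [hB, h1]
      rfl
    have hzZ : (z : ℂ) ∈ Z := by
      rw [hZ, Set.Finite.mem_toFinset, Function.mem_support, hDz]
      omega
    obtain ⟨R, hR⟩ := Finset.dvd_prod_of_mem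
      (fun w : ℂ => (Polynomial.X - Polynomial.C (JN.jFun (ofComplex w))) ^ (D w).toNat) hzZ
    rw [← hQ] at hR
    have hR0 : R ≠ 0 := by
      rintro rfl
      rw [mul_zero] at hR
      exact hQ0 hR
    set u : Mero.ring N := jp N (Polynomial.X - Polynomial.C (JN.jFun z)) with hu
    have hu0 : u ≠ 0 := jp_ne_zero N (Polynomial.X_sub_C_ne_zero _)
    have huz : (u : ℍ → ℂ) z = 0 := by
      rw [hu, jp_apply]
      simp
    have h1u := one_le_ordAt N z hu0 huz
    have hRn := ordAt_nonneg N z (jp_ne_zero N hR0)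
    have hjp : jp N Q = u ^ (D (z : ℂ)).toNat * jp N R := by
      rw [hR, jp_mul, jp_pow, hu, ofComplex_apply]
    rw [hjp, map_mul, map_pow]
    unfold Mero.ordAt at h1u hRn hn1 hDz ⊢
    rw [Mero.ord_mul _ (pow_ne_zero _ (Mero.algebraMap_ne_zero hu0))
      (Mero.algebraMap_ne_zero (jp_ne_zero N hR0))]
    have hpow := ordAt_pow N z (Mero.algebraMap_ne_zero hu0) (D (z : ℂ)).toNat
    unfold Mero.ordAt at hpow
    rw [hpow]
    have hcast : (((D (z : ℂ)).toNat : ℕ) : ℤ) = D (z : ℂ) := Int.toNat_of_nonneg (by omega)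
    rw [hcast, hDz]
    nlinarith

/-! ### Division of holomorphic functions -/

/-- If the order of `b` is at most the order of `a` at every point, then `a / b` is
holomorphic. -/
theorem exists_holo_div (N : ℕ) {a b : Mero.ring N} (ha : a ≠ 0) (hb : b ≠ 0)
    (h : ∀ z : ℍ, Mero.ordAt N z (algebraMap (Mero.ring N) (Mero.Fld N) b)
      ≤ Mero.ordAt N z (algebraMap (Mero.ring N) (Mero.Fld N) a)) :
    ∃ g : ℍ → ℂ, JN.Holo g ∧ ∀ z : ℍ, g z * (b : ℍ → ℂ) z = (a : ℍ → ℂ) z := by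
  set U : Set ℂ := {z : ℂ | 0 < z.im} with hU
  set A : ℂ → ℂ := (a : ℍ → ℂ) ∘ ofComplex with hA
  set B : ℂ → ℂ := (b : ℍ → ℂ) ∘ ofComplex with hB
  have hAan : ∀ w ∈ U, AnalyticAt ℂ A w := fun w hw =>
    (Mero.holo_of_mem a).analyticAt (Mero.isOpen_upper.mem_nhds hw)
  have hBan : ∀ w ∈ U, AnalyticAt ℂ B w := fun w hw =>
    (Mero.holo_of_mem b).analyticAt (Mero.isOpen_upper.mem_nhds hw)
  have hF : MeromorphicOn (A / B) U := fun w hw =>
    (hAan w hw).meromorphicAt.div (hBan w hw).meromorphicAt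
  set g₀ : ℂ → ℂ := toMeromorphicNFOn (A / B) U with hg₀
  -- `B` does not vanish on punctured neighbourhoods
  have hBne : ∀ w ∈ U, ∀ᶠ x in 𝓝[≠] w, B x ≠ 0 := by
    intro w hw
    have h1 := (Mero.isChart_point N ⟨w, hw⟩).ne_top b hb
    rwa [meromorphicOrderAt_ne_top_iff_eventually_ne_zero (hBan w hw).meromorphicAt] at h1
  -- the quotient has nonnegative order
  have hord : ∀ w ∈ U, 0 ≤ meromorphicOrderAt (A / B) w := by
    intro w hw
    have h1 := Mero.ordRing_eq_coe_ord (Mero.isChart_point N ⟨w, hw⟩) ha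
    have h2 := Mero.ordRing_eq_coe_ord (Mero.isChart_point N ⟨w, hw⟩) hb
    have h3 := h ⟨w, hw⟩
    unfold Mero.ordAt at h3
    unfold Mero.ordRing at h1 h2
    have hmul : meromorphicOrderAt ((A / B) * B) w
        = meromorphicOrderAt (A / B) w + meromorphicOrderAt B w :=
      meromorphicOrderAt_mul (hF w hw) (hBan w hw).meromorphicAt
    have hcongr : (A / B) * B =ᶠ[𝓝[≠] w] A := by
      filter_upwards [hBne w hw] with x hx
      simp only [Pi.mul_apply, Pi.div_apply]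
      field_simp
    rw [meromorphicOrderAt_congr hcongr] at hmul
    have h1' : meromorphicOrderAt A w = _ := h1
    have h2' : meromorphicOrderAt B w = _ := h2
    rw [h1', h2'] at hmul
    cases hk : meromorphicOrderAt (A / B) w with
    | top => exact le_top
    | coe k =>
      rw [hk] at hmul
      have h4 : (Mero.ord (Mero.isChart_point N ⟨w, hw⟩)
          (algebraMap (Mero.ring N) (Mero.Fld N) a) : ℤ)
          = k + Mero.ord (Mero.isChart_point N ⟨w, hw⟩)
            (algebraMap (Mero.ring N) (Mero.Fld N) b) := by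
        exact_mod_cast hmul
      have : (0 : ℤ) ≤ k := by omega
      exact_mod_cast this
  have hg₀an : ∀ w ∈ U, AnalyticAt ℂ g₀ w := by
    intro w hw
    have hNF : MeromorphicNFAt g₀ w := meromorphicNFOn_toMeromorphicNFOn (A / B) U hw
    rw [← hNF.meromorphicOrderAt_nonneg_iff_analyticAt, hg₀,
      meromorphicOrderAt_toMeromorphicNFOn hF hw]
    exact hord w hw
  have hmulU : ∀ w ∈ U, g₀ w * B w = A w := by
    intro w hw
    have h1 : (fun x => g₀ x * B x) =ᶠ[𝓝[≠] w] A := by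
      filter_upwards [hF.toMeromorphicNFOn_eq_self_on_nhdsNE hw, hBne w hw] with x hx hx'
      rw [hg₀, hx]
      simp only [Pi.div_apply]
      field_simp
    have hc1 : ContinuousAt (fun x => g₀ x * B x) w :=
      ((hg₀an w hw).continuousAt).mul (hBan w hw).continuousAt
    have hc2 : ContinuousAt A w := (hAan w hw).continuousAt
    have h2 := (hc1.eventuallyEq_nhds_iff_eventuallyEq_nhdsNE hc2).mp h1
    exact h2.eq_of_nhds
  refine ⟨fun z : ℍ => g₀ (z : ℂ), ?_, fun z => ?_⟩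
  · have hdiff : DifferentiableOn ℂ g₀ U := fun w hw =>
      (hg₀an w hw).differentiableAt.differentiableWithinAt
    refine hdiff.congr fun w hw => ?_
    simp only [Function.comp_apply]
    rw [ofComplex_apply_of_im_pos hw]
  · have := hmulU (z : ℂ) z.im_pos
    simpa [hA, hB] using this

/-! ### The level one theorem -/

theorem vadd_eq_T_zpow_smul (n : ℤ) (z : ℍ) : ((n : ℝ) +ᵥ z : ℍ) = ModularGroup.T ^ n • z := by
  rw [modular_T_zpow_smul]

/-- A holomorphic invariant function which is a quotient of elements of the ring belongs to the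
ring. -/
theorem isMod_of_invariant (N : ℕ) [NeZero N] {g : ℍ → ℂ} (hg : JN.Holo g)
    (hinv : ∀ (γ : SL(2, ℤ)) (z : ℍ), g (γ • z) = g z) {a b : Mero.ring N} (hb : b ≠ 0)
    (hmul : ∀ z : ℍ, g z * (b : ℍ → ℂ) z = (a : ℍ → ℂ) z) : Mero.IsMod N g := by
  refine ⟨hg, fun γ => ⟨fun z => ?_, ?_⟩⟩
  · rw [hinv, hinv]
    have h1 : (((N : ℕ) : ℝ) +ᵥ z : ℍ) = ModularGroup.T ^ (N : ℤ) • z := by
      rw [← vadd_eq_T_zpow_smul]
      simp
    rw [h1, hinv]
  · have hfun : (fun z => g (γ • z)) = g := funext fun z => hinv γ z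
    rw [hfun]
    have hbm := (Mero.isChart_inf N).mero b
    have ham := (Mero.isChart_inf N).mero a
    have hbne := (Mero.isChart_inf N).ne_top b hb
    rw [meromorphicOrderAt_ne_top_iff_eventually_ne_zero hbm] at hbne
    have hcongr : ((a : ℍ → ℂ) ∘ Mero.chartInf N) / ((b : ℍ → ℂ) ∘ Mero.chartInf N)
        =ᶠ[𝓝[≠] 0] Mero.cuspFn N g := by
      filter_upwards [hbne] with q hq
      simp only [Pi.div_apply, Function.comp_apply, Mero.cuspFn]
      have := hmul (Mero.chartInf N q)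
      rw [← this]
      simp only [Function.comp_apply] at hq
      field_simp
    exact (ham.div hbm).congr hcongr

/-- **Level one theorem.**  An element of the fraction field `Mero.Fld N` which is fixed by
`SL(2, ℤ)` is a rational function of `j`. -/
theorem exists_ratFunc (N : ℕ) [NeZero N] (y : Mero.Fld N)
    (hy : ∀ γ : SL(2, ℤ), Mero.actF N γ y = y) :
    ∃ P Q : Polynomial ℂ, Polynomial.eval₂ (Mero.const N) (Mero.jElt N) Q ≠ 0 ∧
      y * algebraMap (Mero.ring N) (Mero.Fld N) (Polynomial.eval₂ (Mero.const N) (Mero.jElt N) Q)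
        = algebraMap (Mero.ring N) (Mero.Fld N)
            (Polynomial.eval₂ (Mero.const N) (Mero.jElt N) P) := by
  by_cases hy0 : y = 0
  · refine ⟨0, 1, ?_, ?_⟩
    · rw [Polynomial.eval₂_one]
      exact one_ne_zero
    · rw [hy0, zero_mul, Polynomial.eval₂_zero, map_zero]
  obtain ⟨a, b, hb, rfl⟩ := Mero.exists_div y
  have ha : a ≠ 0 := by
    rintro rfl
    simp at hy0
  have hA0 := Mero.algebraMap_ne_zero ha
  have hB0 := Mero.algebraMap_ne_zero hb
  -- the cross-multiplied invariance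
  have hcross : ∀ γ : SL(2, ℤ), Mero.act N γ a * b = a * Mero.act N γ b := by
    intro γ
    have h1 := hy γ
    rw [map_div₀, Mero.actF_algebraMap, Mero.actF_algebraMap] at h1
    have hb' : Mero.act N γ b ≠ 0 := fun h => hb ((Mero.act N γ).injective (by rw [h, map_zero]))
    rw [div_eq_div_iff (Mero.algebraMap_ne_zero hb') hB0, ← map_mul, ← map_mul] at h1
    exact IsFractionRing.injective (Mero.ring N) (Mero.Fld N) h1
  obtain ⟨Q, hQ0, hQ⟩ := exists_clearing_poly N hb
  have hjQ0 : jp N Q ≠ 0 := jp_ne_zero N hQ0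
  have hJ0 := Mero.algebraMap_ne_zero hjQ0
  -- the product `y * Q(j)` has nonnegative order everywhere
  set w : Mero.Fld N := algebraMap (Mero.ring N) (Mero.Fld N) a /
    algebraMap (Mero.ring N) (Mero.Fld N) b * algebraMap (Mero.ring N) (Mero.Fld N) (jp N Q)
    with hw
  have hwfix : ∀ γ : SL(2, ℤ), Mero.actF N γ w = w := by
    intro γ
    rw [hw, map_mul, hy γ, Mero.actF_algebraMap, act_jp]
  have hword : ∀ z : ℍ, Mero.ordAt N z w
      = Mero.ordAt N z (algebraMap (Mero.ring N) (Mero.Fld N) a)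
        - Mero.ordAt N z (algebraMap (Mero.ring N) (Mero.Fld N) b)
        + Mero.ordAt N z (algebraMap (Mero.ring N) (Mero.Fld N) (jp N Q)) := by
    intro z
    unfold Mero.ordAt
    rw [hw, Mero.ord_mul _ (div_ne_zero hA0 hB0) hJ0, Mero.ord_div _ hA0 hB0]
  have hwnonneg : ∀ z : ℍ, 0 ≤ Mero.ordAt N z w := by
    intro z
    obtain ⟨γ, hγ⟩ := ModularGroup.exists_smul_mem_fd z
    have h1 := ordAt_actF N γ z w
    rw [hwfix γ] at h1
    rw [← h1, hword]
    have h2 := hQ (γ • z) hγ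
    have h3 := ordAt_nonneg N (γ • z) ha
    omega
  have haQ : a * jp N Q ≠ 0 := mul_ne_zero ha hjQ0
  have hle : ∀ z : ℍ, Mero.ordAt N z (algebraMap (Mero.ring N) (Mero.Fld N) b)
      ≤ Mero.ordAt N z (algebraMap (Mero.ring N) (Mero.Fld N) (a * jp N Q)) := by
    intro z
    have h1 := hwnonneg z
    rw [hword] at h1
    rw [map_mul]
    unfold Mero.ordAt at h1 ⊢
    rw [Mero.ord_mul _ hA0 hJ0]
    omega
  obtain ⟨g, hgholo, hgmul⟩ := exists_holo_div N haQ hb hle
  -- invariance of `g`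
  have hbz : ∃ z, (b : ℍ → ℂ) z ≠ 0 := by
    by_contra hcon
    push Not at hcon
    exact hb (Subtype.ext (funext hcon))
  have hginv : ∀ (γ : SL(2, ℤ)) (z : ℍ), g (γ • z) = g z := by
    intro γ
    by_contra hcon
    push Not at hcon
    obtain ⟨z0, hz0⟩ := hcon
    obtain ⟨z1, hz1⟩ := hbz
    obtain ⟨z, hz⟩ := JN.exists_common_ne_zero (ι := Fin 3)
      (fun i => if i = 0 then (fun z => g (γ • z) - g z)
        else if i = 1 then (fun z => (b : ℍ → ℂ) (γ • z)) else (b : ℍ → ℂ))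
      (fun i => by
        fin_cases i
        · exact (Mero.holo_comp_smul hgholo γ).sub hgholo
        · exact Mero.holo_comp_smul (Mero.holo_of_mem b) γ
        · exact Mero.holo_of_mem b)
      (fun i => by
        fin_cases i
        · exact ⟨z0, sub_ne_zero.mpr hz0⟩
        · exact ⟨γ⁻¹ • z1, by simpa using hz1⟩
        · exact ⟨z1, hz1⟩)
    have e0 := hz 0
    have e1 := hz 1
    have e2 := hz 2
    simp only [if_true] at e0
    simp only [Fin.isValue, one_ne_zero, if_false, if_true] at e1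
    have e2' : (b : ℍ → ℂ) z ≠ 0 := by simpa using e2
    have c1 := congrFun (congrArg Subtype.val (hcross γ)) z
    have c1' : (a : ℍ → ℂ) (γ • z) * (b : ℍ → ℂ) z = (a : ℍ → ℂ) z * (b : ℍ → ℂ) (γ • z) := c1
    have m1 := hgmul (γ • z)
    have m2 := hgmul z
    have j1 : ((a * jp N Q : Mero.ring N) : ℍ → ℂ) (γ • z)
        = (a : ℍ → ℂ) (γ • z) * (jp N Q : ℍ → ℂ) z := by
      show (a : ℍ → ℂ) (γ • z) * (jp N Q : ℍ → ℂ) (γ • z) = _
      rw [jp_apply, jp_apply, JN.jFun_smul]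
    have j2 : ((a * jp N Q : Mero.ring N) : ℍ → ℂ) z
        = (a : ℍ → ℂ) z * (jp N Q : ℍ → ℂ) z := rfl
    rw [j1] at m1
    rw [j2] at m2
    apply e0
    have key : (g (γ • z) - g z) * ((b : ℍ → ℂ) (γ • z) * (b : ℍ → ℂ) z) = 0 := by
      calc (g (γ • z) - g z) * ((b : ℍ → ℂ) (γ • z) * (b : ℍ → ℂ) z)
          = (g (γ • z) * (b : ℍ → ℂ) (γ • z)) * (b : ℍ → ℂ) z
            - (g z * (b : ℍ → ℂ) z) * (b : ℍ → ℂ) (γ • z) := by ring
        _ = 0 := by
          rw [m1, m2]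
          linear_combination (jp N Q : ℍ → ℂ) z * c1'
    rcases mul_eq_zero.mp key with h | h
    · exact h
    · exact absurd h (mul_ne_zero e1 e2')
  -- `g` belongs to the ring and is a polynomial in `j`
  have hgmod : Mero.IsMod N g := isMod_of_invariant N hgholo hginv hb hgmul
  set gR : Mero.ring N := ⟨g, hgmod⟩ with hgR
  have hgRfix : ∀ γ : SL(2, ℤ), Mero.act N γ gR = gR := fun γ =>
    Subtype.ext (funext fun z => hginv γ z)
  obtain ⟨P, hP⟩ := exists_poly N gR hgRfix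
  refine ⟨P, Q, hjQ0, ?_⟩
  have hring : gR * b = a * jp N Q := Subtype.ext (funext fun z => hgmul z)
  rw [← hP]
  show algebraMap (Mero.ring N) (Mero.Fld N) a / algebraMap (Mero.ring N) (Mero.Fld N) b
    * algebraMap (Mero.ring N) (Mero.Fld N) (jp N Q) = algebraMap (Mero.ring N) (Mero.Fld N) gR
  rw [div_mul_eq_mul_div, div_eq_iff hB0, ← map_mul, ← map_mul, hring]

end Fermat.Agent.S29.LevelOne

end
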