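/-
S29 (wave 9), leaf (b): `m`-th roots of holomorphic functions on the upper half plane.

If `h` is holomorphic on the upper half plane and all its orders of vanishing are finite and
divisible by `m`, then `h = u ^ m` with `u` holomorphic (`exists_root_upper`, `exists_root_uhp`);
the root is unique up to a constant `m`-th root of unity (`exists_const_of_pow_eq`,
`exists_const_of_pow_eq_uhp`).  For a quotient `a / b` of holomorphic functions whose divisor is
divisible by `m` this gives `a / b = (u / b) ^ m` (`exists_root_quot`).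

Route: on a closed disk inside the domain, Mathlib's `MeromorphicOn.extract_zeros_poles` factors
`h` as a polynomial with roots of multiplicity divisible by `m` times a zero-free function; a
zero-free holomorphic function on a disk has a logarithm (`DifferentiableOn.isExactOn_ball`);
roots on an increasing sequence of disks are glued by the uniqueness of the root normalised at a
base point.  Mathlib only.
-/
import Mathlib

set_option autoImplicit false

open Complex Metric Set Filter Topology Function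
open UpperHalfPlane

namespace Fermat.Agent.S29.MRoot

/-- A nonvanishing holomorphic function on a disk is the exponential of a holomorphic function. -/
theorem exists_log_on_ball {g : ℂ → ℂ} {c : ℂ} {r : ℝ} (hr : 0 < r)
    (hg : DifferentiableOn ℂ g (ball c r)) (hg0 : ∀ z ∈ ball c r, g z ≠ 0) :
    ∃ L : ℂ → ℂ, DifferentiableOn ℂ L (ball c r) ∧ ∀ z ∈ ball c r, g z = exp (L z) := by
  have hopen : IsOpen (ball c r) := isOpen_ball
  have hd : DifferentiableOn ℂ (fun z => deriv g z / g z) (ball c r) :=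
    (hg.deriv hopen).div hg hg0
  obtain ⟨L0, hL0⟩ := hd.isExactOn_ball
  have hc : c ∈ ball c r := mem_ball_self hr
  -- `w = g * exp (-L0)` has zero derivative
  have hw : ∀ z ∈ ball c r, HasDerivAt (fun z => g z * exp (-L0 z)) 0 z := by
    intro z hz
    have h1 : HasDerivAt g (deriv g z) z :=
      (hg.differentiableAt (hopen.mem_nhds hz)).hasDerivAt
    have h2 : HasDerivAt (fun z => exp (-L0 z)) (exp (-L0 z) * -(deriv g z / g z)) z :=
      ((hL0 z hz).neg).cexp
    have h3 := h1.mul h2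
    have e : deriv g z * exp (-L0 z) + g z * (exp (-L0 z) * -(deriv g z / g z)) = 0 := by
      have := hg0 z hz
      field_simp
      ring
    rw [e] at h3
    exact h3
  have hwd : DifferentiableOn ℂ (fun z => g z * exp (-L0 z)) (ball c r) := fun z hz =>
    (hw z hz).differentiableAt.differentiableWithinAt
  have hconst : ∀ z ∈ ball c r, g z * exp (-L0 z) = g c * exp (-L0 c) := by
    intro z hz
    exact hopen.is_const_of_deriv_eq_zero (convex_ball c r).isPreconnected hwd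
      (fun x hx => (hw x hx).deriv) hz hc
  have hne : g c * exp (-L0 c) ≠ 0 := mul_ne_zero (hg0 c hc) (exp_ne_zero _)
  refine ⟨fun z => L0 z + log (g c * exp (-L0 c)), ?_, ?_⟩
  · have hL : DifferentiableOn ℂ L0 (ball c r) := fun z hz =>
      (hL0 z hz).differentiableAt.differentiableWithinAt
    exact hL.add_const _
  · intro z hz
    rw [exp_add, exp_log hne, ← hconst z hz, mul_comm, mul_assoc, ← exp_add, neg_add_cancel,
      exp_zero, mul_one]

/-- Local root on a disk whose closure lies in the domain. -/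
theorem exists_root_on_ball {m : ℕ} (hm : 0 < m) {U : Set ℂ} (hU : IsOpen U) {h : ℂ → ℂ}
    (hh : DifferentiableOn ℂ h U)
    (hord : ∀ z ∈ U, ∃ k : ℕ, analyticOrderAt h z = ((m * k : ℕ) : ℕ∞))
    {c : ℂ} {r : ℝ} (hr : 0 < r) (hK : closedBall c r ⊆ U) :
    ∃ u : ℂ → ℂ, DifferentiableOn ℂ u (ball c r) ∧ ∀ z ∈ ball c r, u z ^ m = h z := by
  have han : AnalyticOnNhd ℂ h U := hh.analyticOnNhd hU
  have hmero : MeromorphicOn h (closedBall c r) := fun z hz => (han z (hK hz)).meromorphicAt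
  have hordK : ∀ z ∈ closedBall c r, ∃ k : ℕ,
      meromorphicOrderAt h z = (((m * k : ℕ) : ℤ) : WithTop ℤ) := by
    intro z hz
    obtain ⟨k, hk⟩ := hord z (hK hz)
    refine ⟨k, ?_⟩
    rw [(han z (hK hz)).meromorphicOrderAt_eq, hk]
    rfl
  have hne : ∀ u : closedBall c r, meromorphicOrderAt h u ≠ ⊤ := by
    rintro ⟨z, hz⟩
    obtain ⟨k, hk⟩ := hordK z hz
    rw [hk]
    exact WithTop.coe_ne_top
  have hfin : (MeromorphicOn.divisor h (closedBall c r)).support.Finite :=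
    (MeromorphicOn.divisor h (closedBall c r)).finiteSupport (isCompact_closedBall c r)
  obtain ⟨g, hg, hg0, hfg⟩ := hmero.extract_zeros_poles hne hfin
  set D := MeromorphicOn.divisor h (closedBall c r) with hD
  let d : ℂ → ℤ := fun z => D z / (m : ℤ)
  have hm0 : (m : ℤ) ≠ 0 := by exact_mod_cast hm.ne'
  have hDd : ∀ z, D z = d z * (m : ℤ) ∧ 0 ≤ d z := by
    intro z
    by_cases hz : z ∈ closedBall c r
    · obtain ⟨k, hk⟩ := hordK z hz
      have h1 : D z = ((m * k : ℕ) : ℤ) := by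
        rw [hD, MeromorphicOn.divisor_apply hmero hz, hk]
        rfl
      have h2 : d z = (k : ℤ) := by
        show D z / (m : ℤ) = k
        rw [h1]
        push_cast
        exact Int.mul_ediv_cancel_left _ hm0
      rw [h1, h2]
      refine ⟨by push_cast; ring, by positivity⟩
    · have h1 : D z = 0 := D.apply_eq_zero_of_notMem hz
      have h2 : d z = 0 := by
        show D z / (m : ℤ) = 0
        rw [h1]; simp
      rw [h1, h2]
      simp
  have hdfin : d.HasFiniteSupport := by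
    refine hfin.subset fun z hz => ?_
    rw [Function.mem_support] at hz ⊢
    intro h0
    apply hz
    show D z / (m : ℤ) = 0
    rw [h0]; simp
  -- the polynomial part
  set P : ℂ → ℂ := ∏ᶠ u, (· - u) ^ d u with hP
  have hPan : ∀ x, AnalyticAt ℂ P x := fun x =>
    Function.FactorizedRational.analyticAt (hDd x).2
  have hPm : (∏ᶠ u, (· - u) ^ (D u) : ℂ → ℂ) = P ^ m := by
    rw [hP, finprod_pow]
    · congr 1
      funext u
      funext x
      simp only [Pi.pow_apply]
      rw [(hDd u).1, zpow_mul, zpow_natCast]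
    · show (fun u => ((· - u) ^ d u : ℂ → ℂ)).mulSupport.Finite
      rw [Function.FactorizedRational.mulSupport]
      exact hdfin
  -- the unit part has a logarithm on the ball
  have hgB : DifferentiableOn ℂ g (ball c r) := fun z hz =>
    (hg z (ball_subset_closedBall hz)).differentiableAt.differentiableWithinAt
  obtain ⟨L, hL, hgL⟩ := exists_log_on_ball hr hgB
    (fun z hz => hg0 ⟨z, ball_subset_closedBall hz⟩)
  refine ⟨fun z => P z * exp (L z / m), ?_, ?_⟩
  · intro z hz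
    have h1 : DifferentiableWithinAt ℂ P (ball c r) z :=
      (hPan z).differentiableAt.differentiableWithinAt
    have h2 : DifferentiableWithinAt ℂ (fun z => exp (L z / m)) (ball c r) z :=
      ((hL z hz).div_const _).cexp
    exact h1.mul h2
  · intro z hz
    have hzK : z ∈ closedBall c r := ball_subset_closedBall hz
    have hmem : {x | h x = ((∏ᶠ u, (· - u) ^ (D u) : ℂ → ℂ) • g) x} ∪ (closedBall c r)ᶜ
        ∈ 𝓝[≠] z := mem_codiscreteWithin_iff_forall_mem_nhdsNE.1 hfg z hzK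
    have hev : ∀ᶠ x in 𝓝[≠] z, h x = P x ^ m * g x := by
      have hball : ball c r ∈ 𝓝[≠] z := mem_nhdsWithin_of_mem_nhds (isOpen_ball.mem_nhds hz)
      filter_upwards [hmem, hball] with x hx hxb
      rcases hx with hx | hx
      · have h3 : h x = ((∏ᶠ u, (· - u) ^ (D u) : ℂ → ℂ) • g) x := hx
        rw [h3, hPm]
        rfl
      · exact absurd (ball_subset_closedBall hxb) hx
    have hc1 : Tendsto h (𝓝[≠] z) (𝓝 (h z)) :=
      (han z (hK hzK)).continuousAt.tendsto.mono_left nhdsWithin_le_nhds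
    have hc2 : Tendsto (fun x => P x ^ m * g x) (𝓝[≠] z) (𝓝 (P z ^ m * g z)) :=
      (((hPan z).continuousAt.pow m).mul (hg z hzK).continuousAt).tendsto.mono_left
        nhdsWithin_le_nhds
    have heq : h z = P z ^ m * g z := tendsto_nhds_unique_of_eventuallyEq hc1 hc2 hev
    have hmC : (m : ℂ) ≠ 0 := by exact_mod_cast hm.ne'
    rw [heq, mul_pow, ← Complex.exp_nat_mul, mul_div_cancel₀ _ hmC, ← hgL z hz]

/-- Uniqueness of `m`-th roots on a preconnected open set: two holomorphic functions with the same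
`m`-th power which agree and do not vanish at one point are equal. -/
theorem eqOn_of_pow_eq {m : ℕ} (hm : 0 < m) {B : Set ℂ} (hB : IsOpen B) (hBc : IsPreconnected B)
    {u v : ℂ → ℂ} (hu : DifferentiableOn ℂ u B) (hv : DifferentiableOn ℂ v B)
    (h : ∀ z ∈ B, u z ^ m = v z ^ m) {z₁ : ℂ} (hz₁ : z₁ ∈ B) (h1 : u z₁ = v z₁)
    (h0 : v z₁ ≠ 0) : ∀ z ∈ B, u z = v z := by
  have hua : AnalyticOnNhd ℂ u B := hu.analyticOnNhd hB
  have hva : AnalyticOnNhd ℂ v B := hv.analyticOnNhd hB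
  have hQd : DifferentiableOn ℂ
      (fun z => ∑ i ∈ Finset.range m, u z ^ i * v z ^ (m - 1 - i)) B :=
    DifferentiableOn.fun_sum fun i _ => (hu.pow i).mul (hv.pow _)
  have hQa := hQd.analyticOnNhd hB
  have hmul : ∀ z ∈ B, (u z - v z) * (∑ i ∈ Finset.range m, u z ^ i * v z ^ (m - 1 - i)) = 0 := by
    intro z hz
    rw [mul_comm, (Commute.all (u z) (v z)).geom_sum₂_mul, h z hz, sub_self]
  rcases AnalyticOnNhd.eq_zero_or_eq_zero_of_mul_eq_zero (hua.sub hva) hQa hmul hBc with h' | h'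
  · intro z hz
    exact sub_eq_zero.1 (h' z hz)
  · exfalso
    have h2 := h' z₁ hz₁
    have h3 : ∑ i ∈ Finset.range m, u z₁ ^ i * v z₁ ^ (m - 1 - i)
        = (m : ℂ) * v z₁ ^ (m - 1) := by
      rw [h1]
      have : ∀ i ∈ Finset.range m, v z₁ ^ i * v z₁ ^ (m - 1 - i) = v z₁ ^ (m - 1) := by
        intro i hi
        rw [← pow_add]
        congr 1
        have := Finset.mem_range.1 hi
        omega
      rw [Finset.sum_congr rfl this, Finset.sum_const, Finset.card_range, nsmul_eq_mul]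
    rw [h3] at h2
    have hmC : (m : ℂ) ≠ 0 := by exact_mod_cast hm.ne'
    exact mul_ne_zero hmC (pow_ne_zero _ h0) h2

/-- Two holomorphic functions on a preconnected open set with the same `m`-th power differ by a
constant `m`-th root of unity. -/
theorem exists_const_of_pow_eq_on {m : ℕ} (hm : 0 < m) {B : Set ℂ} (hB : IsOpen B)
    (hBc : IsPreconnected B) {u v : ℂ → ℂ} (hu : DifferentiableOn ℂ u B)
    (hv : DifferentiableOn ℂ v B) (h : ∀ z ∈ B, u z ^ m = v z ^ m)
    (hv0 : ∃ z ∈ B, v z ≠ 0) : ∃ ζ : ℂ, ζ ^ m = 1 ∧ ∀ z ∈ B, u z = ζ * v z := by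
  obtain ⟨z₁, hz₁, h0⟩ := hv0
  have hp : v z₁ ^ m ≠ 0 := pow_ne_zero _ h0
  have hζ : (u z₁ / v z₁) ^ m = 1 := by rw [div_pow, h z₁ hz₁, div_self hp]
  refine ⟨u z₁ / v z₁, hζ, ?_⟩
  have hu0 : u z₁ ≠ 0 := by
    intro hu0
    rw [hu0, zero_div, zero_pow hm.ne'] at hζ
    exact zero_ne_one hζ
  refine eqOn_of_pow_eq hm hB hBc hu (hv.const_mul _) ?_ hz₁ ?_ ?_
  · intro z hz
    rw [mul_pow, hζ, one_mul, h z hz]
  · rw [div_mul_cancel₀ _ h0]
  · rw [div_mul_cancel₀ _ h0]
    exact hu0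

/-- Gluing of local roots along an exhaustion by disks. -/
theorem exists_root_of_exhaustion {m : ℕ} (hm : 0 < m) {U : Set ℂ} (hU : IsOpen U) {h : ℂ → ℂ}
    (hh : DifferentiableOn ℂ h U)
    (hord : ∀ z ∈ U, ∃ k : ℕ, analyticOrderAt h z = ((m * k : ℕ) : ℕ∞))
    (c : ℕ → ℂ) (r : ℕ → ℝ) (hr : ∀ n, 0 < r n)
    (hmono : ∀ n, ball (c n) (r n) ⊆ ball (c (n + 1)) (r (n + 1)))
    (hsub : ∀ n, closedBall (c n) (r n) ⊆ U)
    (hcov : U ⊆ ⋃ n, ball (c n) (r n)) :
    ∃ u : ℂ → ℂ, DifferentiableOn ℂ u U ∧ ∀ z ∈ U, u z ^ m = h z := by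
  have hc0U : c 0 ∈ U := hsub 0 (mem_closedBall_self (hr 0).le)
  obtain ⟨z₁, hz₁B, hz₁⟩ : ∃ z₁ ∈ ball (c 0) (r 0), h z₁ ≠ 0 := by
    by_contra hcon
    push Not at hcon
    obtain ⟨k, hk⟩ := hord (c 0) hc0U
    have htop : analyticOrderAt h (c 0) = ⊤ := by
      rw [analyticOrderAt_eq_top]
      filter_upwards [isOpen_ball.mem_nhds (mem_ball_self (hr 0))] with z hz using hcon z hz
    rw [htop] at hk
    exact ENat.top_ne_natCast _ hk
  have hmono' : ∀ n j, ball (c n) (r n) ⊆ ball (c (n + j)) (r (n + j)) := by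
    intro n j
    induction j with
    | zero => exact subset_rfl
    | succ j ih => exact ih.trans (hmono (n + j))
  have hle : ∀ {a b : ℕ}, a ≤ b → ball (c a) (r a) ⊆ ball (c b) (r b) := by
    intro a b hab
    obtain ⟨j, rfl⟩ := Nat.exists_eq_add_of_le hab
    exact hmono' a j
  have hz₁n : ∀ n, z₁ ∈ ball (c n) (r n) := fun n => hle (Nat.zero_le n) hz₁B
  obtain ⟨w₁, hw₁⟩ : ∃ w₁ : ℂ, w₁ ^ m = h z₁ := IsAlgClosed.exists_pow_nat_eq _ hm
  have hw₁0 : w₁ ≠ 0 := by
    rintro rfl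
    rw [zero_pow hm.ne'] at hw₁
    exact hz₁ hw₁.symm
  have hex : ∀ n, ∃ v : ℂ → ℂ, DifferentiableOn ℂ v (ball (c n) (r n)) ∧
      (∀ z ∈ ball (c n) (r n), v z ^ m = h z) ∧ v z₁ = w₁ := by
    intro n
    obtain ⟨u, hu, hum⟩ := exists_root_on_ball hm hU hh hord (hr n) (hsub n)
    have hu1 : u z₁ ≠ 0 := by
      intro h0
      have := hum z₁ (hz₁n n)
      rw [h0, zero_pow hm.ne'] at this
      exact hz₁ this.symm
    refine ⟨fun z => (w₁ / u z₁) * u z, hu.const_mul _, ?_, ?_⟩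
    · intro z hz
      rw [mul_pow, div_pow, hw₁, hum z₁ (hz₁n n), div_self hz₁, one_mul, hum z hz]
    · exact div_mul_cancel₀ _ hu1
  choose v hv hvm hv1 using hex
  have hcompat : ∀ {a b : ℕ}, a ≤ b → ∀ z ∈ ball (c a) (r a), v a z = v b z := by
    intro a b hab
    refine eqOn_of_pow_eq hm isOpen_ball (convex_ball _ _).isPreconnected (hv a)
      ((hv b).mono (hle hab)) ?_ (hz₁n a) ?_ ?_
    · intro z hz
      rw [hvm a z hz, hvm b z (hle hab hz)]
    · rw [hv1, hv1]
    · rw [hv1]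
      exact hw₁0
  have hidx : ∀ z ∈ U, ∃ n, z ∈ ball (c n) (r n) := fun z hz => by
    simpa using hcov hz
  classical
  let u : ℂ → ℂ := fun z => if hz : ∃ n, z ∈ ball (c n) (r n) then v (Nat.find hz) z else 0
  have hu_eq : ∀ n, ∀ z ∈ ball (c n) (r n), u z = v n z := by
    intro n z hz
    have hz' : ∃ n, z ∈ ball (c n) (r n) := ⟨n, hz⟩
    simp only [u, dif_pos hz']
    exact hcompat (Nat.find_min' hz' hz) z (Nat.find_spec hz')
  refine ⟨u, ?_, ?_⟩
  · intro z hz
    obtain ⟨n, hn⟩ := hidx z hz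
    have hd : DifferentiableAt ℂ (v n) z := (hv n).differentiableAt (isOpen_ball.mem_nhds hn)
    have heq : u =ᶠ[𝓝 z] v n := by
      filter_upwards [isOpen_ball.mem_nhds hn] with x hx using hu_eq n x hx
    exact (hd.congr_of_eventuallyEq heq).differentiableWithinAt
  · intro z hz
    obtain ⟨n, hn⟩ := hidx z hz
    rw [hu_eq n z hn, hvm n z hn]

/-- Centres of the exhausting disks of the upper half plane. -/
noncomputable def ctr (n : ℕ) : ℂ := ((n : ℝ) + 2 : ℝ) * Complex.I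

/-- Radii of the exhausting disks of the upper half plane. -/
noncomputable def rad (n : ℕ) : ℝ := ((n : ℝ) + 2) - 1 / ((n : ℝ) + 2)

theorem rad_pos (n : ℕ) : 0 < rad n := by
  have h2 : (0 : ℝ) < (n : ℝ) + 2 := by positivity
  have h1 : 1 / ((n : ℝ) + 2) < 1 := by
    rw [div_lt_one h2]
    have : (0 : ℝ) ≤ n := Nat.cast_nonneg n
    linarith
  have : (1 : ℝ) < (n : ℝ) + 2 := by
    have : (0 : ℝ) ≤ n := Nat.cast_nonneg n
    linarith
  rw [rad]
  linarith

theorem ball_mono (n : ℕ) : ball (ctr n) (rad n) ⊆ ball (ctr (n + 1)) (rad (n + 1)) := by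
  apply ball_subset_ball'
  have hd : dist (ctr n) (ctr (n + 1)) = 1 := by
    rw [dist_eq_norm, ctr, ctr, ← sub_mul, norm_mul, norm_I, mul_one]
    push_cast
    have : ((n : ℂ) + 2 - ((n : ℂ) + 1 + 2)) = -1 := by ring
    rw [this, norm_neg, norm_one]
  rw [hd, rad, rad]
  have h2 : (0 : ℝ) < (n : ℝ) + 2 := by positivity
  have h3 : (0 : ℝ) < ((n + 1 : ℕ) : ℝ) + 2 := by positivity
  have : 1 / (((n + 1 : ℕ) : ℝ) + 2) ≤ 1 / ((n : ℝ) + 2) := by
    apply one_div_le_one_div_of_le h2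
    push_cast
    linarith
  push_cast at this ⊢
  linarith

theorem closedBall_subset (n : ℕ) : closedBall (ctr n) (rad n) ⊆ {z : ℂ | 0 < z.im} := by
  intro z hz
  rw [mem_closedBall, dist_eq_norm] at hz
  have h1 : |(z - ctr n).im| ≤ ‖z - ctr n‖ := Complex.abs_im_le_norm _
  have h2 : (z - ctr n).im = z.im - ((n : ℝ) + 2) := by
    simp [ctr]
  rw [h2] at h1
  have h3 := (abs_le.1 (h1.trans hz)).1
  have h4 : (0 : ℝ) < 1 / ((n : ℝ) + 2) := by positivity
  rw [rad] at h3
  show 0 < z.im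
  linarith

theorem upper_subset_iUnion : {z : ℂ | 0 < z.im} ⊆ ⋃ n, ball (ctr n) (rad n) := by
  intro z hz
  have hz' : 0 < z.im := hz
  obtain ⟨n, hn⟩ := exists_nat_gt ((z.re ^ 2 + z.im ^ 2 + 2) / (2 * z.im))
  refine mem_iUnion.2 ⟨n, ?_⟩
  rw [mem_ball, dist_eq_norm]
  have hR : (0 : ℝ) < (n : ℝ) + 2 := by positivity
  have hrad := rad_pos n
  apply lt_of_pow_lt_pow_left₀ 2 hrad.le
  rw [Complex.sq_norm, Complex.normSq_apply]
  have h1 : (z - ctr n).re = z.re := by simp [ctr]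
  have h2 : (z - ctr n).im = z.im - ((n : ℝ) + 2) := by simp [ctr]
  rw [h1, h2, rad]
  have h5 : z.re ^ 2 + z.im ^ 2 + 2 < 2 * z.im * ((n : ℝ) + 2) := by
    have := (div_lt_iff₀ (by positivity : (0 : ℝ) < 2 * z.im)).1 hn
    nlinarith
  have h6 : ((n : ℝ) + 2 - 1 / ((n : ℝ) + 2)) ^ 2
      = ((n : ℝ) + 2) ^ 2 - 2 + (1 / ((n : ℝ) + 2)) ^ 2 := by
    field_simp
    ring
  rw [h6]
  have h7 : (0 : ℝ) ≤ (1 / ((n : ℝ) + 2)) ^ 2 := sq_nonneg _
  nlinarith

/-- **`m`-th roots on the upper half plane.** A holomorphic function on the upper half plane all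
of whose orders of vanishing are finite and divisible by `m` is the `m`-th power of a holomorphic
function. -/
theorem exists_root_upper {m : ℕ} (hm : 0 < m) {h : ℂ → ℂ}
    (hh : DifferentiableOn ℂ h {z : ℂ | 0 < z.im})
    (hord : ∀ z : ℂ, 0 < z.im → ∃ k : ℕ, analyticOrderAt h z = ((m * k : ℕ) : ℕ∞)) :
    ∃ u : ℂ → ℂ, DifferentiableOn ℂ u {z : ℂ | 0 < z.im} ∧ ∀ z : ℂ, 0 < z.im → u z ^ m = h z :=
  exists_root_of_exhaustion hm (isOpen_lt continuous_const Complex.continuous_im) hh hord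
    ctr rad rad_pos ball_mono closedBall_subset upper_subset_iUnion

theorem isOpen_upper : IsOpen {z : ℂ | 0 < z.im} := isOpen_lt continuous_const Complex.continuous_im

/-- Uniqueness on the upper half plane: two holomorphic functions with the same `m`-th power
differ by a constant `m`-th root of unity. -/
theorem exists_const_of_pow_eq {m : ℕ} (hm : 0 < m) {u v : ℂ → ℂ}
    (hu : DifferentiableOn ℂ u {z : ℂ | 0 < z.im}) (hv : DifferentiableOn ℂ v {z : ℂ | 0 < z.im})
    (h : ∀ z : ℂ, 0 < z.im → u z ^ m = v z ^ m) (hv0 : ∃ z : ℂ, 0 < z.im ∧ v z ≠ 0) :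
    ∃ ζ : ℂ, ζ ^ m = 1 ∧ ∀ z : ℂ, 0 < z.im → u z = ζ * v z :=
  exists_const_of_pow_eq_on hm isOpen_upper (convex_halfSpace_im_gt 0).isPreconnected hu hv h hv0

/-- A function on `ℍ` read on `ℂ` agrees with its values on the upper half plane. -/
theorem comp_ofComplex_apply (f : ℍ → ℂ) (z : ℍ) : (f ∘ ofComplex) (z : ℂ) = f z := by
  simp [Function.comp, ofComplex_apply]

/-- `ℍ`-form of `exists_root_upper`. -/
theorem exists_root_uhp {m : ℕ} (hm : 0 < m) {h : ℍ → ℂ}
    (hh : DifferentiableOn ℂ (h ∘ ofComplex) {z : ℂ | 0 < z.im})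
    (hord : ∀ z : ℍ, ∃ k : ℕ,
      analyticOrderAt (h ∘ ofComplex) (z : ℂ) = ((m * k : ℕ) : ℕ∞)) :
    ∃ u : ℍ → ℂ, DifferentiableOn ℂ (u ∘ ofComplex) {z : ℂ | 0 < z.im} ∧
      ∀ z : ℍ, u z ^ m = h z := by
  obtain ⟨u₀, hu₀, hum⟩ := exists_root_upper hm hh (fun z hz => hord ⟨z, hz⟩)
  refine ⟨fun z => u₀ (z : ℂ), ?_, ?_⟩
  · refine hu₀.congr fun z hz => ?_
    show u₀ ((ofComplex z : ℍ) : ℂ) = u₀ z
    rw [ofComplex_apply_of_im_pos hz]
  · intro z
    rw [hum (z : ℂ) z.im_pos, comp_ofComplex_apply]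

/-- `ℍ`-form of `exists_const_of_pow_eq`. -/
theorem exists_const_of_pow_eq_uhp {m : ℕ} (hm : 0 < m) {u v : ℍ → ℂ}
    (hu : DifferentiableOn ℂ (u ∘ ofComplex) {z : ℂ | 0 < z.im})
    (hv : DifferentiableOn ℂ (v ∘ ofComplex) {z : ℂ | 0 < z.im})
    (h : ∀ z : ℍ, u z ^ m = v z ^ m) (hv0 : ∃ z : ℍ, v z ≠ 0) :
    ∃ ζ : ℂ, ζ ^ m = 1 ∧ ∀ z : ℍ, u z = ζ * v z := by
  obtain ⟨z₀, hz₀⟩ := hv0
  obtain ⟨ζ, hζ, hζu⟩ := exists_const_of_pow_eq hm hu hv
    (fun z hz => by
      have := h ⟨z, hz⟩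
      rwa [← comp_ofComplex_apply u ⟨z, hz⟩, ← comp_ofComplex_apply v ⟨z, hz⟩] at this)
    ⟨(z₀ : ℂ), z₀.im_pos, by rwa [comp_ofComplex_apply]⟩
  refine ⟨ζ, hζ, fun z => ?_⟩
  have := hζu (z : ℂ) z.im_pos
  rwa [comp_ofComplex_apply, comp_ofComplex_apply] at this

/-- Quotient form: if `a`, `b` are holomorphic on `ℍ`, of finite order everywhere, and
`ord_z a - ord_z b` is divisible by `m` at every point, then `a / b = (u / b) ^ m` for a holomorphic
`u` (namely `u ^ m = a * b ^ (m - 1)`). -/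
theorem exists_root_quot {m : ℕ} (hm : 0 < m) {a b : ℍ → ℂ}
    (ha : DifferentiableOn ℂ (a ∘ ofComplex) {z : ℂ | 0 < z.im})
    (hb : DifferentiableOn ℂ (b ∘ ofComplex) {z : ℂ | 0 < z.im})
    (hord : ∀ z : ℍ, ∃ (i j : ℕ) (k : ℤ), analyticOrderAt (a ∘ ofComplex) (z : ℂ) = (i : ℕ∞) ∧
      analyticOrderAt (b ∘ ofComplex) (z : ℂ) = (j : ℕ∞) ∧ (i : ℤ) - j = m * k) :
    ∃ u : ℍ → ℂ, DifferentiableOn ℂ (u ∘ ofComplex) {z : ℂ | 0 < z.im} ∧
      ∀ z : ℍ, u z ^ m * b z = a z * b z ^ m := by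
  have hfun : (fun z => a z * b z ^ (m - 1)) ∘ ofComplex
      = (a ∘ ofComplex) * (b ∘ ofComplex) ^ (m - 1) := rfl
  obtain ⟨u, hu, hum⟩ := exists_root_uhp (h := fun z => a z * b z ^ (m - 1)) hm
    (by rw [hfun]; exact ha.mul (hb.pow _))
    (by
      intro z
      obtain ⟨i, j, k, hi, hj, hk⟩ := hord z
      have haa : AnalyticAt ℂ (a ∘ ofComplex) (z : ℂ) :=
        (ha.analyticOnNhd isOpen_upper) _ z.im_pos
      have hba : AnalyticAt ℂ (b ∘ ofComplex) (z : ℂ) :=
        (hb.analyticOnNhd isOpen_upper) _ z.im_pos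
      have hk0 : 0 ≤ k + j := by
        have h1 : (0 : ℤ) ≤ (i : ℤ) + (m - 1) * j := by
          have : (1 : ℤ) ≤ m := by exact_mod_cast hm
          have : (0 : ℤ) ≤ ((m : ℤ) - 1) * j := by positivity
          positivity
        have h2 : (m : ℤ) * (k + j) = (i : ℤ) + (m - 1) * j := by linarith
        have hm' : (0 : ℤ) < m := by exact_mod_cast hm
        by_contra hneg
        rw [not_le] at hneg
        nlinarith
      refine ⟨(k + j).toNat, ?_⟩
      rw [hfun, analyticOrderAt_mul haa (hba.pow _), analyticOrderAt_pow hba, hi, hj]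
      have h3 : i + (m - 1) * j = m * (k + j).toNat := by
        zify
        rw [Int.toNat_of_nonneg hk0, Nat.cast_sub hm]
        push_cast
        linarith
      rw [← h3]
      push_cast
      simp [nsmul_eq_mul])
  refine ⟨u, hu, fun z => ?_⟩
  rw [hum z, mul_assoc, ← pow_succ, Nat.sub_add_cancel hm]

end Fermat.Agent.S29.MRoot
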