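/-
S29 (wave 9), analytic leaf of the torsion Abel–Jacobi map: `m`-th roots of meromorphic functions
whose orders are all divisible by `m`, on the upper half plane.

Everything is stated for functions `ℂ → ℂ` and the set `uhp = {z | 0 < z.im}`; "meromorphic in
normal form" is Mathlib's `MeromorphicNFOn` (the value at a zero or a pole is `0`, elsewhere the
function is analytic), so that all identities hold POINTWISE on the upper half plane.

* `differentiableAt_of_pow_eq` : a continuous `m`-th root of a nonvanishing differentiable function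
  is differentiable.
* `exists_analytic_root` : a nonvanishing analytic function on an open ball has an analytic
  `m`-th root (covering-space lifting on the simply connected ball).
* `exists_root_ball` : near a closed ball, `h = ∏ (z - u) ^ d u * g` with `g` analytic without
  zeros (`MeromorphicOn.extract_zeros_poles`); if `m ∣ d u` for all `u` this gives a root on the
  open ball.
* `root_unique` : on a preconnected open set two roots in normal form differ by a root of unity.
* `exists_root_of_exhaustion` : gluing along an increasing sequence of balls.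
* `exists_root`, `exists_root'` : **existence of `m`-th roots on the upper half plane** of a
  meromorphic function all of whose orders are finite and divisible by `m`.
* `root_unique_uhp`, `exists_multiplier` : uniqueness up to `μ_m`, and the multiplier
  `f ∘ γ = ζ • f` of a root under an analytic self-map `γ` with `(f ∘ γ) ^ m = f ^ m`
  (the character of the torsion Abel–Jacobi map).
* `order_eq_mul` : `ord_z h = m * ord_z f`.

No Weierstrass products, no path integrals, no monodromy theorem.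
-/
import Mathlib

set_option autoImplicit false

noncomputable section

open Filter Topology Set Metric Function

namespace Fermat.Agent.S29.MeroRoot

/-! ### Roots of nonvanishing analytic functions on a ball -/

/-- A continuous `m`-th root of a differentiable function with nonzero value is differentiable. -/
theorem differentiableAt_of_pow_eq {g ρ : ℂ → ℂ} {z₀ : ℂ} {m : ℕ} (hm : m ≠ 0)
    (hg : DifferentiableAt ℂ g z₀) (hρc : ContinuousAt ρ z₀) (hg0 : g z₀ ≠ 0)
    (hpow : ∀ᶠ z in 𝓝 z₀, ρ z ^ m = g z) : DifferentiableAt ℂ ρ z₀ := by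
  have hw₀m : ρ z₀ ^ m = g z₀ := hpow.self_of_nhds
  have hw₀0 : ρ z₀ ≠ 0 := by
    intro h0
    rw [h0, zero_pow hm] at hw₀m
    exact hg0 hw₀m.symm
  have hf : HasStrictDerivAt (fun w : ℂ => w ^ m) ((m : ℂ) * ρ z₀ ^ (m - 1)) (ρ z₀) :=
    hasStrictDerivAt_pow m (ρ z₀)
  have hf' : (m : ℂ) * ρ z₀ ^ (m - 1) ≠ 0 :=
    mul_ne_zero (Nat.cast_ne_zero.mpr hm) (pow_ne_zero _ hw₀0)
  have hinv := hf.to_localInverse hf'
  have hleft := hf.eventually_left_inverse hf'
  have h1 : ∀ᶠ z in 𝓝 z₀, hf.localInverse _ _ _ hf' (ρ z ^ m) = ρ z := hρc.eventually hleft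
  have h2 : ρ =ᶠ[𝓝 z₀] fun z => hf.localInverse _ _ _ hf' (g z) := by
    filter_upwards [h1, hpow] with z hz1 hz2
    rw [← hz2, hz1]
  have h3 : DifferentiableAt ℂ (hf.localInverse _ _ _ hf') (g z₀) := by
    have := hinv.hasDerivAt.differentiableAt
    rwa [hw₀m] at this
  exact (h3.comp z₀ hg).congr_of_eventuallyEq h2

theorem isSimplyConnected_ball (c : ℂ) {r : ℝ} (hr : 0 < r) : IsSimplyConnected (ball c r) := by
  have := (convex_ball c r).contractibleSpace ⟨c, mem_ball_self hr⟩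
  exact (inferInstance : SimplyConnectedSpace (ball c r))

/-- A nonvanishing analytic function on an open ball has an analytic `m`-th root. -/
theorem exists_analytic_root {g : ℂ → ℂ} {c : ℂ} {r : ℝ} (hr : 0 < r)
    (hg : AnalyticOnNhd ℂ g (ball c r)) (hg0 : ∀ z ∈ ball c r, g z ≠ 0) {m : ℕ} (hm : m ≠ 0) :
    ∃ ρ : ℂ → ℂ, AnalyticOnNhd ℂ ρ (ball c r) ∧ ∀ z ∈ ball c r, ρ z ^ m = g z := by
  obtain ⟨ρ, hρc, hρ⟩ := Complex.exists_continuousOn_pow_eq (isSimplyConnected_ball c hr)
    isOpen_ball hg.continuousOn (by rintro ⟨z, hz, h0⟩; exact hg0 z hz h0) hm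
  refine ⟨ρ, ?_, fun z _ => hρ z⟩
  apply DifferentiableOn.analyticOnNhd _ isOpen_ball
  intro z hz
  exact (differentiableAt_of_pow_eq hm (hg z hz).differentiableAt
    (hρc.continuousAt (isOpen_ball.mem_nhds hz)) (hg0 z hz)
    (Eventually.of_forall hρ)).differentiableWithinAt

/-! ### Roots of meromorphic functions on a ball -/

section Ball

variable {U : Set ℂ} {h : ℂ → ℂ} {m : ℕ}

/-- A meromorphic function in normal form near a closed ball, all of whose orders on the ball are
finite and divisible by `m`, has an `m`-th root on the open ball which is meromorphic in normal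
form. -/
theorem exists_root_ball (hm : m ≠ 0) (hh : MeromorphicNFOn h U)
    (hne : ∀ z ∈ U, meromorphicOrderAt h z ≠ ⊤)
    (hdiv : ∀ z ∈ U, ∃ n : ℤ, meromorphicOrderAt h z = ((m * n : ℤ) : WithTop ℤ))
    {c : ℂ} {r : ℝ} (hr : 0 < r) (hK : closedBall c r ⊆ U) :
    ∃ f : ℂ → ℂ, MeromorphicNFOn f (ball c r) ∧ ∀ z ∈ ball c r, f z ^ m = h z := by
  have hmK : MeromorphicOn h (closedBall c r) := fun z hz => (hh (hK hz)).meromorphicAt
  have hfin : (MeromorphicOn.divisor h (closedBall c r)).support.Finite :=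
    (MeromorphicOn.divisor h (closedBall c r)).finiteSupport (isCompact_closedBall c r)
  obtain ⟨g, hg, hg0, hEq⟩ := hmK.extract_zeros_poles (fun u => hne u (hK u.2)) hfin
  set d : ℂ → ℤ := fun u => MeromorphicOn.divisor h (closedBall c r) u with hd
  have hdfin : d.HasFiniteSupport := hfin
  have hd' : ∀ u, d u = (m : ℤ) * (d u / (m : ℤ)) := by
    intro u
    by_cases hu : u ∈ closedBall c r
    · obtain ⟨n, hn⟩ := hdiv u (hK hu)
      have : d u = (m : ℤ) * n := by
        rw [hd]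
        simp only
        rw [MeromorphicOn.divisor_apply hmK hu, hn, WithTop.untop₀_coe]
      rw [this, Int.mul_ediv_cancel_left _ (Int.natCast_ne_zero.mpr hm)]
    · have : d u = 0 := by
        rw [hd]
        simp only
        rw [MeromorphicOn.divisor_def]
        simp [hu]
      rw [this]
      simp
  have hd'fin : (fun u => d u / (m : ℤ)).HasFiniteSupport := by
    refine hdfin.subset fun u hu => ?_
    rw [Function.mem_support] at hu ⊢
    intro h0
    apply hu
    simp only [h0, Int.zero_ediv]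
  have hφ : ∀ z, (∏ᶠ u, (· - u) ^ (d u / (m : ℤ)) : ℂ → ℂ) z ^ m
      = (∏ᶠ u, (· - u) ^ d u : ℂ → ℂ) z := by
    intro z
    rw [Function.FactorizedRational.finprod_eq_fun hd'fin,
      Function.FactorizedRational.finprod_eq_fun hdfin]
    simp only
    have hfs : (fun u => (z - u) ^ (d u / (m : ℤ))).HasFiniteMulSupport := by
      refine hd'fin.subset fun u hu => ?_
      rw [Function.mem_mulSupport] at hu
      rw [Function.mem_support]
      intro h0
      apply hu
      simp only [h0, zpow_zero]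
    rw [finprod_pow hfs]
    refine finprod_congr fun u => ?_
    rw [← zpow_natCast, ← zpow_mul, mul_comm, ← hd' u]
  obtain ⟨ρ, hρ, hρm⟩ := exists_analytic_root hr (hg.mono ball_subset_closedBall)
    (fun z hz => hg0 ⟨z, ball_subset_closedBall hz⟩) hm
  refine ⟨(∏ᶠ u, (· - u) ^ (d u / (m : ℤ))) * ρ, ?_, ?_⟩
  · intro z hz
    have hρ0 : ρ z ≠ 0 := fun h0 => hg0 ⟨z, ball_subset_closedBall hz⟩ (by
      rw [← hρm z hz, h0, zero_pow hm])
    exact (meromorphicNFAt_mul_iff_left (hρ z hz) hρ0).mpr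
      (Function.FactorizedRational.meromorphicNFOn _ univ (mem_univ z))
  · intro z hz
    show ((∏ᶠ u, (· - u) ^ (d u / (m : ℤ)) : ℂ → ℂ) z * ρ z) ^ m = h z
    rw [mul_pow, hφ, hρm z hz]
    have hzK : z ∈ closedBall c r := ball_subset_closedBall hz
    have hNF1 : MeromorphicNFAt h z := hh (hK hzK)
    have hNF2 : MeromorphicNFAt ((∏ᶠ u, (· - u) ^ d u) * g) z :=
      (meromorphicNFAt_mul_iff_left (hg z hzK) (hg0 ⟨z, hzK⟩)).mpr
        (Function.FactorizedRational.meromorphicNFOn d univ (mem_univ z))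
    have hev : h =ᶠ[𝓝[≠] z] (∏ᶠ u, (· - u) ^ d u) * g := by
      have h1 := (mem_codiscreteWithin_iff_forall_mem_nhdsNE.mp hEq) z hzK
      have h2 : ball c r ∈ 𝓝[≠] z := mem_nhdsWithin_of_mem_nhds (isOpen_ball.mem_nhds hz)
      filter_upwards [h1, h2] with w hw1 hw2
      rcases hw1 with hw1 | hw1
      · exact hw1
      · exact absurd (ball_subset_closedBall hw2) hw1
    exact ((hNF1.eventuallyEq_nhdsNE_iff_eventuallyEq_nhds hNF2).mp hev).self_of_nhds.symm

end Ball

/-! ### Uniqueness of roots up to roots of unity -/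

section Unique

/-- Arithmetic in `WithTop ℤ`: cancel a nonzero natural factor when one side is finite. -/
theorem withTop_eq_of_nat_mul_eq {m : ℕ} (hm : m ≠ 0) {a b : WithTop ℤ} (ha : a ≠ ⊤)
    (hab : (m : WithTop ℤ) * a = (m : WithTop ℤ) * b) : a = b := by
  lift a to ℤ using ha
  induction b using WithTop.recTopCoe with
  | top =>
    exfalso
    rw [WithTop.mul_top (by exact_mod_cast hm)] at hab
    exact WithTop.coe_ne_top (a := (m : ℤ) * a) (by exact_mod_cast hab)
  | coe b =>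
    have h1 : ((m : ℤ) * a : ℤ) = (m : ℤ) * b := by exact_mod_cast hab
    have h2 : a = b := mul_left_cancel₀ (Int.natCast_ne_zero.mpr hm) h1
    rw [h2]

/-- **Uniqueness of roots.**  Two functions which are meromorphic in normal form on a preconnected
open set, are not locally zero and have the same `m`-th power differ by an `m`-th root of unity. -/
theorem root_unique {V : Set ℂ} (hV : IsOpen V) (hVc : IsPreconnected V) {f₁ f₂ : ℂ → ℂ} {m : ℕ}
    (hm : m ≠ 0) (h₁ : MeromorphicNFOn f₁ V) (h₂ : MeromorphicNFOn f₂ V)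
    (hne : ∀ z ∈ V, meromorphicOrderAt f₁ z ≠ ⊤)
    (hpow : ∀ z ∈ V, f₁ z ^ m = f₂ z ^ m) :
    ∃ ζ : ℂ, ζ ^ m = 1 ∧ ∀ z ∈ V, f₂ z = ζ * f₁ z := by
  rcases V.eq_empty_or_nonempty with hVe | ⟨z₀, hz₀⟩
  · exact ⟨1, one_pow m, fun z hz => by rw [hVe] at hz; exact absurd hz (Set.notMem_empty z)⟩
  have hm₁ : MeromorphicOn f₁ V := h₁.meromorphicOn
  have hm₂ : MeromorphicOn f₂ V := h₂.meromorphicOn
  have hq : MeromorphicOn (f₂ * f₁⁻¹) V := hm₂.mul hm₁.inv
  -- the orders agree
  have hord : ∀ z ∈ V, meromorphicOrderAt f₂ z = meromorphicOrderAt f₁ z := by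
    intro z hz
    have hev : f₁ ^ m =ᶠ[𝓝[≠] z] f₂ ^ m := by
      filter_upwards [mem_nhdsWithin_of_mem_nhds (hV.mem_nhds hz)] with w hw
      exact hpow w hw
    have h3 := meromorphicOrderAt_congr hev
    rw [meromorphicOrderAt_pow (hm₁ z hz), meromorphicOrderAt_pow (hm₂ z hz)] at h3
    exact (withTop_eq_of_nat_mul_eq hm (hne z hz) h3).symm
  -- the quotient in normal form is analytic
  set Q := toMeromorphicNFOn (f₂ * f₁⁻¹) V with hQ
  have hQNF : MeromorphicNFOn Q V := meromorphicNFOn_toMeromorphicNFOn _ _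
  have hQord : ∀ z ∈ V, meromorphicOrderAt Q z = 0 := by
    intro z hz
    rw [hQ, meromorphicOrderAt_toMeromorphicNFOn hq hz,
      meromorphicOrderAt_mul (hm₂ z hz) (hm₁ z hz).inv, meromorphicOrderAt_inv, hord z hz]
    have := hne z hz
    lift meromorphicOrderAt f₁ z to ℤ using this with a
    rw [← WithTop.LinearOrderedAddCommGroup.coe_neg, ← WithTop.coe_add]
    simp
  have hQan : ∀ z ∈ V, AnalyticAt ℂ Q z := fun z hz =>
    (hQNF hz).meromorphicOrderAt_nonneg_iff_analyticAt.mp (hQord z hz).ge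
  -- near every point: `f₁ ≠ 0`, `Q = f₂ / f₁`
  have hloc : ∀ z ∈ V, ∀ᶠ w in 𝓝[≠] z, f₁ w ≠ 0 ∧ Q w = f₂ w * (f₁ w)⁻¹ ∧ w ∈ V := by
    intro z hz
    filter_upwards [(meromorphicOrderAt_ne_top_iff_eventually_ne_zero (hm₁ z hz)).mp (hne z hz),
      hq.toMeromorphicNFOn_eq_self_on_nhdsNE hz,
      mem_nhdsWithin_of_mem_nhds (hV.mem_nhds hz)] with w hw1 hw2 hw3
    exact ⟨hw1, hw2, hw3⟩
  -- `Q ^ m = 1` on `V`
  have hQpow : ∀ z ∈ V, Q z ^ m = 1 := by
    intro z hz
    have hev : (fun w => Q w ^ m) =ᶠ[𝓝[≠] z] fun _ => (1 : ℂ) := by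
      filter_upwards [hloc z hz] with w ⟨hw1, hw2, hw3⟩
      rw [hw2, mul_pow, inv_pow, ← hpow w hw3, mul_inv_cancel₀ (pow_ne_zero m hw1)]
    have hc : ContinuousAt (fun w => Q w ^ m) z := ((hQan z hz).continuousAt).pow m
    exact ((hc.eventuallyEq_nhds_iff_eventuallyEq_nhdsNE continuousAt_const).mp hev).self_of_nhds
  -- `Q` is constant
  have hQd : DifferentiableOn ℂ Q V := fun z hz => (hQan z hz).differentiableAt.differentiableWithinAt
  have hQderiv : V.EqOn (deriv Q) 0 := by
    intro z hz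
    have hQz : Q z ≠ 0 := by
      intro h0
      have := hQpow z hz
      rw [h0, zero_pow hm] at this
      exact zero_ne_one this
    have h3 : deriv (fun w => Q w ^ m) z = 0 := by
      have hev : (fun w => Q w ^ m) =ᶠ[𝓝 z] fun _ => (1 : ℂ) := by
        filter_upwards [hV.mem_nhds hz] with w hw
        exact hQpow w hw
      rw [hev.deriv_eq, deriv_const]
    rw [deriv_fun_pow (hQan z hz).differentiableAt] at h3
    rcases mul_eq_zero.mp h3 with h4 | h4
    · rcases mul_eq_zero.mp h4 with h5 | h5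
      · exact absurd h5 (Nat.cast_ne_zero.mpr hm)
      · exact absurd h5 (pow_ne_zero _ hQz)
    · exact h4
  obtain ⟨ζ, hζ⟩ := hV.exists_is_const_of_deriv_eq_zero hVc hQd hQderiv
  refine ⟨ζ, by rw [← hζ z₀ hz₀]; exact hQpow z₀ hz₀, fun z hz => ?_⟩
  have hζ0 : ζ ≠ 0 := by
    intro h0
    have := hQpow z₀ hz₀
    rw [hζ z₀ hz₀, h0, zero_pow hm] at this
    exact zero_ne_one this
  have hNF : MeromorphicNFAt ((fun _ => ζ) * f₁) z :=
    (meromorphicNFAt_mul_iff_right analyticAt_const hζ0).mpr (h₁ hz)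
  have hev : f₂ =ᶠ[𝓝[≠] z] (fun _ => ζ) * f₁ := by
    filter_upwards [hloc z hz] with w ⟨hw1, hw2, hw3⟩
    show f₂ w = ζ * f₁ w
    rw [← hζ w hw3, hw2, mul_assoc, inv_mul_cancel₀ hw1, mul_one]
  exact ((h₂ hz).eventuallyEq_nhdsNE_iff_eventuallyEq_nhds hNF).mp hev |>.self_of_nhds

end Unique

/-! ### Gluing along an exhaustion by balls -/

section Glue

variable {U : Set ℂ} {h : ℂ → ℂ} {m : ℕ}

/-- a root of a function with finite orders has finite orders -/
theorem order_ne_top_of_pow_eq {V : Set ℂ} (hV : IsOpen V) (hm : m ≠ 0) {f : ℂ → ℂ}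
    (hf : MeromorphicOn f V) (hpow : ∀ z ∈ V, f z ^ m = h z) {z : ℂ} (hz : z ∈ V)
    (hne : meromorphicOrderAt h z ≠ ⊤) : meromorphicOrderAt f z ≠ ⊤ := by
  intro htop
  apply hne
  have hev : f ^ m =ᶠ[𝓝[≠] z] h := by
    filter_upwards [mem_nhdsWithin_of_mem_nhds (hV.mem_nhds hz)] with w hw
    exact hpow w hw
  rw [← meromorphicOrderAt_congr hev, meromorphicOrderAt_pow (hf z hz), htop,
    WithTop.mul_top (by exact_mod_cast hm)]

/-- **Existence of roots on a domain exhausted by balls.** -/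
theorem exists_root_of_exhaustion (hm : m ≠ 0) (hh : MeromorphicNFOn h U)
    (hne : ∀ z ∈ U, meromorphicOrderAt h z ≠ ⊤)
    (hdiv : ∀ z ∈ U, ∃ n : ℤ, meromorphicOrderAt h z = ((m * n : ℤ) : WithTop ℤ))
    (c : ℕ → ℂ) (r : ℕ → ℝ) (hr : ∀ n, 0 < r n) (hK : ∀ n, closedBall (c n) (r n) ⊆ U)
    (hmono : ∀ n, ball (c n) (r n) ⊆ ball (c (n + 1)) (r (n + 1)))
    (hcov : ∀ z ∈ U, ∃ n, z ∈ ball (c n) (r n)) :
    ∃ f : ℂ → ℂ, MeromorphicNFOn f U ∧ ∀ z ∈ U, f z ^ m = h z := by
  have hBU : ∀ n, ball (c n) (r n) ⊆ U := fun n => ball_subset_closedBall.trans (hK n)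
  have H : ∀ n, ∃ f : ℂ → ℂ, MeromorphicNFOn f (ball (c n) (r n)) ∧
      ∀ z ∈ ball (c n) (r n), f z ^ m = h z := fun n =>
    exists_root_ball hm hh hne hdiv (hr n) (hK n)
  choose f hfNF hfpow using H
  have H2 : ∀ n, ∃ ζ : ℂ, ζ ^ m = 1 ∧ ∀ z ∈ ball (c n) (r n), f (n + 1) z = ζ * f n z := by
    intro n
    refine root_unique isOpen_ball (convex_ball (c n) (r n)).isPreconnected hm (hfNF n)
      (fun z hz => hfNF (n + 1) (hmono n hz)) (fun z hz => ?_) (fun z hz => ?_)
    · exact order_ne_top_of_pow_eq isOpen_ball hm (hfNF n).meromorphicOn (hfpow n) hz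
        (hne z (hBU n hz))
    · rw [hfpow n z hz, hfpow (n + 1) z (hmono n hz)]
  choose ζ hζ1 hζ using H2
  have hζ0 : ∀ n, ζ n ≠ 0 := by
    intro n h0
    have := hζ1 n
    rw [h0, zero_pow hm] at this
    exact zero_ne_one this
  -- the correcting constants
  set e : ℕ → ℂ := fun n => Nat.rec (1 : ℂ) (fun k ek => ek * (ζ k)⁻¹) n with he
  have he0 : e 0 = 1 := rfl
  have hes : ∀ n, e (n + 1) = e n * (ζ n)⁻¹ := fun n => rfl
  have hepow : ∀ n, e n ^ m = 1 := by
    intro n
    induction n with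
    | zero => rw [he0, one_pow]
    | succ k ih => rw [hes, mul_pow, ih, inv_pow, hζ1, inv_one, mul_one]
  have hene : ∀ n, e n ≠ 0 := by
    intro n h0
    have := hepow n
    rw [h0, zero_pow hm] at this
    exact zero_ne_one this
  -- compatibility
  have hstep : ∀ n, ∀ z ∈ ball (c n) (r n), e (n + 1) * f (n + 1) z = e n * f n z := by
    intro n z hz
    rw [hes, hζ n z hz, mul_assoc, ← mul_assoc (ζ n)⁻¹, inv_mul_cancel₀ (hζ0 n), one_mul]
  have hmono' : ∀ n k, n ≤ k → ball (c n) (r n) ⊆ ball (c k) (r k) := by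
    intro n k hnk
    induction hnk with
    | refl => exact subset_rfl
    | step _ ih => exact ih.trans (hmono _)
  have hcompat : ∀ n k, n ≤ k → ∀ z ∈ ball (c n) (r n), e k * f k z = e n * f n z := by
    intro n k hnk
    induction hnk with
    | refl => exact fun z _ => rfl
    | @step k' hk' ih =>
      intro z hz
      rw [hstep k' z (hmono' n k' hk' hz), ih z hz]
  classical
  set G : ℂ → ℂ := fun z =>
    if hz : ∃ n, z ∈ ball (c n) (r n) then e (Nat.find hz) * f (Nat.find hz) z else 0 with hG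
  have hGeq : ∀ n, ∀ z ∈ ball (c n) (r n), G z = e n * f n z := by
    intro n z hz
    have hex : ∃ n, z ∈ ball (c n) (r n) := ⟨n, hz⟩
    rw [hG]
    simp only [dif_pos hex]
    exact (hcompat (Nat.find hex) n (Nat.find_min' hex hz) z (Nat.find_spec hex)).symm
  refine ⟨G, fun z hz => ?_, fun z hz => ?_⟩
  · obtain ⟨n, hn⟩ := hcov z hz
    have hev : G =ᶠ[𝓝 z] (fun _ => e n) * f n := by
      filter_upwards [isOpen_ball.mem_nhds hn] with w hw
      exact hGeq n w hw
    rw [meromorphicNFAt_congr hev]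
    exact (meromorphicNFAt_mul_iff_right analyticAt_const (hene n)).mpr (hfNF n hn)
  · obtain ⟨n, hn⟩ := hcov z hz
    rw [hGeq n z hn, mul_pow, hepow, one_mul, hfpow n z hn]

end Glue

/-! ### The upper half plane -/

section UHP

/-- The upper half plane as a subset of `ℂ`. -/
abbrev uhp : Set ℂ := {z : ℂ | 0 < z.im}

theorem isOpen_uhp : IsOpen uhp := isOpen_lt continuous_const Complex.continuous_im

theorem isPreconnected_uhp : IsPreconnected uhp := (convex_halfSpace_im_gt 0).isPreconnected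

/-- centres of the exhausting balls -/
def cen (n : ℕ) : ℂ := (((n : ℝ) + 2 : ℝ) : ℂ) * Complex.I

/-- radii of the exhausting balls -/
def rad (n : ℕ) : ℝ := ((n : ℝ) + 2) - 1 / ((n : ℝ) + 2)

theorem two_le (n : ℕ) : (2 : ℝ) ≤ (n : ℝ) + 2 := by
  have : (0 : ℝ) ≤ (n : ℝ) := Nat.cast_nonneg n
  linarith

theorem inv_le_half (n : ℕ) : 1 / ((n : ℝ) + 2) ≤ 1 / 2 :=
  one_div_le_one_div_of_le (by norm_num) (two_le n)

theorem inv_pos' (n : ℕ) : 0 < 1 / ((n : ℝ) + 2) := by
  have := two_le n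
  positivity

theorem rad_pos (n : ℕ) : 0 < rad n := by
  have h1 := two_le n
  have h2 := inv_le_half n
  unfold rad
  linarith

theorem cen_re (n : ℕ) : (cen n).re = 0 := by simp [cen]

theorem cen_im (n : ℕ) : (cen n).im = (n : ℝ) + 2 := by simp [cen]

theorem closedBall_subset_uhp (n : ℕ) : closedBall (cen n) (rad n) ⊆ uhp := by
  intro z hz
  rw [mem_closedBall, dist_eq_norm] at hz
  have h1 := Complex.abs_im_le_norm (z - cen n)
  rw [Complex.sub_im, cen_im] at h1
  have h2 := (abs_le.mp (h1.trans hz)).1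
  have h3 := inv_pos' n
  show 0 < z.im
  unfold rad at h2
  linarith

theorem ball_mono (n : ℕ) : ball (cen n) (rad n) ⊆ ball (cen (n + 1)) (rad (n + 1)) := by
  intro z hz
  rw [mem_ball] at hz ⊢
  have h1 : dist (cen n) (cen (n + 1)) = 1 := by
    rw [dist_eq_norm]
    have : cen n - cen (n + 1) = -Complex.I := by
      simp only [cen]
      push_cast
      ring
    rw [this, norm_neg, Complex.norm_I]
  have h2 : rad n + 1 ≤ rad (n + 1) := by
    unfold rad
    have h3 : 1 / (((n + 1 : ℕ) : ℝ) + 2) ≤ 1 / ((n : ℝ) + 2) := by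
      apply one_div_le_one_div_of_le
      · have := two_le n
        linarith
      · push_cast
        linarith
    push_cast at h3 ⊢
    linarith
  calc dist z (cen (n + 1)) ≤ dist z (cen n) + dist (cen n) (cen (n + 1)) := dist_triangle _ _ _
    _ < rad n + 1 := by rw [h1]; linarith
    _ ≤ rad (n + 1) := h2

theorem exists_mem_ball {z : ℂ} (hz : 0 < z.im) : ∃ n, z ∈ ball (cen n) (rad n) := by
  obtain ⟨n, hn⟩ := exists_nat_gt ((z.re ^ 2 + z.im ^ 2 + 2) / (2 * z.im))
  refine ⟨n, ?_⟩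
  rw [mem_ball, dist_eq_norm]
  have hR := two_le n
  have hi := inv_pos' n
  have hrp := rad_pos n
  have h2 : z.re ^ 2 + z.im ^ 2 + 2 < (n : ℝ) * (2 * z.im) := by
    rwa [div_lt_iff₀ (by positivity)] at hn
  have hsq : ‖z - cen n‖ ^ 2 < rad n ^ 2 := by
    rw [Complex.sq_norm, Complex.normSq_apply, Complex.sub_re, Complex.sub_im, cen_re, cen_im]
    have h3 : rad n ^ 2 = ((n : ℝ) + 2) ^ 2 - 2 + (1 / ((n : ℝ) + 2)) ^ 2 := by
      unfold rad
      have hne : ((n : ℝ) + 2) ≠ 0 := by positivity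
      field_simp
      ring
    rw [h3]
    have h4 : 0 < (1 / ((n : ℝ) + 2)) ^ 2 := by positivity
    nlinarith
  exact lt_of_pow_lt_pow_left₀ 2 hrp.le hsq

variable {h : ℂ → ℂ} {m : ℕ}

/-- **`m`-th roots on the upper half plane.**  A function which is meromorphic in normal form on
the upper half plane, is nowhere locally zero and has all orders divisible by `m` is the `m`-th
power of a function which is meromorphic in normal form on the upper half plane. -/
theorem exists_root (hm : m ≠ 0) (hh : MeromorphicNFOn h uhp)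
    (hne : ∀ z ∈ uhp, meromorphicOrderAt h z ≠ ⊤)
    (hdiv : ∀ z ∈ uhp, ∃ n : ℤ, meromorphicOrderAt h z = ((m * n : ℤ) : WithTop ℤ)) :
    ∃ f : ℂ → ℂ, MeromorphicNFOn f uhp ∧ ∀ z ∈ uhp, f z ^ m = h z :=
  exists_root_of_exhaustion hm hh hne hdiv cen rad rad_pos closedBall_subset_uhp ball_mono
    (fun _ hz => exists_mem_ball hz)

/-- **Uniqueness of `m`-th roots on the upper half plane** up to `m`-th roots of unity. -/
theorem root_unique_uhp {f₁ f₂ : ℂ → ℂ} (hm : m ≠ 0) (h₁ : MeromorphicNFOn f₁ uhp)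
    (h₂ : MeromorphicNFOn f₂ uhp) (hne : ∀ z ∈ uhp, meromorphicOrderAt f₁ z ≠ ⊤)
    (hpow : ∀ z ∈ uhp, f₁ z ^ m = f₂ z ^ m) :
    ∃ ζ : ℂ, ζ ^ m = 1 ∧ ∀ z ∈ uhp, f₂ z = ζ * f₁ z :=
  root_unique isOpen_uhp isPreconnected_uhp hm h₁ h₂ hne hpow

/-- The orders of an `m`-th root. -/
theorem order_eq_mul {f : ℂ → ℂ} (hf : MeromorphicOn f uhp) (hpow : ∀ z ∈ uhp, f z ^ m = h z)
    {z : ℂ} (hz : z ∈ uhp) :
    meromorphicOrderAt h z = (m : WithTop ℤ) * meromorphicOrderAt f z := by
  have hev : f ^ m =ᶠ[𝓝[≠] z] h := by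
    filter_upwards [mem_nhdsWithin_of_mem_nhds (isOpen_uhp.mem_nhds hz)] with w hw
    exact hpow w hw
  rw [← meromorphicOrderAt_congr hev, meromorphicOrderAt_pow (hf z hz)]

/-- **`m`-th roots on the upper half plane**, for a meromorphic function which is not assumed to
be in normal form: the root `f` is in normal form, `f ^ m` is the normal form of `h`, and
`f ^ m = h` off a discrete subset of the upper half plane. -/
theorem exists_root' (hm : m ≠ 0) (hh : MeromorphicOn h uhp)
    (hne : ∀ z ∈ uhp, meromorphicOrderAt h z ≠ ⊤)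
    (hdiv : ∀ z ∈ uhp, ∃ n : ℤ, meromorphicOrderAt h z = ((m * n : ℤ) : WithTop ℤ)) :
    ∃ f : ℂ → ℂ, MeromorphicNFOn f uhp ∧ (∀ z ∈ uhp, f z ^ m = toMeromorphicNFOn h uhp z) ∧
      (fun z => f z ^ m) =ᶠ[codiscreteWithin uhp] h := by
  obtain ⟨f, hf, hpow⟩ := exists_root hm (meromorphicNFOn_toMeromorphicNFOn h uhp)
    (fun z hz => by rw [meromorphicOrderAt_toMeromorphicNFOn hh hz]; exact hne z hz)
    (fun z hz => by rw [meromorphicOrderAt_toMeromorphicNFOn hh hz]; exact hdiv z hz)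
  refine ⟨f, hf, hpow, ?_⟩
  filter_upwards [toMeromorphicNFOn_eqOn_codiscrete hh, self_mem_codiscreteWithin uhp]
    with z hz1 hz2
  rw [hpow z hz2, ← hz1]

/-- **The multiplier of a root.**  If `f` is meromorphic in normal form on the upper half plane,
nowhere locally zero, and `γ` is an analytic self-map of the upper half plane with
`(f ∘ γ) ^ m = f ^ m`, then `f ∘ γ = ζ • f` for an `m`-th root of unity `ζ`. -/
theorem exists_multiplier (hm : m ≠ 0) {f : ℂ → ℂ} (hf : MeromorphicNFOn f uhp)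
    (hne : ∀ z ∈ uhp, meromorphicOrderAt f z ≠ ⊤) {γ : ℂ → ℂ} (hγ : ∀ z ∈ uhp, γ z ∈ uhp)
    (hγa : ∀ z ∈ uhp, AnalyticAt ℂ γ z) (hinv : ∀ z ∈ uhp, f (γ z) ^ m = f z ^ m) :
    ∃ ζ : ℂ, ζ ^ m = 1 ∧ ∀ z ∈ uhp, f (γ z) = ζ * f z :=
  root_unique_uhp (f₂ := f ∘ γ) hm hf
    (fun z hz => (hf (hγ z hz)).comp_analyticAt (hγa z hz)) hne
    (fun z hz => (hinv z hz).symm)

end UHP

end Fermat.Agent.S29.MeroRoot
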