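/-
Wave 9 (S29), [IV] leaf (PLACE-AN), hard direction (helper19, second seat of helper6's PlaceAn):
**places of the function field of `X₀(N)` are analytic** — `IV.PlaceAnStmt`.

If the analytic realisation of `h ∈ FF L N` is an `m`-th power `F ^ m` in `Mero.Fld N`, with `F`
invariant under the elliptic and parabolic elements of `Γ₀(N)`, then `m` divides the order of `h`
at every place of `FF L N` (`L` algebraically closed, `ι : L →+* ℂ`; `L = ℚ̄` and `L = ℂ`).

Route: a place lies over a point `a` of the `j`-line or over `j = ∞`; the S24 valuation datum at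
that point (`DataTau.valDatumOfChart`) and the generic index lemma `PlaceVal.exists_index`
(helper20) give a coset `i` and `e * d = m_a` with `log w (τ_i f) = - e * P.ord f`; the translate
`F_i = actF (out i)⁻¹ F` is fixed by `g ^ d` (`g` the stabiliser generator: `1`, `S`, `S T`, `T`)
because `(out i)⁻¹ g^d (out i) ∈ Γ₀(N)` has finite order or trace `2`; `Mero.dvd_ord_of_fixed`
gives `e ∣ ord F_i`, and `m * ord F_i = e * P.ord h`.
-/
import Fermat.Agent.S29.IVIface
import Fermat.Agent.S29.PlaceVal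
import Fermat.Agent.S24.Mod.Data
import Fermat.Agent.S24.Mod.Degree
import Fermat.Agent.S24.Alg.Places

set_option autoImplicit false
set_option synthInstance.maxHeartbeats 400000

noncomputable section

open scoped MatrixGroups
open UpperHalfPlane ModularCurve AlgebraicCurve IntermediateField WithZero CongruenceSubgroup

namespace Fermat.Agent.S29.PlaceAnH

open Fermat.Agent.S23 Fermat.Agent.S24 Fermat.Agent.S24.Mero Fermat.Agent.S24.DataTau

section Generic

variable {K F : Type*} [Field K] [Field F] [Algebra K F] [IsAlgClosed K] [CharZero K]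

/-- `PlaceVal.exists_index` with the field `K(y)` given up to equality. -/
theorem exists_index_of_eq {Ω : Type*} [Field Ω] (w : Valuation Ω ℤᵐ⁰) (y : F)
    (E : IntermediateField K F) [FiniteDimensional E F] (hE : E = K⟮y⟯)
    {I : Type*} [Finite I] [Nonempty I] (hI : Module.finrank E F ≤ Nat.card I)
    (σ : Equiv.Perm I) (m : ℕ) (dat : ValDatum K w y σ m) (v : Place K F) (hv : 0 < v.ord y) :
    ∃ (i : I) (e d : ℕ), e * d = m ∧ (σ ^ d) i = i ∧ v.ord y = (d : ℤ) ∧
      ∀ f : F, f ≠ 0 → log (w (dat.τ i f)) = -((e : ℤ) * v.ord f) := by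
  subst hE
  exact PlaceVal.exists_index w y hI σ m dat v hv

end Generic

variable {L : Type*} [Field L] [Algebra ℚ L] [IsAlgClosed L] (ι : L →+* ℂ) (N : ℕ) [NeZero N]

/-- The core: at a chart with symmetry `g`, for a place over the zero of `y`. -/
theorem core {χ : ℂ → ℍ} {p : ℂ} (hc : IsChart N χ p) {g : SL(2, ℤ)} {gh : ℂ → ℂ} {lam : ℂ}
    (s : IsSym N χ p g gh lam) (hgh : AnalyticAt ℂ gh p) {ma : ℕ} (hma : 0 < ma)
    (hprim : IsPrimitiveRoot lam ma) (hpow : cosetPerm N g⁻¹ ^ ma = 1) (y : ↥(FF L N))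
    (hy : ∀ i, Mero.val hc (tau ι N i y) = WithZero.exp (-(ma : ℤ)))
    (hy' : ∀ i j, tau ι N i y = tau ι N j y)
    (hE : L⟮jElt L N⟯ = L⟮y⟯)
    (P : Place L ↥(FF L N)) (hP : 0 < P.ord y)
    {m : ℕ} (hm : 0 < m) (h : ↥(FF L N)) (hh : h ≠ 0) (F : Fld N) (hF : PhiL ι N h = F ^ m)
    (hinv : ∀ (c : SL(2, ℤ)) (d : ℕ), c⁻¹ * g ^ d * c ∈ Gamma0 N →
      actF N (c⁻¹ * g ^ d * c) F = F) :
    (m : ℤ) ∣ P.ord h := by
  classical
  have : CharZero L := algebraRat.charZero L
  have : Finite (SL(2, ℤ) ⧸ Gamma0 N) := Subgroup.finite_quotient_of_finiteIndex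
  have := Degree.finiteDimensional ι N
  obtain ⟨i, e, d, hed, hfix, -, hlog⟩ := exists_index_of_eq (Mero.val hc) y L⟮jElt L N⟯ hE
    (Degree.finrank_le ι N) (cosetPerm N g⁻¹) ma
    (valDatumOfChart ι N hc s hgh hma hprim hpow y hy hy') P hP
  have hd0 : 0 < d := Nat.pos_of_ne_zero (by rintro rfl; rw [mul_zero] at hed; omega)
  have he0 : 0 < e := Nat.pos_of_ne_zero (by rintro rfl; rw [zero_mul] at hed; omega)
  -- the translate of `F`
  set c : SL(2, ℤ) := Quotient.out i with hc_def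
  have hci : ((c : SL(2, ℤ)) : SL(2, ℤ) ⧸ Gamma0 N) = i := QuotientGroup.out_eq' i
  have hF0 : F ≠ 0 := by
    rintro rfl
    rw [zero_pow hm.ne'] at hF
    exact hh ((map_eq_zero _).mp hF)
  have hFi0 : actF N c⁻¹ F ≠ 0 := fun h0 => hF0 ((EmbeddingLike.map_eq_zero_iff).mp h0)
  have htau : tau ι N i h = actF N c⁻¹ F ^ m := by
    rw [tau_apply, hF, map_pow]
  -- the conjugated stabiliser element lies in `Γ₀(N)`
  have hmem : c⁻¹ * g ^ d * c ∈ Gamma0 N := by
    have h1 : (g ^ d)⁻¹ • i = i := by rw [← cosetPerm_inv_pow_apply]; exact hfix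
    rw [← hci] at h1
    have h2 : (((g ^ d)⁻¹ * c : SL(2, ℤ)) : SL(2, ℤ) ⧸ Gamma0 N) = (c : SL(2, ℤ)) := h1
    have h3 := QuotientGroup.eq.mp h2
    have e1 : ((g ^ d)⁻¹ * c)⁻¹ * c = c⁻¹ * g ^ d * c := by group
    rwa [e1] at h3
  have hfixF : actF N (g ^ d) (actF N c⁻¹ F) = actF N c⁻¹ F := by
    have h1 := hinv c d hmem
    rw [← actF_mul]
    have e1 : c⁻¹ * g ^ d = (c⁻¹ * g ^ d * c) * c⁻¹ := by group
    rw [e1, actF_mul, h1]
  have hdvd := dvd_ord_of_fixed hc s hma hprim d hFi0 hfixF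
  have hgcd : ma / Nat.gcd ma d = e := by
    have hdma : d ∣ ma := ⟨e, by rw [← hed, mul_comm]⟩
    rw [Nat.gcd_eq_right hdma]
    exact Nat.div_eq_of_eq_mul_left hd0 hed.symm
  rw [hgcd, Mero.ord] at hdvd
  have hl := hlog h hh
  have hl2 : log (Mero.val hc (tau ι N i h)) = -((e : ℤ) * P.ord h) := hl
  rw [htau, map_pow, log_pow, nsmul_eq_mul] at hl2
  obtain ⟨k, hk⟩ := (dvd_neg).mp hdvd
  rw [hk] at hl2
  have he' : (e : ℤ) ≠ 0 := by exact_mod_cast he0.ne'
  have h5 : (e : ℤ) * ((m : ℤ) * k + P.ord h) = 0 := by linarith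
  have h6 : (m : ℤ) * k + P.ord h = 0 := (mul_eq_zero.mp h5).resolve_left he'
  exact ⟨-k, by linarith⟩

/-- Places over the cusp. -/
theorem dvd_of_cusp (P : Place L ↥(FF L N)) (hP : P.ord (jElt L N) < 0)
    {m : ℕ} (hm : 0 < m) (h : ↥(FF L N)) (hh : h ≠ 0) (F : Fld N) (hF : PhiL ι N h = F ^ m)
    (hinv : ∀ δ : SL(2, ℤ), δ ∈ Gamma0 N →
      (δ : Matrix (Fin 2) (Fin 2) ℤ).trace ^ 2 = 4 → actF N δ F = F) :
    (m : ℤ) ∣ P.ord h := by
  have hyi : ∀ i, tau ι N i (jElt L N)⁻¹ =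
      (algebraMap (Mero.ring N) (Fld N) (Mero.jElt N))⁻¹ := by
    intro i
    rw [map_inv₀, tau_jElt]
  refine core ι N (isChart_inf N) (isSym_inf N) (by fun_prop)
    (Nat.pos_of_ne_zero (NeZero.ne N)) (isPrimitiveRoot_zetaN N) (Data.cosetPerm_T_inv_pow N)
    (jElt L N)⁻¹ ?_ ?_ (Places.adjoin_inv_eq (jElt L N)) P ?_ hm h hh F hF ?_
  · intro i
    rw [hyi]
    exact valInf_inv_jElt N
  · intro i j
    rw [hyi, hyi]
  · rw [P.ord_inv]
    omega
  · intro c d hmem
    refine hinv _ hmem ?_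
    have h1 : ((c⁻¹ * ModularGroup.T ^ d * c : SL(2, ℤ)) : Matrix (Fin 2) (Fin 2) ℤ).trace
        = ((ModularGroup.T ^ d : SL(2, ℤ)) : Matrix (Fin 2) (Fin 2) ℤ).trace := by
      rw [Matrix.SpecialLinearGroup.coe_mul, Matrix.trace_mul_comm,
        ← Matrix.SpecialLinearGroup.coe_mul, ← mul_assoc, mul_inv_cancel, one_mul]
    have h2 : ((ModularGroup.T ^ d : SL(2, ℤ)) : Matrix (Fin 2) (Fin 2) ℤ).trace = 2 := by
      rw [← zpow_natCast, ModularGroup.coe_T_zpow, Matrix.trace_fin_two]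
      simp
    rw [h1, h2]
    norm_num

/-- Places over a point `a` of the `j`-line whose stabiliser generator `g` has finite order. -/
theorem dvd_of_point (a : L) (g : SL(2, ℤ)) (hg : g • Data.zOf ι a = Data.zOf ι a) (ma : ℕ)
    (hma : 0 < ma)
    (hord : analyticOrderAt (fun w : ℂ => JN.jFun (ofComplex w) - JN.jFun (Data.zOf ι a))
      (Data.zOf ι a : ℂ) = ma)
    (hprim : IsPrimitiveRoot (mult g (Data.zOf ι a)) ma) (hpow : cosetPerm N g⁻¹ ^ ma = 1)
    (hfin : ∃ n : ℕ, 0 < n ∧ g ^ n = 1)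
    (P : Place L ↥(FF L N)) (hP : 0 < P.ord (jElt L N - algebraMap L ↥(FF L N) a))
    {m : ℕ} (hm : 0 < m) (h : ↥(FF L N)) (hh : h ≠ 0) (F : Fld N) (hF : PhiL ι N h = F ^ m)
    (hinv : ∀ δ : SL(2, ℤ), δ ∈ Gamma0 N → (∃ n : ℕ, 0 < n ∧ δ ^ n = 1) → actF N δ F = F) :
    (m : ℤ) ∣ P.ord h := by
  refine core ι N (isChart_point N (Data.zOf ι a)) (isSym_point N hg)
    (analyticAt_moeb g (Data.zOf ι a)) hma hprim hpow
    (jElt L N - algebraMap L ↥(FF L N) a) ?_ ?_ (Places.adjoin_sub_eq (jElt L N) a) P hP hm h hh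
    F hF ?_
  · intro i
    rw [Data.tau_jElt_sub]
    exact valAt_jElt_sub N (Data.zOf ι a) hord
  · intro i j
    rw [Data.tau_jElt_sub, Data.tau_jElt_sub]
  · intro c d hmem
    obtain ⟨n, hn, hgn⟩ := hfin
    refine hinv _ hmem ⟨n, hn, ?_⟩
    have e1 : c⁻¹ * g ^ d * c = c⁻¹ * g ^ d * (c⁻¹)⁻¹ := by rw [inv_inv]
    rw [e1, conj_pow, ← pow_mul, mul_comm d n, pow_mul, hgn, one_pow, mul_one,
      mul_inv_cancel]

/-- **Places are analytic** (hard direction). -/
theorem dvd_ord_of_pow (P : Place L ↥(FF L N)) {m : ℕ} (h : ↥(FF L N)) (hh : h ≠ 0) (F : Fld N)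
    (hF : PhiL ι N h = F ^ m)
    (hinv : ∀ δ : SL(2, ℤ), δ ∈ Gamma0 N →
      ((∃ n : ℕ, 0 < n ∧ δ ^ n = 1) ∨ (δ : Matrix (Fin 2) (Fin 2) ℤ).trace ^ 2 = 4) →
        actF N δ F = F) :
    (m : ℤ) ∣ P.ord h := by
  classical
  have : CharZero L := algebraRat.charZero L
  have : Finite (SL(2, ℤ) ⧸ Gamma0 N) := Subgroup.finite_quotient_of_finiteIndex
  have := Degree.finiteDimensional ι N
  rcases Nat.eq_zero_or_pos m with rfl | hm
  · rw [pow_zero] at hF
    have h1 : h = 1 := (PhiL ι N).injective (by rw [hF, map_one])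
    rw [h1, P.ord_one]
    exact dvd_zero _
  -- `j` is transcendental
  have htr : Transcendental L (jElt L N)⁻¹ := by
    obtain ⟨d0⟩ := Data.valDatum_cusp ι N
    exact LocalCount.transcendental_of_datum _ _ _ _ d0
  have hj0 : jElt L N ≠ 0 := by
    intro h0
    apply htr
    rw [h0, inv_zero]
    exact isAlgebraic_zero
  have hjc : ∀ a : L, jElt L N ≠ algebraMap L ↥(FF L N) a := by
    intro a h0
    apply htr
    rw [h0, ← map_inv₀]
    exact isAlgebraic_algebraMap _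
  by_cases hj : P.ord (jElt L N) < 0
  · exact dvd_of_cusp ι N P hj hm h hh F hF (fun δ hδ ht => hinv δ hδ (Or.inr ht))
  · have hjmem : jElt L N ∈ P.toValuationSubring :=
      (Places.mem_iff_ord_nonneg P hj0).mpr (not_lt.mp hj)
    obtain ⟨a, ha | ha⟩ := Places.residue (jElt L N) P hjmem
    · exact absurd ha (hjc a)
    have hinv' : ∀ δ : SL(2, ℤ), δ ∈ Gamma0 N → (∃ n : ℕ, 0 < n ∧ δ ^ n = 1) →
        actF N δ F = F := fun δ hδ ht => hinv δ hδ (Or.inl ht)
    by_cases ha0 : a = 0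
    · subst ha0
      have hz : Data.zOf ι (0 : L) = JLocal.rho := Data.zOf_zero ι
      have hg : (ModularGroup.S * ModularGroup.T) • Data.zOf ι (0 : L) = Data.zOf ι (0 : L) := by
        rw [hz, ← JLocal.gST_eq]
        exact JLocal.gST_smul_rho
      have hord : analyticOrderAt
          (fun w : ℂ => JN.jFun (ofComplex w) - JN.jFun (Data.zOf ι (0 : L)))
          (Data.zOf ι (0 : L) : ℂ) = (3 : ℕ) := by
        rw [hz, JLocal.order_jFun, if_pos JLocal.jFun_rho]
        rfl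
      exact dvd_of_point ι N 0 _ hg 3 (by norm_num) hord
        (by rw [hz]; exact isPrimitiveRoot_mult_ST _ JLocal.rho_sq_add)
        (Data.cosetPerm_inv_pow_eq_one N GenusNum.ST_cube)
        ⟨6, by norm_num, by
          rw [show (6 : ℕ) = 3 * 2 from rfl, pow_mul, GenusNum.ST_cube, neg_one_sq]⟩
        P ha hm h hh F hF hinv'
    by_cases ha1 : a = 1728
    · subst ha1
      have hz : Data.zOf ι (1728 : L) = UpperHalfPlane.I := Data.zOf_1728 ι
      have hg : ModularGroup.S • Data.zOf ι (1728 : L) = Data.zOf ι (1728 : L) := by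
        rw [hz]
        exact JLocal.S_smul_I
      have hne : JN.jFun UpperHalfPlane.I ≠ 0 := by
        rw [JLocal.jFun_I]
        norm_num
      have hord : analyticOrderAt
          (fun w : ℂ => JN.jFun (ofComplex w) - JN.jFun (Data.zOf ι (1728 : L)))
          (Data.zOf ι (1728 : L) : ℂ) = (2 : ℕ) := by
        rw [hz, JLocal.order_jFun, if_neg hne, if_pos JLocal.jFun_I]
        rfl
      exact dvd_of_point ι N 1728 _ hg 2 (by norm_num) hord
        (by rw [hz]; exact isPrimitiveRoot_mult_S _ UpperHalfPlane.coe_I)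
        (Data.cosetPerm_inv_pow_eq_one N GenusNum.S_sq)
        ⟨4, by norm_num, by
          rw [show (4 : ℕ) = 2 * 2 from rfl, pow_mul, GenusNum.S_sq, neg_one_sq]⟩
        P ha hm h hh F hF hinv'
    · have hj0' : JN.jFun (Data.zOf ι a) ≠ 0 := by
        rw [Data.jFun_zOf]
        exact (map_ne_zero ι).mpr ha0
      have hj1' : JN.jFun (Data.zOf ι a) ≠ 1728 := by
        rw [Data.jFun_zOf]
        intro h0
        apply ha1
        apply ι.injective
        rw [h0, map_ofNat]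
      have hord := JLocal.order_jFun_generic (Data.zOf ι a) hj0' hj1'
      exact dvd_of_point ι N a 1 (one_smul _ _) 1 one_pos (by simpa using hord)
        (by rw [mult_one]; exact IsPrimitiveRoot.one)
        (by rw [inv_one, Comb.cosetPerm_one, pow_one])
        ⟨1, one_pos, one_pow 1⟩ P ha hm h hh F hF hinv'

/-- **(PLACE-AN)** of `S29/IVIface.lean`. -/
theorem placeAnStmt : IV.PlaceAnStmt := by
  intro L _ _ _ ι N m _ P h F hh hF hinv
  exact dvd_ord_of_pow ι N P h hh F hF hinv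

end Fermat.Agent.S29.PlaceAnH

end
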