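/-
S29 (wave 9), leaf (c3), easy direction ("PA2"): a nontrivial `ℤ`-valued valuation of a function
field which is trivial on the constants IS a place, up to an index.

* `exists_place_of_valuation` : `w : Valuation F ℤᵐ⁰` with `w ≤ 1` on `K`, nontrivial: there are a
  place `P` of `F / K` and `e ≥ 1` with `log (w f) = -(e * P.ord f)` for all `f ≠ 0`.
* `dvd_log` : if `m` divides the order of `f` at every place, then `m` divides `log (w f)`.
* `dvd_ordAt` : for `h` in the function field `FF L N` of `X₀(N)` all of whose orders at the places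
  are divisible by `m`, the analytic realisation `PhiL ι N h` has order divisible by `m` at every
  point of the upper half plane.
-/
import Mathlib
import Fermat.Prelude.Def_AlgebraicCurve_DivisorClassGroup
import Fermat.Agent.S24.Mod.DataTau
import Fermat.Agent.S24.MeroPoint

set_option autoImplicit false

noncomputable section

open AlgebraicCurve WithZero

namespace Fermat.Agent.S29.PlaceOrd

section Generic

variable {K F : Type*} [Field K] [Field F] [Algebra K F]

/-- the additive form of a `ℤᵐ⁰`-valued valuation -/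
def vord (w : Valuation F ℤᵐ⁰) (f : F) : ℤ := -(WithZero.log (w f))

variable (w : Valuation F ℤᵐ⁰)

theorem vord_mul {f g : F} (hf : f ≠ 0) (hg : g ≠ 0) : vord w (f * g) = vord w f + vord w g := by
  simp only [vord, map_mul]
  rw [WithZero.log_mul ((Valuation.ne_zero_iff _).mpr hf) ((Valuation.ne_zero_iff _).mpr hg)]
  ring

theorem vord_inv (f : F) : vord w f⁻¹ = -vord w f := by
  simp only [vord, map_inv₀, WithZero.log_inv]

theorem vord_zpow (f : F) (n : ℤ) : vord w (f ^ n) = n * vord w f := by
  simp only [vord, map_zpow₀, WithZero.log_zpow, smul_eq_mul]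
  ring

theorem vord_pow (f : F) (n : ℕ) : vord w (f ^ n) = n * vord w f := by
  have := vord_zpow w f n
  simpa using this

theorem vord_one : vord w (1 : F) = 0 := by simp [vord]

theorem le_one_iff {f : F} (hf : f ≠ 0) : w f ≤ 1 ↔ 0 ≤ vord w f := by
  have h0 : w f ≠ 0 := (Valuation.ne_zero_iff _).mpr hf
  have h := WithZero.log_le_iff_le_exp (a := (0 : ℤ)) h0
  rw [WithZero.exp_zero] at h
  rw [← h, vord]
  omega

theorem eq_one_iff {f : F} (hf : f ≠ 0) : w f = 1 ↔ vord w f = 0 := by
  have h0 : w f ≠ 0 := (Valuation.ne_zero_iff _).mpr hf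
  constructor
  · intro h
    rw [vord, h, WithZero.log_one, neg_zero]
  · intro h
    have h1 : WithZero.log (w f) = 0 := by
      rw [vord] at h
      omega
    rw [← WithZero.exp_log h0, h1, WithZero.exp_zero]

/-- **A nontrivial `ℤ`-valued valuation trivial on the constants is a place.** -/
theorem exists_place_of_valuation (hK : ∀ a : K, w (algebraMap K F a) ≤ 1)
    (hnt : ∃ f : F, f ≠ 0 ∧ w f ≠ 1) :
    ∃ (P : Place K F) (e : ℕ), 0 < e ∧
      ∀ f : F, f ≠ 0 → WithZero.log (w f) = -((e : ℤ) * P.ord f) := by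
  classical
  -- a positive value
  have hpos : ∃ n : ℕ, 0 < n ∧ ∃ f : F, f ≠ 0 ∧ vord w f = n := by
    obtain ⟨f, hf, hwf⟩ := hnt
    have h1 : vord w f ≠ 0 := fun h => hwf ((eq_one_iff w hf).mpr h)
    rcases lt_or_gt_of_ne h1 with h | h
    · refine ⟨(-vord w f).toNat, by omega, f⁻¹, inv_ne_zero hf, ?_⟩
      rw [vord_inv]
      omega
    · exact ⟨(vord w f).toNat, by omega, f, hf, by omega⟩
  set e := Nat.find hpos with he
  obtain ⟨he0, π, hπ0, hπ⟩ := Nat.find_spec hpos
  rw [← he] at he0 hπ
  have hmin : ∀ n : ℕ, n < e → ¬ (0 < n ∧ ∃ f : F, f ≠ 0 ∧ vord w f = n) := fun n hn =>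
    Nat.find_min hpos hn
  -- every value is a multiple of `e`
  have hdvd : ∀ g : F, g ≠ 0 → (e : ℤ) ∣ vord w g := by
    intro g hg
    have he' : (0 : ℤ) < e := by exact_mod_cast he0
    set q := vord w g / e with hq
    set r := vord w g % e with hr
    have hr0 : 0 ≤ r := Int.emod_nonneg _ he'.ne'
    have hr1 : r < e := Int.emod_lt_of_pos _ he'
    have hqr : vord w g = e * q + r := (Int.mul_ediv_add_emod _ _).symm
    have hg' : g * π ^ (-q) ≠ 0 := mul_ne_zero hg (zpow_ne_zero _ hπ0)
    have ho : vord w (g * π ^ (-q)) = r := by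
      rw [vord_mul w hg (zpow_ne_zero _ hπ0), vord_zpow, hπ, hqr]
      ring
    by_contra hnd
    have hr2 : r ≠ 0 := fun h => hnd (Int.dvd_of_emod_eq_zero h)
    refine hmin r.toNat (by omega) ⟨by omega, g * π ^ (-q), hg', ?_⟩
    rw [ho]
    omega
  -- the valuation subring
  set A : ValuationSubring F := w.valuationSubring with hA
  have hmemA : ∀ x : F, x ∈ A ↔ w x ≤ 1 := fun x => Valuation.mem_valuationSubring_iff w x
  have hπA : π ∈ A := by
    rw [hmemA, le_one_iff w hπ0, hπ]
    positivity
  -- units of `A`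
  have hunit : ∀ x : A, x ≠ 0 → (IsUnit x ↔ vord w (x : F) = 0) := by
    intro x hx
    have hx0 : (x : F) ≠ 0 := fun h => hx (Subtype.ext h)
    constructor
    · intro hu
      obtain ⟨y, hy⟩ := hu.exists_right_inv
      have hy0 : (y : F) ≠ 0 := by
        intro h
        have h1 := congrArg (Subtype.val) hy
        simp only [MulMemClass.coe_mul, h, mul_zero] at h1
        exact zero_ne_one h1
      have h1 : (x : F) * (y : F) = 1 := by
        have h1 := congrArg (Subtype.val) hy
        simpa using h1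
      have h2 : vord w (x : F) + vord w (y : F) = 0 := by
        rw [← vord_mul w hx0 hy0, h1, vord_one]
      have h3 : 0 ≤ vord w (x : F) := (le_one_iff w hx0).mp ((hmemA _).mp x.2)
      have h4 : 0 ≤ vord w (y : F) := (le_one_iff w hy0).mp ((hmemA _).mp y.2)
      omega
    · intro h0
      have hinv : (x : F)⁻¹ ∈ A := by
        rw [hmemA, le_one_iff w (inv_ne_zero hx0), vord_inv, h0]
        simp
      refine IsUnit.of_mul_eq_one (⟨(x : F)⁻¹, hinv⟩ : A) ?_
      apply Subtype.ext
      simp only [MulMemClass.coe_mul, OneMemClass.coe_one]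
      exact mul_inv_cancel₀ hx0
  have hnonneg : ∀ x : A, x ≠ 0 → 0 ≤ vord w (x : F) := fun x hx =>
    (le_one_iff w (fun h => hx (Subtype.ext h))).mp ((hmemA _).mp x.2)
  have hπA0 : (⟨π, hπA⟩ : A) ≠ 0 := fun h => hπ0 (congrArg Subtype.val h)
  -- `π` is irreducible
  have hirr : Irreducible (⟨π, hπA⟩ : A) := by
    rw [irreducible_iff]
    refine ⟨fun hu => ?_, fun a b hab => ?_⟩
    · have := (hunit _ hπA0).mp hu
      simp only [hπ] at this
      omega
    · have ha : a ≠ 0 := by
        rintro rfl
        rw [zero_mul] at hab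
        exact hπA0 hab
      have hb : b ≠ 0 := by
        rintro rfl
        rw [mul_zero] at hab
        exact hπA0 hab
      have ha0 : (a : F) ≠ 0 := fun h => ha (Subtype.ext h)
      have hb0 : (b : F) ≠ 0 := fun h => hb (Subtype.ext h)
      have h1 : π = (a : F) * (b : F) := by
        have := congrArg Subtype.val hab
        simpa using this
      have h2 : (e : ℤ) = vord w (a : F) + vord w (b : F) := by
        rw [← vord_mul w ha0 hb0, ← h1, hπ]
      obtain ⟨i, hi⟩ := hdvd _ ha0
      obtain ⟨j, hj⟩ := hdvd _ hb0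
      have h3 := hnonneg a ha
      have h4 := hnonneg b hb
      have he' : (0 : ℤ) < e := by exact_mod_cast he0
      have hi0 : 0 ≤ i := by
        by_contra hneg
        have : (e : ℤ) * i < 0 := mul_neg_of_pos_of_neg he' (by omega)
        omega
      have hj0 : 0 ≤ j := by
        by_contra hneg
        have : (e : ℤ) * j < 0 := mul_neg_of_pos_of_neg he' (by omega)
        omega
      have hij : i + j = 1 := by
        have h5 : (e : ℤ) * (i + j) = e * 1 := by
          rw [mul_add, ← hi, ← hj, mul_one]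
          exact h2.symm
        exact mul_left_cancel₀ he'.ne' h5
      rcases Nat.lt_or_ge 0 i.toNat with hi1 | hi1
      · right
        have hj1 : j = 0 := by omega
        rw [hunit b hb, hj, hj1, mul_zero]
      · left
        have hi2 : i = 0 := by omega
        rw [hunit a ha, hi, hi2, mul_zero]
  -- factorisation
  have hfac : IsDiscreteValuationRing.HasUnitMulPowIrreducibleFactorization A := by
    refine ⟨⟨π, hπA⟩, hirr, fun {x} hx => ?_⟩
    have hx0 : (x : F) ≠ 0 := fun h => hx (Subtype.ext h)
    obtain ⟨i, hi⟩ := hdvd _ hx0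
    have he' : (0 : ℤ) < e := by exact_mod_cast he0
    have hi0 : 0 ≤ i := by
      have h3 := hnonneg x hx
      by_contra hneg
      have : (e : ℤ) * i < 0 := mul_neg_of_pos_of_neg he' (by omega)
      omega
    refine ⟨i.toNat, ?_⟩
    have hpn : π ^ i.toNat ≠ 0 := pow_ne_zero _ hπ0
    have hu0 : (x : F) * (π ^ i.toNat)⁻¹ ≠ 0 := mul_ne_zero hx0 (inv_ne_zero hpn)
    have hvu : vord w ((x : F) * (π ^ i.toNat)⁻¹) = 0 := by
      rw [vord_mul w hx0 (inv_ne_zero hpn), vord_inv, vord_pow, hπ, hi]
      have : ((i.toNat : ℕ) : ℤ) = i := Int.toNat_of_nonneg hi0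
      rw [this]
      ring
    have huA : (x : F) * (π ^ i.toNat)⁻¹ ∈ A := by
      rw [hmemA, le_one_iff w hu0, hvu]
    have huA0 : (⟨_, huA⟩ : A) ≠ 0 := fun h => hu0 (congrArg Subtype.val h)
    have hU : IsUnit (⟨_, huA⟩ : A) := (hunit _ huA0).mpr hvu
    refine ⟨hU.unit, ?_⟩
    apply Subtype.ext
    simp only [MulMemClass.coe_mul, SubmonoidClass.coe_pow, IsUnit.unit_spec]
    field_simp
  have hDVR : IsDiscreteValuationRing A :=
    IsDiscreteValuationRing.ofHasUnitMulPowIrreducibleFactorization hfac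
  have hne_top : A ≠ ⊤ := by
    intro htop
    have h1 : π⁻¹ ∈ A := by rw [htop]; exact ValuationSubring.mem_top _
    rw [hmemA, le_one_iff w (inv_ne_zero hπ0), vord_inv, hπ] at h1
    omega
  let P : Place K F :=
    { toValuationSubring := A
      algebraMap_mem' := fun a => (hmemA _).mpr (hK a)
      ne_top' := hne_top
      isPrincipalIdealRing' := hDVR.toIsPrincipalIdealRing }
  refine ⟨P, e, he0, fun f hf => ?_⟩
  have hirr' : Irreducible (⟨π, hπA⟩ : P.toValuationSubring) := hirr
  obtain ⟨u, hu⟩ := P.exists_unit_mul_zpow hf hirr'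
  have hu0 : ((u : P.toValuationSubring) : F) ≠ 0 := by
    intro h
    exact u.ne_zero (Subtype.ext h)
  have hvu : vord w ((u : P.toValuationSubring) : F) = 0 :=
    (hunit (u : A) u.ne_zero).mp u.isUnit
  have h1 : vord w f = (e : ℤ) * P.ord f := by
    conv_lhs => rw [hu]
    rw [vord_mul w hu0 (zpow_ne_zero _ hπ0), hvu, vord_zpow, hπ]
    ring
  rw [← h1, vord, neg_neg]

/-- If `m` divides the order of `f` at every place of `F / K`, then `m` divides `log (w f)` for
every `ℤ`-valued valuation `w` of `F` which is `≤ 1` on `K`. -/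
theorem dvd_log (hK : ∀ a : K, w (algebraMap K F a) ≤ 1) {m : ℕ} {f : F} (hf : f ≠ 0)
    (hdiv : ∀ P : Place K F, (m : ℤ) ∣ P.ord f) : (m : ℤ) ∣ WithZero.log (w f) := by
  by_cases hnt : ∃ g : F, g ≠ 0 ∧ w g ≠ 1
  · obtain ⟨P, e, -, hP⟩ := exists_place_of_valuation w hK hnt
    rw [hP f hf]
    exact (Dvd.dvd.mul_left (hdiv P) _).neg_right
  · have h1 : w f = 1 := by
      by_contra h
      exact hnt ⟨f, hf, h⟩
    rw [h1, WithZero.log_one]
    exact dvd_zero _

end Generic

section Modular

open scoped MatrixGroups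
open UpperHalfPlane

open Fermat.Agent.S24 Fermat.Agent.S24.Mero

/-- **PA2.**  If all the orders of `h ∈ FF L N` at the places of the function field are divisible
by `m`, then all the orders of its analytic realisation at the points of the upper half plane are
divisible by `m`. -/
theorem dvd_ordAt {L : Type*} [Field L] [Algebra ℚ L] (ι : L →+* ℂ) (N : ℕ) [NeZero N] {m : ℕ}
    (h : ↥(FF L N)) (hh : h ≠ 0) (hdiv : ∀ P : Place L ↥(FF L N), (m : ℤ) ∣ P.ord h) (z : ℍ) :
    (m : ℤ) ∣ Mero.ordAt N z (DataTau.PhiL ι N h) := by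
  have hK : ∀ a : L, ((Mero.valAt N z).comap (DataTau.PhiL ι N)) (algebraMap L ↥(FF L N) a) ≤ 1 := by
    intro a
    rw [Valuation.comap_apply, DataTau.PhiL_algebraMap]
    by_cases ha : a = 0
    · rw [ha, map_zero, map_zero, map_zero, map_zero]
      exact zero_le_one
    · exact (Mero.valAt_const N z ((map_ne_zero ι).mpr ha)).le
  have h1 := dvd_log ((Mero.valAt N z).comap (DataTau.PhiL ι N)) hK hh hdiv
  rw [Valuation.comap_apply] at h1
  show (m : ℤ) ∣ -(WithZero.log ((Mero.valAt N z) (DataTau.PhiL ι N h)))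
  exact h1.neg_right

end Modular

end Fermat.Agent.S29.PlaceOrd
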