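/-
S29 (wave 9), generic half of "places are analytic" (PA1).

In the setting of `S24.LocalCount.local_count` (a valuation datum at the zero of `y`): every place
`v` of `F` over the zero of `y` is the place of the valuation `w ∘ τ i` for some index `i`, and the
index of the value group is exactly `m / d`, where `d` is the length of the `σ`-cycle of `i`; also
`v.ord y = d`.  The proof reuses the abstract orbit theorem `S24.Orbit.orbit_structure`.
-/
import Fermat.Agent.S24.Alg.LocalCount

set_option autoImplicit false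

noncomputable section

open AlgebraicCurve IntermediateField WithZero IsDedekindDomain
open scoped IntermediateField.algebraAdjoinAdjoin
open Fermat.Agent.S24

namespace Fermat.Agent.S29.PlaceVal

/-- Pure arithmetic: `n * E = m`, `d * E ∣ m`, `m / gcd m d ∣ E` force `n = d`. -/
theorem arith_aux {m n E d : ℕ} (hm : 0 < m) (h1 : n * E = m) (h2 : d * E ∣ m)
    (h3 : m / Nat.gcd m d ∣ E) : n = d := by
  have hE : 0 < E := Nat.pos_of_ne_zero (by rintro rfl; simp at h1; omega)
  have hn : 0 < n := Nat.pos_of_ne_zero (by rintro rfl; simp at h1; omega)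
  have hd : 0 < d := Nat.pos_of_ne_zero (by
    rintro rfl
    rw [zero_mul, zero_dvd_iff] at h2
    omega)
  -- `d ∣ n`
  have hdn : d ∣ n := by
    rw [← h1] at h2
    exact (Nat.mul_dvd_mul_iff_right hE).mp h2
  -- `n ∣ gcd m d`
  set g := Nat.gcd m d with hg_def
  have hg : 0 < g := Nat.gcd_pos_of_pos_left d hm
  obtain ⟨a, ha⟩ := Nat.gcd_dvd_left m d
  have hga : m / g = a := Nat.div_eq_of_eq_mul_right hg ha
  have ha0 : 0 < a := Nat.pos_of_ne_zero (by rintro rfl; rw [mul_zero] at ha; omega)
  rw [hga] at h3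
  obtain ⟨s, hs⟩ := h3
  have h4 : a * g = a * (n * s) := by
    calc a * g = m := by rw [ha]; ring
      _ = n * E := h1.symm
      _ = a * (n * s) := by rw [hs]; ring
  have h5 : g = n * s := Nat.eq_of_mul_eq_mul_left ha0 h4
  have hnd : n ∣ d := (Dvd.intro s h5.symm).trans (Nat.gcd_dvd_right m d)
  exact Nat.dvd_antisymm hnd hdn

variable {K F : Type*} [Field K] [Field F] [Algebra K F] [IsAlgClosed K] [CharZero K]

/-- **Places over the zero of `y` are analytic, valuation form.**  In the setting of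
`S24.LocalCount.local_count_val`, every place `v` over the zero of `y` is cut out by one of the
embeddings `τ i`, with `log (w (τ i f)) = -(e * v.ord f)` where `e * d = m`, `d` the length of the
`σ`-cycle through `i`, and `v.ord y = d`. -/
theorem exists_index_val {Ω : Type*} [Field Ω] (w : Valuation Ω ℤᵐ⁰) (y : F) {I : Type*}
    (σ : Equiv.Perm I) (m : ℕ) (τ : I → F →+* Ω)
    [FiniteDimensional K⟮y⟯ F] [Finite I]
    (hI : Module.finrank K⟮y⟯ F ≤ Nat.card I)
    (τ_injective : Function.Injective τ)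
    (τ_const : ∀ i j (c : K), τ i (algebraMap K F c) = τ j (algebraMap K F c))
    (w_const : ∀ i (c : K), c ≠ 0 → w (τ i (algebraMap K F c)) = 1)
    (τ_y : ∀ i j, τ i y = τ j y)
    (m_pos : 0 < m)
    (w_y : ∀ i, w (τ i y) = exp (-(m : ℤ)))
    (w_σ : ∀ i (f : F), w (τ (σ i) f) = w (τ i f))
    (dvd : ∀ i (d : ℕ), (σ ^ d) i = i → ∀ f : F, f ≠ 0 →
      ((m / Nat.gcd m d : ℕ) : ℤ) ∣ log (w (τ i f)))
    (v : Place K F) (hv : 0 < v.ord y) :
    ∃ (i : I) (e d : ℕ), e * d = m ∧ (σ ^ d) i = i ∧ v.ord y = (d : ℤ) ∧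
      ∀ f : F, f ≠ 0 → log (w (τ i f)) = -((e : ℤ) * v.ord f) := by
  classical
  have := Fintype.ofFinite I
  have hpos : 0 < Module.finrank K⟮y⟯ F := Module.finrank_pos
  have hne : Nonempty I := by
    have h1 : 0 < Nat.card I := lt_of_lt_of_le hpos hI
    exact (Nat.card_pos_iff.mp h1).1
  have hy := LocalCount.transcendental_of_val w y m τ w_const m_pos w_y
  have hy0 : y ≠ 0 := fun h0 => hy (h0 ▸ isAlgebraic_zero)
  have hPIR : IsPrincipalIdealRing (Algebra.adjoin K {y}) :=
    PlaceDict.isPrincipalIdealRing_adjoin K y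
  have hchar : CharZero F := charZero_of_injective_algebraMap (algebraMap K F).injective
  have hsep : Algebra.IsSeparable K⟮y⟯ F := inferInstance
  -- the embeddings agree on `K(y)`
  have hagree : ∀ i j (z : K⟮y⟯), τ i (algebraMap K⟮y⟯ F z) = τ j (algebraMap K⟮y⟯ F z) := by
    intro i j z
    obtain ⟨z, hz⟩ := z
    show τ i z = τ j z
    induction hz using IntermediateField.adjoin_induction with
    | mem x hx =>
      rw [Set.mem_singleton_iff] at hx
      rw [hx]
      exact τ_y i j
    | algebraMap c => exact τ_const i j c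
    | add a b _ _ ha hb => rw [map_add, map_add, ha, hb]
    | inv a _ ha => rw [map_inv₀, map_inv₀, ha]
    | mul a b _ _ ha hb => rw [map_mul, map_mul, ha, hb]
  have hcard : Fintype.card I = Module.finrank K⟮y⟯ F :=
    le_antisymm (LocalCount.card_le_finrank τ τ_injective hagree) (by rwa [Nat.card_eq_fintype_card] at hI)
  -- `w ≤ 1` on `K[y]`
  have hA : ∀ i (a : Algebra.adjoin K {y}),
      w (τ i (algebraMap (Algebra.adjoin K {y}) F a)) ≤ 1 := by
    intro i a
    obtain ⟨a, ha⟩ := a
    show w (τ i a) ≤ 1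
    induction ha using Algebra.adjoin_induction with
    | mem x hx =>
      rw [Set.mem_singleton_iff] at hx
      rw [hx, w_y i, ← exp_zero, exp_le_exp]
      omega
    | algebraMap c =>
      rcases eq_or_ne c 0 with rfl | hc
      · simp
      · exact (w_const i c hc).le
    | add a b _ _ ha hb =>
      rw [map_add]
      exact le_trans (w.map_add _ _) (max_le ha hb)
    | mul a b _ _ ha hb =>
      rw [map_mul, map_mul]
      exact mul_le_one' ha hb
  have hw : ∀ i, w (τ i (algebraMap (Algebra.adjoin K {y}) F (PlaceDict.gen K y))) =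
      exp (-(m : ℤ)) := fun i => w_y i
  have hw1 : ∀ i, w (τ i (algebraMap (Algebra.adjoin K {y}) F (PlaceDict.gen K y))) < 1 := by
    intro i
    rw [hw i, ← exp_zero, exp_lt_exp]
    omega
  have hmax := PlaceDict.span_gen_isMaximal hy
  have hgen0 := PlaceDict.gen_ne_zero hy
  have hf : ∀ P : Ideal (integralClosure (Algebra.adjoin K {y}) F), P.IsPrime →
      P.LiesOver (Ideal.span {PlaceDict.gen K y}) → P.inertiaDeg (Algebra.adjoin K {y}) = 1 :=
    fun P hP1 hP2 => PlaceDict.inertiaDeg_eq_one (Ideal.span {PlaceDict.gen K y}) P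
      (PlaceDict.exists_sub_mem_span_gen K y)
  -- invariance under the cyclic group
  have hzpow : ∀ (n : ℤ) (i : I) (f : F), w (τ ((σ ^ n) i) f) = w (τ i f) := by
    intro n
    induction n using Int.induction_on with
    | zero => intro i f; simp
    | succ n ih =>
      intro i f
      rw [zpow_add_one, Equiv.Perm.mul_apply, ih, w_σ]
    | pred n ih =>
      intro i f
      rw [zpow_sub_one, Equiv.Perm.mul_apply, ih]
      have h := w_σ (σ⁻¹ i) f
      have h2 : σ (σ⁻¹ i) = i := by simp
      rw [h2] at h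
      exact h.symm
  have hinv : ∀ (g : Subgroup.zpowers σ) (i : I) (f : F), w (τ (g • i) f) = w (τ i f) := by
    rintro ⟨g, hg⟩ i f
    obtain ⟨n, rfl⟩ := Subgroup.mem_zpowers_iff.mp hg
    exact hzpow n i f
  have hdiv : ∀ i : I, ∃ c : ℕ, m ∣ c * (MulAction.orbit (Subgroup.zpowers σ) i).ncard ∧
      ∀ f : F, f ≠ 0 → (c : ℤ) ∣ log (w (τ i f)) := by
    intro i
    have hs : (MulAction.orbit (Subgroup.zpowers σ) i).ncard =
        Function.minimalPeriod (σ • ·) i := by
      rw [MulAction.minimalPeriod_eq_card, ← Nat.card_eq_fintype_card, Nat.card_coe_set_eq]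
    set s := Function.minimalPeriod (σ • ·) i with hs_def
    have hfix : (σ ^ s) i = i :=
      (MulAction.pow_smul_eq_iff_minimalPeriod_dvd (a := σ) (b := i) (n := s)).mpr dvd_rfl
    refine ⟨m / Nat.gcd m s, ?_, dvd i s hfix⟩
    rw [hs]
    obtain ⟨a, ha⟩ := Nat.gcd_dvd_left m s
    obtain ⟨b, hb⟩ := Nat.gcd_dvd_right m s
    have hg : 0 < Nat.gcd m s := Nat.gcd_pos_of_pos_left s m_pos
    have hga : m / Nat.gcd m s = a := Nat.div_eq_of_eq_mul_right hg ha
    refine ⟨b, ?_⟩

    rw [hga]
    calc a * s = a * (Nat.gcd m s * b) := congrArg (a * ·) hb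
      _ = Nat.gcd m s * a * b := by ring
      _ = m * b := by rw [← ha]
  -- the prime of the integral closure under `v`
  have hB : ∀ b : integralClosure (Algebra.adjoin K {y}) F,
      algebraMap (integralClosure (Algebra.adjoin K {y}) F) F b ∈ v.toValuationSubring :=
    fun b => PlaceDict.integralClosure_mem_of_mem v (PlaceDict.mem_of_ord_pos v hv) b
  have hDed : IsDedekindDomain (integralClosure (Algebra.adjoin K {y}) F) :=
    IsIntegralClosure.isDedekindDomain (Algebra.adjoin K {y}) K⟮y⟯ F _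
  have hfrac : IsFractionRing (integralClosure (Algebra.adjoin K {y}) F) F :=
    IsIntegralClosure.isFractionRing_of_finite_extension (Algebra.adjoin K {y}) K⟮y⟯ F _
  have hP1 := PlaceDict.primeUnder_isPrime v hB
  have hP2 := PlaceDict.primeUnder_liesOver hy v hv hB
  have hPne : PlaceDict.primeUnder v hB ≠ ⊥ := fun h0 =>
    PlaceDict.algebraMap_gen_ne_zero hy
      ((Ideal.mem_bot).mp (h0 ▸ PlaceDict.algebraMap_gen_mem_primeUnder v hv hB))
  have hint := Orbit.val_le_one_of_mem (B := integralClosure (Algebra.adjoin K {y}) F) w τ hA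
  obtain ⟨i, hi⟩ := Orbit.exists_primeOf_eq (K := K⟮y⟯) w τ hint τ_injective hcard hagree
    (PlaceDict.gen K y) hgen0 hw1 (PlaceDict.primeUnder v hB)
  let vP : HeightOneSpectrum (integralClosure (Algebra.adjoin K {y}) F) :=
    ⟨PlaceDict.primeUnder v hB, hP1, hPne⟩
  have hval := PlaceDict.valuationSubring_eq' v hB vP rfl
  have hle : ∀ f : F, f ∈ v.toValuationSubring → w (τ i f) ≤ 1 := by
    intro f hf
    refine Orbit.val_le_one_of_valuation_le_one w τ hint i vP hi f ?_
    rw [← hval] at hf
    exact hf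
  obtain ⟨π, hπ⟩ := IsDiscreteValuationRing.exists_irreducible v.toValuationSubring
  have hunit : ∀ u : v.toValuationSubringˣ, w (τ i ((u : v.toValuationSubring) : F)) = 1 := by
    intro u
    have h1 := hle _ (u : v.toValuationSubring).2
    have h2 := hle _ ((u⁻¹ : v.toValuationSubringˣ) : v.toValuationSubring).2
    have h3 : ((u : v.toValuationSubring) : F) *
        (((u⁻¹ : v.toValuationSubringˣ) : v.toValuationSubring) : F) = 1 :=
      congrArg Subtype.val u.mul_inv
    have h4 : w (τ i ((u : v.toValuationSubring) : F)) *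
        w (τ i (((u⁻¹ : v.toValuationSubringˣ) : v.toValuationSubring) : F)) = 1 := by
      rw [← map_mul, ← map_mul, h3, map_one, map_one]
    refine le_antisymm h1 ?_
    by_contra hlt
    push Not at hlt
    have h5 : w (τ i ((u : v.toValuationSubring) : F)) *
        w (τ i (((u⁻¹ : v.toValuationSubringˣ) : v.toValuationSubring) : F)) < 1 :=
      calc _ ≤ w (τ i ((u : v.toValuationSubring) : F)) * 1 := by gcongr
        _ < 1 := by rwa [mul_one]
    rw [h4] at h5
    exact lt_irrefl _ h5
  have hπF : (π : F) ≠ 0 := by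
    intro h0
    exact hπ.ne_zero (Subtype.ext h0)
  have hwπ0 : w (τ i (π : F)) ≠ 0 := by
    rw [Valuation.ne_zero_iff]
    exact (map_ne_zero _).mpr hπF
  set t := log (w (τ i (π : F))) with ht_def
  -- the valuation `w ∘ τ i` is `t` times `v.ord`
  have hform : ∀ f : F, f ≠ 0 → log (w (τ i f)) = v.ord f * t := by
    intro f hf0
    obtain ⟨u, hu⟩ := v.exists_unit_mul_zpow hf0 hπ
    have h6 : w (τ i f) = w (τ i (π : F)) ^ (v.ord f) := by
      conv_lhs => rw [hu]
      rw [map_mul, map_mul, hunit u, one_mul, map_zpow₀, map_zpow₀]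
    rw [h6, log_zpow, smul_eq_mul]
  have h5 : w (τ i (π : F)) ≤ 1 := hle _ π.2
  rw [← exp_log hwπ0, ← exp_zero, exp_le_exp] at h5
  have h7 : v.ord y * t = -(m : ℤ) := by
    rw [← hform y hy0, w_y i, log_exp]
  have ht : t ≤ -1 := by
    by_contra hcon
    have ht0 : t = 0 := by omega
    rw [ht0, mul_zero] at h7
    omega
  -- natural number versions
  obtain ⟨E, hE⟩ : ∃ E : ℕ, (E : ℤ) = -t := ⟨(-t).toNat, Int.toNat_of_nonneg (by omega)⟩
  obtain ⟨n, hn⟩ : ∃ n : ℕ, (n : ℤ) = v.ord y := ⟨(v.ord y).toNat, Int.toNat_of_nonneg hv.le⟩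
  have hnE : n * E = m := by
    have : ((n * E : ℕ) : ℤ) = (m : ℤ) := by
      push_cast
      rw [hn, hE]
      linarith
    exact_mod_cast this
  -- the orbit theorem: ramification index = cycle length
  obtain ⟨-, hram⟩ := Orbit.orbit_structure (K := K⟮y⟯)
    (B := integralClosure (Algebra.adjoin K {y}) F) w τ τ_injective hcard hagree hA
    (PlaceDict.gen K y) hmax hgen0 m m_pos hw hf hinv hdiv
  have hs : (MulAction.orbit (Subgroup.zpowers σ) i).ncard =
      Function.minimalPeriod (σ • ·) i := by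
    rw [MulAction.minimalPeriod_eq_card, ← Nat.card_eq_fintype_card, Nat.card_coe_set_eq]
  set d := Function.minimalPeriod (σ • ·) i with hd_def
  have hfix : (σ ^ d) i = i :=
    (MulAction.pow_smul_eq_iff_minimalPeriod_dvd (a := σ) (b := i) (n := d)).mpr dvd_rfl
  have hramd : (PlaceDict.primeUnder v hB).ramificationIdx (Algebra.adjoin K {y}) = d := by
    rw [← hi]
    exact (hram i).trans hs
  have hc : (PlaceDict.primeUnder v hB).ramificationIdx (Algebra.adjoin K {y}) * E ∣ m :=
    Orbit.ramificationIdx_mul_dvd (K := K⟮y⟯) w τ hint (PlaceDict.gen K y) hgen0 m i (hw i)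
      (PlaceDict.primeUnder v hB) hi E
      (fun f hf0 => ⟨-(v.ord f), by rw [hform f hf0, hE]; ring⟩)
  rw [hramd] at hc
  have hb : (m / Nat.gcd m d) ∣ E := by
    have h8 := dvd i d hfix (π : F) hπF
    rw [hform _ hπF, v.ord_coe_irreducible hπ, one_mul] at h8
    have h9 : ((m / Nat.gcd m d : ℕ) : ℤ) ∣ (E : ℤ) := by
      rw [hE]
      exact (dvd_neg).mpr h8
    exact_mod_cast h9
  have hnd : n = d := arith_aux m_pos hnE hc hb
  refine ⟨i, E, d, ?_, hfix, ?_, ?_⟩
  · rw [← hnd, mul_comm]
    exact hnE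
  · rw [← hn, hnd]
  · intro f hf0
    rw [hform f hf0, hE]
    ring

/-- **Places over the zero of `y` are analytic.**  For a valuation datum `dat` at the zero of `y`
(as in `S24.LocalCount.local_count`), every place `v` over the zero of `y` is the place of
`w ∘ dat.τ i` for some `i`, with exact index `e = m / d`, `d` = length of the `σ`-cycle of `i`. -/
theorem exists_index {Ω : Type*} [Field Ω] (w : Valuation Ω ℤᵐ⁰)
    (y : F) [FiniteDimensional K⟮y⟯ F]
    {I : Type*} [Finite I] [Nonempty I] (hI : Module.finrank K⟮y⟯ F ≤ Nat.card I)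
    (σ : Equiv.Perm I) (m : ℕ) (dat : ValDatum K w y σ m) (v : Place K F) (hv : 0 < v.ord y) :
    ∃ (i : I) (e d : ℕ), e * d = m ∧ (σ ^ d) i = i ∧ v.ord y = (d : ℤ) ∧
      ∀ f : F, f ≠ 0 → log (w (dat.τ i f)) = -((e : ℤ) * v.ord f) :=
  exists_index_val w y σ m dat.τ hI dat.τ_injective dat.τ_const dat.w_const dat.τ_y dat.m_pos
    dat.w_y dat.w_σ dat.dvd v hv

end Fermat.Agent.S29.PlaceVal

end
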