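/-
S29 (wave 9), analytic leaf of the torsion Abel–Jacobi map, second layer: the CHARACTER of a root.

Let a group `G` act on the upper half plane by analytic self-maps `a g` (Möbius maps of a subgroup
of `SL(2, ℤ)`), and let `f` be meromorphic in normal form on the upper half plane, not locally
zero, with `(f ∘ a g) ^ m = f ^ m` for all `g` (e.g. `f` is an `m`-th root of a `G`-invariant
function).  Then `f ∘ a g = χ g • f` for a character `χ : G →* ℂˣ` with values in the `m`-th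
roots of unity.

* `exists_ne_zero` : a function in normal form with finite orders does not vanish identically.
* `exists_character` : the character of `f`.
* `character_unique` : two roots of the same function have the same character.
* `toNF_invariant` : the normal form of a pointwise invariant meromorphic function is invariant.
* `exists_root_character` : root + character of an invariant meromorphic function all of whose
  orders are finite and divisible by `m`.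
* `exists_invariant_quotient` : two such functions with the same character differ by the `m`-th
  power of an INVARIANT meromorphic function (the injectivity of the torsion Abel–Jacobi map).
* `mob`, `exists_root_character_SL` : the case of a subgroup of `SL(2, ℤ)`.
-/
import Mathlib
import Fermat.Agent.S29.MeroRoot

set_option autoImplicit false

noncomputable section

open Filter Topology Set Metric Function UpperHalfPlane
open scoped MatrixGroups

namespace Fermat.Agent.S29.RootChar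

open Fermat.Agent.S29.MeroRoot

/-! ### Generalities -/

/-- A function which is not locally zero on the upper half plane has a point where it does not
vanish. -/
theorem exists_ne_zero {f : ℂ → ℂ} (hne : ∀ z ∈ uhp, meromorphicOrderAt f z ≠ ⊤) :
    ∃ z ∈ uhp, f z ≠ 0 := by
  by_contra hcon
  have hcon' : ∀ z ∈ uhp, f z = 0 := fun z hz => by
    by_contra h0
    exact hcon ⟨z, hz, h0⟩
  have hI : (Complex.I) ∈ uhp := by
    show 0 < Complex.I.im
    simp
  apply hne Complex.I hI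
  rw [meromorphicOrderAt_eq_top_iff]
  filter_upwards [mem_nhdsWithin_of_mem_nhds (isOpen_uhp.mem_nhds hI)] with w hw
  exact hcon' w hw

section Action

variable {G : Type*} [Group G] (a : G → ℂ → ℂ)

/-- **The character of a root.**  `G` acts on the upper half plane by analytic self-maps, `f` is
meromorphic in normal form and not locally zero, and `(f ∘ a g) ^ m = f ^ m` for all `g`: then
`f ∘ a g = χ g • f` for a character `χ` with values in the `m`-th roots of unity. -/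
theorem exists_character (ha : ∀ g, ∀ z ∈ uhp, a g z ∈ uhp)
    (haa : ∀ g, ∀ z ∈ uhp, AnalyticAt ℂ (a g) z)
    (hmul : ∀ g g', ∀ z ∈ uhp, a (g * g') z = a g (a g' z))
    {f : ℂ → ℂ} {m : ℕ} (hm : m ≠ 0) (hf : MeromorphicNFOn f uhp)
    (hne : ∀ z ∈ uhp, meromorphicOrderAt f z ≠ ⊤)
    (hinv : ∀ g, ∀ z ∈ uhp, f (a g z) ^ m = f z ^ m) :
    ∃ χ : G →* ℂˣ, (∀ g, χ g ^ m = 1) ∧ ∀ g, ∀ z ∈ uhp, f (a g z) = χ g * f z := by
  have H : ∀ g, ∃ ζ : ℂ, ζ ^ m = 1 ∧ ∀ z ∈ uhp, f (a g z) = ζ * f z := fun g =>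
    exists_multiplier hm hf hne (ha g) (haa g) (hinv g)
  choose ζ hζ1 hζ using H
  obtain ⟨z₀, hz₀, hfz₀⟩ := exists_ne_zero hne
  have hζ0 : ∀ g, ζ g ≠ 0 := by
    intro g h0
    have := hζ1 g
    rw [h0, zero_pow hm] at this
    exact zero_ne_one this
  have hζmul : ∀ g g', ζ (g * g') = ζ g * ζ g' := by
    intro g g'
    have h1 := hζ (g * g') z₀ hz₀
    rw [hmul g g' z₀ hz₀, hζ g _ (ha g' z₀ hz₀), hζ g' z₀ hz₀, ← mul_assoc] at h1
    exact (mul_right_cancel₀ hfz₀ h1).symm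
  refine ⟨MonoidHom.mk' (fun g => Units.mk0 (ζ g) (hζ0 g)) (fun g g' => ?_), fun g => ?_,
    fun g z hz => ?_⟩
  · apply Units.ext
    simp only [Units.val_mk0, Units.val_mul]
    exact hζmul g g'
  · apply Units.ext
    simp only [MonoidHom.mk'_apply, Units.val_pow_eq_pow_val, Units.val_mk0, Units.val_one]
    exact hζ1 g
  · simp only [MonoidHom.mk'_apply, Units.val_mk0]
    exact hζ g z hz

/-- The character of a root is unique. -/
theorem character_eq {f : ℂ → ℂ} (hne : ∀ z ∈ uhp, meromorphicOrderAt f z ≠ ⊤)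
    {χ χ' : G →* ℂˣ} (h : ∀ g, ∀ z ∈ uhp, f (a g z) = χ g * f z)
    (h' : ∀ g, ∀ z ∈ uhp, f (a g z) = χ' g * f z) : χ = χ' := by
  obtain ⟨z₀, hz₀, hfz₀⟩ := exists_ne_zero hne
  ext g
  have := (h g z₀ hz₀).symm.trans (h' g z₀ hz₀)
  exact mul_right_cancel₀ hfz₀ this

/-- **Two roots of the same function have the same character.** -/
theorem character_unique {f₁ f₂ : ℂ → ℂ} {m : ℕ} (hm : m ≠ 0) (h₁ : MeromorphicNFOn f₁ uhp)
    (h₂ : MeromorphicNFOn f₂ uhp) (hne : ∀ z ∈ uhp, meromorphicOrderAt f₁ z ≠ ⊤)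
    (hpow : ∀ z ∈ uhp, f₁ z ^ m = f₂ z ^ m) (ha : ∀ g, ∀ z ∈ uhp, a g z ∈ uhp)
    {χ₁ χ₂ : G →* ℂˣ} (hχ₁ : ∀ g, ∀ z ∈ uhp, f₁ (a g z) = χ₁ g * f₁ z)
    (hχ₂ : ∀ g, ∀ z ∈ uhp, f₂ (a g z) = χ₂ g * f₂ z) : χ₁ = χ₂ := by
  obtain ⟨ζ, hζ1, hζ⟩ := root_unique_uhp hm h₁ h₂ hne hpow
  have hζ0 : ζ ≠ 0 := by
    intro h0
    rw [h0, zero_pow hm] at hζ1
    exact zero_ne_one hζ1
  refine character_eq a hne hχ₁ (fun g z hz => ?_)
  have h3 := hχ₂ g z hz
  rw [hζ z hz, hζ _ (ha g z hz)] at h3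
  have h4 : ζ * f₁ (a g z) = ζ * (χ₂ g * f₁ z) := by
    rw [h3]
    ring
  exact mul_left_cancel₀ hζ0 h4

/-- an action by self-maps is injective on the upper half plane -/
theorem action_injOn (hmul : ∀ g g', ∀ z ∈ uhp, a (g * g') z = a g (a g' z))
    (hone : ∀ z ∈ uhp, a 1 z = z) (g : G) {z w : ℂ} (hz : z ∈ uhp) (hw : w ∈ uhp)
    (h : a g z = a g w) : z = w := by
  have h1 := hmul g⁻¹ g z hz
  have h2 := hmul g⁻¹ g w hw
  rw [inv_mul_cancel, hone z hz] at h1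
  rw [inv_mul_cancel, hone w hw] at h2
  rw [h1, h2, h]

/-- **The normal form of a pointwise invariant meromorphic function is invariant.** -/
theorem toNF_invariant (ha : ∀ g, ∀ z ∈ uhp, a g z ∈ uhp)
    (haa : ∀ g, ∀ z ∈ uhp, AnalyticAt ℂ (a g) z)
    (hmul : ∀ g g', ∀ z ∈ uhp, a (g * g') z = a g (a g' z)) (hone : ∀ z ∈ uhp, a 1 z = z)
    {h : ℂ → ℂ} (hh : MeromorphicOn h uhp) (hinv : ∀ g, ∀ z ∈ uhp, h (a g z) = h z)
    (g : G) {z : ℂ} (hz : z ∈ uhp) :
    toMeromorphicNFOn h uhp (a g z) = toMeromorphicNFOn h uhp z := by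
  have hNF := meromorphicNFOn_toMeromorphicNFOn h uhp
  have h1 : MeromorphicNFAt (toMeromorphicNFOn h uhp ∘ a g) z :=
    (hNF (ha g z hz)).comp_analyticAt (haa g z hz)
  have h2 : MeromorphicNFAt (toMeromorphicNFOn h uhp) z := hNF hz
  have hten : Tendsto (a g) (𝓝[≠] z) (𝓝[≠] (a g z)) := by
    refine tendsto_nhdsWithin_of_tendsto_nhds_of_eventually_within _
      ((haa g z hz).continuousAt.tendsto.mono_left nhdsWithin_le_nhds) ?_
    filter_upwards [mem_nhdsWithin_of_mem_nhds (isOpen_uhp.mem_nhds hz), self_mem_nhdsWithin]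
      with w hw hwz
    exact fun h0 => hwz (action_injOn a hmul hone g hw hz h0)
  have hev : (toMeromorphicNFOn h uhp ∘ a g) =ᶠ[𝓝[≠] z] toMeromorphicNFOn h uhp := by
    filter_upwards [hh.toMeromorphicNFOn_eq_self_on_nhdsNE hz,
      hten.eventually (hh.toMeromorphicNFOn_eq_self_on_nhdsNE (ha g z hz)),
      mem_nhdsWithin_of_mem_nhds (isOpen_uhp.mem_nhds hz)] with w hw1 hw2 hw3
    show toMeromorphicNFOn h uhp (a g w) = toMeromorphicNFOn h uhp w
    rw [hw2, hw1, hinv g w hw3]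
  exact ((h1.eventuallyEq_nhdsNE_iff_eventuallyEq_nhds h2).mp hev).self_of_nhds

/-- **Root and character of an invariant function.**  `h` meromorphic on the upper half plane,
pointwise invariant under the action, all orders finite and divisible by `m`: there are a root `f`
in normal form (`f ^ m` = the normal form of `h`) and a character `χ` with values in the `m`-th
roots of unity such that `f ∘ a g = χ g • f`. -/
theorem exists_root_character (ha : ∀ g, ∀ z ∈ uhp, a g z ∈ uhp)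
    (haa : ∀ g, ∀ z ∈ uhp, AnalyticAt ℂ (a g) z)
    (hmul : ∀ g g', ∀ z ∈ uhp, a (g * g') z = a g (a g' z)) (hone : ∀ z ∈ uhp, a 1 z = z)
    {h : ℂ → ℂ} {m : ℕ} (hm : m ≠ 0) (hh : MeromorphicOn h uhp)
    (hne : ∀ z ∈ uhp, meromorphicOrderAt h z ≠ ⊤)
    (hdiv : ∀ z ∈ uhp, ∃ n : ℤ, meromorphicOrderAt h z = ((m * n : ℤ) : WithTop ℤ))
    (hinv : ∀ g, ∀ z ∈ uhp, h (a g z) = h z) :
    ∃ (f : ℂ → ℂ) (χ : G →* ℂˣ), MeromorphicNFOn f uhp ∧
      (∀ z ∈ uhp, meromorphicOrderAt f z ≠ ⊤) ∧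
      (∀ z ∈ uhp, f z ^ m = toMeromorphicNFOn h uhp z) ∧
      ((fun z => f z ^ m) =ᶠ[codiscreteWithin uhp] h) ∧
      (∀ g, χ g ^ m = 1) ∧ ∀ g, ∀ z ∈ uhp, f (a g z) = χ g * f z := by
  obtain ⟨f, hf, hpow, hcod⟩ := exists_root' hm hh hne hdiv
  have hfne : ∀ z ∈ uhp, meromorphicOrderAt f z ≠ ⊤ := fun z hz =>
    order_ne_top_of_pow_eq isOpen_uhp hm hf.meromorphicOn hpow hz
      (by rw [meromorphicOrderAt_toMeromorphicNFOn hh hz]; exact hne z hz)
  obtain ⟨χ, hχ1, hχ⟩ := exists_character a ha haa hmul hm hf hfne (fun g z hz => by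
    rw [hpow z hz, hpow _ (ha g z hz), toNF_invariant a ha haa hmul hone hh hinv g hz])
  exact ⟨f, χ, hf, hfne, hpow, hcod, hχ1, hχ⟩

/-- **Equal characters: the quotient of the roots is invariant.**  If `f₁`, `f₂` (in normal form,
not locally zero) transform under the action by the same character, then `f₁ = u * f₂` off a
discrete set, for a function `u` in normal form which is INVARIANT under the action. -/
theorem exists_invariant_quotient (ha : ∀ g, ∀ z ∈ uhp, a g z ∈ uhp)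
    (haa : ∀ g, ∀ z ∈ uhp, AnalyticAt ℂ (a g) z)
    (hmul : ∀ g g', ∀ z ∈ uhp, a (g * g') z = a g (a g' z)) (hone : ∀ z ∈ uhp, a 1 z = z)
    {f₁ f₂ : ℂ → ℂ} (h₁ : MeromorphicNFOn f₁ uhp) (h₂ : MeromorphicNFOn f₂ uhp)
    (hne₁ : ∀ z ∈ uhp, meromorphicOrderAt f₁ z ≠ ⊤)
    (hne₂ : ∀ z ∈ uhp, meromorphicOrderAt f₂ z ≠ ⊤)
    {χ : G →* ℂˣ} (hχ₁ : ∀ g, ∀ z ∈ uhp, f₁ (a g z) = χ g * f₁ z)
    (hχ₂ : ∀ g, ∀ z ∈ uhp, f₂ (a g z) = χ g * f₂ z) :
    ∃ u : ℂ → ℂ, MeromorphicNFOn u uhp ∧ (∀ z ∈ uhp, meromorphicOrderAt u z ≠ ⊤) ∧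
      (∀ g, ∀ z ∈ uhp, u (a g z) = u z) ∧
      (f₁ =ᶠ[codiscreteWithin uhp] fun z => u z * f₂ z) ∧
      ∀ z ∈ uhp, f₂ z ≠ 0 → f₁ z = u z * f₂ z ∨ ¬ AnalyticAt ℂ (f₁ * f₂⁻¹) z := by
  have hq : MeromorphicOn (f₁ * f₂⁻¹) uhp := h₁.meromorphicOn.mul h₂.meromorphicOn.inv
  have hqinv : ∀ g, ∀ z ∈ uhp, (f₁ * f₂⁻¹) (a g z) = (f₁ * f₂⁻¹) z := by
    intro g z hz
    show f₁ (a g z) * (f₂ (a g z))⁻¹ = f₁ z * (f₂ z)⁻¹
    rw [hχ₁ g z hz, hχ₂ g z hz, mul_inv, mul_mul_mul_comm, mul_inv_cancel₀ (χ g).ne_zero,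
      one_mul]
  refine ⟨toMeromorphicNFOn (f₁ * f₂⁻¹) uhp, meromorphicNFOn_toMeromorphicNFOn _ _,
    fun z hz => ?_, fun g z hz => toNF_invariant a ha haa hmul hone hq hqinv g hz, ?_,
    fun z hz hz2 => ?_⟩
  · rw [meromorphicOrderAt_toMeromorphicNFOn hq hz,
      meromorphicOrderAt_mul (h₁.meromorphicOn z hz) (h₂.meromorphicOn z hz).inv,
      meromorphicOrderAt_inv]
    have e1 := hne₁ z hz
    have e2 := hne₂ z hz
    lift meromorphicOrderAt f₁ z to ℤ using e1 with n₁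
    lift meromorphicOrderAt f₂ z to ℤ using e2 with n₂
    rw [← WithTop.LinearOrderedAddCommGroup.coe_neg, ← WithTop.coe_add]
    exact WithTop.coe_ne_top
  · have hnz : {z | f₂ z ≠ 0} ∈ codiscreteWithin uhp := by
      rw [mem_codiscreteWithin_iff_forall_mem_nhdsNE]
      intro x hx
      filter_upwards [(meromorphicOrderAt_ne_top_iff_eventually_ne_zero
        (h₂.meromorphicOn x hx)).mp (hne₂ x hx)] with w hw
      exact Or.inl hw
    filter_upwards [toMeromorphicNFOn_eqOn_codiscrete hq, hnz] with z hz1 hz2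
    rw [← hz1]
    show f₁ z = f₁ z * (f₂ z)⁻¹ * f₂ z
    rw [mul_assoc, inv_mul_cancel₀ hz2, mul_one]
  · by_cases han : AnalyticAt ℂ (f₁ * f₂⁻¹) z
    · left
      have h3 : toMeromorphicNFOn (f₁ * f₂⁻¹) uhp z = (f₁ * f₂⁻¹) z := by
        rw [toMeromorphicNFOn_eq_toMeromorphicNFAt hq hz,
          toMeromorphicNFAt_eq_self.mpr han.meromorphicNFAt]
      rw [h3]
      show f₁ z = f₁ z * (f₂ z)⁻¹ * f₂ z
      rw [mul_assoc, inv_mul_cancel₀ hz2, mul_one]
    · exact Or.inr han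

end Action

/-! ### Subgroups of `SL(2, ℤ)` -/

/-- The Möbius action of `SL(2, ℤ)` as a self-map of `ℂ` (its values off the upper half plane
are junk): `mob γ z = γ • z` for `z` in the upper half plane. -/
def mob (γ : SL(2, ℤ)) (z : ℂ) : ℂ := ((γ • UpperHalfPlane.ofComplex z : ℍ) : ℂ)

theorem mob_mem_uhp (γ : SL(2, ℤ)) (z : ℂ) : mob γ z ∈ uhp :=
  (γ • UpperHalfPlane.ofComplex z).im_pos

@[simp]
theorem mob_coe (γ : SL(2, ℤ)) (τ : ℍ) : mob γ (τ : ℂ) = ((γ • τ : ℍ) : ℂ) := by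
  unfold mob
  rw [UpperHalfPlane.ofComplex_apply]

theorem mob_of_mem (γ : SL(2, ℤ)) {z : ℂ} (hz : z ∈ uhp) :
    mob γ z = ((γ • (⟨z, hz⟩ : ℍ) : ℍ) : ℂ) :=
  mob_coe γ ⟨z, hz⟩

theorem ofComplex_mob (γ : SL(2, ℤ)) (τ : ℍ) :
    UpperHalfPlane.ofComplex (mob γ (τ : ℂ)) = γ • τ := by
  rw [mob_coe, UpperHalfPlane.ofComplex_apply]

theorem mob_mul (γ γ' : SL(2, ℤ)) (z : ℂ) : mob (γ * γ') z = mob γ (mob γ' z) := by
  unfold mob
  rw [UpperHalfPlane.ofComplex_apply, mul_smul]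

theorem mob_one {z : ℂ} (hz : z ∈ uhp) : mob 1 z = z := by
  rw [mob_of_mem 1 hz, one_smul]

theorem analyticAt_mob (γ : SL(2, ℤ)) {z : ℂ} (hz : z ∈ uhp) : AnalyticAt ℂ (mob γ) z := by
  have hdet : 0 < (Matrix.SpecialLinearGroup.mapGL ℝ γ).val.det := by
    rw [← Matrix.GeneralLinearGroup.val_det_apply, Matrix.SpecialLinearGroup.det_mapGL]
    exact one_pos
  exact UpperHalfPlane.analyticAt_smul hdet (⟨z, hz⟩ : ℍ)

/-- **Root and character for a subgroup of `SL(2, ℤ)`.**  `h : ℍ → ℂ` is `Γ`-invariant, its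
extension `h ∘ ofComplex` is meromorphic on the upper half plane with all orders finite and
divisible by `m`: there are `f : ℍ → ℂ` whose extension is meromorphic in normal form and a
character `χ : Γ →* ℂˣ` with `χ ^ m = 1` such that `f ^ m` is the normal form of `h` (equal to `h`
off a discrete set) and `f (γ • τ) = χ γ * f τ`. -/
theorem exists_root_character_SL (Γ : Subgroup SL(2, ℤ)) {h : ℍ → ℂ} {m : ℕ} (hm : m ≠ 0)
    (hh : MeromorphicOn (h ∘ UpperHalfPlane.ofComplex) uhp)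
    (hne : ∀ z ∈ uhp, meromorphicOrderAt (h ∘ UpperHalfPlane.ofComplex) z ≠ ⊤)
    (hdiv : ∀ z ∈ uhp, ∃ n : ℤ,
      meromorphicOrderAt (h ∘ UpperHalfPlane.ofComplex) z = ((m * n : ℤ) : WithTop ℤ))
    (hinv : ∀ γ ∈ Γ, ∀ τ : ℍ, h (γ • τ) = h τ) :
    ∃ (f : ℍ → ℂ) (χ : Γ →* ℂˣ),
      MeromorphicNFOn (f ∘ UpperHalfPlane.ofComplex) uhp ∧
      (∀ z ∈ uhp, meromorphicOrderAt (f ∘ UpperHalfPlane.ofComplex) z ≠ ⊤) ∧
      (∀ τ : ℍ, f τ ^ m = toMeromorphicNFOn (h ∘ UpperHalfPlane.ofComplex) uhp (τ : ℂ)) ∧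
      ((fun z => (f ∘ UpperHalfPlane.ofComplex) z ^ m) =ᶠ[codiscreteWithin uhp]
        (h ∘ UpperHalfPlane.ofComplex)) ∧
      (∀ γ, χ γ ^ m = 1) ∧ ∀ (γ : Γ) (τ : ℍ), f ((γ : SL(2, ℤ)) • τ) = χ γ * f τ := by
  obtain ⟨F, χ, hF, hFne, hpow, hcod, hχ1, hχ⟩ :=
    exists_root_character (G := Γ) (fun γ => mob (γ : SL(2, ℤ)))
      (fun γ z _ => mob_mem_uhp _ z) (fun γ z hz => analyticAt_mob _ hz)
      (fun γ γ' z _ => by rw [Subgroup.coe_mul, mob_mul])
      (fun z hz => by rw [Subgroup.coe_one, mob_one hz]) hm hh hne hdiv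
      (fun γ z hz => by
        show h (UpperHalfPlane.ofComplex (mob (γ : SL(2, ℤ)) z)) = h (UpperHalfPlane.ofComplex z)
        have e : z = ((⟨z, hz⟩ : ℍ) : ℂ) := rfl
        rw [e, ofComplex_mob, UpperHalfPlane.ofComplex_apply]
        exact hinv _ γ.2 _)
  have hFe : EqOn (fun z => F (UpperHalfPlane.ofComplex z : ℍ)) F uhp := fun z hz => by
    show F ((UpperHalfPlane.ofComplex z : ℍ) : ℂ) = F z
    rw [UpperHalfPlane.ofComplex_apply_of_im_pos hz]
  refine ⟨fun τ => F (τ : ℂ), χ, ?_, ?_, fun τ => hpow _ τ.im_pos, ?_, hχ1, fun γ τ => ?_⟩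
  · intro z hz
    exact (meromorphicNFAt_congr (hFe.eventuallyEq_of_mem (isOpen_uhp.mem_nhds hz))).mpr (hF hz)
  · intro z hz
    have e : ((fun τ : ℍ => F (τ : ℂ)) ∘ UpperHalfPlane.ofComplex) =ᶠ[𝓝[≠] z] F :=
      (hFe.eventuallyEq_of_mem (isOpen_uhp.mem_nhds hz)).filter_mono nhdsWithin_le_nhds
    rw [meromorphicOrderAt_congr e]
    exact hFne z hz
  · have hsub : uhp ∈ codiscreteWithin uhp := self_mem_codiscreteWithin uhp
    filter_upwards [hcod, hsub] with z hz1 hz2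
    rw [← hz1]
    show F ((UpperHalfPlane.ofComplex z : ℍ) : ℂ) ^ m = F z ^ m
    rw [UpperHalfPlane.ofComplex_apply_of_im_pos hz2]
  · have := hχ γ (τ : ℂ) τ.im_pos
    rw [mob_coe] at this
    exact this

end Fermat.Agent.S29.RootChar
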