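/-
S29 (wave 9), Θ-side glue: a quotient `A / B` of two holomorphic weight-`k` functions, `A` with a
character `χ` of `Γ₀(N)` that is trivial on the elements of trace `±2`, `B` with trivial character,
all of whose slashes are bounded at `i∞`, is an element of the fraction field `Mero.Fld N` of the
S24 ring `Mero.ring N`; it is represented by `a := A B¹¹ / Δᵏ` and `b := B¹² / Δᵏ`, with
`act γ a = χ(γ) a`, `act γ b = b` for `γ ∈ Γ₀(N)`.
-/
import Mathlib
import Fermat.Agent.S24.MeroOrd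

set_option autoImplicit false

noncomputable section

open UpperHalfPlane Filter Topology Function
open scoped MatrixGroups ModularForm Manifold Real

namespace Fermat.Agent.S29.ThetaFld

open Fermat.Agent.S23 Fermat.Agent.S24 Fermat.Agent.S24.Mero

/-! ### Bounded periodic holomorphic functions are meromorphic at the cusp -/

theorem periodic_comp_ofComplex {N : ℕ} {φ : ℍ → ℂ}
    (hper : ∀ z : ℍ, φ ((N : ℝ) +ᵥ z) = φ z) : Periodic (φ ∘ ofComplex) (N : ℝ) := by
  intro w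
  by_cases hw : 0 < w.im
  · have hw' : 0 < (w + ((N : ℝ) : ℂ)).im := by simpa using hw
    simp only [comp_apply, ofComplex_apply_of_im_pos hw', ofComplex_apply_of_im_pos hw]
    rw [← hper ⟨w, hw⟩]
    congr 1
    apply UpperHalfPlane.ext
    simp [add_comm]
  · have hw0 : w.im ≤ 0 := not_lt.mp hw
    have hw' : (w + ((N : ℝ) : ℂ)).im ≤ 0 := by simpa using hw0
    rw [comp_apply, comp_apply, ofComplex_apply_of_im_nonpos hw',
      ofComplex_apply_of_im_nonpos hw0]

/-- A holomorphic, `N`-periodic function bounded at `i∞` is meromorphic (even holomorphic) at the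
cusp in the chart `q_N` of S24. -/
theorem meromorphicAt_cuspFn_of_bounded {N : ℕ} [NeZero N] {φ : ℍ → ℂ} (hol : JN.Holo φ)
    (hper : ∀ z : ℍ, φ ((N : ℝ) +ᵥ z) = φ z) (hbd : IsBoundedAtImInfty φ) :
    MeromorphicAt (cuspFn N φ) 0 := by
  have hN : (0 : ℝ) < (N : ℝ) := natCast_pos_real N
  have han := UpperHalfPlane.analyticAt_cuspFunction_zero hN (periodic_comp_ofComplex hper)
    (JN.holo_iff_mdiff.mp hol) hbd
  refine han.meromorphicAt.congr ?_
  filter_upwards [self_mem_nhdsWithin] with q hq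
  have hq0 : q ≠ 0 := hq
  simp only [cuspFn, chartInf, UpperHalfPlane.cuspFunction,
    Function.Periodic.cuspFunction_eq_of_nonzero _ _ hq0, Function.comp_apply]

/-! ### Conjugates of `T ^ N` -/

theorem conj_T_pow_apply_one_zero (N : ℕ) (g : SL(2, ℤ)) :
    (g * ModularGroup.T ^ N * g⁻¹) 1 0 = -((g 1 0) ^ 2 * (N : ℤ)) := by
  have hT : (ModularGroup.T ^ N).1 = !![1, (N : ℤ); 0, 1] := by
    rw [← zpow_natCast, ModularGroup.coe_T_zpow]
  simp only [Matrix.SpecialLinearGroup.coe_mul, Matrix.SpecialLinearGroup.coe_inv, hT,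
    Matrix.adjugate_fin_two, Matrix.mul_apply, Fin.sum_univ_two, Matrix.of_apply,
    Matrix.cons_val', Matrix.cons_val_zero, Matrix.cons_val_one, Matrix.empty_val',
    Matrix.cons_val_fin_one]
  ring

theorem conj_T_pow_mem (N : ℕ) (g : SL(2, ℤ)) :
    g * ModularGroup.T ^ N * g⁻¹ ∈ CongruenceSubgroup.Gamma0 N := by
  rw [CongruenceSubgroup.Gamma0_mem, conj_T_pow_apply_one_zero]
  push_cast
  simp

theorem conj_T_pow_trace (N : ℕ) (g : SL(2, ℤ)) :
    ((g * ModularGroup.T ^ N * g⁻¹ : SL(2, ℤ)) : Matrix (Fin 2) (Fin 2) ℤ).trace = 2 := by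
  have hT : (ModularGroup.T ^ N).1 = !![1, (N : ℤ); 0, 1] := by
    rw [← zpow_natCast, ModularGroup.coe_T_zpow]
  have hdet := g.det_coe
  rw [Matrix.det_fin_two] at hdet
  simp only [Matrix.SpecialLinearGroup.coe_mul, Matrix.SpecialLinearGroup.coe_inv, hT,
    Matrix.adjugate_fin_two, Matrix.trace_fin_two, Matrix.mul_apply, Fin.sum_univ_two,
    Matrix.of_apply, Matrix.cons_val', Matrix.cons_val_zero, Matrix.cons_val_one,
    Matrix.empty_val', Matrix.cons_val_fin_one]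
  linear_combination 2 * hdet

/-! ### Slashes -/

theorem apply_smul_eq (A : ℍ → ℂ) (k : ℕ) (g : SL(2, ℤ)) (z : ℍ) :
    A (g • z) = (A ∣[(k : ℤ)] g) z * denom g z ^ k := by
  rw [ModularForm.SL_slash_apply, zpow_neg, zpow_natCast, mul_assoc,
    inv_mul_cancel₀ (pow_ne_zero _ (denom_ne_zero g z)), mul_one]

theorem holo_slash {A : ℍ → ℂ} (hA : JN.Holo A) (k : ℤ) (g : SL(2, ℤ)) :
    JN.Holo (A ∣[k] g) :=
  JN.holo_iff_mdiff.mpr ((JN.holo_iff_mdiff.mp hA).slash k g)

theorem denom_T_pow (N : ℕ) (z : ℍ) : denom (ModularGroup.T ^ N : SL(2, ℤ)) z = 1 := by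
  have hT : (ModularGroup.T ^ N : SL(2, ℤ)).1 = !![1, (N : ℤ); 0, 1] := by
    rw [← zpow_natCast, ModularGroup.coe_T_zpow]
  have h10 : (ModularGroup.T ^ N : SL(2, ℤ)) 1 0 = 0 := by
    show (ModularGroup.T ^ N : SL(2, ℤ)).1 1 0 = 0
    rw [hT]; rfl
  have h11 : (ModularGroup.T ^ N : SL(2, ℤ)) 1 1 = 1 := by
    show (ModularGroup.T ^ N : SL(2, ℤ)).1 1 1 = 1
    rw [hT]; rfl
  rw [ModularGroup.denom_apply, h10, h11]
  simp

theorem T_pow_smul (N : ℕ) (z : ℍ) : (ModularGroup.T ^ N : SL(2, ℤ)) • z = (N : ℝ) +ᵥ z := by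
  rw [← zpow_natCast, modular_T_zpow_smul]
  simp

theorem slash_T_pow_apply (f : ℍ → ℂ) (k : ℤ) (N : ℕ) (z : ℍ) :
    (f ∣[k] (ModularGroup.T ^ N : SL(2, ℤ))) z = f ((N : ℝ) +ᵥ z) := by
  rw [ModularForm.SL_slash_apply, denom_T_pow, T_pow_smul, one_zpow, mul_one]

theorem disc_smul (g : SL(2, ℤ)) (z : ℍ) :
    ModularForm.discriminant (g • z) = denom g z ^ 12 * ModularForm.discriminant z := by
  have h12 : CuspForm.discriminant (g • z) = denom g z ^ (12 : ℤ) * CuspForm.discriminant z :=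
    SlashInvariantForm.slash_action_eqn'' (Γ := 𝒮ℒ) CuspForm.discriminant
      (γ := Matrix.SpecialLinearGroup.mapGL ℝ g) ⟨g, rfl⟩ z
  simp only [CuspForm.coe_discriminant] at h12
  rw [h12]
  norm_cast

theorem disc_vadd (N : ℕ) (z : ℍ) :
    ModularForm.discriminant ((N : ℝ) +ᵥ z) = ModularForm.discriminant z := by
  have := disc_smul (ModularGroup.T ^ N : SL(2, ℤ)) z
  rwa [denom_T_pow, T_pow_smul, one_pow, one_mul] at this

theorem holo_disc : JN.Holo (fun z : ℍ => ModularForm.discriminant z) := by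
  have := JN.holo_iff_mdiff.mpr (ModularFormClass.holo CuspForm.discriminant)
  simpa [CuspForm.coe_discriminant] using this

theorem meromorphicAt_cuspFn_disc (N : ℕ) [NeZero N] :
    MeromorphicAt (cuspFn N (fun z : ℍ => ModularForm.discriminant z)) 0 := by
  refine meromorphicAt_cuspFn_of_bounded holo_disc (fun z => disc_vadd N z) ?_
  have : Fact (IsCusp OnePoint.infty 𝒮ℒ) :=
    ⟨Subgroup.isCusp_of_mem_strictPeriods one_pos one_mem_strictPeriods_SL⟩
  have h := ModularFormClass.bdd_at_infty CuspForm.discriminant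
  simpa [CuspForm.coe_discriminant] using h

/-! ### Twisted forms -/

/-- `A` is holomorphic, of weight `k` with character `χ` on `Γ₀(N)`, and all its slashes are
bounded at `i∞`. -/
structure IsTwistedForm (N : ℕ) (k : ℕ) (χ : CongruenceSubgroup.Gamma0 N →* ℂˣ) (A : ℍ → ℂ) :
    Prop where
  holo : JN.Holo A
  slash : ∀ (γ : CongruenceSubgroup.Gamma0 N) (z : ℍ),
    A ((γ : SL(2, ℤ)) • z) = ((χ γ : ℂˣ) : ℂ) * denom (γ : SL(2, ℤ)) z ^ k * A z
  bdd : ∀ g : SL(2, ℤ), IsBoundedAtImInfty (A ∣[(k : ℤ)] g)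

/-- `χ` is trivial on the elements of trace `± 2` (the parabolic elements and `± 1`). -/
def IsParabolicChar (N : ℕ) (χ : CongruenceSubgroup.Gamma0 N →* ℂˣ) : Prop :=
  ∀ γ : CongruenceSubgroup.Gamma0 N,
    ((γ : SL(2, ℤ)) : Matrix (Fin 2) (Fin 2) ℤ).trace ^ 2 = 4 → χ γ = 1

variable {N k : ℕ} {χ : CongruenceSubgroup.Gamma0 N →* ℂˣ} {A : ℍ → ℂ}

theorem IsTwistedForm.slash_eq (hA : IsTwistedForm N k χ A) (γ : CongruenceSubgroup.Gamma0 N) :
    A ∣[(k : ℤ)] (γ : SL(2, ℤ)) = ((χ γ : ℂˣ) : ℂ) • A := by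
  funext z
  have hd : denom (γ : SL(2, ℤ)) z ≠ 0 := denom_ne_zero _ z
  rw [ModularForm.SL_slash_apply, hA.slash γ z, zpow_neg, zpow_natCast, Pi.smul_apply,
    smul_eq_mul]
  field_simp

theorem IsTwistedForm.slash_periodic (hA : IsTwistedForm N k χ A) (hχ : IsParabolicChar N χ)
    (g : SL(2, ℤ)) (z : ℍ) :
    (A ∣[(k : ℤ)] g) ((N : ℝ) +ᵥ z) = (A ∣[(k : ℤ)] g) z := by
  set δ : CongruenceSubgroup.Gamma0 N := ⟨g * ModularGroup.T ^ N * g⁻¹, conj_T_pow_mem N g⟩
    with hδ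
  have hχδ : χ δ = 1 := by
    apply hχ
    rw [hδ]
    show ((g * ModularGroup.T ^ N * g⁻¹ : SL(2, ℤ)) : Matrix (Fin 2) (Fin 2) ℤ).trace ^ 2 = 4
    rw [conj_T_pow_trace]
    norm_num
  have hmul : g * ModularGroup.T ^ N = (δ : SL(2, ℤ)) * g := by
    rw [hδ]
    show g * ModularGroup.T ^ N = g * ModularGroup.T ^ N * g⁻¹ * g
    rw [inv_mul_cancel_right]
  rw [← slash_T_pow_apply (A ∣[(k : ℤ)] g) k N z, ← SlashAction.slash_mul, hmul,
    SlashAction.slash_mul, hA.slash_eq δ, hχδ]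
  simp

theorem IsTwistedForm.meromorphicAt_slash [NeZero N] (hA : IsTwistedForm N k χ A)
    (hχ : IsParabolicChar N χ) (g : SL(2, ℤ)) :
    MeromorphicAt (cuspFn N (A ∣[(k : ℤ)] g)) 0 :=
  meromorphicAt_cuspFn_of_bounded (holo_slash hA.holo k g) (hA.slash_periodic hχ g) (hA.bdd g)

/-! ### The weight-zero quotients -/

/-- `A B¹¹ / Δᵏ`: holomorphic of weight `0` when `A`, `B` have weight `k`. -/
def numFun (k : ℕ) (A B : ℍ → ℂ) : ℍ → ℂ :=
  fun z => A z * B z ^ 11 / ModularForm.discriminant z ^ k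

theorem numFun_smul (k : ℕ) (A B : ℍ → ℂ) (g : SL(2, ℤ)) (z : ℍ) :
    numFun k A B (g • z)
      = (A ∣[(k : ℤ)] g) z * (B ∣[(k : ℤ)] g) z ^ 11 / ModularForm.discriminant z ^ k := by
  have hd : denom g z ≠ 0 := denom_ne_zero _ z
  have hΔ : ModularForm.discriminant z ≠ 0 := ModularForm.discriminant_ne_zero z
  unfold numFun
  rw [apply_smul_eq A k g z, apply_smul_eq B k g z, disc_smul g z]
  field_simp
  ring

theorem holo_numFun {k : ℕ} {A B : ℍ → ℂ} (hA : JN.Holo A) (hB : JN.Holo B) :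
    JN.Holo (numFun k A B) := by
  refine ((hA.mul (hB.pow 11)).div (holo_disc.pow k) ?_).congr ?_
  · intro z _
    exact pow_ne_zero _ (ModularForm.discriminant_ne_zero _)
  · intro z _
    simp [numFun]

variable {χ' : CongruenceSubgroup.Gamma0 N →* ℂˣ} {B : ℍ → ℂ}

theorem isMod_numFun [NeZero N] (hA : IsTwistedForm N k χ A) (hχ : IsParabolicChar N χ)
    (hB : IsTwistedForm N k χ' B) (hχ' : IsParabolicChar N χ') : IsMod N (numFun k A B) := by
  refine ⟨holo_numFun hA.holo hB.holo, fun g => ⟨fun z => ?_, ?_⟩⟩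
  · rw [numFun_smul, numFun_smul, hA.slash_periodic hχ, hB.slash_periodic hχ', disc_vadd]
  · have h := ((hA.meromorphicAt_slash hχ g).mul ((hB.meromorphicAt_slash hχ' g).pow 11)).div
      ((meromorphicAt_cuspFn_disc N).pow k)
    refine h.congr (Filter.Eventually.of_forall fun q => ?_)
    show _ = numFun k A B (g • chartInf N q)
    rw [numFun_smul]
    rfl

/-- `A B¹¹ / Δᵏ` as an element of `Mero.ring N`. -/
def numR [NeZero N] (hA : IsTwistedForm N k χ A) (hχ : IsParabolicChar N χ)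
    (hB : IsTwistedForm N k χ' B) (hχ' : IsParabolicChar N χ') : Mero.ring N :=
  ⟨numFun k A B, isMod_numFun hA hχ hB hχ'⟩

@[simp] theorem numR_apply [NeZero N] (hA : IsTwistedForm N k χ A) (hχ : IsParabolicChar N χ)
    (hB : IsTwistedForm N k χ' B) (hχ' : IsParabolicChar N χ') (z : ℍ) :
    (numR hA hχ hB hχ' : ℍ → ℂ) z = A z * B z ^ 11 / ModularForm.discriminant z ^ k := rfl

theorem act_numR [NeZero N] (hA : IsTwistedForm N k χ A) (hχ : IsParabolicChar N χ)
    (hB : IsTwistedForm N k χ' B) (hχ' : IsParabolicChar N χ')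
    (γ : CongruenceSubgroup.Gamma0 N) :
    Mero.act N (γ : SL(2, ℤ)) (numR hA hχ hB hχ')
      = Mero.const N (((χ γ : ℂˣ) : ℂ) * ((χ' γ : ℂˣ) : ℂ) ^ 11) * numR hA hχ hB hχ' := by
  apply Subtype.ext
  funext z
  show numFun k A B ((γ : SL(2, ℤ)) • z)
    = ((χ γ : ℂˣ) : ℂ) * ((χ' γ : ℂˣ) : ℂ) ^ 11 * numFun k A B z
  rw [numFun_smul, hA.slash_eq γ, hB.slash_eq γ]
  simp only [Pi.smul_apply, smul_eq_mul, numFun]
  ring

theorem isParabolicChar_one (N : ℕ) : IsParabolicChar N 1 := fun _ _ => rfl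

/-- **The Θ-side glue.**  For holomorphic `A`, `B` of weight `k` on `Γ₀(N)` with bounded slashes,
`A` with a character `χ` trivial on the elements of trace `± 2` and `B ≠ 0` with trivial
character, the quotient `A / B` is represented by `a / b` with `a, b ∈ Mero.ring N`,
`act γ a = χ(γ) a` and `act γ b = b` for `γ ∈ Γ₀(N)`. -/
theorem exists_ring [NeZero N] (hχ : IsParabolicChar N χ) (hA : IsTwistedForm N k χ A)
    (hB : IsTwistedForm N k 1 B) (hB0 : ∃ z, B z ≠ 0) :
    ∃ a b : Mero.ring N, b ≠ 0 ∧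
      (∀ z : ℍ, (a : ℍ → ℂ) z * B z = (b : ℍ → ℂ) z * A z) ∧
      (∀ γ : CongruenceSubgroup.Gamma0 N,
        Mero.act N (γ : SL(2, ℤ)) a = Mero.const N ((χ γ : ℂˣ) : ℂ) * a) ∧
      (∀ γ : CongruenceSubgroup.Gamma0 N, Mero.act N (γ : SL(2, ℤ)) b = b) ∧
      ((∃ z, A z ≠ 0) → a ≠ 0) := by
  have h1 := isParabolicChar_one N
  refine ⟨numR hA hχ hB h1, numR hB h1 hB h1, ?_, fun z => ?_, fun γ => ?_, fun γ => ?_, ?_⟩
  · obtain ⟨z, hz⟩ := hB0
    intro h0
    have := congrFun (congrArg Subtype.val h0) z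
    have hΔ : ModularForm.discriminant z ≠ 0 := ModularForm.discriminant_ne_zero z
    simp only [numR_apply] at this
    have h2 : B z * B z ^ 11 / ModularForm.discriminant z ^ k ≠ 0 :=
      div_ne_zero (mul_ne_zero hz (pow_ne_zero _ hz)) (pow_ne_zero _ hΔ)
    exact h2 this
  · simp only [numR_apply]
    ring
  · rw [act_numR]
    simp
  · rw [act_numR]
    apply Subtype.ext
    funext z
    simp
  · rintro ⟨z, hz⟩ h0
    obtain ⟨w, hw⟩ := hB0
    -- `A` and `B` are holomorphic and nonzero, so they have a common point of non-vanishing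
    obtain ⟨z', hz'⟩ := JN.exists_common_ne_zero (ι := Bool)
      (fun b => if b then A else B)
      (fun b => by cases b <;> simp [hA.holo, hB.holo])
      (fun b => by
        cases b
        · exact ⟨w, by simpa using hw⟩
        · exact ⟨z, by simpa using hz⟩)
    have h1' := hz' true
    have h2' := hz' false
    simp only [if_true, Bool.false_eq_true, if_false] at h1' h2'
    have := congrFun (congrArg Subtype.val h0) z'
    have hΔ : ModularForm.discriminant z' ≠ 0 := ModularForm.discriminant_ne_zero z'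
    simp only [numR_apply] at this
    have h2 : A z' * B z' ^ 11 / ModularForm.discriminant z' ^ k ≠ 0 :=
      div_ne_zero (mul_ne_zero h1' (pow_ne_zero _ h2')) (pow_ne_zero _ hΔ)
    exact h2 this

/-- `Mero.Fld N`-form of `exists_ring`: the quotient `A / B` as an element `F` of the fraction
field, with `actF γ F = χ(γ) F` for `γ ∈ Γ₀(N)`. -/
theorem exists_fld [NeZero N] (hχ : IsParabolicChar N χ) (hA : IsTwistedForm N k χ A)
    (hB : IsTwistedForm N k 1 B) (hB0 : ∃ z, B z ≠ 0) :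
    ∃ (F : Mero.Fld N) (a b : Mero.ring N), b ≠ 0 ∧
      F = algebraMap (Mero.ring N) (Mero.Fld N) a / algebraMap (Mero.ring N) (Mero.Fld N) b ∧
      (∀ z : ℍ, (a : ℍ → ℂ) z * B z = (b : ℍ → ℂ) z * A z) ∧
      (∀ γ : CongruenceSubgroup.Gamma0 N, Mero.actF N (γ : SL(2, ℤ)) F
        = algebraMap (Mero.ring N) (Mero.Fld N) (Mero.const N ((χ γ : ℂˣ) : ℂ)) * F) ∧
      ((∃ z, A z ≠ 0) → F ≠ 0) := by
  obtain ⟨a, b, hb, hab, ha, hbinv, hne⟩ := exists_ring hχ hA hB hB0
  refine ⟨_, a, b, hb, rfl, hab, fun γ => ?_, fun h => ?_⟩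
  · rw [map_div₀, Mero.actF_algebraMap, Mero.actF_algebraMap, ha γ, hbinv γ, map_mul, mul_div_assoc]
  · exact div_ne_zero (Mero.algebraMap_ne_zero (hne h)) (Mero.algebraMap_ne_zero hb)

end Fermat.Agent.S29.ThetaFld

end
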