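/-
S29 (wave 9), [IV], leaf (THETA-FN): for `λ ∈ Λ = Hom_par(Γ₀(N), ℤ)` and `ζ ^ m = 1` there is a
nonzero `F ∈ Mero.Fld N` with multiplier `ζ ^ λ` whose `m`-th power is (the analytic realisation
of) a modular function: `F = G_χ / G_1`, the quotient of the weight `4` Eisenstein series with
character `χ = ζ ^ λ` by the one with trivial character.

Inputs: `EisChar` (the Eisenstein series), `LamChar` (the characters), `InvAlg` (a quotient of two
modular forms of the same weight is a rational function of the `j (d z)`), and the statement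
`FldStmt` ("a quotient of two holomorphic weight `k` functions with bounded slashes lies in
`Mero.Fld N`"), taken as a hypothesis.
-/
import Fermat.Agent.S29.IVIface
import Fermat.Agent.S29.EisChar
import Fermat.Agent.S29.LamChar
import Fermat.Agent.S29.InvAlg

set_option autoImplicit false

noncomputable section

open scoped MatrixGroups Real
open UpperHalfPlane ModularCurve CongruenceSubgroup ModularForm

namespace Fermat.Agent.S29.ThetaFn

open Fermat.Agent.S23 Fermat.Agent.S24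
open Fermat.Agent.S24.Mero (Fld actF)

/-- A quotient `A / B` of two holomorphic functions of weight `k` on `Γ₀(N)` (`A` with a character
`χ` killing the elements of trace `± 2`, `B` with trivial character), all of whose slashes are
bounded at `i∞`, is a quotient `a / b` of two elements of `Mero.ring N`, `a` with multiplier `χ`
and `b` invariant. -/
def FldStmt : Prop :=
  ∀ (N : ℕ) [NeZero N] (k : ℕ) (χ : ↥(Gamma0 N) →* ℂˣ) (A B : ℍ → ℂ), JN.Holo A → JN.Holo B →
    (∀ γ : ↥(Gamma0 N), ((γ : SL(2, ℤ)) : Matrix (Fin 2) (Fin 2) ℤ).trace ^ 2 = 4 → χ γ = 1) →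
    (∀ (γ : ↥(Gamma0 N)) (z : ℍ), A (γ.1 • z) = (χ γ : ℂ) * denom γ.1 z ^ (k : ℤ) * A z) →
    (∀ (γ : ↥(Gamma0 N)) (z : ℍ), B (γ.1 • z) = denom γ.1 z ^ (k : ℤ) * B z) →
    (∀ g : SL(2, ℤ), IsBoundedAtImInfty (A ∣[(k : ℤ)] g)) →
    (∀ g : SL(2, ℤ), IsBoundedAtImInfty (B ∣[(k : ℤ)] g)) → B ≠ 0 →
    ∃ a b : Mero.ring N, b ≠ 0 ∧ (∀ z : ℍ, (a : ℍ → ℂ) z * B z = (b : ℍ → ℂ) z * A z) ∧
      (∀ γ : ↥(Gamma0 N), Mero.act N γ.1 a = Mero.const N (χ γ) * a) ∧
      (∀ γ : ↥(Gamma0 N), Mero.act N γ.1 b = b)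

/-! ### Roots of unity -/

/-- An `m`-th root of unity is `exp (2 π i k / m)`. -/
theorem exists_eq_exp {m : ℕ} (hm : 0 < m) {ζ : ℂ} (hζ : ζ ^ m = 1) :
    ∃ k : ℕ, ζ = Complex.exp (2 * π * Complex.I * (k : ℂ) / m) := by
  have : NeZero m := ⟨hm.ne'⟩
  have hζ0 : ζ ≠ 0 := by
    rintro rfl
    rw [zero_pow hm.ne'] at hζ
    exact zero_ne_one hζ
  have hmem : Units.mk0 ζ hζ0 ∈ rootsOfUnity m ℂ := by
    rw [_root_.mem_rootsOfUnity]
    apply Units.ext
    rw [Units.val_pow_eq_pow_val, Units.val_mk0, hζ, Units.val_one]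
  obtain ⟨i, -, hi⟩ := (Complex.mem_rootsOfUnity m _).mp hmem
  refine ⟨i, ?_⟩
  rw [Units.val_mk0] at hi
  rw [← hi]
  congr 1
  ring

/-- `exp (2 π i k / m) ^ (n mod m) = exp (2 π i (k n) / m)`. -/
theorem exp_pow_val {m : ℕ} (hm : 0 < m) (k : ℕ) (n : ℤ) :
    Complex.exp (2 * π * Complex.I * (k : ℂ) / m) ^ ((n : ZMod m).val)
      = Complex.exp (2 * π * Complex.I * (((k : ℤ) * n : ℤ) : ℂ) / m) := by
  have : NeZero m := ⟨hm.ne'⟩
  have hm' : (m : ℂ) ≠ 0 := Nat.cast_ne_zero.mpr hm.ne'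
  rw [← Complex.exp_nat_mul, Complex.exp_eq_exp_iff_exists_int]
  have hv : (((n : ZMod m).val : ℕ) : ℤ) = n % (m : ℤ) := ZMod.val_intCast n
  have hv2 : (((n : ZMod m).val : ℕ) : ℤ) = n - (m : ℤ) * (n / (m : ℤ)) := by
    rw [hv]
    exact Int.emod_def n m
  refine ⟨-((k : ℤ) * (n / (m : ℤ))), ?_⟩
  have hv3 : (((n : ZMod m).val : ℕ) : ℂ) = (n : ℂ) - (m : ℂ) * ((n / (m : ℤ) : ℤ) : ℂ) := by
    exact_mod_cast congrArg (Int.cast : ℤ → ℂ) hv2
  rw [hv3]
  push_cast
  field_simp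
  ring

/-! ### The theorem -/

/-- **(THETA-FN)** from the Eisenstein series with character. -/
theorem thetaFnStmt_of (hTF : FldStmt) : IV.ThetaFnStmt := by
  intro N m _ hm ζ hζ lam hlam
  obtain ⟨k, rfl⟩ := exists_eq_exp hm hζ
  -- the character
  have hpar : ModularCurve.Period.IsParabolicHom (Gamma0 N) (k • lam) :=
    (IV.Lam N).smul_mem k hlam
  set χ : ↥(Gamma0 N) →* ℂˣ := LamChar.chi N m (k • lam) with hχdef
  have hχval : ∀ γ : ↥(Gamma0 N), ((χ γ : ℂˣ) : ℂ)
      = Complex.exp (2 * π * Complex.I * (k : ℂ) / m) ^ (IV.red N m lam (Additive.ofMul γ)).val := by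
    intro γ
    rw [IV.red_apply, exp_pow_val hm, hχdef, LamChar.chi_apply]
    simp
  have hχnorm : ∀ γ, ‖((χ γ : ℂˣ) : ℂ)‖ = 1 := fun γ => LamChar.norm_chi m _ γ
  have hχtr : ∀ γ : ↥(Gamma0 N),
      ((γ : SL(2, ℤ)) : Matrix (Fin 2) (Fin 2) ℤ).trace ^ 2 = 4 → χ γ = 1 :=
    fun γ h => LamChar.chi_of_trace_sq m hpar γ h
  have hB : EisChar.TrivOnBorel χ := EisChar.trivOnBorel_of_trace_sq hχtr
  have hU : EisChar.TrivOnUnipotent χ := hB.trivOnUnipotent
  have hχm : ∀ γ, χ γ ^ m = 1 := fun γ => LamChar.chi_pow hm.ne' _ γ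
  -- the two Eisenstein series
  set A : ℍ → ℂ := EisChar.G χ 4 with hA
  set B : ℍ → ℂ := EisChar.G (1 : ↥(Gamma0 N) →* ℂˣ) 4 with hBdef
  have hAholo : JN.Holo A := JN.holo_iff_mdiff.mpr (EisChar.G_mdifferentiable hχnorm (by norm_num))
  have hBholo : JN.Holo B :=
    JN.holo_iff_mdiff.mpr (EisChar.G_mdifferentiable EisChar.norm_one_char (by norm_num))
  have hA0 : A ≠ 0 := EisChar.G_ne_zero hχnorm hB (by norm_num) (by decide)
  have hB0 : B ≠ 0 :=
    EisChar.G_ne_zero EisChar.norm_one_char EisChar.trivOnBorel_one (by norm_num) (by decide)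
  -- the rational function
  obtain ⟨P, Q, hQ, hPQ⟩ := InvAlg.exists_eval_of_modularForm N (EisChar.A4 χ hχnorm hU m hχm)
    (EisChar.B4 N m) (EisChar.B4_ne_zero m)
  simp only [EisChar.A4_apply, EisChar.B4_apply] at hPQ
  -- the representatives in `Mero.ring N`
  obtain ⟨a, b, hb, hab, hacta, hactb⟩ := hTF N 4 χ A B hAholo hBholo hχtr
    (fun γ z => EisChar.G_smul hU 4 γ z) (fun γ z => EisChar.G_one_smul 4 γ z)
    (fun g => EisChar.isBoundedAtImInfty_G_slash hχnorm (by norm_num) g)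
    (fun g => EisChar.isBoundedAtImInfty_G_slash EisChar.norm_one_char (by norm_num) g) hB0
  have hbz : ∃ z, (b : ℍ → ℂ) z ≠ 0 := by
    by_contra h
    push Not at h
    exact hb (Subtype.ext (funext h))
  have hAz : ∃ z, A z ≠ 0 := Function.ne_iff.mp hA0
  have hBz : ∃ z, B z ≠ 0 := Function.ne_iff.mp hB0
  have ha : a ≠ 0 := by
    rintro rfl
    obtain ⟨z, hz⟩ := JN.exists_common_ne_zero (ι := Bool)
      (fun i => if i then (b : ℍ → ℂ) else A)
      (fun i => by cases i <;> simp [Mero.holo_of_mem, hAholo])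
      (fun i => by cases i <;> simpa using ‹_›)
    have h1 := hz true
    have h2 := hz false
    simp only [if_true, Bool.false_eq_true, if_false] at h1 h2
    have h3 := hab z
    have h4 : ((0 : Mero.ring N) : ℍ → ℂ) z = 0 := rfl
    rw [h4, zero_mul] at h3
    exact mul_ne_zero h1 h2 h3.symm
  -- the polynomial identity inside `Mero.ring N`
  have hring : a ^ m * DataTau.evalRing (RingHom.id ℂ) N Q
      = b ^ m * DataTau.evalRing (RingHom.id ℂ) N P := by
    by_contra hne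
    have hne' : a ^ m * DataTau.evalRing (RingHom.id ℂ) N Q
        - b ^ m * DataTau.evalRing (RingHom.id ℂ) N P ≠ 0 := sub_ne_zero.mpr hne
    set D : Mero.ring N := a ^ m * DataTau.evalRing (RingHom.id ℂ) N Q
        - b ^ m * DataTau.evalRing (RingHom.id ℂ) N P with hD
    have hDz : ∃ z, (D : ℍ → ℂ) z ≠ 0 := by
      by_contra h
      push Not at h
      exact hne' (Subtype.ext (funext h))
    obtain ⟨z, hz⟩ := JN.exists_common_ne_zero (ι := Bool)
      (fun i => if i then (D : ℍ → ℂ) else B)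
      (fun i => by cases i <;> simp [Mero.holo_of_mem, hBholo])
      (fun i => by cases i <;> simpa using ‹_›)
    have h1 := hz true
    have h2 := hz false
    simp only [if_true, Bool.false_eq_true, if_false] at h1 h2
    apply h1
    have hDval : (D : ℍ → ℂ) z = (a : ℍ → ℂ) z ^ m * S24.evalFun N Q z
        - (b : ℍ → ℂ) z ^ m * S24.evalFun N P z := by
      have e1 : ((DataTau.evalRing (RingHom.id ℂ) N Q : Mero.ring N) : ℍ → ℂ) = S24.evalFun N Q := by
        rw [DataTau.coe_evalRing, MvPolynomial.map_id]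
      have e2 : ((DataTau.evalRing (RingHom.id ℂ) N P : Mero.ring N) : ℍ → ℂ) = S24.evalFun N P := by
        rw [DataTau.coe_evalRing, MvPolynomial.map_id]
      rw [hD]
      show (a : ℍ → ℂ) z ^ m * ((DataTau.evalRing (RingHom.id ℂ) N Q : Mero.ring N) : ℍ → ℂ) z
        - (b : ℍ → ℂ) z ^ m * ((DataTau.evalRing (RingHom.id ℂ) N P : Mero.ring N) : ℍ → ℂ) z = _
      rw [e1, e2]
    have h5 : B z ^ m * (D : ℍ → ℂ) z = 0 := by
      rw [hDval]
      have e3 := hab z
      have e4 := hPQ z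
      have e5 : (a : ℍ → ℂ) z ^ m * B z ^ m = (b : ℍ → ℂ) z ^ m * A z ^ m := by
        rw [← mul_pow, ← mul_pow, e3]
      linear_combination (S24.evalFun N Q z) * e5 + (b : ℍ → ℂ) z ^ m * e4
    rcases mul_eq_zero.mp h5 with h6 | h6
    · exact absurd (pow_eq_zero_iff (hm.ne') |>.mp h6) h2
    · exact h6
  have hbF : algebraMap (Mero.ring N) (Fld N) b ≠ 0 := Mero.algebraMap_ne_zero hb
  have haF : algebraMap (Mero.ring N) (Fld N) a ≠ 0 := Mero.algebraMap_ne_zero ha
  have hQring : DataTau.evalRing (RingHom.id ℂ) N Q ≠ 0 := by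
    intro h0
    apply hQ
    have e1 : ((DataTau.evalRing (RingHom.id ℂ) N Q : Mero.ring N) : ℍ → ℂ) = S24.evalFun N Q := by
      rw [DataTau.coe_evalRing, MvPolynomial.map_id]
    rw [← e1, h0]
    rfl
  have hQF : algebraMap (Mero.ring N) (Fld N) (DataTau.evalRing (RingHom.id ℂ) N Q) ≠ 0 :=
    Mero.algebraMap_ne_zero hQring
  refine ⟨algebraMap (Mero.ring N) (Fld N) a / algebraMap (Mero.ring N) (Fld N) b,
    S24.evalL ℂ N P / S24.evalL ℂ N Q, div_ne_zero haF hbF, ?_, ?_⟩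
  · -- the `m`-th power
    show _ = DataTau.PhiL (RingHom.id ℂ) N (S24.evalL ℂ N P / S24.evalL ℂ N Q)
    rw [map_div₀, DataTau.PhiL_evalL, DataTau.PhiL_evalL, div_pow, div_eq_div_iff (pow_ne_zero m hbF) hQF,
      ← map_pow, ← map_pow, ← map_mul, ← map_mul, hring, mul_comm]
  · -- the multiplier
    intro γ
    rw [map_div₀, Mero.actF_algebraMap, Mero.actF_algebraMap, hacta γ, hactb γ, map_mul, mul_div_assoc,
      ← hχval γ]
    rfl

end Fermat.Agent.S29.ThetaFn
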