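/-
S29 (wave 9), [IV], leaf (THETA-FN), closed: `ThetaFn.thetaFnStmt : IV.ThetaFnStmt`.

`ThetaFn.thetaFnStmt_of` (Eisenstein series with character + `InvAlg`) applied to
`ThetaFld.exists_ring` (the quotient of two twisted forms lies in `Mero.Fld N`).
-/
import Fermat.Agent.S29.ThetaFn
import Fermat.Agent.S29.ThetaFld

set_option autoImplicit false

noncomputable section

open scoped MatrixGroups
open UpperHalfPlane CongruenceSubgroup

namespace Fermat.Agent.S29.ThetaFn

/-- The hypothesis of `thetaFnStmt_of`, from `ThetaFld.exists_ring`. -/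
theorem fldStmt : FldStmt := by
  intro N _ k χ A B hA hB hχ hAs hBs hAb hBb hB0
  have hA' : ThetaFld.IsTwistedForm N k χ A :=
    ⟨hA, fun γ z => by rw [hAs γ z, zpow_natCast], hAb⟩
  have hB' : ThetaFld.IsTwistedForm N k 1 B :=
    ⟨hB, fun γ z => by rw [hBs γ z, zpow_natCast]; simp, hBb⟩
  obtain ⟨a, b, hb, hab, ha, hbinv, -⟩ :=
    ThetaFld.exists_ring (χ := χ) hχ hA' hB' (Function.ne_iff.mp hB0)
  exact ⟨a, b, hb, hab, ha, hbinv⟩

/-- **(THETA-FN)**: for `λ ∈ Λ` and `ζ ^ m = 1` there is a nonzero `F ∈ Mero.Fld N` with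
multiplier `ζ ^ λ` whose `m`-th power is a modular function. -/
theorem thetaFnStmt : IV.ThetaFnStmt := thetaFnStmt_of fldStmt

end Fermat.Agent.S29.ThetaFn
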