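/-
S29 (wave 9), [IV], fact (U): uniqueness in the relation `Emb.Rel` (second seat).

If `x = [D]`, `x' = [D']` are both related to `λ`, with `m • D = div y`, `m • D' = div y'` and
root pairs `a / b`, `a' / b'` of the analytic realisations of `y`, `y'` with the same multiplier
`ζ_m^λ`, then `U / V := (a b') / (b a')` is `Γ₀(N)`-invariant and its `m`-th power is the analytic
realisation of `y / y'`.  By `InvRoot.exists_eval_of_invariant_root` it is a rational function
`w` of the `j (d z)` over `ℂ`; so the base change of `y / y'` is the `m`-th power `w ^ m` in the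
function field over `ℂ`, and by `DescRoot.root_descent` `y / y' = c₀ · v₀ ^ m` over `ℚ̄`.  Hence
`D - D' = div v₀` and `x = x'`.
-/
import Fermat.Agent.S29.EmbIface
import Fermat.Agent.S29.InvRoot
import Fermat.Agent.S29.DescRoot
import Fermat.Agent.S29.BcCompat
import Fermat.Agent.S29.HeckeR

set_option autoImplicit false
set_option synthInstance.maxHeartbeats 400000
set_option linter.style.haveILetI false
set_option linter.unusedSectionVars false

noncomputable section

open scoped MatrixGroups Real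
open ModularCurve AlgebraicCurve UpperHalfPlane CongruenceSubgroup

namespace Fermat.Agent.S29.UniqRB

open Fermat.Agent.S24 Fermat.Agent.S23 Fermat.Agent.S29.Transfer Fermat.Agent.S29.Emb
  Fermat.Agent.S29.NormAn

/-! ### Polynomials over `ℂ` -/

/-- A complex polynomial in the `j (d z)` which vanishes as a function vanishes in the function
field. -/
theorem evalL_eq_zero_of_evalFun (N : ℕ) [NeZero N] (G : MvPolynomial (Dv N) ℂ)
    (h : ∀ z, evalFun N G z = 0) : evalL ℂ N G = 0 := by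
  rw [← DataTau.evalRing_eq_zero_iff (RingHom.id ℂ) N G]
  apply Subtype.ext
  rw [DataTau.coe_evalRing, MvPolynomial.map_id]
  exact funext h

theorem evalL_ne_zero_of_evalFun (N : ℕ) [NeZero N] (G : MvPolynomial (Dv N) ℂ)
    (h : evalFun N G ≠ 0) : evalL ℂ N G ≠ 0 := by
  intro h0
  apply h
  have h1 := (DataTau.evalRing_eq_zero_iff (RingHom.id ℂ) N G).mpr h0
  have h2 := congrArg Subtype.val h1
  rw [DataTau.coe_evalRing, MvPolynomial.map_id] at h2
  exact h2

theorem fn_mul (ι : Qb →+* ℂ) (N : ℕ) [NeZero N] (P Q : MvPolynomial (Dv N) Qb) (z : ℍ) :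
    evalFun N (MvPolynomial.map ι (P * Q)) z = fn ι N P z * fn ι N Q z := by
  simp [fn]

theorem evalFun_sub_mul_pow (N : ℕ) [NeZero N] (A B M₁ M₂ : MvPolynomial (Dv N) ℂ) (m : ℕ)
    (z : ℍ) : evalFun N (A ^ m * M₁ - B ^ m * M₂) z
      = evalFun N A z ^ m * evalFun N M₁ z - evalFun N B z ^ m * evalFun N M₂ z := by
  simp only [map_sub, map_mul, map_pow, Pi.sub_apply, Pi.mul_apply, Pi.pow_apply]

theorem evalL_sub_mul_pow (N : ℕ) [NeZero N] (A B M₁ M₂ : MvPolynomial (Dv N) ℂ) (m : ℕ) :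
    evalL ℂ N (A ^ m * M₁ - B ^ m * M₂)
      = evalL ℂ N A ^ m * evalL ℂ N M₁ - evalL ℂ N B ^ m * evalL ℂ N M₂ := by
  simp only [map_sub, map_mul, map_pow]


/-! ### Fact (U) -/

/-- **(U)** uniqueness: the class related to `λ` is unique. -/
theorem uniqStmt : Emb.UniqStmt := by
  intro ι N _ m hm lam x x' hrel hrel'
  obtain ⟨y, D, a, b, hy, hD, rfl, ha, hb, hb0, hmul, P, Q, hQ, hPQ, hev⟩ := hrel
  obtain ⟨y', D', a', b', hy', hD', rfl, ha', hb', hb0', hmul', P', Q', hQ', hPQ', hev'⟩ := hrel'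
  have hm0 : m ≠ 0 := hm.ne'
  have hP : evalL Qb N P ≠ 0 := by rw [← hPQ]; exact mul_ne_zero hy hQ
  have hP' : evalL Qb N P' ≠ 0 := by rw [← hPQ']; exact mul_ne_zero hy' hQ'
  -- `a' ≠ 0`
  have ha0' : ∃ z, a' z ≠ 0 := by
    obtain ⟨z, hz⟩ := JN.exists_common_ne_zero (fun i : Bool => if i then b' else fn ι N P')
      (fun i => by
        cases i
        · exact holo_fn ι N P'
        · exact hb')
      (fun i => by
        cases i
        · exact exists_fn_ne_zero ι N P' hP'
        · exact Function.ne_iff.mp hb0')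
    have h1 : b' z ≠ 0 := hz true
    have h2 : fn ι N P' z ≠ 0 := hz false
    refine ⟨z, fun h0 => ?_⟩
    have h3 := hev' z
    rw [h0, zero_pow hm0, zero_mul] at h3
    exact mul_ne_zero (pow_ne_zero m h1) h2 h3.symm
  -- the invariant pair
  set U : ℍ → ℂ := fun z => a z * b' z with hUdef
  set V : ℍ → ℂ := fun z => b z * a' z with hVdef
  have hU : JN.Holo U := ha.mul hb'
  have hV : JN.Holo V := hb.mul ha'
  have hV0 : ∃ z, V z ≠ 0 := by
    obtain ⟨z, hz⟩ := JN.exists_common_ne_zero (fun i : Bool => if i then b else a')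
      (fun i => by
        cases i
        · exact ha'
        · exact hb)
      (fun i => by
        cases i
        · exact ha0'
        · exact Function.ne_iff.mp hb0)
    exact ⟨z, mul_ne_zero (hz true) (hz false)⟩
  have hV0' : V ≠ 0 := Function.ne_iff.mpr hV0
  have hinv : ∀ γ ∈ Gamma0 N, ∀ z : ℍ, U (γ • z) * V z = U z * V (γ • z) := by
    intro γ hγ z
    have e1 := hmul ⟨γ, hγ⟩ z
    have e2 := hmul' ⟨γ, hγ⟩ z
    simp only [hUdef, hVdef]
    linear_combination (b' (γ • z) * a' z) * e1 - (a z * b (γ • z)) * e2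
  have hpow : ∀ z : ℍ, U z ^ m * evalFun N (MvPolynomial.map ι (Q * P')) z
      = V z ^ m * evalFun N (MvPolynomial.map ι (P * Q')) z := by
    intro z
    have e1 := hev z
    have e2 := hev' z
    rw [fn_mul, fn_mul]
    simp only [hUdef, hVdef, mul_pow]
    change a z ^ m * fn ι N Q z = b z ^ m * fn ι N P z at e1
    change a' z ^ m * fn ι N Q' z = b' z ^ m * fn ι N P' z at e2
    linear_combination (b' z ^ m * fn ι N P' z) * e1 - (b z ^ m * fn ι N P z) * e2
  have hQP' : evalFun N (MvPolynomial.map ι (Q * P')) ≠ 0 := by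
    have h1 : evalL Qb N (Q * P') ≠ 0 := by
      rw [map_mul]
      exact mul_ne_zero hQ hP'
    exact Function.ne_iff.mpr (exists_fn_ne_zero ι N (Q * P') h1)
  obtain ⟨P'', Q'', hQ'', hUV⟩ := InvRoot.exists_eval_of_invariant_root N hm0
    (MvPolynomial.map ι (P * Q')) (MvPolynomial.map ι (Q * P')) hQP' U V hU hV hV0' hinv hpow
  have hQ''L : evalL ℂ N Q'' ≠ 0 := evalL_ne_zero_of_evalFun N Q'' hQ''
  -- `w ^ m = bc (y / y')`
  have hfun : ∀ z, evalFun N (P'' ^ m * MvPolynomial.map ι (Q * P')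
      - Q'' ^ m * MvPolynomial.map ι (P * Q')) z = 0 := by
    intro z
    have key : ∀ z, (evalFun N P'' z ^ m * evalFun N (MvPolynomial.map ι (Q * P')) z) * V z ^ m
        = (evalFun N Q'' z ^ m * evalFun N (MvPolynomial.map ι (P * Q')) z) * V z ^ m := by
      intro z
      have e1 := hUV z
      have e2 := hpow z
      have e3 : (V z * evalFun N P'' z) ^ m = (U z * evalFun N Q'' z) ^ m := by rw [e1]
      rw [mul_pow, mul_pow] at e3
      linear_combination (evalFun N (MvPolynomial.map ι (Q * P')) z) * e3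
        + (evalFun N Q'' z ^ m) * e2
    have hholo : ∀ G : MvPolynomial (Dv N) ℂ, JN.Holo (evalFun N G) := by
      intro G
      have := Mero.holo_of_mem (DataTau.evalRing (RingHom.id ℂ) N G)
      rwa [DataTau.coe_evalRing, MvPolynomial.map_id] at this
    have hfinal := HeckeR.eq_of_mul_eq
      (G₁ := fun z => evalFun N P'' z ^ m * evalFun N (MvPolynomial.map ι (Q * P')) z)
      (G₂ := fun z => evalFun N Q'' z ^ m * evalFun N (MvPolynomial.map ι (P * Q')) z)
      (K := fun z => V z ^ m)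
      (((hholo P'').pow m).mul (hholo _)) (((hholo Q'').pow m).mul (hholo _)) (hV.pow m)
      (by obtain ⟨z₀, hz₀⟩ := hV0; exact ⟨z₀, pow_ne_zero m hz₀⟩) key z
    rw [evalFun_sub_mul_pow, sub_eq_zero]
    exact hfinal
  have hL := evalL_eq_zero_of_evalFun N _ hfun
  rw [evalL_sub_mul_pow, sub_eq_zero] at hL
  set w : ↥(FF ℂ N) := evalL ℂ N P'' / evalL ℂ N Q'' with hw
  have hyy' : y / y' = evalL Qb N (P * Q') / evalL Qb N (Q * P') := by
    have hQP : evalL Qb N (Q * P') ≠ 0 := by rw [map_mul]; exact mul_ne_zero hQ hP'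
    rw [eq_div_iff hQP, map_mul, map_mul, ← hPQ, ← hPQ']
    field_simp
  have hbc : Bc.bcN ι N (y / y') = w ^ m := by
    have hQP : evalL ℂ N (MvPolynomial.map ι (Q * P')) ≠ 0 := by
      rw [← Bc.bcN_evalL]
      exact (map_ne_zero (Bc.bcN ι N)).mpr
        (by rw [map_mul]; exact mul_ne_zero hQ hP')
    rw [hyy', map_div₀, Bc.bcN_evalL, Bc.bcN_evalL, hw, div_pow, div_eq_div_iff hQP
      (pow_ne_zero m hQ''L)]
    linear_combination -hL
  have hcoe : coeffMap ι ((y / y' : ↥(FF Qb N)) : LaurentSeries Qb)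
      = HahnSeries.C (1 : ℂ) * (w : LaurentSeries ℂ) ^ m := by
    have := congrArg (Subtype.val) hbc
    rw [Bc.coe_bcN] at this
    rw [this, map_one, one_mul]
    rfl
  obtain ⟨v₀, c₀, hc₀, hdesc⟩ := DescRoot.root_descent ι N m hm (y / y') (div_ne_zero hy hy') w 1
    hcoe
  have hv₀ : v₀ ≠ 0 := by
    rintro rfl
    rw [zero_pow hm0, mul_zero] at hdesc
    exact div_ne_zero hy hy' hdesc
  -- `D - D' = div v₀`
  have hsub : Pic0.mk (D - D') = 0 := by
    rw [HeckeDiv.mk_eq_zero_iff]
    refine ⟨v₀, hv₀, fun v => ?_⟩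
    have hc : algebraMap Qb ↥(FF Qb N) c₀ ≠ 0 := by simpa using hc₀
    have h1 : v.ord (y / y') = (m : ℤ) * v.ord v₀ := by
      rw [hdesc, v.ord_mul hc (pow_ne_zero m hv₀), Places.ord_algebraMap, zero_add,
        ← zpow_natCast, v.ord_zpow]
    have h2 : v.ord (y / y') = v.ord y - v.ord y' := by
      rw [div_eq_mul_inv, v.ord_mul hy (inv_ne_zero hy'), v.ord_inv]
      ring
    have h3 : (m : ℤ) * ((D : Divisor Qb ↥(FF Qb N)) v - (D' : Divisor Qb ↥(FF Qb N)) v)
        = (m : ℤ) * v.ord v₀ := by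
      rw [mul_sub, hD v, hD' v, ← h2, h1]
    have hmz : (m : ℤ) ≠ 0 := by exact_mod_cast hm0
    have h4 := mul_left_cancel₀ hmz h3
    rw [← h4]
    rfl
  have hmk : Pic0.mk (D - D') = Pic0.mk D - Pic0.mk D' := rfl
  rw [hmk, sub_eq_zero] at hsub
  exact hsub

end Fermat.Agent.S29.UniqRB

end
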