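import Mathlib
import Fermat.Prelude.Def_AlgebraicCurve_DivisorClassGroup

/-!
# A non-trivial `ℤᵐ⁰`-valued valuation that is trivial on the constants is a multiple of a place

`K ⊆ F` fields, `v : Valuation F ℤᵐ⁰` with `v c = 1` for the nonzero constants `c ∈ K` and
`v f ≠ 1` for some `f ≠ 0`.  Then the valuation ring of `v` is a place `P` of `F / K` (a discrete
valuation ring containing `K`) and `-log (v f) = e · ord_P f` for a fixed `e ≥ 1` (the least
positive value of `-log v`).  No function-field hypothesis is needed.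

Main statements: `Fermat.Agent.S29.ValPlace.exists_place` and the divisibility corollary
`Fermat.Agent.S29.ValPlace.dvd_log`.
-/

set_option autoImplicit false

noncomputable section

namespace Fermat.Agent.S29.ValPlace

open AlgebraicCurve
open scoped WithZero

variable {K F : Type*} [Field K] [Field F] [Algebra K F]

/-- The additive order attached to a `ℤᵐ⁰`-valued valuation. -/
def vord (v : Valuation F ℤᵐ⁰) (f : F) : ℤ := -(WithZero.log (v f))

theorem vord_mul (v : Valuation F ℤᵐ⁰) {f g : F} (hf : f ≠ 0) (hg : g ≠ 0) :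
    vord v (f * g) = vord v f + vord v g := by
  simp only [vord, map_mul]
  rw [WithZero.log_mul ((Valuation.ne_zero_iff _).mpr hf) ((Valuation.ne_zero_iff _).mpr hg)]
  ring

theorem vord_zpow (v : Valuation F ℤᵐ⁰) (f : F) (n : ℤ) : vord v (f ^ n) = n * vord v f := by
  simp only [vord, map_zpow₀, WithZero.log_zpow, smul_eq_mul]
  ring

theorem vord_pow (v : Valuation F ℤᵐ⁰) (f : F) (n : ℕ) : vord v (f ^ n) = n * vord v f := by
  rw [← zpow_natCast, vord_zpow]

theorem vord_inv (v : Valuation F ℤᵐ⁰) (f : F) : vord v f⁻¹ = -vord v f := by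
  simp only [vord, map_inv₀, WithZero.log_inv]

theorem val_eq_exp (v : Valuation F ℤᵐ⁰) {f : F} (hf : f ≠ 0) :
    v f = WithZero.exp (-(vord v f)) := by
  rw [vord, neg_neg, WithZero.exp_log ((Valuation.ne_zero_iff _).mpr hf)]

theorem val_le_one_iff (v : Valuation F ℤᵐ⁰) {f : F} (hf : f ≠ 0) :
    v f ≤ 1 ↔ 0 ≤ vord v f := by
  rw [val_eq_exp v hf, ← WithZero.exp_zero, WithZero.exp_le_exp]
  omega

theorem val_eq_one_iff (v : Valuation F ℤᵐ⁰) {f : F} (hf : f ≠ 0) :
    v f = 1 ↔ vord v f = 0 := by
  rw [val_eq_exp v hf, WithZero.exp_eq_one]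
  omega

/-- **A non-trivial `ℤᵐ⁰`-valued valuation trivial on the constants is a positive multiple of
the order function of a place.** -/
theorem exists_place (v : Valuation F ℤᵐ⁰) (hK : ∀ c : K, c ≠ 0 → v (algebraMap K F c) = 1)
    (hnt : ∃ f : F, f ≠ 0 ∧ v f ≠ 1) :
    ∃ (P : Place K F) (e : ℕ), 0 < e ∧
      ∀ f : F, f ≠ 0 → WithZero.log (v f) = -((e : ℤ) * P.ord f) := by
  classical
  -- an element of positive order
  have hpos : ∃ n : ℕ, 0 < n ∧ ∃ f : F, f ≠ 0 ∧ vord v f = n := by
    obtain ⟨f, hf, hvf⟩ := hnt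
    have h0 : vord v f ≠ 0 := fun h => hvf ((val_eq_one_iff v hf).mpr h)
    rcases lt_or_gt_of_ne h0 with h | h
    · refine ⟨(-vord v f).toNat, by omega, f⁻¹, inv_ne_zero hf, ?_⟩
      rw [vord_inv]
      omega
    · exact ⟨(vord v f).toNat, by omega, f, hf, by omega⟩
  -- the least positive order and a uniformiser
  set e : ℕ := Nat.find hpos with he_def
  obtain ⟨he0, π, hπ0, hπ⟩ := Nat.find_spec hpos
  rw [← he_def] at he0 hπ
  have hmin : ∀ n : ℕ, 0 < n → (∃ f : F, f ≠ 0 ∧ vord v f = n) → e ≤ n := fun n hn h =>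
    Nat.find_min' hpos ⟨hn, h⟩
  -- every order is a multiple of `e`
  have hdvd : ∀ f : F, f ≠ 0 → (e : ℤ) ∣ vord v f := by
    intro f hf
    have he' : (0 : ℤ) < e := by exact_mod_cast he0
    set n := vord v f with hn
    set g : F := f * π ^ (-(n / (e : ℤ))) with hg
    have hg0 : g ≠ 0 := mul_ne_zero hf (zpow_ne_zero _ hπ0)
    have hgord : vord v g = n % (e : ℤ) := by
      rw [hg, vord_mul v hf (zpow_ne_zero _ hπ0), vord_zpow, hπ, ← hn]
      have := Int.emod_add_mul_ediv n (e : ℤ)
      linarith
    have hr0 : 0 ≤ n % (e : ℤ) := Int.emod_nonneg _ he'.ne'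
    have hr1 : n % (e : ℤ) < e := Int.emod_lt_of_pos _ he'
    by_contra hnd
    have hrpos : 0 < n % (e : ℤ) := by
      rcases hr0.lt_or_eq with h | h
      · exact h
      · exact absurd (Int.dvd_of_emod_eq_zero h.symm) hnd
    have := hmin (n % (e : ℤ)).toNat (by omega) ⟨g, hg0, by rw [hgord]; omega⟩
    omega
  -- the valuation ring
  set A : ValuationSubring F := v.valuationSubring with hA
  have hint : v.Integers A := Valuation.valuationSubring.integers v
  have hπA : π ∈ A := by
    refine (Valuation.mem_valuationSubring_iff v _).mpr ?_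
    rw [val_le_one_iff v hπ0, hπ]
    omega
  have hunit : ∀ a : A, (a : F) ≠ 0 → vord v (a : F) = 0 → IsUnit a := fun a ha h =>
    hint.isUnit_of_one' ((val_eq_one_iff v ha).mpr h)
  have hmemA : ∀ a : A, (a : F) ≠ 0 → 0 ≤ vord v (a : F) := fun a ha =>
    (val_le_one_iff v ha).mp a.2
  have hunit' : ∀ a : A, IsUnit a → vord v (a : F) = 0 := by
    intro a ha
    have ha0 : (a : F) ≠ 0 := by
      intro h0
      have : a = 0 := Subtype.ext h0
      exact ha.ne_zero this
    exact (val_eq_one_iff v ha0).mp (hint.one_of_isUnit ha)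
  -- `π` is irreducible in `A`
  have hirr : Irreducible (⟨π, hπA⟩ : A) := by
    refine ⟨fun hu => ?_, fun a b hab => ?_⟩
    · have := hunit' _ hu
      simp only [hπ] at this
      omega
    · have hab' : π = (a : F) * (b : F) := congrArg Subtype.val hab
      have ha0 : (a : F) ≠ 0 := by
        rintro h0
        rw [h0, zero_mul] at hab'
        exact hπ0 hab'
      have hb0 : (b : F) ≠ 0 := by
        rintro h0
        rw [h0, mul_zero] at hab'
        exact hπ0 hab'
      have hsum : vord v (a : F) + vord v (b : F) = e := by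
        rw [← vord_mul v ha0 hb0, ← hab', hπ]
      have h1 := hmemA a ha0
      have h2 := hmemA b hb0
      obtain ⟨k, hk⟩ := hdvd _ ha0
      obtain ⟨l, hl⟩ := hdvd _ hb0
      have he' : (0 : ℤ) < e := by exact_mod_cast he0
      have hk0 : 0 ≤ k := by
        by_contra hneg
        have : (e : ℤ) * k < 0 := mul_neg_of_pos_of_neg he' (not_le.mp hneg)
        omega
      have hl0 : 0 ≤ l := by
        by_contra hneg
        have : (e : ℤ) * l < 0 := mul_neg_of_pos_of_neg he' (not_le.mp hneg)
        omega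
      have hkl : k + l = 1 := by
        have : (e : ℤ) * (k + l) = e * 1 := by rw [mul_add, ← hk, ← hl, hsum, mul_one]
        exact mul_left_cancel₀ he'.ne' this
      rcases (show k = 0 ∨ l = 0 by omega) with h | h
      · left
        exact hunit a ha0 (by rw [hk, h, mul_zero])
      · right
        exact hunit b hb0 (by rw [hl, h, mul_zero])
  -- unit times a power of `π`
  have hfact : IsDiscreteValuationRing.HasUnitMulPowIrreducibleFactorization A := by
    refine ⟨⟨π, hπA⟩, hirr, fun {x} hx => ?_⟩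
    have hx0 : (x : F) ≠ 0 := fun h0 => hx (Subtype.ext h0)
    obtain ⟨k, hk⟩ := hdvd _ hx0
    have he' : (0 : ℤ) < e := by exact_mod_cast he0
    have hk0 : 0 ≤ k := by
      have h1 := hmemA x hx0
      by_contra hneg
      have : (e : ℤ) * k < 0 := mul_neg_of_pos_of_neg he' (not_le.mp hneg)
      omega
    set n : ℕ := k.toNat with hn
    have hpn0 : π ^ n ≠ 0 := pow_ne_zero _ hπ0
    -- the unit `x / π ^ n`
    have hu0 : (x : F) / π ^ n ≠ 0 := div_ne_zero hx0 hpn0
    have huord : vord v ((x : F) / π ^ n) = 0 := by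
      rw [div_eq_mul_inv, vord_mul v hx0 (inv_ne_zero hpn0), vord_inv, vord_pow, hπ, hk]
      have : ((n : ℕ) : ℤ) = k := by rw [hn]; exact Int.toNat_of_nonneg hk0
      rw [this]
      ring
    have humem : (x : F) / π ^ n ∈ A := by
      refine (Valuation.mem_valuationSubring_iff v _).mpr ?_
      rw [val_le_one_iff v hu0, huord]
    obtain ⟨u, hu⟩ := hunit ⟨(x : F) / π ^ n, humem⟩ hu0 huord
    refine ⟨n, u, ?_⟩
    apply Subtype.ext
    rw [hu]
    show π ^ n * ((x : F) / π ^ n) = (x : F)
    rw [mul_div_cancel₀ _ hpn0]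
  have hdvr : IsDiscreteValuationRing A :=
    IsDiscreteValuationRing.ofHasUnitMulPowIrreducibleFactorization hfact
  -- the place
  have hKA : ∀ a : K, algebraMap K F a ∈ A := by
    intro a
    refine (Valuation.mem_valuationSubring_iff v _).mpr ?_
    rcases eq_or_ne a 0 with rfl | ha
    · rw [map_zero, map_zero]
      exact zero_le_one
    · exact (hK a ha).le
  have htop : A ≠ ⊤ := by
    intro htop
    have hmem : π⁻¹ ∈ A := by rw [htop]; exact ValuationSubring.mem_top _
    have := hmemA ⟨π⁻¹, hmem⟩ (inv_ne_zero hπ0)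
    simp only [vord_inv, hπ] at this
    omega
  let P : Place K F :=
    { toValuationSubring := A
      algebraMap_mem' := hKA
      ne_top' := htop
      isPrincipalIdealRing' := inferInstance }
  refine ⟨P, e, he0, fun f hf => ?_⟩
  have hirrP : Irreducible (⟨π, hπA⟩ : P.toValuationSubring) := hirr
  obtain ⟨u, hu⟩ := P.exists_unit_mul_zpow hf hirrP
  have hu0 : ((u : P.toValuationSubring) : F) ≠ 0 := by
    intro h0
    have : (u : P.toValuationSubring) = 0 := Subtype.ext h0
    exact u.ne_zero this
  have hford : vord v f = (e : ℤ) * P.ord f := by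
    have h1 : vord v f = vord v (((u : P.toValuationSubring) : F) * π ^ P.ord f) :=
      congrArg (vord v) hu
    rw [h1, vord_mul v hu0 (zpow_ne_zero _ hπ0), vord_zpow, hπ,
      hunit' (u : P.toValuationSubring) u.isUnit, zero_add, mul_comm]
  have : WithZero.log (v f) = -vord v f := by rw [vord, neg_neg]
  rw [this, hford]

/-- **Divisibility corollary.**  If `m` divides the order of `h` at every place of `F / K`, it
divides `log (v h)` for every `ℤᵐ⁰`-valued valuation `v` of `F` that is trivial on the nonzero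
constants. -/
theorem dvd_log (v : Valuation F ℤᵐ⁰) (hK : ∀ c : K, c ≠ 0 → v (algebraMap K F c) = 1)
    {m : ℤ} {h : F} (hh : h ≠ 0) (hdiv : ∀ P : Place K F, m ∣ P.ord h) :
    m ∣ WithZero.log (v h) := by
  by_cases hnt : ∃ f : F, f ≠ 0 ∧ v f ≠ 1
  · obtain ⟨P, e, -, hP⟩ := exists_place v hK hnt
    rw [hP h hh]
    exact (Dvd.dvd.mul_left (hdiv P) _).neg_right
  · have : v h = 1 := by
      by_contra hne
      exact hnt ⟨h, hh, hne⟩
    rw [this, WithZero.log_one]
    exact dvd_zero m

end Fermat.Agent.S29.ValPlace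

end
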